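/-
GATE-N / S48 J1-port, node S48-P2-FRICKE-FORMAL (helper63): the FORMAL Tate-curve `x`-series at
all `M`-torsion points.

Tate curve `E_Q = 𝔾_m / Q^ℤ`, `X(u, Q) = u/(1-u)² + ∑_{n,d ≥ 1} d (u^d + u^{-d} - 2) Q^{nd}`
(`= ℘/(2πi)² - 1/12`).  At the `M`-torsion point `u = ζ^b q^a` (`q = Q^{1/M}`, `ζ^M = 1`),
for `a ≢ 0 mod M` (normalised `0 < a < M`) this is the power series in `q`

  `X_(a,b) = ∑_N ( ∑_{d e = N} d · ([e ≡ a] ζ^{bd} + [e ≡ -a] ζ^{-bd} - 2 [e ≡ 0]) ) q^N`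

(congruences mod `M`; the row `n = 0`, `u/(1-u)² = ∑ d u^d`, is the part `e = a` of the same
formula).  For `a ≡ 0` the same formula gives `X_(0,b) - ζ^b/(1-ζ^b)²`.

* `xSeries M ζ a b : PowerSeries R` for ANY commutative ring `R`, `ζ : Rˣ`, `a b : ℤ`;
* `xSeries_neg`            : `X_(-a,-b) = X_(a,b)`;
* `xSeries_add_left/right` : periodicity in `a` (always) and in `b` (if `ζ^M = 1`);
* `coeff_xSeries_twist`    : `ζ^N · coeff_N X_(a,b) = coeff_N X_(a,a+b)`  (the `T`-action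
  `τ ↦ τ+1`, i.e. `q ↦ ζ q`, is `v ↦ vT`);
* `map_xSeries`            : compatibility with ring homs (reduction mod `ℓ` commutes);
* `coeff_xSeries_of_lt`, `coeff_xSeries_self` : leading term `ζ^b q^a` for `0 < a`, `2a < M`;
* rational case `ζ = 1`: `xSeries_one`.
-/
import Mathlib

set_option autoImplicit false

namespace Fermat.Agent.DS.P2.Fricke

open Finset

variable {R : Type*} [CommRing R]

/-- the `(d,e)`-term of the coefficient of `q^(de)` of `X_(a,b)` -/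
def xTerm (M : ℕ) (ζ : Rˣ) (a b : ℤ) (d e : ℕ) : R :=
  (d : R) * ((if (e : ZMod M) = (a : ZMod M) then ((ζ ^ (b * d) : Rˣ) : R) else 0)
    + (if (e : ZMod M) = -(a : ZMod M) then ((ζ ^ (-(b * d)) : Rˣ) : R) else 0)
    - (if (e : ZMod M) = 0 then 2 else 0))

/-- the coefficient of `q^n` of `X_(a,b)` -/
def xCoeff (M : ℕ) (ζ : Rˣ) (a b : ℤ) (n : ℕ) : R :=
  ∑ p ∈ n.divisorsAntidiagonal, xTerm M ζ a b p.1 p.2

/-- **the Tate `x`-series at the torsion point `ζ^b q^a` of `Tate(q^M)`** (without the constant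
term `ζ^b/(1-ζ^b)²` when `a ≡ 0`, and without the `1/12` of `℘`) -/
noncomputable def xSeries (M : ℕ) (ζ : Rˣ) (a b : ℤ) : PowerSeries R :=
  PowerSeries.mk (xCoeff M ζ a b)

@[simp] theorem coeff_xSeries (M : ℕ) (ζ : Rˣ) (a b : ℤ) (n : ℕ) :
    PowerSeries.coeff n (xSeries M ζ a b) = xCoeff M ζ a b n :=
  PowerSeries.coeff_mk _ _

theorem xCoeff_zero (M : ℕ) (ζ : Rˣ) (a b : ℤ) : xCoeff M ζ a b 0 = 0 := by
  simp [xCoeff]

/-- `ζ^x` only depends on `x mod M` -/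
theorem zpow_eq_of_cast_eq {M : ℕ} {ζ : Rˣ} (hζ : ζ ^ M = 1) {x y : ℤ}
    (h : (x : ZMod M) = (y : ZMod M)) : ζ ^ x = ζ ^ y := by
  obtain ⟨k, hk⟩ := (ZMod.intCast_eq_intCast_iff_dvd_sub x y M).mp h
  have hy : y = x + (M : ℤ) * k := by linarith
  rw [hy, zpow_add, zpow_mul, zpow_natCast, hζ, one_zpow, mul_one]

/-! ### symmetry `v ↦ -v` -/

theorem xTerm_neg (M : ℕ) (ζ : Rˣ) (a b : ℤ) (d e : ℕ) :
    xTerm M ζ (-a) (-b) d e = xTerm M ζ a b d e := by
  unfold xTerm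
  have h3 : -b * (d : ℤ) = -(b * d) := by ring
  rw [Int.cast_neg, neg_neg, h3, neg_neg]
  ring

theorem xSeries_neg (M : ℕ) (ζ : Rˣ) (a b : ℤ) : xSeries M ζ (-a) (-b) = xSeries M ζ a b := by
  ext n
  simp only [coeff_xSeries, xCoeff, xTerm_neg]

/-! ### periodicity -/

theorem xTerm_add_left (M : ℕ) (ζ : Rˣ) (a b k : ℤ) (d e : ℕ) :
    xTerm M ζ (a + k * M) b d e = xTerm M ζ a b d e := by
  unfold xTerm
  have h : ((a + k * M : ℤ) : ZMod M) = (a : ZMod M) := by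
    push_cast
    rw [ZMod.natCast_self, mul_zero, add_zero]
  rw [h]

theorem xSeries_add_left (M : ℕ) (ζ : Rˣ) (a b k : ℤ) :
    xSeries M ζ (a + k * M) b = xSeries M ζ a b := by
  ext n
  simp only [coeff_xSeries, xCoeff, xTerm_add_left]

theorem xTerm_add_right {M : ℕ} {ζ : Rˣ} (hζ : ζ ^ M = 1) (a b k : ℤ) (d e : ℕ) :
    xTerm M ζ a (b + k * M) d e = xTerm M ζ a b d e := by
  unfold xTerm
  have h1 : ζ ^ ((b + k * M) * (d : ℤ)) = ζ ^ (b * d) := by
    apply zpow_eq_of_cast_eq hζ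
    push_cast
    rw [ZMod.natCast_self, mul_zero, add_zero]
  have h2 : ζ ^ (-((b + k * M) * (d : ℤ))) = ζ ^ (-(b * d)) := by
    rw [zpow_neg, zpow_neg, h1]
  rw [h1, h2]

theorem xSeries_add_right {M : ℕ} {ζ : Rˣ} (hζ : ζ ^ M = 1) (a b k : ℤ) :
    xSeries M ζ a (b + k * M) = xSeries M ζ a b := by
  ext n
  simp only [coeff_xSeries, xCoeff, xTerm_add_right hζ]

/-! ### the twist law (`T`-action) -/

/-- termwise twist: `ζ^(de) · term_(a,b)(d,e) = term_(a,a+b)(d,e)` -/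
theorem xTerm_twist {M : ℕ} {ζ : Rˣ} (hζ : ζ ^ M = 1) (a b : ℤ) (d e : ℕ) :
    ((ζ ^ (d * e) : Rˣ) : R) * xTerm M ζ a b d e = xTerm M ζ a (a + b) d e := by
  unfold xTerm
  have hpow : (ζ ^ (d * e) : Rˣ) = ζ ^ ((d : ℤ) * (e : ℤ)) := by
    rw [← zpow_natCast]; push_cast; rfl
  have key1 : ((ζ ^ (d * e) : Rˣ) : R) *
      (if (e : ZMod M) = (a : ZMod M) then ((ζ ^ (b * d) : Rˣ) : R) else 0) =
      (if (e : ZMod M) = (a : ZMod M) then ((ζ ^ ((a + b) * d) : Rˣ) : R) else 0) := by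
    split_ifs with h
    · rw [← Units.val_mul, hpow, ← zpow_add]
      congr 1
      apply zpow_eq_of_cast_eq hζ
      push_cast
      rw [h]
      ring
    · rw [mul_zero]
  have key2 : ((ζ ^ (d * e) : Rˣ) : R) *
      (if (e : ZMod M) = -(a : ZMod M) then ((ζ ^ (-(b * d)) : Rˣ) : R) else 0) =
      (if (e : ZMod M) = -(a : ZMod M) then ((ζ ^ (-((a + b) * d)) : Rˣ) : R) else 0) := by
    split_ifs with h
    · rw [← Units.val_mul, hpow, ← zpow_add]
      congr 1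
      apply zpow_eq_of_cast_eq hζ
      push_cast
      rw [h]
      ring
    · rw [mul_zero]
  have key3 : ((ζ ^ (d * e) : Rˣ) : R) * (if (e : ZMod M) = 0 then (2 : R) else 0) =
      (if (e : ZMod M) = 0 then (2 : R) else 0) := by
    split_ifs with h
    · have : (ζ ^ (d * e) : Rˣ) = 1 := by
        rw [hpow, ← zpow_zero ζ]
        apply zpow_eq_of_cast_eq hζ
        push_cast
        rw [h, mul_zero]
      rw [this, Units.val_one, one_mul]
    · rw [mul_zero]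
  rw [mul_left_comm, mul_sub, mul_add, key1, key2, key3]

/-- **the twist law**: `ζ^N · coeff_N X_(a,b) = coeff_N X_(a,a+b)` -/
theorem coeff_xSeries_twist {M : ℕ} {ζ : Rˣ} (hζ : ζ ^ M = 1) (a b : ℤ) (n : ℕ) :
    ((ζ ^ n : Rˣ) : R) * PowerSeries.coeff n (xSeries M ζ a b) =
      PowerSeries.coeff n (xSeries M ζ a (a + b)) := by
  simp only [coeff_xSeries, xCoeff, mul_sum]
  refine sum_congr rfl fun p hp => ?_
  have hn : p.1 * p.2 = n := (Nat.mem_divisorsAntidiagonal.mp hp).1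
  rw [← hn, xTerm_twist hζ]

/-! ### base change -/

theorem map_xTerm {S : Type*} [CommRing S] (f : R →+* S) (M : ℕ) (ζ : Rˣ) (a b : ℤ) (d e : ℕ) :
    f (xTerm M ζ a b d e) = xTerm M (Units.map (f : R →* S) ζ) a b d e := by
  unfold xTerm
  rw [map_mul, map_sub, map_add, map_natCast, apply_ite f, apply_ite f, apply_ite f, map_zero,
    map_ofNat, ← map_zpow, ← map_zpow]
  rfl

/-- **reduction commutes with the construction** -/
theorem map_xSeries {S : Type*} [CommRing S] (f : R →+* S) (M : ℕ) (ζ : Rˣ) (a b : ℤ) :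
    (xSeries M ζ a b).map f = xSeries M (Units.map (f : R →* S) ζ) a b := by
  ext n
  simp only [PowerSeries.coeff_map, coeff_xSeries, xCoeff, map_sum, map_xTerm]

/-! ### the rational case `ζ = 1` -/

theorem xTerm_one (M : ℕ) (a b : ℤ) (d e : ℕ) :
    xTerm M (1 : Rˣ) a b d e = xTerm M (1 : Rˣ) a 0 d e := by
  unfold xTerm
  simp only [one_zpow]

/-- for `ζ = 1` the series does not depend on `b` (rational `q`-expansion: the Weber case) -/
theorem xSeries_one (M : ℕ) (a b : ℤ) : xSeries M (1 : Rˣ) a b = xSeries M (1 : Rˣ) a 0 := by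
  ext n
  simp only [coeff_xSeries, xCoeff, xTerm_one M a b]

/-! ### leading terms -/

theorem natCast_eq_intCast_iff (M e : ℕ) (a : ℤ) :
    (e : ZMod M) = (a : ZMod M) ↔ (M : ℤ) ∣ a - e := by
  rw [← Int.cast_natCast e, ZMod.intCast_eq_intCast_iff_dvd_sub]

theorem natCast_eq_neg_intCast_iff (M e : ℕ) (a : ℤ) :
    (e : ZMod M) = -(a : ZMod M) ↔ (M : ℤ) ∣ a + e := by
  rw [← Int.cast_natCast e, ← Int.cast_neg, ZMod.intCast_eq_intCast_iff_dvd_sub]
  have : -a - (e : ℤ) = -(a + e) := by ring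
  rw [this, dvd_neg]

/-- a term with `0 < e < a`, `2a < M`... more generally `e + a < M`, `e < a` vanishes -/
theorem xTerm_eq_zero_of_lt (M : ℕ) (ζ : Rˣ) (a : ℕ) (b : ℤ) (d e : ℕ) (he0 : 0 < e)
    (hea : e < a) (hM : e + a < M) : xTerm M ζ a b d e = 0 := by
  unfold xTerm
  have h1 : ¬ (e : ZMod M) = ((a : ℤ) : ZMod M) := by
    rw [natCast_eq_intCast_iff]
    intro hd
    have := Int.le_of_dvd (by omega) hd
    omega
  have h2 : ¬ (e : ZMod M) = -((a : ℤ) : ZMod M) := by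
    rw [natCast_eq_neg_intCast_iff]
    intro hd
    have := Int.le_of_dvd (by omega) hd
    omega
  have h3 : ¬ (e : ZMod M) = 0 := by
    rw [ZMod.natCast_eq_zero_iff]
    intro hd
    have := Nat.le_of_dvd he0 hd
    omega
  rw [if_neg h1, if_neg h2, if_neg h3]
  ring

/-- **`X_(a,b) = O(q^a)`** for `0 < a`, `2a ≤ M` -/
theorem coeff_xSeries_of_lt (M : ℕ) (ζ : Rˣ) (a : ℕ) (b : ℤ) (h2a : 2 * a ≤ M) (n : ℕ)
    (hn : n < a) : PowerSeries.coeff n (xSeries M ζ a b) = 0 := by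
  rw [coeff_xSeries, xCoeff]
  refine sum_eq_zero fun p hp => ?_
  obtain ⟨hpn, hn0⟩ := Nat.mem_divisorsAntidiagonal.mp hp
  have he0 : 0 < p.2 := Nat.pos_of_ne_zero fun h => hn0 (by rw [← hpn, h, mul_zero])
  have hd0 : 0 < p.1 := Nat.pos_of_ne_zero fun h => hn0 (by rw [← hpn, h, zero_mul])
  have hle : p.2 ≤ n := by
    rw [← hpn]; exact Nat.le_mul_of_pos_left _ hd0
  exact xTerm_eq_zero_of_lt M ζ a b p.1 p.2 he0 (by omega) (by omega)

/-- **the leading coefficient**: `coeff_a X_(a,b) = ζ^b` for `0 < a`, `2a < M` -/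
theorem coeff_xSeries_self (M : ℕ) (ζ : Rˣ) (a : ℕ) (b : ℤ) (ha : 0 < a) (h2a : 2 * a < M) :
    PowerSeries.coeff a (xSeries M ζ a b) = ((ζ ^ b : Rˣ) : R) := by
  rw [coeff_xSeries, xCoeff, sum_eq_single (1, a)]
  · unfold xTerm
    have h2 : ¬ (a : ZMod M) = -((a : ℤ) : ZMod M) := by
      rw [natCast_eq_neg_intCast_iff]
      intro hd
      have := Int.le_of_dvd (by omega) hd
      omega
    have h3 : ¬ (a : ZMod M) = 0 := by
      rw [ZMod.natCast_eq_zero_iff]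
      intro hd
      have := Nat.le_of_dvd ha hd
      omega
    have h1 : (a : ZMod M) = ((a : ℤ) : ZMod M) := by rw [Int.cast_natCast]
    rw [if_pos h1, if_neg h2, if_neg h3]
    simp
  · intro p hp hne
    obtain ⟨hpn, hn0⟩ := Nat.mem_divisorsAntidiagonal.mp hp
    have he0 : 0 < p.2 := Nat.pos_of_ne_zero fun h => hn0 (by rw [← hpn, h, mul_zero])
    have hd0 : 0 < p.1 := Nat.pos_of_ne_zero fun h => hn0 (by rw [← hpn, h, zero_mul])
    have hle : p.2 ≤ a := by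
      rw [← hpn]; exact Nat.le_mul_of_pos_left _ hd0
    have hlt : p.2 < a := by
      rcases Nat.lt_or_ge p.2 a with h | h
      · exact h
      · exfalso
        have he : p.2 = a := le_antisymm hle h
        have hd : p.1 = 1 := by
          have : p.1 * a = 1 * a := by rw [← he, hpn, one_mul, he]
          exact Nat.eq_of_mul_eq_mul_right ha this
        exact hne (Prod.ext hd he)
    exact xTerm_eq_zero_of_lt M ζ a b p.1 p.2 he0 hlt (by omega)
  · intro h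
    exfalso
    exact h (Nat.mem_divisorsAntidiagonal.mpr ⟨one_mul a, ha.ne'⟩)

/-- the leading coefficient of `X_(a,b) - X_(a,b')` is `ζ^b - ζ^b'` -/
theorem coeff_xSeries_sub_self (M : ℕ) (ζ : Rˣ) (a : ℕ) (b b' : ℤ) (ha : 0 < a)
    (h2a : 2 * a < M) :
    PowerSeries.coeff a (xSeries M ζ a b - xSeries M ζ a b') =
      ((ζ ^ b : Rˣ) : R) - ((ζ ^ b' : Rˣ) : R) := by
  rw [map_sub, coeff_xSeries_self M ζ a b ha h2a, coeff_xSeries_self M ζ a b' ha h2a]

/-- for `a < a'` (both in the range `2a' < M`) the leading coefficient of `X_(a,b) - X_(a',b')`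
is `ζ^b`, a unit -/
theorem coeff_xSeries_sub_of_lt (M : ℕ) (ζ : Rˣ) (a a' : ℕ) (b b' : ℤ) (ha : 0 < a)
    (haa' : a < a') (h2a : 2 * a' ≤ M) :
    PowerSeries.coeff a (xSeries M ζ a b - xSeries M ζ a' b') = ((ζ ^ b : Rˣ) : R) := by
  rw [map_sub, coeff_xSeries_self M ζ a b ha (by omega),
    coeff_xSeries_of_lt M ζ a' b' h2a a haa', sub_zero]

end Fermat.Agent.DS.P2.Fricke
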