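/-
GATE-N / S48 J1-port, node S48-P2-FRICKE-FORMAL, file 2 (helper63): the Laurent-series packaging of
the formal Tate `x`-series `X_(a,b)` of `DS/P2/FrickeSeries.lean`, in the language of the port
(`LaurentSeries R`, prelude `coeffMap`, `qExpand`, GJ `QS.twist`).

* `xL M ζ a b : LaurentSeries R` ; `coeff_xL_natCast`, `coeff_xL_neg` ;
* **`twist_xL : twist ζ (xL M ζ a b) = xL M ζ a (a + b)`**  (`ζ^M = 1`)   — the `T`-action;
* **`coeffMap_xL : coeffMap f (xL M ζ a b) = xL M (f ζ) a b`**          — reduction commutes;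
* `xL_neg`, `xL_add_left`, `xL_add_right`, `xL_one` (rational case);
* weight-0 normalisation with an ARBITRARY weight-(-2) factor `c(q^M)`:
  `frickeL M c ζ a b := qExpand R M c * (1 + 12 * xL M ζ a b)` (`= 12 · c(Q) · ℘_v/(2πi)²`),
  `twist_frickeL`, `coeffMap_frickeL` ;
* the case `a ≡ 0`: `xL0 M ζ b w := C (ζ^b / w²) + xL M ζ 0 b` for `w = 1 - ζ^b` a unit,
  `twist_xL0` (invariant), `coeffMap_xL0`.
-/
import Fermat.Agent.DS.P2.FrickeSeries
import Fermat.Agent.GJ.J3.QSeries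

set_option autoImplicit false

noncomputable section

namespace Fermat.Agent.DS.P2.Fricke

open HahnSeries ModularCurve Fermat.Agent.GJ.J3.QS

variable {R : Type*} [CommRing R]

/-- `X_(a,b)` as a Laurent series -/
def xL (M : ℕ) (ζ : Rˣ) (a b : ℤ) : LaurentSeries R :=
  ofPowerSeries ℤ R (xSeries M ζ a b)

theorem coeff_xL_natCast (M : ℕ) (ζ : Rˣ) (a b : ℤ) (n : ℕ) :
    (xL M ζ a b).coeff (n : ℤ) = xCoeff M ζ a b n := by
  rw [xL, ofPowerSeries_apply_coeff, coeff_xSeries]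

theorem coeff_xL_of_neg (M : ℕ) (ζ : Rˣ) (a b : ℤ) {n : ℤ} (hn : n < 0) :
    (xL M ζ a b).coeff n = 0 := by
  rw [xL]
  exact ModularCurve.ofPowerSeries_coeff_of_neg _ hn

theorem xL_neg (M : ℕ) (ζ : Rˣ) (a b : ℤ) : xL M ζ (-a) (-b) = xL M ζ a b := by
  rw [xL, xSeries_neg, xL]

theorem xL_add_left (M : ℕ) (ζ : Rˣ) (a b k : ℤ) : xL M ζ (a + k * M) b = xL M ζ a b := by
  rw [xL, xSeries_add_left, xL]

theorem xL_add_right {M : ℕ} {ζ : Rˣ} (hζ : ζ ^ M = 1) (a b k : ℤ) :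
    xL M ζ a (b + k * M) = xL M ζ a b := by
  rw [xL, xSeries_add_right hζ, xL]

theorem xL_one (M : ℕ) (a b : ℤ) : xL M (1 : Rˣ) a b = xL M (1 : Rˣ) a 0 := by
  rw [xL, xSeries_one, xL]

/-- **the `T`-action**: `q ↦ ζ q` sends `X_(a,b)` to `X_(a,a+b)` -/
theorem twist_xL {M : ℕ} {ζ : Rˣ} (hζ : ζ ^ M = 1) (a b : ℤ) :
    twist ζ (xL M ζ a b) = xL M ζ a (a + b) := by
  ext n
  rw [twist_coeff]
  rcases lt_or_ge n 0 with hn | hn
  · rw [coeff_xL_of_neg _ _ _ _ hn, coeff_xL_of_neg _ _ _ _ hn, mul_zero]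
  · lift n to ℕ using hn
    rw [coeff_xL_natCast, coeff_xL_natCast, zpow_natCast]
    have := coeff_xSeries_twist hζ a b n
    rwa [coeff_xSeries, coeff_xSeries] at this

/-- **reduction commutes**: `coeffMap f X_(a,b) = X_(a,b)` over the target ring -/
theorem coeffMap_xL {S : Type*} [CommRing S] (f : R →+* S) (M : ℕ) (ζ : Rˣ) (a b : ℤ) :
    coeffMap f (xL M ζ a b) = xL M (Units.map (f : R →* S) ζ) a b := by
  rw [xL, coeffMap_ofPowerSeries, map_xSeries, xL]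

/-! ### weight-0 normalisation -/

/-- `12 · c(q^M) · (1/12 + X_(a,b))` for an arbitrary factor `c` (e.g. `c = E₄E₆/Δ`) -/
def frickeL (M : ℕ) [NeZero M] (c : LaurentSeries R) (ζ : Rˣ) (a b : ℤ) : LaurentSeries R :=
  qExpand R M c * (1 + 12 * xL M ζ a b)

theorem twist_frickeL {M : ℕ} [NeZero M] (c : LaurentSeries R) {ζ : Rˣ} (hζ : ζ ^ M = 1)
    (a b : ℤ) : twist ζ (frickeL M c ζ a b) = frickeL M c ζ a (a + b) := by
  have h12 : twist ζ (12 : LaurentSeries R) = 12 := map_ofNat (twistHom ζ) 12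
  have h1 : twist ζ (1 : LaurentSeries R) = 1 := map_one (twistHom ζ)
  rw [frickeL, twist_mul, twist_qExpand M ζ hζ, twist_add, twist_mul, twist_xL hζ, h12, h1,
    frickeL]

theorem coeffMap_frickeL {S : Type*} [CommRing S] (f : R →+* S) (M : ℕ) [NeZero M]
    (c : LaurentSeries R) (ζ : Rˣ) (a b : ℤ) :
    coeffMap f (frickeL M c ζ a b) =
      frickeL M (coeffMap f c) (Units.map (f : R →* S) ζ) a b := by
  rw [frickeL, map_mul, coeffMap_qExpand, map_add, map_one, map_mul, map_ofNat, coeffMap_xL,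
    frickeL]

/-! ### the torsion points `u = ζ^b` (`a ≡ 0`) -/

/-- `X_(0,b) = ζ^b/(1-ζ^b)² + ∑ …` for `w = 1 - ζ^b` a unit -/
def xL0 (M : ℕ) (ζ : Rˣ) (b : ℤ) (w : Rˣ) : LaurentSeries R :=
  HahnSeries.C (((ζ ^ b * w⁻¹ ^ 2 : Rˣ) : R)) + xL M ζ 0 b

theorem twist_C (u : Rˣ) (r : R) : twist u (HahnSeries.C r) = HahnSeries.C r := by
  ext n
  rw [twist_coeff, HahnSeries.C_apply, HahnSeries.coeff_single]
  split_ifs with h
  · subst h; simp
  · rw [mul_zero]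

theorem twist_xL0 {M : ℕ} {ζ : Rˣ} (hζ : ζ ^ M = 1) (b : ℤ) (w : Rˣ) :
    twist ζ (xL0 M ζ b w) = xL0 M ζ b w := by
  rw [xL0, twist_add, twist_C, twist_xL hζ, zero_add]

theorem coeffMap_xL0 {S : Type*} [CommRing S] (f : R →+* S) (M : ℕ) (ζ : Rˣ) (b : ℤ) (w : Rˣ) :
    coeffMap f (xL0 M ζ b w) =
      xL0 M (Units.map (f : R →* S) ζ) b (Units.map (f : R →* S) w) := by
  rw [xL0, map_add, coeffMap_xL, xL0]
  congr 1
  rw [HahnSeries.C_apply, coeffMap_single, HahnSeries.C_apply]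
  congr 1
  have h : f ((ζ ^ b * w⁻¹ ^ 2 : Rˣ) : R) =
      ((Units.map (f : R →* S) (ζ ^ b * w⁻¹ ^ 2) : Sˣ) : S) := rfl
  rw [h, map_mul, map_zpow, map_pow, map_inv]

end Fermat.Agent.DS.P2.Fricke
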