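/-
GATE-N / S48 J1-port, node S48-P2-FRICKE-AN-BRIDGE (helper63): the ANALYTIC expansions of helper26
(`DS/P1/FrickeRows.lean`: `℘((aT+b)/M; ℤ+Tℤ)/(2πi)²` has cusp expansion `frickePS M a b` in
`t = e(T/M)`) ARE the formal series of `DS/P2/FrickeSeries.lean` at `ζ = e(1/M) ∈ ℂˣ`:

* `zetaU M : ℂˣ`, `zetaU_pow : zetaU M ^ M = 1`, `xiPar_eq : xiPar M b = zetaU M ^ b`;
* `frickeWgt_eq_xTerm : frickeWgt M a (xiPar M b) j k = xTerm M (zetaU M) a b k j`;
* **`frickePS_eq : frickePS M a b = C (frickeConst M a b) + xSeries M (zetaU M) a b`**;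
* `lsOf_frickePS_eq`   : `lsOf 0 (frickePS M a b) = C (frickeConst M a b) + xL M (zetaU M) a b`;
* `lsOf_frickePS_of_pos` (`0 < a`): `lsOf 0 (frickePS M a b) = C (1/12) + xL M (zetaU M) a b`;
* `twelve_mul_lsOf_frickePS` (`0 < a`): `12 * lsOf 0 (frickePS M a b) = 1 + 12 * xL …`, the second
  factor of `frickeL`.
So the twist law / reduction law / leading terms of the formal family apply verbatim to the
expansions of helper71's `frickeFun M v`.
-/
import Fermat.Agent.DS.P1.FrickeRows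
import Fermat.Agent.DS.P2.FrickeLaurent

set_option autoImplicit false

noncomputable section

namespace Fermat.Agent.DS.P2.Fricke

open Complex HahnSeries Fermat.Agent.S28 Fermat.Agent.DS.P1.FrickeRows
open scoped Real

/-- `ζ_M = e(1/M)` as a unit of `ℂ` -/
def zetaU (M : ℕ) : ℂˣ := Units.mk0 (cexp (2 * π * I / M)) (Complex.exp_ne_zero _)

theorem coe_zetaU (M : ℕ) : ((zetaU M : ℂˣ) : ℂ) = cexp (2 * π * I / M) := rfl

theorem zetaU_pow (M : ℕ) [NeZero M] : zetaU M ^ M = 1 := by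
  apply Units.ext
  rw [Units.val_pow_eq_pow_val, coe_zetaU, Units.val_one, ← Complex.exp_nat_mul]
  have hM : (M : ℂ) ≠ 0 := by exact_mod_cast NeZero.ne M
  rw [show (M : ℂ) * (2 * π * I / M) = 2 * π * I by field_simp]
  exact Complex.exp_two_pi_mul_I

theorem xiPar_eq (M : ℕ) (b : ℤ) : xiPar M b = ((zetaU M ^ b : ℂˣ) : ℂ) := by
  rw [Units.val_zpow_eq_zpow_val, coe_zetaU, xiPar, ← Complex.exp_int_mul]
  congr 1
  ring

theorem xiPar_pow (M : ℕ) (b : ℤ) (k : ℕ) :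
    xiPar M b ^ k = ((zetaU M ^ (b * k) : ℂˣ) : ℂ) := by
  rw [xiPar_eq, zpow_mul, zpow_natCast, Units.val_pow_eq_pow_val]

theorem xiPar_inv_pow (M : ℕ) (b : ℤ) (k : ℕ) :
    (xiPar M b)⁻¹ ^ k = ((zetaU M ^ (-(b * k)) : ℂˣ) : ℂ) := by
  rw [zpow_neg, Units.val_inv_eq_inv_val, ← xiPar_pow, inv_pow]

theorem modEq_iff_cast (M j a : ℕ) :
    j ≡ a [MOD M] ↔ ((j : ℕ) : ZMod M) = (((a : ℕ) : ℤ) : ZMod M) := by
  rw [Int.cast_natCast, ZMod.natCast_eq_natCast_iff]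

theorem dvd_add_iff_cast (M j a : ℕ) :
    M ∣ j + a ↔ ((j : ℕ) : ZMod M) = -(((a : ℕ) : ℤ) : ZMod M) := by
  rw [Int.cast_natCast, eq_neg_iff_add_eq_zero, ← Nat.cast_add, ZMod.natCast_eq_zero_iff]

theorem dvd_iff_cast (M j : ℕ) : M ∣ j ↔ ((j : ℕ) : ZMod M) = 0 :=
  (ZMod.natCast_eq_zero_iff j M).symm

/-- helper26's weight is the `(k, j)`-term of `X_(a,b)` at `ζ = e(1/M)` -/
theorem frickeWgt_eq_xTerm (M a : ℕ) (b : ℤ) (j k : ℕ) :
    frickeWgt M a (xiPar M b) j k = xTerm M (zetaU M) (a : ℤ) b k j := by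
  unfold frickeWgt xTerm
  rw [xiPar_pow, xiPar_inv_pow]
  simp only [modEq_iff_cast, dvd_add_iff_cast]
  simp only [dvd_iff_cast]

/-- **the analytic expansion is the formal series** -/
theorem frickePS_eq (M a : ℕ) (b : ℤ) :
    frickePS M a b = PowerSeries.C (frickeConst M a b) + xSeries M (zetaU M) (a : ℤ) b := by
  ext n
  rw [coeff_frickePS, map_add, PowerSeries.coeff_C, coeff_xSeries, xCoeff]
  congr 1
  rw [Nat.sum_divisorsAntidiagonal (f := fun j k => frickeWgt M a (xiPar M b) j k),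
    Nat.sum_divisorsAntidiagonal' (f := fun d e => xTerm M (zetaU M) (a : ℤ) b d e)]
  exact Finset.sum_congr rfl fun i _ => frickeWgt_eq_xTerm M a b i (n / i)

theorem lsOf_frickePS_eq (M a : ℕ) (b : ℤ) :
    lsOf 0 (frickePS M a b) = HahnSeries.C (frickeConst M a b) + xL M (zetaU M) (a : ℤ) b := by
  rw [lsOf_zero_left, frickePS_eq, map_add, xL, HahnSeries.ofPowerSeries_C]

theorem frickeConst_of_pos (M a : ℕ) (b : ℤ) (ha : 0 < a) : frickeConst M a b = 1 / 12 := by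
  rw [frickeConst, if_neg ha.ne', add_zero]

theorem lsOf_frickePS_of_pos (M a : ℕ) (b : ℤ) (ha : 0 < a) :
    lsOf 0 (frickePS M a b) = HahnSeries.C (1 / 12 : ℂ) + xL M (zetaU M) (a : ℤ) b := by
  rw [lsOf_frickePS_eq, frickeConst_of_pos M a b ha]

/-- `12 ·` the expansion is the second factor of `frickeL` -/
theorem twelve_mul_lsOf_frickePS (M a : ℕ) (b : ℤ) (ha : 0 < a) :
    12 * lsOf 0 (frickePS M a b) = 1 + 12 * xL M (zetaU M) (a : ℤ) b := by
  rw [lsOf_frickePS_of_pos M a b ha, mul_add]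
  congr 1
  rw [show (12 : LaurentSeries ℂ) = HahnSeries.C (12 : ℂ) by rw [map_ofNat], ← map_mul]
  norm_num

/-- for ANY weight-`(-2)` factor `c`: `12 · c(q^M) · expansion = frickeL M c ζ a b` -/
theorem frickeL_eq_mul_lsOf (M : ℕ) [NeZero M] (c : LaurentSeries ℂ) (a : ℕ) (b : ℤ)
    (ha : 0 < a) :
    frickeL M c (zetaU M) (a : ℤ) b =
      ModularCurve.qExpand ℂ M c * (12 * lsOf 0 (frickePS M a b)) := by
  rw [frickeL, twelve_mul_lsOf_frickePS M a b ha]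

end Fermat.Agent.DS.P2.Fricke
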