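/-
GATE-N / S48 J1-port, node S48-P2-FRICKE-BRIDGE (helper63): the generators `12 w_M^{(a)}` of
helper45's `F1C K M` (`DS/P0/Weber.lean`) ARE the members `(a, 0)` of the formal Fricke family of
`DS/P2/FrickeSeries.lean` / `FrickeLaurent.lean`.

* `xCoeff_one_eq_tateCoeff : xCoeff M (1 : Rˣ) a 0 n = ((tateCoeff M (a : ZMod M) n : ℤ) : R)`;
* `tateX12_map_eq : (tateX12 M (a : ZMod M)).map (Int.castRingHom R) = 1 + 12 * xSeries M 1 a 0`;
* **`weber12C_eq_frickeL : weber12C R M (a : ZMod M) = frickeL M (weberFactorC R) 1 a 0`**;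
* `weber12C_eq_frickeL_of_pow_one` : the same with ANY `ζ` and `b = 0`.
-/
import Fermat.Agent.DS.P0.Weber
import Fermat.Agent.DS.P2.FrickeLaurent

set_option autoImplicit false

noncomputable section

namespace Fermat.Agent.DS.P2.Fricke

open HahnSeries ModularCurve Fermat.Agent.DS.P0

variable {R : Type*} [CommRing R]

/-- with `b = 0` the root of unity plays no role -/
theorem xTerm_zero_right (M : ℕ) (ζ : Rˣ) (a : ℤ) (d e : ℕ) :
    xTerm M ζ a 0 d e = xTerm M (1 : Rˣ) a 0 d e := by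
  simp [xTerm]

theorem xCoeff_zero_right (M : ℕ) (ζ : Rˣ) (a : ℤ) (n : ℕ) :
    xCoeff M ζ a 0 n = xCoeff M (1 : Rˣ) a 0 n := by
  unfold xCoeff
  exact Finset.sum_congr rfl fun p _ => xTerm_zero_right M ζ a p.1 p.2

theorem xSeries_zero_right (M : ℕ) (ζ : Rˣ) (a : ℤ) :
    xSeries M ζ a 0 = xSeries M (1 : Rˣ) a 0 := by
  ext n
  rw [coeff_xSeries, coeff_xSeries, xCoeff_zero_right]

theorem xL_zero_right (M : ℕ) (ζ : Rˣ) (a : ℤ) : xL M ζ a 0 = xL M (1 : Rˣ) a 0 := by
  rw [xL, xSeries_zero_right, xL]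

/-- **helper45's `tateCoeff` is the coefficient of `X_(a,0)`** -/
theorem xCoeff_one_eq_tateCoeff (M : ℕ) (a : ℤ) (n : ℕ) :
    xCoeff M (1 : Rˣ) a 0 n = ((tateCoeff M (a : ZMod M) n : ℤ) : R) := by
  unfold xCoeff tateCoeff
  rw [Nat.sum_divisorsAntidiagonal' (f := fun d e => xTerm M (1 : Rˣ) a 0 d e), Int.cast_sum]
  refine Finset.sum_congr rfl fun e _ => ?_
  unfold xTerm
  rw [Int.cast_mul, Int.cast_natCast]
  simp only [one_zpow, Units.val_one]
  congr 1
  split_ifs <;> simp <;> norm_num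

theorem tateX12_map_eq (M : ℕ) (a : ℤ) :
    (tateX12 M (a : ZMod M)).map (Int.castRingHom R) =
      1 + 12 * xSeries M (1 : Rˣ) a 0 := by
  ext n
  rw [PowerSeries.coeff_map, map_add, PowerSeries.coeff_one,
    show (12 : PowerSeries R) = PowerSeries.C (12 : R) by
      rw [map_ofNat], PowerSeries.coeff_C_mul, coeff_xSeries, xCoeff_one_eq_tateCoeff]
  rcases Nat.eq_zero_or_pos n with rfl | hn
  · simp [tateX12]
  · obtain ⟨k, rfl⟩ := Nat.exists_eq_succ_of_ne_zero hn.ne'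
    rw [coeff_tateX12_succ, if_neg (Nat.succ_ne_zero k), zero_add]
    simp

/-- **the generators of `F1C` are the `(a,0)`-members of the Fricke family** -/
theorem weber12C_eq_frickeL (M : ℕ) [NeZero M] (a : ℤ) :
    weber12C R M (a : ZMod M) = frickeL M (weberFactorC R) (1 : Rˣ) a 0 := by
  rw [weber12C, frickeL, tateX12_map_eq, map_add, map_one, map_mul, map_ofNat, xL]

theorem weber12C_eq_frickeL_of_zero (M : ℕ) [NeZero M] (ζ : Rˣ) (a : ℤ) :
    weber12C R M (a : ZMod M) = frickeL M (weberFactorC R) ζ a 0 := by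
  rw [weber12C_eq_frickeL, frickeL, frickeL, xL_zero_right M ζ]

/-- every `frickeL … a b` with `a ≢ 0` lies in the `twist`-orbit of a Weber generator as soon as
`b ≡ a t`: `twist ζ^t (12 w^{(a)}) = frickeL … a (t a)` -/
theorem twist_pow_frickeL {M : ℕ} [NeZero M] (c : LaurentSeries R) {ζ : Rˣ} (hζ : ζ ^ M = 1)
    (a b : ℤ) (t : ℕ) :
    (Fermat.Agent.GJ.J3.QS.twist ζ)^[t] (frickeL M c ζ a b) = frickeL M c ζ a (t * a + b) := by
  induction t with
  | zero => simp
  | succ t ih =>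
    rw [Function.iterate_succ_apply', ih, twist_frickeL c hζ]
    congr 1
    push_cast
    ring

end Fermat.Agent.DS.P2.Fricke
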