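/-
S48 / Γ₁(M)-port, node P2-CHARTBRIDGE, abstract part (helper22): degree preservation passes from
one chart to another through an intermediate field.

`F ≤ F'` fields inside `E`, `Ft ≤ Ft'` fields inside `E'` (the residue fields), `s t ∈ F` two charts
with "reductions" `s' t' ∈ Ft`.  If

* `[F' : K(t)] ≤ [Ft' : k(t')]`   (degree preservation of the BIG field at `t`),
* `[Ft : k(t')] ≤ [F : K(t)]`     (residue-degree inequality of the SMALL field at `t`),
* `[F : K(s)] ≤ [Ft : k(s')]`     (degree preservation of the SMALL field at `s`),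

then `[F' : K(s)] ≤ [Ft' : k(s')]` (degree preservation of the BIG field at `s`).
All degrees are `IntermediateField.relfinrank` inside the ambient fields; `finrank_adjoin_eq_relfinrank`
converts from the usual `Module.finrank K⟮t⟯ F` with `t : F`.
-/
import Mathlib

set_option autoImplicit false

noncomputable section

namespace Fermat.Agent.DS.P2.ChartBridge

open IntermediateField

section Conv

variable {K E : Type*} [Field K] [Field E] [Algebra K E]

/-- `K⟮t⟯` inside `F` is the comap of `K⟮(t : E)⟯` -/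
theorem adjoin_simple_eq_comap (F : IntermediateField K E) (t : F) :
    K⟮t⟯ = (K⟮(t : E)⟯).comap F.val := by
  have h1 : (K⟮t⟯).map F.val = K⟮(t : E)⟯ := by
    rw [IntermediateField.adjoin_map]
    simp
  rw [← h1]
  apply le_antisymm
  · exact IntermediateField.map_le_iff_le_comap.mp le_rfl
  · intro x hx
    have hx' : F.val x ∈ (K⟮t⟯).map F.val := hx
    obtain ⟨y, hy, hxy⟩ := hx'
    have : y = x := Subtype.ext hxy
    rwa [← this]

/-- the usual degree `[F : K(t)]`, `t : F`, as a relative degree inside the ambient field -/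
theorem finrank_adjoin_eq_relfinrank (F : IntermediateField K E) (t : F) :
    Module.finrank K⟮t⟯ F = relfinrank K⟮(t : E)⟯ F := by
  rw [adjoin_simple_eq_comap F t, IntermediateField.finrank_comap, IntermediateField.fieldRange_val]

end Conv

section Abs

variable {K E k E' : Type*} [Field K] [Field E] [Algebra K E] [Field k] [Field E'] [Algebra k E']

/-- **chart bridge**: degree preservation of `F'` at `t` + residue-degree inequality of `F` at `t`
+ degree preservation of `F` at `s` ⟹ degree preservation of `F'` at `s`. -/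
theorem relfinrank_le_of_bridge (F F' : IntermediateField K E) (hFF : F ≤ F')
    (Ft Ft' : IntermediateField k E') (hFt : Ft ≤ Ft')
    {s t : E} (hs : s ∈ F) (ht : t ∈ F) {s' t' : E'} (hs' : s' ∈ Ft) (ht' : t' ∈ Ft)
    (hfin : relfinrank K⟮t⟯ F ≠ 0)
    (h3 : relfinrank K⟮t⟯ F' ≤ relfinrank k⟮t'⟯ Ft')
    (h4 : relfinrank k⟮t'⟯ Ft ≤ relfinrank K⟮t⟯ F)
    (h2 : relfinrank K⟮s⟯ F ≤ relfinrank k⟮s'⟯ Ft) :
    relfinrank K⟮s⟯ F' ≤ relfinrank k⟮s'⟯ Ft' := by
  have hsF : K⟮s⟯ ≤ F := by rw [adjoin_simple_le_iff]; exact hs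
  have htF : K⟮t⟯ ≤ F := by rw [adjoin_simple_le_iff]; exact ht
  have hsFt : k⟮s'⟯ ≤ Ft := by rw [adjoin_simple_le_iff]; exact hs'
  have htFt : k⟮t'⟯ ≤ Ft := by rw [adjoin_simple_le_iff]; exact ht'
  have e1 := relfinrank_mul_relfinrank htF hFF
  have e2 := relfinrank_mul_relfinrank hsF hFF
  have e3 := relfinrank_mul_relfinrank htFt hFt
  have e4 := relfinrank_mul_relfinrank hsFt hFt
  set a := relfinrank F F'
  set a' := relfinrank Ft Ft'
  set mt := relfinrank K⟮t⟯ F
  set ms := relfinrank K⟮s⟯ F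
  set mt' := relfinrank k⟮t'⟯ Ft
  set ms' := relfinrank k⟮s'⟯ Ft
  rw [← e1, ← e3] at h3
  rw [← e2, ← e4]
  have hmt : 0 < mt := Nat.pos_of_ne_zero hfin
  have haa : a ≤ a' := by
    have h5 : mt * a ≤ mt * a' := le_trans h3 (Nat.mul_le_mul_right _ h4)
    exact Nat.le_of_mul_le_mul_left h5 hmt
  exact Nat.mul_le_mul h2 haa

end Abs

end Fermat.Agent.DS.P2.ChartBridge
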