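/-
S48 (Deligne–Serre) / Γ₁(M)-port, node P2-GAUSS (helper45): the Gauss valuation at the cusp `∞`
of `L(X₁(M)) = F1C L M` over an ARBITRARY base field `L` and an ARBITRARY valuation subring `A`
of `L` — the `Γ₁`-twin of `GK/Val/GaussBase` (all generators have integer `q`-coefficients, so the
generic layer `GK/Val/GaussFracGen.hasGaussFrac_adjoin` applies verbatim).

* `hasGaussFrac_F1C L A M : Val.HasGaussFrac A (F1C L M)`;
* `Rw1C`, `Fres1C`, `redData1C L A M : RedData L (F1C L M) k (Fres1C L A M)`;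
* generators: `genJ1 L A M hd` (`= j(q^d)`), `genW1 L A M a` (`= 12 w_M^{(a)}`), both in `Rw1C`, with
  `coe_red_genJ1 : red (j(q^d)) = j~(Q^d)`, `coe_red_genW1 : red (12 w^{(a)}) = 12 w~^{(a)}`;
* `F1C_le_Fres1C : F1C k M ≤ Fres1C L A M` (the function field of `X₁(M)` over the residue field
  sits inside the residue field of the Gauss valuation; equality = the Igusa-type statement);
* `isGaussChart_j1 : (redData1C L A M).IsGaussChart j`;
* restriction to `L(X₀(M))`: `inclFull`, `mem_RwC_iff_mem_Rw1C`, `redL_inclFull`, `FresC_le_Fres1C`;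
* base change `L → L'`: `map1C`, `mem_Rw1C_iff`, `redL_map1C`, `coeffMap_mem_Fres1C`.
-/
import Fermat.Agent.DS.P0.Weber
import Fermat.Agent.GK.Val.GaussBaseChange

set_option autoImplicit false

noncomputable section

namespace Fermat.Agent.DS.P2.GaussF1

open HahnSeries ModularCurve IsLocalRing
open Fermat.Agent.GJ.J1 Fermat.Agent.GJ.J1.Val Fermat.Agent.DS.P0
open Fermat.Agent.GK.Val.GaussBase Fermat.Agent.GK.Val.BaseChange

variable (L : Type*) [Field L] (A : ValuationSubring L) (M : ℕ) [NeZero M]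

local notation "𝕜" => ResidueField A

/-- the coefficients of `12 w_M^{(a)}` are integers -/
theorem weber12C_mem_coeffSubring (a : ZMod M) :
    weber12C L M a ∈ Fermat.Agent.GK.Val.coeffSubring (Int.castRingHom L).range :=
  fun n => coeff_weber12C_mem_range L M a n

/-- **Gauss fractions for `L(X₁(M))` over any base field** -/
theorem hasGaussFrac_F1C : HasGaussFrac A (F1C L M) := by
  unfold F1C
  refine Fermat.Agent.GK.Val.hasGaussFrac_adjoin A (Int.castRingHom L).range {1}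
    (Set.finite_singleton 1) ?_ _ ?_
  · rintro x ⟨n, rfl⟩
    have h : ((Int.castRingHom L) n : L) = n • (1 : L) := by simp
    rw [h]
    exact Submodule.smul_mem _ _ (Submodule.subset_span rfl)
  · rintro g (⟨d, hd, -, rfl⟩ | ⟨a, -, rfl⟩)
    · exact qExpand_jqModC_mem L d
    · exact weber12C_mem_coeffSubring L M a

/-- the Gauss valuation ring of `L(X₁(M))` attached to `A` -/
abbrev Rw1C : ValuationSubring (F1C L M) :=
  Rw A (F1C L M) (hasGaussFrac_F1C L A M)

/-- its residue field, inside `k((Q))` -/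
abbrev Fres1C : IntermediateField 𝕜 (LaurentSeries 𝕜) :=
  Fres A (F1C L M) (hasGaussFrac_F1C L A M)

/-- **the reduction datum of `L(X₁(M))`** at a valuation subring `A` of `L` -/
abbrev redData1C : RedData L (F1C L M) 𝕜 (Fres1C L A M) :=
  redData A (F1C L M) (hasGaussFrac_F1C L A M)

/-! ### the generators -/

theorem emb_genJ1_mem {d : ℕ} [NeZero d] (hd : d ∣ M) :
    emb A (qExpand A d (jqModC A)) ∈ F1C L M := by
  rw [emb, coeffMap_qExpand, coeffMap_jqModC]
  exact jqModCd_mem_F1C L M hd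

/-- the generator `j(q^d)`, `d ∣ M`, as an element of `L(X₁(M))` -/
def genJ1 {d : ℕ} [NeZero d] (hd : d ∣ M) : F1C L M :=
  ⟨emb A (qExpand A d (jqModC A)), emb_genJ1_mem L A M hd⟩

theorem coe_genJ1 {d : ℕ} [NeZero d] (hd : d ∣ M) :
    ((genJ1 L A M hd : F1C L M) : LaurentSeries L) = qExpand L d (jqModC L) := by
  show emb A (qExpand A d (jqModC A)) = _
  rw [emb, coeffMap_qExpand, coeffMap_jqModC]

theorem genJ1_mem_Rw1C {d : ℕ} [NeZero d] (hd : d ∣ M) : genJ1 L A M hd ∈ Rw1C L A M :=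
  int_mem_Rw (hGF := hasGaussFrac_F1C L A M) (emb_genJ1_mem L A M hd)

/-- `red (j(q^d)) = j~(Q^d)` -/
theorem coe_red_genJ1 {d : ℕ} [NeZero d] (hd : d ∣ M) (h : genJ1 L A M hd ∈ Rw1C L A M) :
    (((redData1C L A M).red ⟨genJ1 L A M hd, h⟩ : Fres1C L A M) : LaurentSeries 𝕜) =
      qExpand 𝕜 d (jqModC 𝕜) := by
  refine (redL_int (hGF := hasGaussFrac_F1C L A M) (emb_genJ1_mem L A M hd)).trans ?_
  rw [rd, coeffMap_qExpand, coeffMap_jqModC]

theorem emb_genW1_mem {a : ZMod M} (ha : a ≠ 0) : emb A (weber12C A M a) ∈ F1C L M := by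
  rw [emb, coeffMap_weber12C]
  exact weber12C_mem_F1C L M ha

/-- the generator `12 w_M^{(a)}`, `a ≠ 0`, as an element of `L(X₁(M))` -/
def genW1 {a : ZMod M} (ha : a ≠ 0) : F1C L M :=
  ⟨emb A (weber12C A M a), emb_genW1_mem L A M ha⟩

theorem coe_genW1 {a : ZMod M} (ha : a ≠ 0) :
    ((genW1 L A M ha : F1C L M) : LaurentSeries L) = weber12C L M a := by
  show emb A (weber12C A M a) = _
  rw [emb, coeffMap_weber12C]

theorem genW1_mem_Rw1C {a : ZMod M} (ha : a ≠ 0) : genW1 L A M ha ∈ Rw1C L A M :=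
  int_mem_Rw (hGF := hasGaussFrac_F1C L A M) (emb_genW1_mem L A M ha)

/-- `red (12 w_M^{(a)}) = 12 w~_M^{(a)}` -/
theorem coe_red_genW1 {a : ZMod M} (ha : a ≠ 0) (h : genW1 L A M ha ∈ Rw1C L A M) :
    (((redData1C L A M).red ⟨genW1 L A M ha, h⟩ : Fres1C L A M) : LaurentSeries 𝕜) =
      weber12C 𝕜 M a := by
  refine (redL_int (hGF := hasGaussFrac_F1C L A M) (emb_genW1_mem L A M ha)).trans ?_
  rw [rd, coeffMap_weber12C]

/-- the function field `k(X₁(M))` over the residue field is contained in the residue field of the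
Gauss valuation -/
theorem F1C_le_Fres1C : F1C 𝕜 M ≤ Fres1C L A M := by
  unfold F1C
  rw [IntermediateField.adjoin_le_iff]
  rintro x (⟨d, hne, hd, rfl⟩ | ⟨a, ha, rfl⟩)
  · exact ⟨⟨genJ1 L A M hd, genJ1_mem_Rw1C L A M hd⟩, coe_red_genJ1 L A M hd _⟩
  · exact ⟨⟨genW1 L A M ha, genW1_mem_Rw1C L A M ha⟩, coe_red_genW1 L A M ha _⟩

/-- `j` is a Gauss chart -/
theorem isGaussChart_j1 : (redData1C L A M).IsGaussChart (genJ1 L A M (one_dvd M)) := by
  refine ⟨genJ1_mem_Rw1C L A M _, ?_⟩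
  apply Fres.transcendental_of_coe
  rw [coe_red_genJ1, qExpand_one_apply]
  exact transcendental_jqModC _

/-! ### restriction to a subfield (generic) and to `L(X₀(M))` -/

section Sub

variable {L} {A}
variable (F F' : IntermediateField L (LaurentSeries L)) (hFF : F ≤ F')
  (hGF : HasGaussFrac A F) (hGF' : HasGaussFrac A F')

include hFF in
theorem IsFrac.of_le {x : LaurentSeries L} {a b : LaurentSeries A} (h : IsFrac A F x a b) :
    IsFrac A F' x a b :=
  ⟨hFF h.1, hFF h.2.1, h.2.2.1, h.2.2.2⟩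

theorem inclusion_mem_Rw {x : F} (hx : x ∈ Rw A F hGF) :
    IntermediateField.inclusion hFF x ∈ Rw A F' hGF' := by
  obtain ⟨a, b, h⟩ := hx
  exact ⟨a, b, IsFrac.of_le F F' hFF h⟩

/-- the reduction on the big field restricts to the reduction on the small field -/
theorem redL_inclusion {x : F} (hx : x ∈ Rw A F hGF)
    (hx' : IntermediateField.inclusion hFF x ∈ Rw A F' hGF') :
    redL A F' hGF' ⟨IntermediateField.inclusion hFF x, hx'⟩ = redL A F hGF ⟨x, hx⟩ := by
  obtain ⟨a, b, h⟩ := hx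
  have e1 : redL A F hGF ⟨x, ⟨a, b, h⟩⟩ = rd A a / rd A b := redL_eq (x := ⟨x, ⟨a, b, h⟩⟩) h
  have e2 : redL A F' hGF' ⟨IntermediateField.inclusion hFF x, hx'⟩ = rd A a / rd A b :=
    redL_eq (x := ⟨IntermediateField.inclusion hFF x, hx'⟩) (IsFrac.of_le F F' hFF h)
  rw [e1, e2]

/-- **the Gauss valuation of the big field restricts to the Gauss valuation of the small one** -/
theorem mem_Rw_iff_inclusion (x : F) :
    x ∈ Rw A F hGF ↔ IntermediateField.inclusion hFF x ∈ Rw A F' hGF' := by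
  refine ⟨inclusion_mem_Rw F F' hFF hGF hGF', fun hx' => ?_⟩
  by_contra hx
  have hx0 : x ≠ 0 := fun h0 => hx (h0 ▸ zero_mem _)
  have hinv : x⁻¹ ∈ Rw A F hGF := ((Rw A F hGF).mem_or_inv_mem x).resolve_left hx
  have hred : redL A F hGF ⟨x⁻¹, hinv⟩ = 0 := by
    by_contra hne
    have := inv_mem_of_redL_ne_zero (x := ⟨x⁻¹, hinv⟩) hne
    rw [inv_inv] at this
    exact hx this
  have hinv' := inclusion_mem_Rw F F' hFF hGF hGF' hinv
  have hred' := redL_inclusion F F' hFF hGF hGF' hinv hinv'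
  rw [hred] at hred'
  have hmul : (⟨IntermediateField.inclusion hFF x, hx'⟩ : Rw A F' hGF') *
      ⟨IntermediateField.inclusion hFF x⁻¹, hinv'⟩ = 1 := by
    ext1
    show IntermediateField.inclusion hFF x * IntermediateField.inclusion hFF x⁻¹ = 1
    rw [← map_mul, mul_inv_cancel₀ hx0, map_one]
  have := congrArg (redL A F' hGF') hmul
  rw [map_mul, hred', mul_zero, map_one] at this
  exact zero_ne_one this

include hFF in
/-- the residue field of the small field sits inside the residue field of the big one -/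
theorem Fres_le_of_le : Fres A F hGF ≤ Fres A F' hGF' := by
  intro y hy
  rw [mem_Fres_iff] at hy ⊢
  obtain ⟨x, rfl⟩ := hy
  exact ⟨⟨IntermediateField.inclusion hFF x.1, inclusion_mem_Rw F F' hFF hGF hGF' x.2⟩,
    redL_inclusion F F' hFF hGF hGF' x.2 _⟩

end Sub

/-- `L(X₀(M)) → L(X₁(M))` -/
abbrev inclFull : modularFunctionFieldFullC L M →ₐ[L] F1C L M :=
  IntermediateField.inclusion (fullC_le_F1C L M)

theorem coe_inclFull (x : modularFunctionFieldFullC L M) :
    ((inclFull L M x : F1C L M) : LaurentSeries L) = x :=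
  IntermediateField.coe_inclusion (fullC_le_F1C L M) x

/-- **the cusp-`∞` Gauss valuation of `L(X₁(M))` restricts to that of `L(X₀(M))`** -/
theorem mem_RwC_iff_mem_Rw1C (x : modularFunctionFieldFullC L M) :
    x ∈ RwC L A M ↔ inclFull L M x ∈ Rw1C L A M :=
  mem_Rw_iff_inclusion _ _ (fullC_le_F1C L M) _ _ x

/-- the reductions are compatible -/
theorem redL_inclFull {x : modularFunctionFieldFullC L M} (hx : x ∈ RwC L A M)
    (hx' : inclFull L M x ∈ Rw1C L A M) :
    redL A _ (hasGaussFrac_F1C L A M) ⟨inclFull L M x, hx'⟩ =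
      redL A _ (hasGaussFrac_fullC L A M) ⟨x, hx⟩ :=
  redL_inclusion _ _ (fullC_le_F1C L M) _ _ hx hx'

/-- the residue field of `L(X₀(M))` sits inside the residue field of `L(X₁(M))` -/
theorem FresC_le_Fres1C : FresC L A M ≤ Fres1C L A M :=
  Fres_le_of_le _ _ (fullC_le_F1C L M) _ _

/-! ### base change of the constants -/

section BaseChange

variable {L} {L' : Type*} [Field L'] (ι : L →+* L') (A' : ValuationSubring L')
  (hA : ∀ x : L, x ∈ A ↔ ι x ∈ A')

/-- the base extension `L(X₁(M)) →+* L'(X₁(M))` -/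
abbrev map1C : F1C L M →+* F1C L' M :=
  mapF ι (F1C L M) (F1C L' M) (fun _ hx => coeffMap_mem_F1C L M ι hx)

theorem map1C_genJ1 {d : ℕ} [NeZero d] (hd : d ∣ M) :
    map1C M ι (genJ1 L A M hd) = genJ1 L' A' M hd := by
  ext1
  rw [coe_mapF, coe_genJ1, coe_genJ1, coeffMap_qExpand, coeffMap_jqModC]

theorem map1C_genW1 {a : ZMod M} (ha : a ≠ 0) :
    map1C M ι (genW1 L A M ha) = genW1 L' A' M ha := by
  ext1
  rw [coe_mapF, coe_genW1, coe_genW1, coeffMap_weber12C]

include hA in
/-- **the cusp-`∞` Gauss valuation of `L'(X₁(M))` restricts to that of `L(X₁(M))`** -/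
theorem mem_Rw1C_iff (x : F1C L M) :
    x ∈ Rw1C L A M ↔ map1C M ι x ∈ Rw1C L' A' M :=
  mem_Rw_iff ι A A' hA _ _ _ _ _ x

/-- the reductions are compatible -/
theorem redL_map1C {x : F1C L M} (hx : x ∈ Rw1C L A M)
    (hx' : map1C M ι x ∈ Rw1C L' A' M) :
    redL A' _ (hasGaussFrac_F1C L' A' M) ⟨map1C M ι x, hx'⟩ =
      coeffMap (resMap ι A A' hA) (redL A _ (hasGaussFrac_F1C L A M) ⟨x, hx⟩) :=
  redL_mapF ι A A' hA _ _ _ _ _ hx hx'

include hA in
/-- the residue field of `L(X₁(M))` maps into the residue field of `L'(X₁(M))` -/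
theorem coeffMap_mem_Fres1C {y : LaurentSeries (ResidueField A)} (hy : y ∈ Fres1C L A M) :
    coeffMap (resMap ι A A' hA) y ∈ Fres1C L' A' M :=
  coeffMap_mem_Fres ι A A' hA _ _ (fun _ hx => coeffMap_mem_F1C L M ι hx) _ _ hy

end BaseChange

end Fermat.Agent.DS.P2.GaussF1
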