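/-
S48 / Γ₁(M)-port, node P2-CHARTBRIDGE (helper22): degree preservation of `ℚ̄(X₁(M))` at the chart
`j = j(q)` from degree preservation at the chart `jE = j(q^M)`.

The Igusa-type node (helper87 `IgusaAbs` + instance) works in the `T' = Mτ` picture and produces
degree preservation at `jE = j(q^M)` (the `j`-invariant of `E` in the `Γ¹`-model).  The Kummer node
(helper9 `K18s1Aux.k18s1_aux`, helper96 `k18sF_of_chart`) and P1 work at `j = j(q)`.  The bridge is a
tower argument through `ℚ̄(X₀(M))`, with everything else on main: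

* `[ℚ̄(X₀(M)) : ℚ̄(jE)] = ψ(M)` (Atkin–Lehner automorphism `wAutQ` at the Hall divisor `Q = M`);
* the chart-generic residue-degree inequality `RedData.finrank_red_le` for `ℚ̄(X₀(M))` at `jE`;
* degree preservation of `ℚ̄(X₀(M))` at `j` (`GaussDeg.finrank_embj_le`, i.e. S28/Igusa for `X₀`).
-/
import Fermat.Agent.DS.P2.ChartBridgeAbs
import Fermat.Agent.DS.P2.GaussF1
import Fermat.Agent.GJ.J1.Gauss.DegAtJ
import Fermat.Agent.GJ.S37.ResidueDegreeRed
import Fermat.Agent.GL.AL.WHallAut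
import Fermat.Agent.GK.Flat.SymDegree
import Fermat.Agent.GK.AL.SecondVal
import Fermat.Agent.GJ.J1.DescDegree

set_option autoImplicit false

noncomputable section

namespace Fermat.Agent.DS.P2.ChartBridge

open HahnSeries ModularCurve IsLocalRing IntermediateField
open Fermat.Agent.S24 Fermat.Agent.S24_helper62
open Fermat.Agent.GJ.J1 Fermat.Agent.GJ.J1.Val Fermat.Agent.DS.P0
open Fermat.Agent.GK.Val.GaussBase Fermat.Agent.DS.P2.GaussF1

local notation "Kb" => AlgebraicClosure ℚ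

/-! ### `Fres` only depends on the field -/

section Congr

variable {L : Type*} [Field L] (A : ValuationSubring L)

theorem Fres_congr {F F' : IntermediateField L (LaurentSeries L)} (h : F = F')
    (hGF : HasGaussFrac A F) (hGF' : HasGaussFrac A F') : Fres A F hGF = Fres A F' hGF' := by
  subst h
  rfl

end Congr

variable (M : ℕ) [NeZero M] (A : ValuationSubring Kb)

local notation "𝕜" => ResidueField A

/-- the residue fields of the two presentations of `ℚ̄(X₀(M))` agree -/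
theorem FresBar_eq_FresC : FresBar M A = FresC Kb A M :=
  Fres_congr A (modularFunctionFieldBar_eq M) _ _

/-! ### the `X₀(M)` side -/

section X0

variable {ℓ : ℕ} [Fact ℓ.Prime]

theorem emb_jqModC_eq : emb A (jqModC A) = jqModC Kb := by
  rw [emb, coeffMap_jqModC]

theorem rd_jqModC_eq : rd A (jqModC A) = jqModC 𝕜 := by
  rw [rd, coeffMap_jqModC]

/-- **degree preservation of `ℚ̄(X₀(M))` at `j`**, in ambient form -/
theorem x0_relfinrank_j_le (hℓM : ¬ ℓ ∣ M) (hA : A.LiesOverPrime ℓ) :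
    relfinrank Kb⟮jqModC Kb⟯ (modularFunctionFieldFullC Kb M) ≤
      relfinrank 𝕜⟮jqModC 𝕜⟯ (FresC Kb A M) := by
  have h := Fermat.Agent.GJ.GaussDeg.finrank_embj_le M A hℓM hA
  rw [finrank_adjoin_eq_relfinrank, finrank_adjoin_eq_relfinrank] at h
  have h1 : (((redDataBar M A).red
      ⟨⟨emb A (jqModC A), Fermat.Agent.GJ.GaussDeg.emb_jqModC_mem M A⟩,
        int_mem_Rw (hGF := hasGaussFrac_bar M A)
          (Fermat.Agent.GJ.GaussDeg.emb_jqModC_mem M A)⟩ : FresBar M A) :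
        LaurentSeries 𝕜) = jqModC 𝕜 :=
    (redL_int (hGF := hasGaussFrac_bar M A) (Fermat.Agent.GJ.GaussDeg.emb_jqModC_mem M A)).trans
      (rd_jqModC_eq A)
  rw [h1] at h
  simp only [emb_jqModC_eq] at h
  rw [← FresBar_eq_FresC, ← modularFunctionFieldBar_eq]
  exact h

end X0

/-! ### `[ℚ̄(X₀(M)) : ℚ̄(j(q^M))] = ψ(M)` by Atkin–Lehner -/

section AL

open Fermat.Agent.GL.AL Fermat.Agent.GK.AL

theorem hallDvd_self : HallDvd M M :=
  ⟨Nat.pos_of_ne_zero (NeZero.ne M), dvd_rfl, by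
    rw [Nat.div_self (Nat.pos_of_ne_zero (NeZero.ne M))]; exact Nat.coprime_one_right M⟩

/-- the index `M` -/
def idxTop : DivIdx M := ⟨M, dvd_rfl⟩

theorem swapHall_idxOne : swapHall (hallDvd_self M) (idxOne M) = idxTop M := by
  apply Subtype.ext
  rw [swapHall_val]
  show M / Nat.gcd 1 M * (1 / Nat.gcd 1 M) = M
  simp

/-- `W_M j = j(q^M)` -/
theorem wAutQ_jF : wAutQ (hallDvd_self M) (jF M) = gen M (idxTop M) := by
  rw [jF_eq_gen, wAutQ_gen, swapHall_idxOne]

/-- `[ℚ̄(X₀(M)) : ℚ̄(j(q^M))] = ψ(M)` -/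
theorem finrank_adjoin_genTop :
    Module.finrank Kb⟮gen M (idxTop M)⟯ (FN M) = dedekindPsi M := by
  rw [← wAutQ_jF, Fermat.Agent.GK.SymDegree.finrank_adjoin_algEquiv, finrank_FN]

theorem coe_genTop :
    ((gen M (idxTop M) : FN M) : LaurentSeries Kb) = qExpand Kb M (jqModC Kb) := by
  rw [coe_gen]
  rfl

/-- ambient form -/
theorem x0_relfinrank_jM_eq :
    relfinrank Kb⟮qExpand Kb M (jqModC Kb)⟯ (modularFunctionFieldFullC Kb M) = dedekindPsi M := by
  have h := finrank_adjoin_genTop M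
  rw [finrank_adjoin_eq_relfinrank, coe_genTop] at h
  rw [← modularFunctionFieldBar_eq]
  exact h

theorem x0_relfinrank_jM_ne_zero :
    relfinrank Kb⟮qExpand Kb M (jqModC Kb)⟯ (modularFunctionFieldFullC Kb M) ≠ 0 := by
  rw [x0_relfinrank_jM_eq]
  exact (Fermat.Agent.GJ.J1.Desc.dedekindPsi_pos M).ne'

end AL

/-! ### the residue-degree inequality of `ℚ̄(X₀(M))` at `j(q^M)` -/

section ResDeg

theorem finiteDimensional_genC_top :
    FiniteDimensional Kb⟮genC Kb A M (dvd_refl M)⟯ (modularFunctionFieldFullC Kb M) := by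
  apply FiniteDimensional.of_finrank_pos
  rw [finrank_adjoin_eq_relfinrank, coe_genC, x0_relfinrank_jM_eq]
  exact Fermat.Agent.GJ.J1.Desc.dedekindPsi_pos M

theorem transcendental_red_genC_top :
    Transcendental 𝕜 ((redDataC Kb A M).red
      ⟨genC Kb A M (dvd_refl M), genC_mem_RwC Kb A M (dvd_refl M)⟩) := by
  apply Fres.transcendental_of_coe
  rw [coe_red_genC]
  exact Fermat.Agent.GK.AL.transcendental_qExpand_jqModC 𝕜 M

/-- `[FresC : k(j~(Q^M))] ≤ [ℚ̄(X₀(M)) : ℚ̄(j(q^M))]`, ambient form -/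
theorem x0_relfinrank_jM_le :
    relfinrank 𝕜⟮qExpand 𝕜 M (jqModC 𝕜)⟯ (FresC Kb A M) ≤
      relfinrank Kb⟮qExpand Kb M (jqModC Kb)⟯ (modularFunctionFieldFullC Kb M) := by
  have := finiteDimensional_genC_top M A
  have h := (Fermat.Agent.GJ.S37.ResDeg.RedData.finrank_red_le (redDataC Kb A M)
    (genC_mem_RwC Kb A M (dvd_refl M)) (transcendental_red_genC_top M A)).2
  rw [finrank_adjoin_eq_relfinrank, finrank_adjoin_eq_relfinrank, coe_red_genC, coe_genC] at h
  exact h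

end ResDeg

/-! ### the bridge -/

section Main

variable {ℓ : ℕ} [Fact ℓ.Prime]

/-- **CHART BRIDGE, ambient form**: degree preservation of `ℚ̄(X₁(M))` at `j(q^M)` gives degree
preservation at `j(q)`. -/
theorem relfinrank_j1_le_of_jM (hℓM : ¬ ℓ ∣ M) (hA : A.LiesOverPrime ℓ)
    (hIG : relfinrank Kb⟮qExpand Kb M (jqModC Kb)⟯ (F1C Kb M) ≤
      relfinrank 𝕜⟮qExpand 𝕜 M (jqModC 𝕜)⟯ (Fres1C Kb A M)) :
    relfinrank Kb⟮jqModC Kb⟯ (F1C Kb M) ≤ relfinrank 𝕜⟮jqModC 𝕜⟯ (Fres1C Kb A M) := by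
  have hsF : jqModC Kb ∈ modularFunctionFieldFullC Kb M := by
    have := (genC Kb A M (one_dvd M)).2
    rwa [coe_genC, qExpand_one_apply] at this
  have htF : qExpand Kb M (jqModC Kb) ∈ modularFunctionFieldFullC Kb M := by
    have := (genC Kb A M (dvd_refl M)).2
    rwa [coe_genC] at this
  have hs' : jqModC 𝕜 ∈ FresC Kb A M := by
    have := ((redDataC Kb A M).red ⟨genC Kb A M (one_dvd M), genC_mem_RwC Kb A M _⟩).2
    rwa [coe_red_genC, qExpand_one_apply] at this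
  have ht' : qExpand 𝕜 M (jqModC 𝕜) ∈ FresC Kb A M := by
    have := ((redDataC Kb A M).red ⟨genC Kb A M (dvd_refl M), genC_mem_RwC Kb A M _⟩).2
    rwa [coe_red_genC] at this
  exact relfinrank_le_of_bridge (modularFunctionFieldFullC Kb M) (F1C Kb M) (fullC_le_F1C Kb M)
    (FresC Kb A M) (Fres1C Kb A M) (FresC_le_Fres1C Kb A M) hsF htF hs' ht'
    (x0_relfinrank_jM_ne_zero M) hIG (x0_relfinrank_jM_le M A) (x0_relfinrank_j_le M A hℓM hA)

/-- **CHART BRIDGE** (the `hdegj` binder of helper9 `K18s1Aux.k18s1_aux` VERBATIM from the output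
of the Igusa node at the chart `jE = j(q^M)`): for `ℓ ∤ M`, `A` over `ℓ`,
`[ℚ̄(X₁(M)) : ℚ̄(jE)] ≤ [Fres : k(jE~)]  ⟹  [ℚ̄(X₁(M)) : ℚ̄(j)] ≤ [Fres : k(j~)]`. -/
theorem hdeg_j1_of_hdeg_jM (hℓM : ¬ ℓ ∣ M) (hA : A.LiesOverPrime ℓ)
    (hIG : Module.finrank Kb⟮genJ1 Kb A M (dvd_refl M)⟯ (F1C Kb M) ≤
      Module.finrank
        𝕜⟮(redData1C Kb A M).red ⟨genJ1 Kb A M (dvd_refl M), genJ1_mem_Rw1C Kb A M _⟩⟯
        (Fres1C Kb A M)) :
    Module.finrank Kb⟮genJ1 Kb A M (one_dvd M)⟯ (F1C Kb M) ≤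
      Module.finrank
        𝕜⟮(redData1C Kb A M).red ⟨genJ1 Kb A M (one_dvd M), genJ1_mem_Rw1C Kb A M _⟩⟯
        (Fres1C Kb A M) := by
  rw [finrank_adjoin_eq_relfinrank, finrank_adjoin_eq_relfinrank, coe_red_genJ1, coe_genJ1] at hIG
  rw [finrank_adjoin_eq_relfinrank, finrank_adjoin_eq_relfinrank, coe_red_genJ1, coe_genJ1,
    qExpand_one_apply, qExpand_one_apply]
  exact relfinrank_j1_le_of_jM M A hℓM hA hIG

end Main

end Fermat.Agent.DS.P2.ChartBridge
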