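/-
GATE-N / S48 J1-PORT, node S48-P2-IG-DEG, file 3 (helper92): DESCENT OF THE CORE STATEMENT
from `(k, O)` (`k ⊇ ℚ` any field, `O` a discrete valuation ring with fraction field `k` and
`O ∩ ℚ = ℤ_(ℓ)`) to `(ℚ, ℤ_(ℓ))`.

`coreSer_rat_of_coreSer` : `CoreSer O Fbig (ι T)` for a set `Fbig ⊆ k((q))` stable under the
constants and containing `ι F0` gives `CoreSer ℤ_(ℓ) F0 T`, i.e. the statement
"the kernel of the reduction on the integral closure of `ℤ_(ℓ)[T]` in `F0` is `(ℓ)`" —
the `X₁`-analogue of the frozen S28 (for `F0 = F1 M`, `T = jE`).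

So the core statement proved by the Igusa step (`DS/P2/IgusaAbs.coreFin_of_twist`) over ANY
`(k, O)` above `ℓ` — no compatibility with the valuation ring `A ⊂ ℚ̄` is needed — feeds
`DegPresGenBC.finrank_le_finrank_Fres_of_core` at `(K₀, O) = (ℚ, ℤ_(ℓ))` for EVERY `A` over `ℓ`.

The only non-formal input is the S28 descent theorem `DescentLemma.descent_isIntegral` (linear
disjointness of `k` and `ℚ((q))` over `ℚ`), which is generic in the chart `T`.
-/
import Fermat.Agent.DS.P2.DegPresGen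
import Fermat.Agent.S28.ChartReduction

set_option autoImplicit false
set_option linter.unusedSectionVars false

noncomputable section

namespace Fermat.Agent.DS.P2.DegPresGen

open Polynomial HahnSeries ModularCurve GaloisRep
open Fermat.Agent.S28 Fermat.Agent.S28.DescentLemma

section Descent

variable {ℓ : ℕ} [Fact ℓ.Prime]
variable {k : Type*} [Field k] [Algebra ℚ k]
variable {O : Type*} [CommRing O] [IsDomain O] [IsDiscreteValuationRing O] [Algebra O k]
  [IsFractionRing O k]
variable (f : ↥(ratLocalizedAt ℓ) →+* O)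
  (hf : ∀ r : ↥(ratLocalizedAt ℓ), algebraMap O k (f r) = algebraMap ℚ k (r : ℚ))

include hf in
theorem evHom_comp_mapRingHom_ratLoc (T : LaurentSeries ℚ) :
    (evHom (algebraMap O k) (iota T : LaurentSeries k)).comp (mapRingHom f) =
      (iota (k := k)).comp (evHom (algebraMap ↥(ratLocalizedAt ℓ) ℚ) T) := by
  refine Polynomial.ringHom_ext (fun a => ?_) ?_
  · simp only [evHom, RingHom.comp_apply, coe_mapRingHom, Polynomial.map_C, coe_eval₂RingHom,
      eval₂_C]
    rw [HahnSeries.C_apply, HahnSeries.C_apply, coeffMap_single, hf]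
    rfl
  · simp [evHom]

include hf in
/-- integrality over `ℤ_(ℓ)[T]` is preserved by extension of the constants -/
theorem isIntegral_iota (T x : LaurentSeries ℚ)
    (hx : IsIntegral (Algebra.adjoin ↥(ratLocalizedAt ℓ) {T}) x) :
    IsIntegral (Algebra.adjoin O {(iota T : LaurentSeries k)}) (iota x : LaurentSeries k) := by
  rw [isIntegral_adjoin_singleton_iff_evHom] at hx ⊢
  obtain ⟨P, hP, hP0⟩ := hx
  refine ⟨P.map (mapRingHom f), hP.map _, ?_⟩
  rw [Polynomial.eval₂_map, evHom_comp_mapRingHom_ratLoc f hf, ← Polynomial.hom_eval₂, hP0,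
    map_zero]

include hf in
/-- **Descent of the core statement to `(ℚ, ℤ_(ℓ))`.** -/
theorem coreSer_rat_of_coreSer
    (hZ : ∀ x : ℚ, algebraMap ℚ k x ∈ (algebraMap O k).range → x ∈ ratLocalizedAt ℓ)
    (F0 : Set (LaurentSeries ℚ)) (Fbig : Set (LaurentSeries k))
    (hF : ∀ x ∈ F0, (iota x : LaurentSeries k) ∈ Fbig)
    (hFC : ∀ (c : k), ∀ x ∈ Fbig, HahnSeries.C c * x ∈ Fbig)
    {T : LaurentSeries ℚ} (hT : Transcendental ℚ T)
    (hcore : CoreSer O Fbig (iota T : LaurentSeries k)) :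
    CoreSer ↥(ratLocalizedAt ℓ) F0 T := by
  intro ϖ hϖ x hx hint hdiv
  obtain ⟨v, hv, hxv⟩ := hdiv
  have hf' : ∀ r : ↥(ratLocalizedAt ℓ),
      algebraMap O k (f r) = algebraMap ℚ k (algebraMap ↥(ratLocalizedAt ℓ) ℚ r) := hf
  apply descent_isIntegral O (ratLocalizedAt ℓ) hZ hT
  -- the element `p = f ϖ` of `O`
  set p : O := f ϖ with hp
  have hp0 : p ≠ 0 := by
    intro h0
    have h1 := hf ϖ
    rw [← hp, h0, map_zero] at h1
    have h2 : ((ϖ : ↥(ratLocalizedAt ℓ)) : ℚ) = 0 :=
      (map_eq_zero (algebraMap ℚ k)).mp h1.symm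
    exact hϖ.ne_zero (Subtype.ext h2)
  have hCp : (iota (HahnSeries.C (algebraMap ↥(ratLocalizedAt ℓ) ℚ ϖ)) : LaurentSeries k) =
      HahnSeries.C (algebraMap O k p) := by
    rw [HahnSeries.C_apply, coeffMap_single, HahnSeries.C_apply, hp, hf']
  have hgoal : (iota (HahnSeries.C (algebraMap ↥(ratLocalizedAt ℓ) ℚ ϖ)⁻¹ * x) :
      LaurentSeries k) = (HahnSeries.C (algebraMap O k p))⁻¹ * iota x := by
    rw [map_mul, map_inv₀ (HahnSeries.C : ℚ →+* LaurentSeries ℚ), map_inv₀, hCp]
  rw [hgoal]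
  -- `ι x = C p * ι v`, `ι v` Gauss-integral
  have hιv : (iota v : LaurentSeries k) ∈ gaussRing O k :=
    ChartReduction.coeffMap_mem_gaussRing f (algebraMap ℚ k) hf' hv
  have hιx : (iota x : LaurentSeries k) = HahnSeries.C (algebraMap O k p) * iota v := by
    rw [hxv, map_mul, hCp]
  have hιint : IsIntegral (Algebra.adjoin O {(iota T : LaurentSeries k)})
      (iota x : LaurentSeries k) := isIntegral_iota f hf T x hint
  have hpk0 : algebraMap O k p ≠ 0 := by
    rw [Ne, map_eq_zero_iff _ (IsFractionRing.injective O k)]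
    exact hp0
  -- write `p = u * ϖ' ^ e` and divide `e` times by the uniformizer `ϖ'` of `O`
  obtain ⟨ϖ', hϖ'⟩ := IsDiscreteValuationRing.exists_irreducible O
  obtain ⟨e, u, hpu⟩ := IsDiscreteValuationRing.eq_unit_mul_pow_irreducible hp0 hϖ'
  have hϖk0 : (HahnSeries.C (algebraMap O k ϖ') : LaurentSeries k) ≠ 0 := C_unif_ne_zero hϖ'
  have key : ∀ (m : ℕ) (y w : LaurentSeries k), y ∈ Fbig → w ∈ gaussRing O k →
      IsIntegral (Algebra.adjoin O {(iota T : LaurentSeries k)}) y →
      y = HahnSeries.C (algebraMap O k ϖ') ^ m * w →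
      IsIntegral (Algebra.adjoin O {(iota T : LaurentSeries k)})
        ((HahnSeries.C (algebraMap O k ϖ') ^ m)⁻¹ * y) := by
    intro m
    induction m with
    | zero =>
      intro y w _ _ hy _
      simpa using hy
    | succ m ih =>
      intro y w hyF hw hy hyw
      have h1 := hcore ϖ' hϖ' y hyF hy
        ⟨HahnSeries.C (algebraMap O k ϖ') ^ m * w,
          mul_mem (pow_mem (C_mem_gaussRing ϖ') m) hw, by rw [hyw, pow_succ]; ring⟩
      rw [map_inv₀ (HahnSeries.C : k →+* LaurentSeries k)] at h1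
      have h2 := ih ((HahnSeries.C (algebraMap O k ϖ'))⁻¹ * y) w
        (by rw [← map_inv₀]; exact hFC _ y hyF) hw h1
        (by rw [hyw, pow_succ]; field_simp)
      have h3 : (HahnSeries.C (algebraMap O k ϖ') ^ (m + 1))⁻¹ * y =
          (HahnSeries.C (algebraMap O k ϖ') ^ m)⁻¹ *
            ((HahnSeries.C (algebraMap O k ϖ'))⁻¹ * y) := by
        rw [pow_succ, mul_inv, mul_assoc]
      rw [h3]
      exact h2
  -- the unit
  have hu : IsIntegral (Algebra.adjoin O {(iota T : LaurentSeries k)})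
      (algebraMap O (LaurentSeries k) ((u⁻¹ : Oˣ) : O)) :=
    isIntegral_algebraMap (x := (⟨_, Subalgebra.algebraMap_mem _ ((u⁻¹ : Oˣ) : O)⟩ :
      Algebra.adjoin O {(iota T : LaurentSeries k)}))
  have hCu : (HahnSeries.C (algebraMap O k (u : O)) : LaurentSeries k) *
      HahnSeries.C (algebraMap O k ((u⁻¹ : Oˣ) : O)) = 1 := by
    rw [← map_mul, ← map_mul, Units.mul_inv, map_one, map_one]
  have hCu0 : (HahnSeries.C (algebraMap O k (u : O)) : LaurentSeries k) ≠ 0 :=
    left_ne_zero_of_mul_eq_one hCu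
  have hCuinv : (HahnSeries.C (algebraMap O k (u : O)) : LaurentSeries k)⁻¹ =
      HahnSeries.C (algebraMap O k ((u⁻¹ : Oˣ) : O)) := by
    rw [inv_eq_iff_eq_inv, eq_comm, inv_eq_of_mul_eq_one_left hCu]
  have hCpu : (HahnSeries.C (algebraMap O k p) : LaurentSeries k) =
      HahnSeries.C (algebraMap O k (u : O)) * HahnSeries.C (algebraMap O k ϖ') ^ e := by
    rw [hpu, map_mul, map_mul, map_pow, map_pow]
  have h4 := key e (iota x) (HahnSeries.C (algebraMap O k (u : O)) * iota v) (hF x hx)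
    (mul_mem (C_mem_gaussRing (u : O)) hιv) hιint (by rw [hιx, hCpu]; ring)
  have h5 := hu.mul h4
  have h6 : algebraMap O (LaurentSeries k) ((u⁻¹ : Oˣ) : O) *
      ((HahnSeries.C (algebraMap O k ϖ') ^ e)⁻¹ * iota x) =
      (HahnSeries.C (algebraMap O k p))⁻¹ * iota x := by
    rw [DescentLemma.algebraMap_laurentSeries_apply, hCpu, mul_inv, hCuinv, mul_assoc]
  rwa [h6] at h5

end Descent

end Fermat.Agent.DS.P2.DegPresGen
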