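/-
GATE-N / S48 J1-PORT, node S48-P2-IG-DEG, file 1 (helper92): DEGREE PRESERVATION, GENERIC.

Generic twin of helper28's `GJ/J1/Gauss/DegPresRat` (which is tied to `modularFunctionFieldFull N`,
the chart `j` and the frozen S28 chart algebra).  Here:

* `O` is ANY discrete valuation ring with fraction field `K₀` of characteristic `0`
  (`(ℤ_(ℓ), ℚ)` or `(OE A E, E)`, `E` a number field),
* `F0` is ANY intermediate field of `K₀((q))`,
* the chart `t = serEmb t0 ∈ F0` is ANY `O`-integral series, transcendental over `K₀`
  (for the port: `t = jE = j(q^M)`).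

Hypotheses:
* `hfrac`  : `F0 ⊆ Frac O((q))` (`gaussField O K₀`; automatic when `F0` is generated by integral series,
             `le_gaussField_of_adjoin`);
* `hbound` : the `K₀[t]`-polynomially independent families of `F0` have bounded cardinality
             (from ANY finiteness of a base change, `bound_of_finiteDimensional` in file 2);
* `hcore`  : `CoreSer O F0 t` = the S28 core conclusion in series form (`coreFin` of S28 /
             `IgusaAbs.coreFin_of_twist`): an element of `F0` integral over `O[t]` and divisible by the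
             uniformizer in the Gauss ring stays integral after division.

Conclusion `exists_basis_dvr`: there are `O`-integral series `y₁ … yₙ`, expansions of elements of `F0`
integral over `O[t]`, which are polynomially independent over `K₀[t]`, polynomially span `F0`, and
whose reductions are polynomially independent over `κ[t~]`.
-/
import Fermat.Agent.S28.CoreBridge
import Fermat.Agent.GJ.AuxLevel.DegCore
import Fermat.Agent.GJ.J1.Gauss.DegPresCIC
import Fermat.Agent.GJ.J1.Gauss.DegPresPoly

set_option autoImplicit false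
set_option linter.unusedSectionVars false
set_option linter.style.haveILetI false

noncomputable section

namespace Fermat.Agent.DS.P2.DegPresGen

open Polynomial HahnSeries ModularCurve IntermediateField
open Fermat.Agent.S28 Fermat.Agent.GJ.GaussDeg

/-! ### The core statement in series form -/

section Defs

variable (O : Type*) {K₀ : Type*} [CommRing O] [IsDomain O] [IsDiscreteValuationRing O]
  [Field K₀] [Algebra O K₀] [IsFractionRing O K₀]

/-- **The S28 core conclusion, series form**, for a set `F` of series over `K₀ = Frac O` and the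
chart `T`: an element of `F` integral over `O[T]` whose expansion is divisible by a uniformizer in
the Gauss ring stays integral over `O[T]` after division by the uniformizer. -/
def CoreSer (F : Set (LaurentSeries K₀)) (T : LaurentSeries K₀) : Prop :=
  ∀ ϖ : O, Irreducible ϖ → ∀ x ∈ F, IsIntegral (Algebra.adjoin O {T}) x →
    (∃ v ∈ gaussRing O K₀, x = HahnSeries.C (algebraMap O K₀ ϖ) * v) →
      IsIntegral (Algebra.adjoin O {T}) (HahnSeries.C (algebraMap O K₀ ϖ)⁻¹ * x)

variable {O}

theorem CoreSer.mono {F F' : Set (LaurentSeries K₀)} {T : LaurentSeries K₀} (h : CoreSer O F' T)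
    (hFF : F ⊆ F') : CoreSer O F T :=
  fun ϖ hϖ x hx => h ϖ hϖ x (hFF hx)

end Defs

/-! ### Evaluation homomorphisms -/

section Eval

variable {O K₀ : Type*} [CommRing O] [IsDomain O] [IsDiscreteValuationRing O]
  [Field K₀] [Algebra O K₀] [IsFractionRing O K₀]

theorem aeval_eq_evalL (T : LaurentSeries K₀) (P : O[X]) : aeval T P = evalL O T P := by
  have h := DescentLemma.aeval_eq_evHom (R := O) (E := K₀) T
  exact congrArg (fun f : O[X] →+* LaurentSeries K₀ => f P) h

theorem aeval_eq_evalLk (T : LaurentSeries K₀) (p : K₀[X]) : aeval T p = evalLk T p := by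
  have h := DescentLemma.aeval_eq_evHom (R := K₀) (E := K₀) T
  rw [Algebra.algebraMap_self] at h
  exact congrArg (fun f : K₀[X] →+* LaurentSeries K₀ => f p) h

theorem aeval_eq_evalκ {κ : Type*} [Field κ] (g : LaurentSeries κ) (p : κ[X]) :
    aeval g p = evalκ g p := by
  have h := DescentLemma.aeval_eq_evHom (R := κ) (E := κ) g
  rw [Algebra.algebraMap_self] at h
  exact congrArg (fun f : κ[X] →+* LaurentSeries κ => f p) h

instance isScalarTower_laurent : @IsScalarTower O K₀ (LaurentSeries K₀)
    Algebra.toSMul Algebra.toSMul Algebra.toSMul :=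
  IsScalarTower.of_algebraMap_eq (R := O) (S := K₀) (A := LaurentSeries K₀) fun r => by
    rw [DescentLemma.algebraMap_laurentSeries_apply r, algebraMap_eq_C]

end Eval

/-! ### `F0` as an algebra over `O[X]`, `X ↦ t` -/

section Alg

variable {O K₀ : Type*} [CommRing O] [IsDomain O] [IsDiscreteValuationRing O]
  [Field K₀] [Algebra O K₀] [IsFractionRing O K₀]
variable (F0 : IntermediateField K₀ (LaurentSeries K₀)) (t : F0)
variable [Algebra O[X] F0] (halg : algebraMap O[X] F0 = evalE O K₀ t)

include halg

theorem coe_algebraMap_poly (P : O[X]) :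
    ((algebraMap O[X] F0 P : F0) : LaurentSeries K₀) = evalL O (t : LaurentSeries K₀) P := by
  rw [halg, ← CoreBridge.val_comp_evalE F0 t]
  rfl

theorem coe_algebraMap_poly' (P : O[X]) :
    ((algebraMap O[X] F0 P : F0) : LaurentSeries K₀) = aeval (t : LaurentSeries K₀) P := by
  rw [coe_algebraMap_poly F0 t halg, aeval_eq_evalL]

theorem isIntegral_poly_iff (x : F0) :
    IsIntegral O[X] x ↔
      IsIntegral (Algebra.adjoin O {(t : LaurentSeries K₀)}) (x : LaurentSeries K₀) := by
  rw [← CoreBridge.isIntegralElem_evalE_iff F0 t x, ← halg]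
  rfl

theorem algebraMap_poly_C (a : O) :
    algebraMap O[X] F0 (C a) = algebraMap K₀ F0 (algebraMap O K₀ a) := by
  rw [halg]
  simp [evalE]

/-- transcendence of the chart gives faithfulness of the `O[X]`-action -/
theorem faithfulSMul_poly (httr : Transcendental K₀ (t : LaurentSeries K₀)) :
    FaithfulSMul O[X] F0 := by
  rw [faithfulSMul_iff_algebraMap_injective]
  intro P Q hPQ
  have h1 : evalL O (t : LaurentSeries K₀) P = evalL O (t : LaurentSeries K₀) Q := by
    rw [← coe_algebraMap_poly F0 t halg, ← coe_algebraMap_poly F0 t halg, hPQ]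
  rw [← evalLk_map, ← evalLk_map, ← aeval_eq_evalLk, ← aeval_eq_evalLk] at h1
  have h2 := transcendental_iff_injective.mp httr h1
  exact Polynomial.map_injective _ (IsFractionRing.injective O K₀) h2

end Alg

/-! ### Linear independence over `Frac O[X]` versus polynomial independence -/

section Frac

variable {O K₀ : Type*} [CommRing O] [IsDomain O] [IsDiscreteValuationRing O]
  [Field K₀] [Algebra O K₀] [IsFractionRing O K₀]
variable (F0 : IntermediateField K₀ (LaurentSeries K₀)) (t : F0)
variable [Algebra O[X] F0] (halg : algebraMap O[X] F0 = evalE O K₀ t)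
variable (K : Type*) [Field K] [Algebra O[X] K] [IsFractionRing O[X] K] [Algebra K F0]
  [IsScalarTower O[X] K F0]

include halg

/-- linear independence over the fraction field of `O[t]` gives polynomial independence of the
`q`-expansions over `O` -/
theorem polyIndep_int_of_linearIndependent {ι : Type*} [Fintype ι] (x : ι → F0)
    (h : LinearIndependent K x) :
    PolyIndep O (t : LaurentSeries K₀) (fun i => ((x i : F0) : LaurentSeries K₀)) := by
  classical
  intro p hp
  have h1 : LinearIndependent O[X] x := (LinearIndependent.iff_fractionRing O[X] K).mpr h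
  rw [Fintype.linearIndependent_iff] at h1
  refine h1 p ?_
  apply Subtype.val_injective
  rw [IntermediateField.coe_zero, ← hp]
  show ((∑ i, p i • x i : F0) : LaurentSeries K₀) = _
  rw [IntermediateField.coe_sum]
  refine Finset.sum_congr rfl fun i _ => ?_
  rw [Algebra.smul_def, IntermediateField.coe_mul, coe_algebraMap_poly' F0 t halg]

/-- … and over `K₀` -/
theorem polyIndep_of_linearIndependent {ι : Type*} [Fintype ι] (x : ι → F0)
    (h : LinearIndependent K x) :
    PolyIndep K₀ (t : LaurentSeries K₀) (fun i => ((x i : F0) : LaurentSeries K₀)) :=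
  PolyIndep.of_isFractionRing (polyIndep_int_of_linearIndependent F0 t halg K x h)

/-- a bound on the polynomially independent families gives finiteness over `Frac O[t]` -/
theorem finiteDimensional_of_bound
    (hbound : ∃ B : ℕ, ∀ (n : ℕ) (x : Fin n → LaurentSeries K₀), (∀ i, x i ∈ F0) →
      PolyIndep K₀ (t : LaurentSeries K₀) x → n ≤ B) :
    FiniteDimensional K F0 := by
  classical
  obtain ⟨B, hB⟩ := hbound
  have hrank : Module.rank K F0 ≤ (B : ℕ) := by
    refine rank_le fun s hs => ?_
    set e := Fintype.equivFin (↥s) with he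
    have hs' : LinearIndependent K (fun i : Fin (Fintype.card ↥s) => ((e.symm i : ↥s) : F0)) :=
      hs.comp _ e.symm.injective
    have h1 := polyIndep_of_linearIndependent F0 t halg K _ hs'
    have h2 := hB _ _ (fun i => ((e.symm i : ↥s) : F0).2) h1
    simpa using h2
  exact Module.rank_lt_aleph0_iff.mp (lt_of_le_of_lt hrank (Cardinal.natCast_lt_aleph0))

end Frac

/-! ### The reduction on the integral closure of `O[t]` in `F0` -/

section Red

variable {O K₀ : Type*} [CommRing O] [IsDomain O] [IsDiscreteValuationRing O]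
  [Field K₀] [Algebra O K₀] [IsFractionRing O K₀]
variable (F0 : IntermediateField K₀ (LaurentSeries K₀)) (t : F0)
variable [Algebra O[X] F0] (halg : algebraMap O[X] F0 = evalE O K₀ t)
variable (hmem : (t : LaurentSeries K₀) ∈ gaussRing O K₀)
  (hfrac : ∀ x ∈ F0, x ∈ gaussField O K₀)

include halg hmem hfrac in
/-- elements of `F0` integral over `O[t]` are Gauss-integral -/
theorem coe_mem_gaussRing_of_isIntegral {x : F0} (hx : IsIntegral O[X] x) :
    (x : LaurentSeries K₀) ∈ gaussRing O K₀ := by
  obtain ⟨ϖ, hϖ⟩ := IsDiscreteValuationRing.exists_irreducible O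
  have h1 : (evalL O (t : LaurentSeries K₀)).IsIntegralElem (x : LaurentSeries K₀) :=
    (CoreBridge.isIntegralElem_evalL_iff _ _).mpr ((isIntegral_poly_iff F0 t halg x).mp hx)
  rw [← subtype_comp_evalV hmem] at h1
  exact mem_gaussRing_of_isIntegral hϖ (hfrac _ x.2) h1.of_comp

/-- the integral closure of `O[t]` in `F0` inside the Gauss ring -/
def icToGauss : ↥(integralClosure O[X] F0) →+* ↥(gaussRing O K₀) where
  toFun x := ⟨((x : F0) : LaurentSeries K₀),
    coe_mem_gaussRing_of_isIntegral F0 t halg hmem hfrac x.2⟩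
  map_one' := rfl
  map_mul' _ _ := rfl
  map_zero' := rfl
  map_add' _ _ := rfl

@[simp] theorem coe_icToGauss (x : ↥(integralClosure O[X] F0)) :
    ((icToGauss F0 t halg hmem hfrac x : ↥(gaussRing O K₀)) : LaurentSeries K₀) =
      ((x : F0) : LaurentSeries K₀) := rfl

/-- **the reduction on the integral closure of `O[t]` in `F0`** -/
def redIC : ↥(integralClosure O[X] F0) →+* LaurentSeries (IsLocalRing.ResidueField O) :=
  (gaussRed O K₀).comp (icToGauss F0 t halg hmem hfrac)

theorem redIC_apply (x : ↥(integralClosure O[X] F0)) :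
    redIC F0 t halg hmem hfrac x =
      gaussRed O K₀ ⟨((x : F0) : LaurentSeries K₀),
        coe_mem_gaussRing_of_isIntegral F0 t halg hmem hfrac x.2⟩ := rfl

/-- the reduction of a polynomial in `t` -/
theorem redIC_algebraMap (P : O[X]) :
    redIC F0 t halg hmem hfrac (algebraMap O[X] ↥(integralClosure O[X] F0) P) =
      evalκ (gaussRed O K₀ ⟨(t : LaurentSeries K₀), hmem⟩)
        (P.map (IsLocalRing.residue O)) := by
  have h1 : icToGauss F0 t halg hmem hfrac (algebraMap O[X] ↥(integralClosure O[X] F0) P) =
      evalV hmem P := by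
    apply Subtype.ext
    rw [coe_icToGauss, coe_evalV]
    exact coe_algebraMap_poly F0 t halg P
  rw [redIC, RingHom.comp_apply, h1]
  exact congrArg (fun f : O[X] →+* LaurentSeries (IsLocalRing.ResidueField O) => f P)
    (gaussRed_comp_evalV hmem)

/-- **the kernel of the reduction is generated by the uniformizer**, from the core statement -/
theorem redIC_ker (hcore : CoreSer O (F0 : Set (LaurentSeries K₀)) (t : LaurentSeries K₀))
    {ϖ : O} (hϖ : Irreducible ϖ) (x : ↥(integralClosure O[X] F0))
    (hx : redIC F0 t halg hmem hfrac x = 0) :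
    ∃ y : ↥(integralClosure O[X] F0),
      x = algebraMap O[X] ↥(integralClosure O[X] F0) (C ϖ) * y := by
  rw [redIC_apply, gaussRed_eq_zero_iff hϖ] at hx
  have hint := (isIntegral_poly_iff F0 t halg (x : F0)).mp x.2
  have h1 := hcore ϖ hϖ _ (x : F0).2 hint hx
  have hϖ0 : algebraMap O K₀ ϖ ≠ 0 := by
    rw [Ne, map_eq_zero_iff _ (IsFractionRing.injective O K₀)]
    exact hϖ.ne_zero
  set y0 : F0 := algebraMap K₀ F0 (algebraMap O K₀ ϖ)⁻¹ * (x : F0) with hy0
  have hy0int : IsIntegral O[X] y0 := by
    rw [isIntegral_poly_iff F0 t halg, hy0, CoreBridge.coe_algebraMap_mul]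
    exact h1
  refine ⟨⟨y0, hy0int⟩, Subtype.ext ?_⟩
  show (x : F0) = algebraMap O[X] F0 (C ϖ) * y0
  rw [algebraMap_poly_C F0 t halg, hy0, ← mul_assoc, ← map_mul, mul_inv_cancel₀ hϖ0, map_one,
    one_mul]

end Red

/-! ### Honest integral expansions -/

section Int

variable {O K₀ : Type*} [CommRing O] [IsDomain O] [IsDiscreteValuationRing O]
  [Field K₀] [Algebra O K₀] [IsFractionRing O K₀]

/-- evaluation of `O[X]` inside the ring of `O`-integral series -/
def evalRange (t0 : LaurentSeries O) : O[X] →+* ↥(serEmb O K₀).range :=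
  (serEmb O K₀).rangeRestrict.comp
    (Polynomial.eval₂RingHom (HahnSeries.C : O →+* LaurentSeries O) t0)

theorem subtype_comp_evalRange (t0 : LaurentSeries O) :
    ((serEmb O K₀).range.subtype).comp (evalRange (K₀ := K₀) t0) =
      evalL O (serEmb O K₀ t0) := by
  apply Polynomial.ringHom_ext
  · intro a
    simp only [evalRange, evalL, RingHom.comp_apply, coe_eval₂RingHom, eval₂_C,
      Subring.subtype_apply, RingHom.coe_rangeRestrict]
    exact serEmb_C a
  · simp [evalRange, evalL]

/-- an element of `Frac O((q))` integral over `O[t]`, `t` an `O`-integral series, is an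
`O`-integral series -/
theorem mem_range_serEmb_of_isIntegral (t0 : LaurentSeries O) {x : LaurentSeries K₀}
    (hx : x ∈ gaussField O K₀)
    (hint : IsIntegral (Algebra.adjoin O {serEmb O K₀ t0}) x) :
    x ∈ (serEmb O K₀).range := by
  obtain ⟨g, h, hh, hxgh⟩ := mem_gaussField_iff.mp hx
  have h1 : (evalL O (serEmb O K₀ t0)).IsIntegralElem x :=
    (CoreBridge.isIntegralElem_evalL_iff _ _).mpr hint
  rw [← subtype_comp_evalRange t0] at h1
  have h2 : IsIntegral ↥(serEmb O K₀).range x := h1.of_comp
  have hh' : serEmb O K₀ h ≠ 0 := (serEmb_eq_zero_iff O K₀).not.mpr hh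
  exact mem_range_coeffMap_of_isIntegral isCIC_of_isDiscreteValuationRing (g := g) (h := h) hh'
    (by rw [mul_comm]; exact hxgh) h2

end Int

/-! ### Degree preservation over `(K₀, O, κ)` -/

section Main

variable {O K₀ : Type*} [CommRing O] [IsDomain O] [IsDiscreteValuationRing O]
  [Field K₀] [Algebra O K₀] [IsFractionRing O K₀] [CharZero K₀]

attribute [local instance] FractionRing.liftAlgebra

set_option maxHeartbeats 1600000 in
/-- **Degree preservation over a discrete valuation ring, generic.**  `F0 ⊆ K₀((q))` a field of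
quotients of `O`-integral series, `t = serEmb t0 ∈ F0` an `O`-integral chart transcendental over
`K₀`, bounded polynomial independence, and the S28 core statement `CoreSer O F0 t`.  Then there are
`O`-integral Laurent series `y₁, …, yₙ`, `q`-expansions of elements of `F0` integral over `O[t]`,
such that
* (b) they are polynomially independent over `K₀[t]`,
* (c) every element of `F0` is a `K₀(t)`-combination of them (polynomial form),
* (d) their reductions are polynomially independent over `κ[t~]`. -/
theorem exists_basis_dvr (F0 : IntermediateField K₀ (LaurentSeries K₀)) (t0 : LaurentSeries O)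
    (ht : serEmb O K₀ t0 ∈ F0) (httr : Transcendental K₀ (serEmb O K₀ t0))
    (hfrac : ∀ x ∈ F0, x ∈ gaussField O K₀)
    (hbound : ∃ B : ℕ, ∀ (n : ℕ) (x : Fin n → LaurentSeries K₀), (∀ i, x i ∈ F0) →
      PolyIndep K₀ (serEmb O K₀ t0) x → n ≤ B)
    (hcore : CoreSer O (F0 : Set (LaurentSeries K₀)) (serEmb O K₀ t0)) :
    ∃ (n : ℕ) (y : Fin n → LaurentSeries O),
      (∀ i, serEmb O K₀ (y i) ∈ F0) ∧
      (∀ i, IsIntegral (Algebra.adjoin O {serEmb O K₀ t0}) (serEmb O K₀ (y i))) ∧
      PolyIndep K₀ (serEmb O K₀ t0) (fun i => serEmb O K₀ (y i)) ∧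
      (∀ x ∈ F0, PolySpan K₀ (serEmb O K₀ t0) (fun i => serEmb O K₀ (y i)) x) ∧
      PolyIndep (IsLocalRing.ResidueField O) (serRed O t0) (fun i => serRed O (y i)) := by
  classical
  set t : F0 := ⟨serEmb O K₀ t0, ht⟩ with htdef
  letI alg : Algebra O[X] F0 := (evalE O K₀ t).toAlgebra
  have halg : algebraMap O[X] F0 = evalE O K₀ t := rfl
  haveI : FaithfulSMul O[X] F0 := faithfulSMul_poly F0 t halg httr
  haveI : FiniteDimensional (FractionRing O[X]) F0 :=
    finiteDimensional_of_bound F0 t halg (FractionRing O[X]) hbound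
  haveI : CharZero F0 := charZero_of_injective_algebraMap (algebraMap K₀ F0).injective
  haveI : CharZero (FractionRing O[X]) := (algebraMap (FractionRing O[X]) F0).charZero
  obtain ⟨ϖ, hϖ⟩ := IsDiscreteValuationRing.exists_irreducible O
  have hprime : Prime (C ϖ : O[X]) := Polynomial.prime_C_iff.mpr hϖ.prime
  have hfin : ∀ c : O[X], c ≠ 0 → FiniteMultiplicity (C ϖ) c := fun c hc =>
    FiniteMultiplicity.of_not_isUnit hprime.not_isUnit hc
  have hmem : (t : LaurentSeries K₀) ∈ gaussRing O K₀ := serEmb_mem_gaussRing t0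
  obtain ⟨b, hli, hred⟩ := Fermat.Agent.GJ.AuxLevel.Deg.exists_redIndep_basis
    (K := FractionRing O[X]) (C ϖ) hprime hfin (redIC F0 t halg hmem hfrac)
    (fun x hx => redIC_ker F0 t halg hmem hfrac hcore hϖ x hx)
  -- the integral expansions
  have hbint : ∀ i, IsIntegral (Algebra.adjoin O {serEmb O K₀ t0})
      (((b i : F0)) : LaurentSeries K₀) := fun i =>
    (isIntegral_poly_iff F0 t halg (b i : F0)).mp (b i).2
  have hrange : ∀ i, (((b i : F0)) : LaurentSeries K₀) ∈ (serEmb O K₀).range := fun i =>
    mem_range_serEmb_of_isIntegral t0 (hfrac _ (b i : F0).2) (hbint i)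
  choose y hy using hrange
  have hyred : ∀ i, serRed O (y i) = redIC F0 t halg hmem hfrac (b i) := by
    intro i
    rw [redIC_apply, ← gaussRed_serEmb (O := O) (k := K₀) (y i)]
    congr 1
    exact Subtype.ext (hy i)
  refine ⟨_, y, fun i => by rw [hy i]; exact (b i : F0).2, fun i => by rw [hy i]; exact hbint i,
    ?_, ?_, ?_⟩
  · -- (b)
    have h1 := polyIndep_of_linearIndependent F0 t halg (FractionRing O[X]) _ hli
    simpa only [hy] using h1
  · -- (c)
    intro x hx
    set xF : F0 := ⟨x, hx⟩ with hxF
    have htop := hli.span_eq_top_of_card_eq_finrank' (by simp)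
    let bas := Module.Basis.mk hli htop.ge
    have hrepr : xF = ∑ i, bas.repr xF i • (b i : F0) := by
      conv_lhs => rw [← bas.sum_repr xF]
      refine Finset.sum_congr rfl fun i _ => ?_
      rw [Module.Basis.mk_apply]
    obtain ⟨s, hs⟩ := IsLocalization.exist_integer_multiples
      (nonZeroDivisors O[X]) Finset.univ (fun i => bas.repr xF i)
    choose c hc using fun i => hs i (Finset.mem_univ i)
    have hs0 : (s : O[X]) ≠ 0 := nonZeroDivisors.coe_ne_zero s
    have hrel : algebraMap O[X] F0 (s : O[X]) * xF =
        ∑ i, algebraMap O[X] F0 (c i) * (b i : F0) := by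
      have h2 : (s : O[X]) • xF = ∑ i, (c i) • (b i : F0) := by
        conv_lhs => rw [hrepr, Finset.smul_sum]
        refine Finset.sum_congr rfl fun i _ => ?_
        rw [← algebraMap_smul (FractionRing O[X]) (c i), hc i, smul_assoc]
      simpa only [Algebra.smul_def] using h2
    refine ⟨(s : O[X]).map (algebraMap O K₀), fun i => (c i).map (algebraMap O K₀), ?_, ?_⟩
    · intro h0
      have h3 := (transcendental_iff.mp httr) _ h0
      exact hs0 ((Polynomial.map_eq_zero_iff (IsFractionRing.injective O K₀)).mp h3)
    · have h4 := congrArg (fun z : F0 => (z : LaurentSeries K₀)) hrel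
      simp only [IntermediateField.coe_mul, IntermediateField.coe_sum,
        coe_algebraMap_poly F0 t halg] at h4
      simp only [aeval_eq_evalLk, evalLk_map]
      simpa only [hy] using h4
  · -- (d)
    intro p hp i
    have hsurj : Function.Surjective (IsLocalRing.residue O) := IsLocalRing.residue_surjective
    choose P hP using fun i => Polynomial.map_surjective _ hsurj (p i)
    have htred : gaussRed O K₀ ⟨(t : LaurentSeries K₀), hmem⟩ = serRed O t0 :=
      gaussRed_serEmb t0
    have hsum : ∑ i, redIC F0 t halg hmem hfrac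
        (algebraMap O[X] ↥(integralClosure O[X] F0) (P i)) *
        redIC F0 t halg hmem hfrac (b i) = 0 := by
      rw [← hp]
      refine Finset.sum_congr rfl fun i _ => ?_
      rw [redIC_algebraMap, htred, hP i, ← aeval_eq_evalκ, ← hyred i]
    obtain ⟨Q, hQ⟩ := hred P hsum i
    rw [← hP i, hQ, Polynomial.map_mul, Polynomial.map_C,
      (IsLocalRing.residue_eq_zero_iff _).mpr, map_zero, zero_mul]
    rw [hϖ.maximalIdeal_eq]
    exact Ideal.mem_span_singleton_self _

end Main

/-! ### Producers of the hypotheses -/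

section Producers

variable {O K₀ : Type*} [CommRing O] [IsDomain O] [IsDiscreteValuationRing O]
  [Field K₀] [Algebra O K₀] [IsFractionRing O K₀]

/-- a field generated over `K₀` by `O`-integral series consists of quotients of `O`-integral
series -/
theorem mem_gaussField_of_mem_adjoin {S : Set (LaurentSeries K₀)}
    (hS : ∀ s ∈ S, s ∈ (serEmb O K₀).range) {x : LaurentSeries K₀}
    (hx : x ∈ IntermediateField.adjoin K₀ S) : x ∈ gaussField O K₀ := by
  have hle : IntermediateField.adjoin K₀ S ≤
      (gaussField O K₀).toIntermediateField (fun c => by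
        rw [algebraMap_eq_C]; exact C_mem_gaussField c) := by
    rw [IntermediateField.adjoin_le_iff]
    intro s hs
    obtain ⟨g, rfl⟩ := hS s hs
    exact serEmb_mem_gaussField O K₀ g
  exact hle hx

/-- **From the `IgusaAbs` / S28 `ChartHyp` shape to the series form**: the conclusion of
`ChartHyp.coreFin`, `IgusaAbs.coreFin_of_twist`, `IgusaAbs.coreFin_of_ker` for an abstract field `E`
with standard expansion `σ₀` gives `CoreSer` on the image of `σ₀`. -/
theorem coreSer_of_isIntegralElem {E : Type*} [Field E] [Algebra K₀ E]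
    (σ₀ : E →ₐ[K₀] LaurentSeries K₀) (G : E)
    (hcoreE : ∀ {ϖ : O}, Irreducible ϖ → ∀ {a : E}, (evalE O K₀ G).IsIntegralElem a →
      (∃ v ∈ gaussRing O K₀, σ₀ a = HahnSeries.C (algebraMap O K₀ ϖ) * v) →
        (evalE O K₀ G).IsIntegralElem (algebraMap K₀ E (algebraMap O K₀ ϖ)⁻¹ * a)) :
    CoreSer O (Set.range σ₀) (σ₀ G) := by
  rintro ϖ hϖ _ ⟨a, rfl⟩ hint hdiv
  have hiff : ∀ b : E, (evalE O K₀ G).IsIntegralElem b ↔
      IsIntegral (Algebra.adjoin O {σ₀ G}) (σ₀ b) := by
    intro b
    rw [← CoreBridge.isIntegralElem_evalL_iff, ← sigma_comp_evalE (O := O) σ₀ G]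
    exact ⟨fun h => h.map (σ₀ : E →+* LaurentSeries K₀),
      fun h => h.of_map (σ₀ : E →+* LaurentSeries K₀).injective⟩
  have h1 := hcoreE hϖ ((hiff a).mpr hint) hdiv
  have h2 := (hiff _).mp h1
  rwa [map_mul, AlgHom.commutes, algebraMap_eq_C] at h2

end Producers

end Fermat.Agent.DS.P2.DegPresGen
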