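/-
GATE-N / S48 J1-PORT, node S48-P2-IG-DEG, file 2 (helper92): DEGREE PRESERVATION, GENERIC —
base change `(K₀, O, κ) → (L, A, k)` and the `hdeg` binder of `k18sF_of_chart`.

Generic twin of helper28's `GJ/J1/Gauss/DegPres` + `DegAtJ`.  `O` a discrete valuation ring with
fraction field `K₀` (char. `0`), `L / K₀` ANY field extension, `A` a valuation subring of `L`
containing the image of `O`, `π : A →+* k` a ring hom to a field killing the maximal ideal of `O`.
`F0 ⊆ K₀((q))` as in file 1 (`DegPresGen.exists_basis_dvr`) and `F ⊆ L((q))` its base change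
(`hF1 : coeffMap F0 ⊆ F`, `hF2 : F ≤ L(coeffMap F0)`).

* `polySpan_of_mem_adjoin_image` : a polynomially spanning family of `F0` stays polynomially spanning
  for the base change;
* `exists_basis`       : the polynomial form of the basis over `(L, A, k)`;
* `exists_basis_field` : the field form (`n = [F : L(t)]`, `L(t)`-basis, `k(t~)`-independent reductions);
* `bound_of_finiteDimensional` : the hypothesis `hbound` of file 1 from finiteness of `F / L(t)`;
* `finrank_le_finrank_Fres_of_core` : **`[F : L(t)] ≤ [Fres : κ(red t)]`**, the `hdeg` binder of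
  `DS/P2/K18sF.k18sF_of_chart`, from the core statement `CoreSer O F0 t`.
-/
import Fermat.Agent.DS.P2.DegPresGen
import Fermat.Agent.GJ.AuxLevel.DegFinal

set_option autoImplicit false
set_option linter.unusedSectionVars false
set_option linter.style.haveILetI false

noncomputable section

namespace Fermat.Agent.DS.P2.DegPresGen

open Polynomial HahnSeries ModularCurve IntermediateField
open Fermat.Agent.S28 Fermat.Agent.GJ.GaussDeg

/-! ### Polynomial span under base change of the constants -/

section Span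

variable {K₀ L : Type*} [Field K₀] [Field L] [Algebra K₀ L]
variable {F₀ : IntermediateField K₀ (LaurentSeries K₀)} {ι : Type*} [Fintype ι]
  {b : ι → LaurentSeries K₀} {J₀ : LaurentSeries K₀}

/-- **A polynomially spanning family of `F₀ ⊆ K₀((q))` stays polynomially spanning for the field
generated over `L` by the image of `F₀` in `L((q))`.**  (Generic twin of
`GaussDeg.polySpan_of_mem_laurentBaseChange`.) -/
theorem polySpan_of_mem_adjoin_image (hb : ∀ i, b i ∈ F₀)
    (hspan : ∀ x ∈ F₀, PolySpan K₀ J₀ b x) {X : LaurentSeries L}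
    (hX : X ∈ IntermediateField.adjoin L
      (⇑(coeffMap (algebraMap K₀ L)) '' (F₀ : Set (LaurentSeries K₀)))) :
    PolySpan L (coeffMap (algebraMap K₀ L) J₀) (fun i => coeffMap (algebraMap K₀ L) (b i)) X := by
  set J : LaurentSeries L := coeffMap (algebraMap K₀ L) J₀ with hJ
  set B : ι → LaurentSeries L := fun i => coeffMap (algebraMap K₀ L) (b i) with hB
  set W : Submodule L⟮J⟯ (LaurentSeries L) := Submodule.span L⟮J⟯ (Set.range B) with hW
  -- generators
  have hgen : ∀ x ∈ F₀, coeffMap (algebraMap K₀ L) x ∈ W := fun x hx =>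
    ((hspan x hx).baseChange (K := L)).mem_span
  have h1 : (1 : LaurentSeries L) ∈ W := by
    have := hgen 1 (one_mem F₀)
    rwa [map_one] at this
  -- multiplicative closure
  have hmulB : ∀ i, ∀ Y ∈ W, B i * Y ∈ W := by
    intro i Y hY
    induction hY using Submodule.span_induction with
    | mem y hy =>
      obtain ⟨k, rfl⟩ := hy
      have := hgen (b i * b k) (mul_mem (hb i) (hb k))
      rwa [map_mul] at this
    | zero => rw [mul_zero]; exact zero_mem _
    | add y z _ _ hy hz => rw [mul_add]; exact add_mem hy hz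
    | smul a y _ hy => rw [mul_smul_comm]; exact Submodule.smul_mem _ _ hy
  have hmul : ∀ X Y, X ∈ W → Y ∈ W → X * Y ∈ W := by
    intro X Y hX hY
    induction hX using Submodule.span_induction with
    | mem y hy =>
      obtain ⟨i, rfl⟩ := hy
      exact hmulB i Y hY
    | zero => rw [zero_mul]; exact zero_mem _
    | add y z _ _ hy hz => rw [add_mul]; exact add_mem hy hz
    | smul a y _ hy => rw [smul_mul_assoc]; exact Submodule.smul_mem _ _ hy
  set Wa : Subalgebra L⟮J⟯ (LaurentSeries L) := W.toSubalgebra h1 hmul with hWa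
  have hfg : Wa.toSubmodule.FG := by
    have : Wa.toSubmodule = W := Submodule.toSubalgebra_toSubmodule W h1 hmul
    rw [this]
    exact Submodule.fg_span (Set.finite_range B)
  have hinv : ∀ Y ∈ W, Y⁻¹ ∈ W := by
    intro Y hY
    have hint : IsIntegral L⟮J⟯ Y := IsIntegral.of_mem_of_fg Wa hfg Y hY
    exact Subalgebra.inv_mem_of_algebraic (A := Wa) (x := ⟨Y, hY⟩) hint.isAlgebraic
  -- closure induction
  have hmem : X ∈ W := by
    change X ∈ Subfield.closure (Set.range (algebraMap L (LaurentSeries L)) ∪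
      (⇑(coeffMap (algebraMap K₀ L)) '' (F₀ : Set (LaurentSeries K₀)))) at hX
    induction hX using Subfield.closure_induction with
    | mem y hy =>
      rcases hy with ⟨a, rfl⟩ | ⟨z, hz, rfl⟩
      · have h2 : algebraMap L (LaurentSeries L) a =
            (algebraMap L L⟮J⟯ a) • (1 : LaurentSeries L) := by
          rw [IntermediateField.smul_def, smul_eq_mul, mul_one]
          rfl
        rw [h2]
        exact Submodule.smul_mem _ _ h1
      · exact hgen z hz
    | one => exact h1
    | add x y _ _ hx hy => exact add_mem hx hy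
    | neg x _ hx => exact neg_mem hx
    | inv x _ hx => exact hinv x hx
    | mul x y _ _ hx hy => exact hmul x y hx hy
  exact polySpan_of_mem_span hmem

/-- a polynomially independent nonempty family forces the chart to be transcendental -/
theorem transcendental_of_polyIndep {K E : Type*} [Field K] [CommRing E] [Algebra K E]
    {J : E} {ι : Type*} [Fintype ι] [Nonempty ι] {x : ι → E} (h : PolyIndep K J x) :
    Transcendental K J := by
  classical
  obtain ⟨i0⟩ := ‹Nonempty ι›
  rw [transcendental_iff]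
  intro p hp
  have h0 : ∑ i, aeval J ((Pi.single i0 p : ι → K[X]) i) * x i = 0 := by
    rw [Finset.sum_eq_single i0]
    · rw [Pi.single_eq_same, hp, zero_mul]
    · intro j _ hj
      rw [Pi.single_eq_of_ne hj, map_zero, zero_mul]
    · intro h'
      exact absurd (Finset.mem_univ i0) h'
  have := h _ h0 i0
  rwa [Pi.single_eq_same] at this

end Span

/-! ### `O → A` -/

section ToA

variable {O K₀ : Type*} [CommRing O] [Field K₀] [Algebra O K₀]
variable {L : Type*} [Field L] [Algebra K₀ L] (A : ValuationSubring L)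
variable (hOA : ∀ a : O, algebraMap K₀ L (algebraMap O K₀ a) ∈ A)

/-- the map `O → A` -/
def toA : O →+* ↥A :=
  ((algebraMap K₀ L).comp (algebraMap O K₀)).codRestrict A.toSubring hOA

theorem coe_toA (a : O) : ((toA A hOA a : ↥A) : L) = algebraMap K₀ L (algebraMap O K₀ a) := rfl

theorem subtype_comp_toA :
    A.subtype.comp (toA A hOA) = (algebraMap K₀ L).comp (algebraMap O K₀) := rfl

/-- the series over `L` attached to an `O`-integral series -/
theorem coeffMap_subtype_toA (y : LaurentSeries O) :
    coeffMap A.subtype (coeffMap (toA A hOA) y) =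
      coeffMap (algebraMap K₀ L) (coeffMap (algebraMap O K₀) y) := by
  rw [coeffMap_coeffMap, coeffMap_coeffMap, subtype_comp_toA]

end ToA

/-! ### The export over `(L, A, k)` -/

section Export

variable {O K₀ : Type*} [CommRing O] [IsDomain O] [IsDiscreteValuationRing O]
  [Field K₀] [Algebra O K₀] [IsFractionRing O K₀] [CharZero K₀]
variable {L : Type*} [Field L] [Algebra K₀ L] (A : ValuationSubring L)
variable (hOA : ∀ a : O, algebraMap K₀ L (algebraMap O K₀ a) ∈ A)
variable {k : Type*} [Field k] (π : ↥A →+* k)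

/-- **Degree preservation at the level `(L, A, k)`, polynomial form.** -/
theorem exists_basis
    (hπ : ∀ a ∈ IsLocalRing.maximalIdeal O, π (toA A hOA a) = 0)
    (F0 : IntermediateField K₀ (LaurentSeries K₀)) (t0 : LaurentSeries O)
    (ht : serEmb O K₀ t0 ∈ F0) (httr : Transcendental K₀ (serEmb O K₀ t0))
    (hfrac : ∀ x ∈ F0, x ∈ gaussField O K₀)
    (hbound : ∃ B : ℕ, ∀ (n : ℕ) (x : Fin n → LaurentSeries K₀), (∀ i, x i ∈ F0) →
      PolyIndep K₀ (serEmb O K₀ t0) x → n ≤ B)
    (hcore : CoreSer O (F0 : Set (LaurentSeries K₀)) (serEmb O K₀ t0))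
    (F : IntermediateField L (LaurentSeries L))
    (hF1 : ∀ x ∈ F0, coeffMap (algebraMap K₀ L) x ∈ F)
    (hF2 : F ≤ IntermediateField.adjoin L
      (⇑(coeffMap (algebraMap K₀ L)) '' (F0 : Set (LaurentSeries K₀)))) :
    ∃ (n : ℕ) (y : Fin n → LaurentSeries O) (z : Fin n → LaurentSeries ↥A),
      (∀ i, serEmb O K₀ (y i) ∈ F0) ∧
      (∀ i, IsIntegral (Algebra.adjoin O {serEmb O K₀ t0}) (serEmb O K₀ (y i))) ∧
      (∀ i, z i = coeffMap (toA A hOA) (y i)) ∧
      (∀ i, coeffMap A.subtype (z i) ∈ F) ∧
      PolyIndep L (coeffMap A.subtype (coeffMap (toA A hOA) t0))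
        (fun i => coeffMap A.subtype (z i)) ∧
      (∀ X : LaurentSeries L, X ∈ F →
        PolySpan L (coeffMap A.subtype (coeffMap (toA A hOA) t0))
          (fun i => coeffMap A.subtype (z i)) X) ∧
      PolyIndep k (coeffMap π (coeffMap (toA A hOA) t0)) (fun i => coeffMap π (z i)) := by
  obtain ⟨n, y, hmem, hint, hb, hc, hd⟩ :=
    exists_basis_dvr F0 t0 ht httr hfrac hbound hcore
  refine ⟨n, y, fun i => coeffMap (toA A hOA) (y i), hmem, hint, fun _ => rfl, ?_, ?_, ?_, ?_⟩
  · intro i
    rw [coeffMap_subtype_toA]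
    exact hF1 _ (hmem i)
  · have h1 := hb.baseChange (K := L)
    simp only [coeffMap_subtype_toA]
    exact h1
  · intro X hX
    have h1 := polySpan_of_mem_adjoin_image (L := L) hmem hc (hF2 hX)
    simp only [coeffMap_subtype_toA]
    exact h1
  · -- the residue field of `O` maps to `k`
    have hloc : IsLocalHom (π.comp (toA A hOA)) := by
      refine ⟨fun a ha => ?_⟩
      by_contra hnu
      have hmem' : a ∈ IsLocalRing.maximalIdeal O := (IsLocalRing.mem_maximalIdeal a).mpr hnu
      rw [RingHom.comp_apply, hπ a hmem'] at ha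
      exact not_isUnit_zero ha
    let ψ : IsLocalRing.ResidueField O →+* k :=
      IsLocalRing.ResidueField.lift (π.comp (toA A hOA))
    have hψ : ψ.comp (IsLocalRing.residue O) = π.comp (toA A hOA) :=
      IsLocalRing.ResidueField.lift_comp_residue _
    let _ : Algebra (IsLocalRing.ResidueField O) k := ψ.toAlgebra
    have h1 := hd.baseChange (K := k)
    have h3 : ∀ w : LaurentSeries O, coeffMap (algebraMap (IsLocalRing.ResidueField O) k)
        (serRed O w) = coeffMap π (coeffMap (toA A hOA) w) := by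
      intro w
      rw [serRed, coeffMap_coeffMap, coeffMap_coeffMap]
      exact coeffMap_congr hψ w
    simpa only [h3] using h1

end Export

/-! ### Finiteness -/

section Bound

variable {K₀ L : Type*} [Field K₀] [Field L] [Algebra K₀ L]

/-- **the hypothesis `hbound` of `exists_basis_dvr` from finiteness of a base change over `L(t)`** -/
theorem bound_of_finiteDimensional (F0 : IntermediateField K₀ (LaurentSeries K₀))
    (T0 : LaurentSeries K₀) (F : IntermediateField L (LaurentSeries L))
    (hF1 : ∀ x ∈ F0, coeffMap (algebraMap K₀ L) x ∈ F) (tF : F)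
    (htF : (tF : LaurentSeries L) = coeffMap (algebraMap K₀ L) T0)
    [FiniteDimensional L⟮tF⟯ F] :
    ∃ B : ℕ, ∀ (n : ℕ) (x : Fin n → LaurentSeries K₀), (∀ i, x i ∈ F0) →
      PolyIndep K₀ T0 x → n ≤ B := by
  refine ⟨Module.finrank L⟮tF⟯ F, fun n x hx hind => ?_⟩
  have h1 := hind.baseChange (K := L)
  set x' : Fin n → F := fun i => ⟨coeffMap (algebraMap K₀ L) (x i), hF1 _ (hx i)⟩ with hx'
  have h2 : PolyIndep L tF x' := by
    rw [← polyIndep_map_iff F.val Subtype.val_injective]
    have : F.val tF = coeffMap (algebraMap K₀ L) T0 := htF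
    rw [this]
    exact h1
  simpa using h2.linearIndependent.fintype_card_le_finrank

end Bound

/-! ### Field form and the `hdeg` binder -/

section Field

open Fermat.Agent.GJ.J1 Fermat.Agent.GJ.J1.Val

variable {O K₀ : Type*} [CommRing O] [IsDomain O] [IsDiscreteValuationRing O]
  [Field K₀] [Algebra O K₀] [IsFractionRing O K₀] [CharZero K₀]
variable {L : Type*} [Field L] [Algebra K₀ L] (A : ValuationSubring L)
variable (hOA : ∀ a : O, algebraMap K₀ L (algebraMap O K₀ a) ∈ A)

/-- **Degree preservation at the level `(L, A, k)`, field form.**  `n = [F : L(t)]`, the `z i` are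
`A`-integral series lying in `F`, forming an `L(t)`-basis of `F`, and their reductions are linearly
independent over `k(t~)` inside `k((q))`. -/
theorem exists_basis_field {k : Type*} [Field k] (π : ↥A →+* k)
    (hπ : ∀ a ∈ IsLocalRing.maximalIdeal O, π (toA A hOA a) = 0)
    (F0 : IntermediateField K₀ (LaurentSeries K₀)) (t0 : LaurentSeries O)
    (ht : serEmb O K₀ t0 ∈ F0) (httr : Transcendental K₀ (serEmb O K₀ t0))
    (hfrac : ∀ x ∈ F0, x ∈ gaussField O K₀)
    (hbound : ∃ B : ℕ, ∀ (n : ℕ) (x : Fin n → LaurentSeries K₀), (∀ i, x i ∈ F0) →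
      PolyIndep K₀ (serEmb O K₀ t0) x → n ≤ B)
    (hcore : CoreSer O (F0 : Set (LaurentSeries K₀)) (serEmb O K₀ t0))
    (F : IntermediateField L (LaurentSeries L))
    (hF1 : ∀ x ∈ F0, coeffMap (algebraMap K₀ L) x ∈ F)
    (hF2 : F ≤ IntermediateField.adjoin L
      (⇑(coeffMap (algebraMap K₀ L)) '' (F0 : Set (LaurentSeries K₀))))
    (haF : coeffMap A.subtype (coeffMap (toA A hOA) t0) ∈ F) :
    ∃ (n : ℕ) (y : Fin n → LaurentSeries O) (z : Fin n → LaurentSeries ↥A)
      (hz : ∀ i, coeffMap A.subtype (z i) ∈ F),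
      (∀ i, serEmb O K₀ (y i) ∈ F0) ∧
      (∀ i, IsIntegral (Algebra.adjoin O {serEmb O K₀ t0}) (serEmb O K₀ (y i))) ∧
      (∀ i, z i = coeffMap (toA A hOA) (y i)) ∧
      Module.finrank L⟮(⟨coeffMap A.subtype (coeffMap (toA A hOA) t0), haF⟩ : F)⟯ F = n ∧
      LinearIndependent L⟮(⟨coeffMap A.subtype (coeffMap (toA A hOA) t0), haF⟩ : F)⟯
        (fun i => (⟨coeffMap A.subtype (z i), hz i⟩ : F)) ∧
      Submodule.span L⟮(⟨coeffMap A.subtype (coeffMap (toA A hOA) t0), haF⟩ : F)⟯
        (Set.range fun i => (⟨coeffMap A.subtype (z i), hz i⟩ : F)) = ⊤ ∧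
      PolyIndep k (coeffMap π (coeffMap (toA A hOA) t0)) (fun i => coeffMap π (z i)) ∧
      LinearIndependent k⟮coeffMap π (coeffMap (toA A hOA) t0)⟯ (fun i => coeffMap π (z i)) := by
  obtain ⟨n, y, z, hmem, hint, hzy, hz, hind, hspan, hred⟩ :=
    exists_basis A hOA π hπ F0 t0 ht httr hfrac hbound hcore F hF1 hF2
  set tF : F := ⟨coeffMap A.subtype (coeffMap (toA A hOA) t0), haF⟩ with htF
  set zL : Fin n → F := fun i => ⟨coeffMap A.subtype (z i), hz i⟩ with hzL
  have hindL : PolyIndep L tF zL :=
    (polyIndep_map_iff F.val Subtype.val_injective tF zL).mp hind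
  have hspanL : ∀ X : F, PolySpan L tF zL X := fun X =>
    (polySpan_map_iff F.val Subtype.val_injective tF zL X).mp (hspan X.1 X.2)
  refine ⟨n, y, z, hz, hmem, hint, hzy, ?_, hindL.linearIndependent, ?_, hred,
    hred.linearIndependent⟩
  · rw [finrank_eq_card_of_polyIndep_of_polySpan hindL hspanL, Fintype.card_fin]
  · exact top_le_iff.mp fun X _ => (hspanL X).mem_span

/-- **`hdeg` from the core statement**: `[F : L(t)] ≤ [Fres : κ(red t)]` in the concrete `RedData`
shape (the binder `hdeg` of `DS/P2/K18sF.k18sF_of_chart`, the shape of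
`AuxLevel.Deg.finrank_le_finrank_Fres`), for the chart `a = coeffMap (O → A) t0`. -/
theorem finrank_le_finrank_Fres_of_core
    (hmax : ∀ a ∈ IsLocalRing.maximalIdeal O, toA A hOA a ∈ IsLocalRing.maximalIdeal ↥A)
    (F0 : IntermediateField K₀ (LaurentSeries K₀)) (t0 : LaurentSeries O)
    (ht : serEmb O K₀ t0 ∈ F0) (httr : Transcendental K₀ (serEmb O K₀ t0))
    (hfrac : ∀ x ∈ F0, x ∈ gaussField O K₀)
    (hcore : CoreSer O (F0 : Set (LaurentSeries K₀)) (serEmb O K₀ t0))
    (F : IntermediateField L (LaurentSeries L)) (hGF : HasGaussFrac A F)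
    (hF1 : ∀ x ∈ F0, coeffMap (algebraMap K₀ L) x ∈ F)
    (hF2 : F ≤ IntermediateField.adjoin L
      (⇑(coeffMap (algebraMap K₀ L)) '' (F0 : Set (LaurentSeries K₀))))
    {a : LaurentSeries ↥A} (ha : a = coeffMap (toA A hOA) t0) (haF : emb A a ∈ F)
    [FiniteDimensional L⟮(⟨emb A a, haF⟩ : F)⟯ F] :
    Module.finrank L⟮(⟨emb A a, haF⟩ : F)⟯ F ≤
      Module.finrank (IsLocalRing.ResidueField ↥A)⟮(redData A F hGF).red
        ⟨⟨emb A a, haF⟩, int_mem_Rw (hGF := hGF) haF⟩⟯ (Fres A F hGF) := by
  subst ha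
  have hπ : ∀ a ∈ IsLocalRing.maximalIdeal O, IsLocalRing.residue ↥A (toA A hOA a) = 0 :=
    fun a ha => (IsLocalRing.residue_eq_zero_iff _).mpr (hmax a ha)
  have hbound := bound_of_finiteDimensional F0 (serEmb O K₀ t0) F hF1
    (⟨emb A (coeffMap (toA A hOA) t0), haF⟩ : F) (coeffMap_subtype_toA A hOA t0)
  obtain ⟨n, y, z, hz, -, -, -, hfin, -, -, hred, hli⟩ :=
    exists_basis_field A hOA (IsLocalRing.residue ↥A) hπ F0 t0 ht httr hfrac hbound hcore F hF1 hF2
      haF
  have hpos : 0 < n := by
    rw [← hfin]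
    exact Module.finrank_pos
  haveI : Nonempty (Fin n) := ⟨⟨0, hpos⟩⟩
  have htr : Transcendental (IsLocalRing.ResidueField ↥A) (rd A (coeffMap (toA A hOA) t0)) :=
    transcendental_of_polyIndep hred
  rw [hfin]
  exact Fermat.Agent.GJ.AuxLevel.Deg.card_le_finrank_Fres A F hGF haF htr z hz hli

end Field

end Fermat.Agent.DS.P2.DegPresGen
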