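/-
GATE-N / J1-PORT node P2, (DIA-FRAC) (helper22): **the Gauss valuation is invariant under every
automorphism fixing a degree-preserving chart, and the repaired diamond-integrality
`DS.P4.DiaFrac.DiaFracG` for fields generated by series with integer coefficients.**

* `map_mem_Rw_of_huniq` : `R : RedData K F k Ft`, `Huniq R E` (`Rw` integral over `Rw ∩ E`), `φ` a
  `K`-automorphism of `F` fixing `E` pointwise ⟹ `φ (Rw) ⊆ Rw` (valuation rings are integrally
  closed).  With `RedData.huniq_of_finrank_le` this gives invariance from degree preservation at a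
  Gauss chart `t` fixed by `φ` (`map_mem_Rw_of_finrank_le`).
* `exists_diaFrac` : `F = L(G)`, `G` a set of series with coefficients in a subring `R₀ ⊆ L` that is
  finitely generated over `ℤ`; `φ` an `L`-automorphism of `F` mapping `G` into series with
  coefficients in `R₀` and preserving the Gauss valuation ring ⟹ every `u ≠ 0` of `F` is
  `c · a / b` with `a, b, φ a, φ b` all `A`-integral series of nonzero reduction.
* `diaFracG_F1` : `DS.P4.DiaFrac.DiaFracG (F1 M) dia A` for every automorphism `dia` of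
  `FL (F1 M)` which maps the generators `j(q^d)`, `12 w^{(a)}` to series with integer coefficients,
  fixes `j(q)`, given degree preservation at the chart `j(q)` (the `hdegj` binder of
  `DS/P2/K18s1Aux`, `DS/P2/K18sPort`; conclusion of `DS/P2/ChartBridge.hdeg_j1_of_hdeg_jM`).
-/
import Fermat.Agent.DS.P4.ESDiaFrac
import Fermat.Agent.DS.P2.GaussF1
import Fermat.Agent.GJ.J1.HuniqDegree
import Fermat.Agent.S24.Gen

set_option autoImplicit false

noncomputable section

namespace Fermat.Agent.DS.P2.DiaFrac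

open HahnSeries ModularCurve IsLocalRing
open Fermat.Agent.GJ.J1 Fermat.Agent.GJ.J1.Val Fermat.Agent.DS.P0
open Fermat.Agent.GK.Val

/-! ### Invariance of the valuation ring from uniqueness -/

section Abs

open Polynomial IntermediateField

variable {K F k Ft : Type*} [Field K] [Field F] [Algebra K F] [Field k] [Field Ft] [Algebra k Ft]

/-- an automorphism fixing `E` pointwise preserves `Rw`, if `Rw` is integral over `Rw ∩ E` -/
theorem map_mem_Rw_of_huniq (R : RedData K F k Ft) {E : IntermediateField K F}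
    (hu : IntRed.Huniq R E) (φ : F ≃ₐ[K] F) (hφ : ∀ e : E, φ (e : F) = e) {x : F}
    (hx : x ∈ R.Rw) : φ x ∈ R.Rw := by
  obtain ⟨p, hp, hpx⟩ := hu x hx
  let ψ : ↥(R.Rw.comap (algebraMap E F) : ValuationSubring E) →+* R.Rw :=
    { toFun := fun a => ⟨algebraMap E F a.1, a.2⟩
      map_one' := rfl
      map_mul' := fun _ _ => rfl
      map_zero' := rfl
      map_add' := fun _ _ => rfl }
  have hint : IsIntegral R.Rw (φ x) := by
    refine ⟨p.map ψ, hp.map ψ, ?_⟩
    rw [Polynomial.eval₂_map]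
    have h1 := Polynomial.hom_eval₂ p
      (algebraMap ↥(R.Rw.comap (algebraMap E F) : ValuationSubring E) F) (φ : F →+* F) x
    rw [hpx, map_zero] at h1
    rw [h1]
    congr 1
    ext a
    exact (hφ a.1).symm
  obtain ⟨y, hy⟩ := IsIntegrallyClosed.isIntegral_iff.mp hint
  rw [← hy]
  exact y.2

/-- invariance of `Rw` from degree preservation at a chart fixed by the automorphism -/
theorem map_mem_Rw_of_finrank_le (R : RedData K F k Ft) (t : F) (hts : t ∈ R.Rw)
    (htt : Transcendental k (R.red ⟨t, hts⟩)) [FiniteDimensional K⟮t⟯ F]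
    (hdeg : Module.finrank K⟮t⟯ F ≤ Module.finrank k⟮R.red ⟨t, hts⟩⟯ Ft)
    (φ : F ≃ₐ[K] F) (hφ : φ t = t) {x : F} (hx : x ∈ R.Rw) : φ x ∈ R.Rw := by
  refine map_mem_Rw_of_huniq R (R.huniq_of_finrank_le t hts htt hdeg) φ ?_ hx
  intro e
  obtain ⟨P, Q, hPQ⟩ := (mem_adjoin_simple_iff K (e : F)).mp e.2
  have h1 : ∀ P : K[X], φ (aeval t P) = aeval t P := by
    intro P
    have := Polynomial.aeval_algHom_apply (φ : F →ₐ[K] F) t P
    rw [AlgEquiv.coe_toAlgHom, hφ] at this
    exact this.symm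
  rw [hPQ, map_div₀, h1, h1]

end Abs

/-! ### Units of the Gauss valuation ring with bounded denominators are integral series -/

section Gauss

variable {L : Type*} [Field L] {A : ValuationSubring L}
  {F : IntermediateField L (LaurentSeries L)} (hGF : HasGaussFrac A F)

theorem coe_algebraMap_C (c : L) :
    ((algebraMap L F c : F) : LaurentSeries L) = HahnSeries.C c := by
  show algebraMap L (LaurentSeries L) c = HahnSeries.C c
  rw [algebraMap_laurentSeries_eq_single]; rfl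

/-- an integral series of nonzero reduction is a unit of `Rw` -/
theorem int_mem_Rw_and_inv {y : LaurentSeries A} (hy : emb A y ∈ F) (hne : rd A y ≠ 0) :
    (⟨emb A y, hy⟩ : F) ∈ Rw A F hGF ∧ (⟨emb A y, hy⟩ : F)⁻¹ ∈ Rw A F hGF := by
  refine ⟨int_mem_Rw hy, ?_⟩
  have h := inv_mem_of_redL_ne_zero (hGF := hGF)
    (x := ⟨⟨emb A y, hy⟩, int_mem_Rw hy⟩) (by rw [redL_int]; exact hne)
  exact h

/-- a unit `z` of `Rw` of the form `c · g`, `g` an integral series of nonzero reduction: the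
constant `c` is a unit of `A` -/
theorem const_unit_of_unit {c : L} {g : LaurentSeries A} (hg : emb A g ∈ F)
    (hgne : rd A g ≠ 0) {z : F} (hz : (z : LaurentSeries L) = HahnSeries.C c * emb A g)
    (hzR : z ∈ Rw A F hGF) (hzi : z⁻¹ ∈ Rw A F hGF) : c ∈ A ∧ c⁻¹ ∈ A := by
  obtain ⟨h1, h2⟩ := int_mem_Rw_and_inv hGF hg hgne
  have hg0 : (⟨emb A g, hg⟩ : F) ≠ 0 := by
    intro h0
    apply hgne
    have h3 : emb A g = 0 := congrArg Subtype.val h0
    have h4 : g = 0 := emb_injective A (by rw [h3, map_zero])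
    rw [h4, map_zero]
  have hzeq : z = algebraMap L F c * ⟨emb A g, hg⟩ := by
    apply Subtype.ext
    rw [MulMemClass.coe_mul, coe_algebraMap_C, hz]
  have hc1 : algebraMap L F c = z * (⟨emb A g, hg⟩ : F)⁻¹ := by
    rw [hzeq, mul_assoc, mul_inv_cancel₀ hg0, mul_one]
  have hc2 : algebraMap L F c⁻¹ = z⁻¹ * (⟨emb A g, hg⟩ : F) := by
    rw [hzeq, mul_inv, mul_assoc, inv_mul_cancel₀ hg0, mul_one, map_inv₀]
  constructor
  · rw [← algebraMap_mem_Rw_iff (hGF := hGF), hc1]
    exact mul_mem hzR h2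
  · rw [← algebraMap_mem_Rw_iff (hGF := hGF), hc2]
    exact mul_mem hzi h1

/-- ... hence `z` itself is an integral series of nonzero reduction -/
theorem exists_int_of_unit {c : L} (hc : c ≠ 0) {g : LaurentSeries A} (hg : emb A g ∈ F)
    (hgne : rd A g ≠ 0) {z : F} (hz : (z : LaurentSeries L) = HahnSeries.C c * emb A g)
    (hzR : z ∈ Rw A F hGF) (hzi : z⁻¹ ∈ Rw A F hGF) :
    ∃ y' : LaurentSeries A, emb A y' = (z : LaurentSeries L) ∧ rd A y' ≠ 0 := by
  obtain ⟨hcA, hciA⟩ := const_unit_of_unit hGF hg hgne hz hzR hzi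
  refine ⟨HahnSeries.single 0 ⟨c, hcA⟩ * g, ?_, ?_⟩
  · rw [map_mul, emb_single, hz, HahnSeries.C_apply]
  · rw [map_mul, rd_single]
    refine mul_ne_zero (HahnSeries.single_ne_zero ?_) hgne
    intro h0
    have h1 : (⟨c, hcA⟩ : A) * ⟨c⁻¹, hciA⟩ = 1 := Subtype.ext (mul_inv_cancel₀ hc)
    have h2 := congrArg (residue A) h1
    rw [map_mul, h0, zero_mul, map_one] at h2
    exact zero_ne_one h2

end Gauss

/-! ### (DIA-FRAC) for fields generated by series with coefficients in a finite `ℤ`-algebra -/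

section Adjoin

variable {L : Type*} [Field L] (A : ValuationSubring L)

/-- one polynomial expression: its Gauss normalisation `a` is an integral series of nonzero
reduction, and so is `φ a`. -/
theorem exists_norm_pair (R₀ : Subring L) (B₀ : Set L) (hB₀fin : B₀.Finite)
    (hB₀ : ∀ x ∈ R₀, x ∈ Submodule.span ℤ B₀)
    (G : Set (LaurentSeries L)) (hG : ∀ g ∈ G, g ∈ coeffSubring R₀)
    (F : IntermediateField L (LaurentSeries L)) (hsub : ∀ g ∈ G, g ∈ F)
    (hGF : HasGaussFrac A F) (φ : F ≃ₐ[L] F)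
    (hφG : ∀ x : F, (x : LaurentSeries L) ∈ G → ((φ x : F) : LaurentSeries L) ∈ coeffSubring R₀)
    (hφR : ∀ x : F, x ∈ Rw A F hGF → φ x ∈ Rw A F hGF)
    (P : MvPolynomial G L) (hP : MvPolynomial.aeval (Subtype.val : G → LaurentSeries L) P ≠ 0) :
    ∃ (c : L) (a a' : LaurentSeries A) (ha : emb A a ∈ F),
      c ≠ 0 ∧ MvPolynomial.aeval (Subtype.val : G → LaurentSeries L) P =
        HahnSeries.C c * emb A a ∧ rd A a ≠ 0 ∧ rd A a' ≠ 0 ∧
      emb A a' = ((φ ⟨emb A a, ha⟩ : F) : LaurentSeries L) := by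
  set M : G → LaurentSeries L := Subtype.val with hMdef
  have hM : ∀ i : G, M i ∈ coeffSubring R₀ := fun i => hG i.1 i.2
  -- the generators as elements of the field
  let MF : G → F := fun i => ⟨i.1, hsub i.1 i.2⟩
  have hcoe : ∀ R : MvPolynomial G L,
      ((MvPolynomial.aeval MF R : F) : LaurentSeries L) = MvPolynomial.aeval M R := by
    intro R
    exact MvPolynomial.comp_aeval_apply (f := MF) F.val R
  -- the image generators
  let M' : G → LaurentSeries L := fun i => ((φ (MF i) : F) : LaurentSeries L)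
  have hM' : ∀ i : G, M' i ∈ coeffSubring R₀ := fun i => hφG (MF i) i.2
  have hcoe' : ∀ R : MvPolynomial G L,
      ((φ (MvPolynomial.aeval MF R) : F) : LaurentSeries L) = MvPolynomial.aeval M' R := by
    intro R
    have h1 : φ (MvPolynomial.aeval MF R) = MvPolynomial.aeval (fun i => φ (MF i)) R :=
      MvPolynomial.comp_aeval_apply (f := MF) (φ : F →ₐ[L] F) R
    rw [h1]
    exact MvPolynomial.comp_aeval_apply (f := fun i => φ (MF i)) F.val R
  have hPF : MvPolynomial.aeval MF P ≠ 0 := by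
    intro h0
    apply hP
    rw [← hcoe, h0]
    rfl
  have hP' : MvPolynomial.aeval M' P ≠ 0 := by
    rw [← hcoe']
    intro h0
    have h1 : φ (MvPolynomial.aeval MF P) = 0 := Subtype.ext h0
    exact hPF ((map_eq_zero_iff φ φ.injective).mp h1)
  obtain ⟨c, a, hc, haP, ha1⟩ := exists_gauss_normalisation_aeval A R₀ B₀ hB₀fin hB₀ M hM P hP
  obtain ⟨c', a'', hc', haP', ha1'⟩ :=
    exists_gauss_normalisation_aeval A R₀ B₀ hB₀fin hB₀ M' hM' P hP'
  have hane : rd A a ≠ 0 := Fermat.Agent.GJ.GU.coeffMap_residue_ne_zero A ha1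
  have hane'' : rd A a'' ≠ 0 := Fermat.Agent.GJ.GU.coeffMap_residue_ne_zero A ha1'
  have hCc : (HahnSeries.C c : LaurentSeries L) ≠ 0 := HahnSeries.C_ne_zero hc
  have hCc' : (HahnSeries.C c' : LaurentSeries L) ≠ 0 := HahnSeries.C_ne_zero hc'
  -- membership
  have hcoeC : ∀ (d : L) (x : F), ((algebraMap L F d * x : F) : LaurentSeries L) =
      HahnSeries.C d * (x : LaurentSeries L) := by
    intro d x
    rw [MulMemClass.coe_mul, coe_algebraMap_C]
  have haE : emb A a = ((algebraMap L F c⁻¹ * MvPolynomial.aeval MF P : F) : LaurentSeries L) := by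
    rw [hcoeC, hcoe, haP, map_inv₀, ← mul_assoc, inv_mul_cancel₀ hCc, one_mul]
  have ha : emb A a ∈ F := by
    rw [haE]
    exact (algebraMap L F c⁻¹ * MvPolynomial.aeval MF P).2
  have haF : (⟨emb A a, ha⟩ : F) = algebraMap L F c⁻¹ * MvPolynomial.aeval MF P :=
    Subtype.ext haE
  have ha'' : emb A a'' ∈ F := by
    have h1 : emb A a'' =
        ((algebraMap L F c'⁻¹ * φ (MvPolynomial.aeval MF P) : F) : LaurentSeries L) := by
      rw [hcoeC, hcoe', haP', map_inv₀, ← mul_assoc, inv_mul_cancel₀ hCc', one_mul]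
    rw [h1]
    exact (algebraMap L F c'⁻¹ * φ (MvPolynomial.aeval MF P)).2
  -- `φ a = (c' / c) a''`
  have hφa : ((φ ⟨emb A a, ha⟩ : F) : LaurentSeries L) = HahnSeries.C (c' / c) * emb A a'' := by
    rw [haF, map_mul, AlgEquiv.commutes, hcoeC, hcoe', haP', ← mul_assoc, ← map_mul,
      inv_mul_eq_div]
  -- units
  obtain ⟨hu1, hu2⟩ := int_mem_Rw_and_inv hGF ha hane
  have hz1 : φ ⟨emb A a, ha⟩ ∈ Rw A F hGF := hφR _ hu1
  have hz2 : (φ ⟨emb A a, ha⟩)⁻¹ ∈ Rw A F hGF := by
    rw [← map_inv₀]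
    exact hφR _ hu2
  obtain ⟨a', ha'eq, ha'ne⟩ :=
    exists_int_of_unit hGF (div_ne_zero hc' hc) ha'' hane'' hφa hz1 hz2
  exact ⟨c, a, a', ha, hc, haP, hane, ha'ne, ha'eq⟩

/-- **(DIA-FRAC), generic**: `F = L(G)` with `G` a set of series with coefficients in a subring
`R₀` that is finitely generated over `ℤ`; `φ` an automorphism mapping `G` into series with
coefficients in `R₀` and preserving the Gauss valuation ring.  Every `u ≠ 0` is `c · a / b` with
`a, b, φ a, φ b` integral series of nonzero reduction. -/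
theorem exists_diaFrac (R₀ : Subring L) (B₀ : Set L) (hB₀fin : B₀.Finite)
    (hB₀ : ∀ x ∈ R₀, x ∈ Submodule.span ℤ B₀)
    (G : Set (LaurentSeries L)) (hG : ∀ g ∈ G, g ∈ coeffSubring R₀)
    (F : IntermediateField L (LaurentSeries L)) (hFG : F = IntermediateField.adjoin L G)
    (hGF : HasGaussFrac A F) (φ : F ≃ₐ[L] F)
    (hφG : ∀ x : F, (x : LaurentSeries L) ∈ G → ((φ x : F) : LaurentSeries L) ∈ coeffSubring R₀)
    (hφR : ∀ x : F, x ∈ Rw A F hGF → φ x ∈ Rw A F hGF)
    (u : F) (hu : u ≠ 0) :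
    ∃ (c : L) (a b a' b' : LaurentSeries A) (ha : emb A a ∈ F) (hb : emb A b ∈ F),
      c ≠ 0 ∧ rd A a ≠ 0 ∧ rd A b ≠ 0 ∧ rd A a' ≠ 0 ∧ rd A b' ≠ 0 ∧
      (u : LaurentSeries L) * emb A b = HahnSeries.C c * emb A a ∧
      emb A a' = ((φ ⟨emb A a, ha⟩ : F) : LaurentSeries L) ∧
      emb A b' = ((φ ⟨emb A b, hb⟩ : F) : LaurentSeries L) := by
  have hsub : ∀ g ∈ G, g ∈ F := fun g hg => hFG ▸ IntermediateField.subset_adjoin L G hg
  have hu0 : (u : LaurentSeries L) ≠ 0 := fun h => hu (Subtype.ext h)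
  have humem : (u : LaurentSeries L) ∈ IntermediateField.adjoin L G := hFG ▸ u.2
  obtain ⟨P, Q, hPQ⟩ := (IntermediateField.mem_adjoin_iff L (u : LaurentSeries L)).mp humem
  have hQ : MvPolynomial.aeval (Subtype.val : G → LaurentSeries L) Q ≠ 0 := by
    intro h; apply hu0; rw [hPQ, h, div_zero]
  have hP : MvPolynomial.aeval (Subtype.val : G → LaurentSeries L) P ≠ 0 := by
    intro h; apply hu0; rw [hPQ, h, zero_div]
  obtain ⟨cP, a, a', ha, hcP, haP, hane, hane', ha'⟩ :=
    exists_norm_pair A R₀ B₀ hB₀fin hB₀ G hG F hsub hGF φ hφG hφR P hP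
  obtain ⟨cQ, b, b', hb, hcQ, hbQ, hbne, hbne', hb'⟩ :=
    exists_norm_pair A R₀ B₀ hB₀fin hB₀ G hG F hsub hGF φ hφG hφR Q hQ
  refine ⟨cP / cQ, a, b, a', b', ha, hb, div_ne_zero hcP hcQ, hane, hbne, hane', hbne', ?_,
    ha', hb'⟩
  have hCQ : (HahnSeries.C cQ : LaurentSeries L) ≠ 0 := HahnSeries.C_ne_zero hcQ
  have hb0 : emb A b ≠ 0 := by
    intro h; apply hQ; rw [hbQ, h, mul_zero]
  rw [hPQ, haP, hbQ, map_div₀]
  field_simp

end Adjoin

/-! ### The instance `ℚ̄(X₁(M))` -/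

section F1

open Fermat.Agent.DS.P4 Fermat.Agent.DS.P4.DiaFrac Fermat.Agent.DS.P2.GaussF1
open Fermat.Agent.GJ.Kum (Qb)
open IntermediateField

variable (M : ℕ) [NeZero M] (A : ValuationSubring Qb)

local notation "𝕜" => ResidueField A

/-- (DIA-FRAC) for any copy `F` of `ℚ̄(X₁(M))` (used at `F := FL (F1 M)`): an automorphism which
maps the generators to series with integer coefficients and fixes `j(q)` — given degree
preservation at the chart `j(q)`. -/
theorem exists_diaFrac_of_eq_F1C (F : IntermediateField Qb (LaurentSeries Qb))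
    (hF : F = F1C Qb M)
    [FiniteDimensional Qb⟮genJ1 Qb A M (one_dvd M)⟯ (F1C Qb M)]
    (hdegj : Module.finrank Qb⟮genJ1 Qb A M (one_dvd M)⟯ (F1C Qb M) ≤
      Module.finrank
        𝕜⟮(redData1C Qb A M).red ⟨genJ1 Qb A M (one_dvd M), genJ1_mem_Rw1C Qb A M _⟩⟯
        (Fres1C Qb A M))
    (dia : F ≃ₐ[Qb] F)
    (hgen : ∀ x : F, (x : LaurentSeries Qb) ∈ divisorExpansionsC Qb M ∪ weberExpansionsC Qb M →
      ((dia x : F) : LaurentSeries Qb) ∈ coeffSubring (Int.castRingHom Qb).range)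
    (hj : ∀ x : F, (x : LaurentSeries Qb) = jqModC Qb → dia x = x)
    (u : F) (hu : u ≠ 0) :
    ∃ (c : Qb) (a b a' b' : LaurentSeries A) (ha : emb A a ∈ F) (hb : emb A b ∈ F),
      c ≠ 0 ∧ rd A a ≠ 0 ∧ rd A b ≠ 0 ∧ rd A a' ≠ 0 ∧ rd A b' ≠ 0 ∧
      (u : LaurentSeries Qb) * emb A b = HahnSeries.C c * emb A a ∧
      emb A a' = ((dia ⟨emb A a, ha⟩ : F) : LaurentSeries Qb) ∧
      emb A b' = ((dia ⟨emb A b, hb⟩ : F) : LaurentSeries Qb) := by
  subst hF
  refine exists_diaFrac A (Int.castRingHom Qb).range {1} (Set.finite_singleton 1) ?_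
    (divisorExpansionsC Qb M ∪ weberExpansionsC Qb M) ?_ (F1C Qb M) rfl
    (hasGaussFrac_F1C Qb A M) dia hgen ?_ u hu
  · rintro x ⟨n, rfl⟩
    have h : ((Int.castRingHom Qb) n : Qb) = n • (1 : Qb) := by simp
    rw [h]
    exact Submodule.smul_mem _ _ (Submodule.subset_span rfl)
  · rintro g (⟨d, hd, -, rfl⟩ | ⟨a, -, rfl⟩)
    · exact Fermat.Agent.GK.Val.GaussBase.qExpand_jqModC_mem Qb d
    · exact weber12C_mem_coeffSubring Qb M a
  · intro x hx
    obtain ⟨hs, htt⟩ := isGaussChart_j1 Qb A M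
    exact map_mem_Rw_of_finrank_le (redData1C Qb A M) (genJ1 Qb A M (one_dvd M)) hs htt hdegj dia
      (hj _ (by rw [coe_genJ1, qExpand_one_apply])) hx

/-- **(DIA-FRAC) for `F₀ = F1 M`**: the hypothesis `hGd` of `DS.P4.DiaFrac.esFrob1_of_diaFrac`,
from degree preservation at `j(q)` (= the `hdegj` binder of `K18sPort.hK_F1_of_jRam`) and two
facts about the diamond: it maps the generators `j(q^d)`, `12 w^{(a)}` to series with integer
coefficients (it PERMUTES them), and it fixes `j(q)`. -/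
theorem diaFracG_F1
    [FiniteDimensional Qb⟮genJ1 Qb A M (one_dvd M)⟯ (F1C Qb M)]
    (hdegj : Module.finrank Qb⟮genJ1 Qb A M (one_dvd M)⟯ (F1C Qb M) ≤
      Module.finrank
        𝕜⟮(redData1C Qb A M).red ⟨genJ1 Qb A M (one_dvd M), genJ1_mem_Rw1C Qb A M _⟩⟯
        (Fres1C Qb A M))
    (dia : FL (F1 M) ≃ₐ[Qb] FL (F1 M))
    (hgen : ∀ x : FL (F1 M),
      (x : LaurentSeries Qb) ∈ divisorExpansionsC Qb M ∪ weberExpansionsC Qb M →
      ((dia x : FL (F1 M)) : LaurentSeries Qb) ∈ coeffSubring (Int.castRingHom Qb).range)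
    (hj : ∀ x : FL (F1 M), (x : LaurentSeries Qb) = jqModC Qb → dia x = x) :
    DiaFracG (F1 M) dia A := by
  intro u hu
  obtain ⟨c, a, b, a', b', ha, hb, hc, hane, hbne, hane', hbne', hub, ha', hb'⟩ :=
    exists_diaFrac_of_eq_F1C M A (FL (F1 M)) (laurentBaseChange_F1 Qb M) hdegj dia hgen hj u hu
  refine ⟨c, a, b, a', b', ha, hb, hc, hane, hbne, hane', hbne', ?_, ha', hb'⟩
  apply Subtype.ext
  show (u : LaurentSeries Qb) * emb A b =
    ((algebraMap Qb (FL (F1 M)) c : FL (F1 M)) : LaurentSeries Qb) * emb A a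
  rw [coe_algebraMap_FL]
  exact hub

/-- the finite-dimensionality binder from a generator -/
theorem finiteDimensional_genJ1 (x₀ : F1C Qb M) [Fermat.Agent.S24.IsGen Qb x₀] :
    FiniteDimensional Qb⟮genJ1 Qb A M (one_dvd M)⟯ (F1C Qb M) := by
  have htr : Transcendental Qb (genJ1 Qb A M (one_dvd M)) := by
    intro halg
    have h1 := halg.algHom (F1C Qb M).val
    have h2 : (F1C Qb M).val (genJ1 Qb A M (one_dvd M)) = jqModC Qb := by
      show ((genJ1 Qb A M (one_dvd M) : F1C Qb M) : LaurentSeries Qb) = _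
      rw [coe_genJ1, qExpand_one_apply]
    rw [h2] at h1
    exact transcendental_jqModC Qb h1
  exact (Fermat.Agent.S24.IsGen.of_transcendental x₀ htr).finite

end F1

end Fermat.Agent.DS.P2.DiaFrac
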