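/-
S48 / Γ₁(M)-port, node P2-GAUSS, adapters (helper45): the Gauss fraction property of
`F1 M = ℚ(X₁(M))` in the shapes consumed by P4 (`DS/P4/ESGen.GaussFracSeriesG`, helper17) and by
P2b (`DS/P2/K18sF.k18sF_of_chart`, helper96: `HasGaussFrac A (laurentBaseChange Qb (F1 M))`).
-/
import Fermat.Agent.DS.P2.GaussF1
import Fermat.Agent.DS.P4.ESGen

set_option autoImplicit false

noncomputable section

namespace Fermat.Agent.DS.P2.GaussF1

open HahnSeries ModularCurve IsLocalRing
open Fermat.Agent.GJ.J1.Val Fermat.Agent.DS.P0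

variable {L : Type*} [Field L] [Algebra ℚ L] (A : ValuationSubring L) (M : ℕ) [NeZero M]

/-- **(GU) for `X₁(M)`**, in the `laurentBaseChange` form -/
theorem hasGaussFrac_FK1 : HasGaussFrac A (laurentBaseChange L (F1 M)) := by
  rw [laurentBaseChange_F1]
  exact hasGaussFrac_F1C L A M

/-- **(GU) for `X₁(M)`** in the series form of P4 (`GaussFracSeriesG`), for EVERY valuation
subring `A` of EVERY field `L` of characteristic `0` -/
theorem gaussFracSeriesG_F1 : Fermat.Agent.DS.P4.GaussFracSeriesG (F1 M) A := by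
  intro u hu hu0
  obtain ⟨c, a, b, hc, ha, hb, ha0, hb0, h⟩ := hasGaussFrac_FK1 A M u hu hu0
  exact ⟨c, a, b, hc, ha, hb, ha0, hb0, h⟩

/-- element form -/
theorem gaussFracG_F1 : Fermat.Agent.DS.P4.GaussFracG (F1 M) A :=
  Fermat.Agent.DS.P4.gaussFracG_of_series (gaussFracSeriesG_F1 A M)


/-! ### The port chart `jE = j(q^M)` (PORT RULING 1 (A2)) and the Weber charts -/

section Charts

variable (k : Type*) [Field k]

/-- the leading coefficient of `j(q^M)` -/
theorem coeff_jqNModC_neg_level : (qExpand k M (jqModC k)).coeff (-(M : ℤ)) = 1 := by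
  have h : (-(M : ℤ)) = (M : ℤ) * (-1) := by ring
  rw [h, qExpand_coeff_mul, ModularCurve.coeff_jqModC_neg_one]

theorem coeff_jqNModC_of_lt {n : ℤ} (hn : n < -(M : ℤ)) :
    (qExpand k M (jqModC k)).coeff n = 0 := by
  by_cases hd : (M : ℤ) ∣ n
  · obtain ⟨m, rfl⟩ := hd
    rw [qExpand_coeff_mul]
    apply ModularCurve.coeff_jqModC_of_lt
    have hM : (0 : ℤ) < M := by exact_mod_cast Nat.pos_of_ne_zero (NeZero.ne M)
    nlinarith
  · exact qExpand_coeff_of_not_dvd M _ hd

/-- `j(q^M)` has order `-M` -/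
theorem order_jqNModC : (qExpand k M (jqModC k)).order = -(M : ℤ) := by
  have h1 : (qExpand k M (jqModC k)).coeff (-(M : ℤ)) ≠ 0 := by
    rw [coeff_jqNModC_neg_level]; exact one_ne_zero
  have hne : qExpand k M (jqModC k) ≠ 0 := fun h => h1 (by rw [h]; rfl)
  apply le_antisymm (HahnSeries.order_le_of_coeff_ne_zero h1)
  by_contra hlt
  rw [not_le] at hlt
  exact hne (HahnSeries.coeff_order_eq_zero.mp (coeff_jqNModC_of_lt M k hlt))

/-- `12 w_M^{(a)}` has order `-M` -/
theorem order_weber12C (a : ZMod M) : (weber12C k M a).order = -(M : ℤ) := by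
  have h1 : (weber12C k M a).coeff (-(M : ℤ)) ≠ 0 := by
    rw [coeff_weber12C_neg_level]; exact one_ne_zero
  have hne : weber12C k M a ≠ 0 := weber12C_ne_zero k M a
  apply le_antisymm (HahnSeries.order_le_of_coeff_ne_zero h1)
  by_contra hlt
  rw [not_le] at hlt
  exact hne (HahnSeries.coeff_order_eq_zero.mp (coeff_weber12C_of_lt k M a hlt))

theorem transcendental_jqNModC : Transcendental k (qExpand k M (jqModC k)) :=
  transcendental_of_order_neg _ (by
    rw [order_jqNModC]
    have hM : (0 : ℤ) < M := by exact_mod_cast Nat.pos_of_ne_zero (NeZero.ne M)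
    linarith)

theorem transcendental_weber12C (a : ZMod M) : Transcendental k (weber12C k M a) :=
  transcendental_of_order_neg _ (by
    rw [order_weber12C]
    have hM : (0 : ℤ) < M := by exact_mod_cast Nat.pos_of_ne_zero (NeZero.ne M)
    linarith)

end Charts

section ChartsRed

variable (L : Type*) [Field L] (A : ValuationSubring L) (M : ℕ) [NeZero M]

/-- **the port chart `jE = j(q^M)` (the `j`-invariant of `E = 𝔾ₘ/q^{Mℤ}`) is a Gauss chart** -/
theorem isGaussChart_jE : (redData1C L A M).IsGaussChart (genJ1 L A M (dvd_refl M)) := by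
  refine ⟨genJ1_mem_Rw1C L A M _, ?_⟩
  apply Fres.transcendental_of_coe
  rw [coe_red_genJ1]
  exact transcendental_jqNModC M _

/-- the order of `red jE` is `-M` (input `hord` of `k18sF_of_chart`: prime to `ℓ` when `ℓ ∤ M`) -/
theorem order_red_jE (h : genJ1 L A M (dvd_refl M) ∈ Rw1C L A M) :
    (((redData1C L A M).red ⟨genJ1 L A M (dvd_refl M), h⟩ : Fres1C L A M) :
      LaurentSeries (ResidueField A)).order = -(M : ℤ) := by
  rw [coe_red_genJ1]
  exact order_jqNModC M _

/-- every Weber generator `12 w_M^{(a)}` is a Gauss chart -/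
theorem isGaussChart_genW1 {a : ZMod M} (ha : a ≠ 0) :
    (redData1C L A M).IsGaussChart (genW1 L A M ha) := by
  refine ⟨genW1_mem_Rw1C L A M ha, ?_⟩
  apply Fres.transcendental_of_coe
  rw [coe_red_genW1]
  exact transcendental_weber12C M _ a

end ChartsRed

end Fermat.Agent.DS.P2.GaussF1
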