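/-
GATE-N / J1-PORT node P2 (r4) (DIA-INT), producer (helper67).

The corrected (DIA-INT) `DS/P4/ESGen2.DiaInt2 F₀ dia A` ("the Gauss valuation of the function
field at `A` is invariant under the diamond `dia`") from DEGREE PRESERVATION at a chart fixed by
the diamond:

* `map_mem_Rw_of_huniq` : for a reduction datum `R` on `F/K`, an intermediate field `E` with
  `Huniq R E` (`Rw` is integral over `Rw ∩ E`), every `K`-automorphism of `F` fixing `E` pointwise
  maps `Rw` into `Rw` (image of an integral equation; valuation rings are integrally closed);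
* `diaInt2_of_huniq` : hence `DiaInt2` (apply it to `y` and `y⁻¹`: `dia y` is a unit of `Rw`);
* `diaInt2_of_hdeg` : `Huniq` at `E = ℚ̄(t)` from `[F : ℚ̄(t)] ≤ [F~ : k(t~)]`
  (`GJ/J1/HuniqDegree.RedData.huniq_of_finrank_le`), for a Gauss chart `t` with `dia t = t`;
* `diaInt2_F1` : the instance `F₀ := F1 M`, chart `jE = j(q^M)` (the `j`-invariant of
  `E = 𝔾ₘ/q^{Mℤ}`, fixed by every diamond), hypothesis = the body of helper96's
  `K18sPortF1.IgusaAt M q` (helper22's `hIG`) VERBATIM.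
-/
import Fermat.Agent.DS.P4.ESGen2
import Fermat.Agent.DS.P2.GaussF1Port
import Fermat.Agent.GJ.J1.HuniqDegree
import Fermat.Agent.GJ.J1.Val.GaussRedData
import Fermat.Agent.S24.Gen

set_option autoImplicit false

noncomputable section

namespace Fermat.Agent.DS.P2.DiaIntOfHdeg

open HahnSeries ModularCurve IntermediateField Polynomial IsLocalRing
open Fermat.Agent.S24 Fermat.Agent.GJ.J1 Fermat.Agent.GJ.J1.Val Fermat.Agent.DS.P4
open Fermat.Agent.DS.P0 Fermat.Agent.DS.P2.GaussF1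
open Fermat.Agent.GJ.Kum (Qb)

/-! ### Automorphisms and `Huniq` -/

section Abstract

variable {K F k Ft : Type*} [Field K] [Field F] [Algebra K F] [Field k] [Field Ft] [Algebra k Ft]

/-- **an automorphism fixing `E` preserves `Rw`** when `Rw` is integral over `Rw ∩ E`. -/
theorem map_mem_Rw_of_huniq (R : RedData K F k Ft) (E : IntermediateField K F)
    (hu : IntRed.Huniq R E) (φ : F ≃ₐ[K] F) (hfix : ∀ e : E, φ (e : F) = e) {x : F}
    (hx : x ∈ R.Rw) : φ x ∈ R.Rw := by
  obtain ⟨p, hp, hpx⟩ := hu x hx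
  let ψ : ↥(R.Rw.comap (algebraMap E F) : ValuationSubring E) →+* ↥R.Rw :=
    { toFun := fun a => ⟨algebraMap E F (a : E), a.2⟩
      map_one' := rfl
      map_mul' := fun _ _ => rfl
      map_zero' := rfl
      map_add' := fun _ _ => rfl }
  have hint : IsIntegral ↥R.Rw (φ x) := by
    refine ⟨p.map ψ, hp.map ψ, ?_⟩
    rw [eval₂_map]
    have h1 := congrArg (φ : F →+* F) hpx
    rw [map_zero, Polynomial.hom_eval₂] at h1
    have hcomp : ((φ : F →+* F).comp
        (algebraMap ↥(R.Rw.comap (algebraMap E F) : ValuationSubring E) F)) =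
        (algebraMap ↥R.Rw F).comp ψ := by
      ext a
      exact hfix (a : E)
    rw [hcomp] at h1
    exact h1
  obtain ⟨y, hy⟩ := (IsIntegrallyClosed.isIntegral_iff (R := ↥R.Rw) (K := F)).mp hint
  rw [← hy]
  exact y.2

/-- an automorphism fixing `t` fixes `K(t)` pointwise -/
theorem fix_adjoin_simple (φ : F ≃ₐ[K] F) {t : F} (ht : φ t = t) :
    ∀ e : K⟮t⟯, φ (e : F) = e := by
  intro e
  obtain ⟨P, Q, hPQ⟩ := (mem_adjoin_simple_iff K (e : F)).mp e.2
  rw [hPQ, map_div₀]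
  have h1 : ∀ S : K[X], φ (aeval t S) = aeval t S := by
    intro S
    have := Polynomial.aeval_algHom_apply (φ : F →ₐ[K] F) t S
    rw [AlgEquiv.coe_toAlgHom, ht] at this
    exact this.symm
  rw [h1, h1]

end Abstract

/-! ### `DiaInt2` from `Huniq` -/

section Main

variable {F₀ : IntermediateField ℚ (LaurentSeries ℚ)} (A : ValuationSubring Qb)

/-- **(DIA-INT), correct form, from `Huniq`** at an intermediate field fixed by the diamond. -/
theorem diaInt2_of_huniq (hGF : HasGaussFrac A (FL F₀)) (dia : FL F₀ ≃ₐ[Qb] FL F₀)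
    (E : IntermediateField Qb (FL F₀)) (hu : IntRed.Huniq (redData A (FL F₀) hGF) E)
    (hfix : ∀ e : E, dia (e : FL F₀) = e) : DiaInt2 F₀ dia A := by
  intro y hy hne
  have hX : (elG y hy : FL F₀) ∈ Rw A (FL F₀) hGF := int_mem_Rw (hGF := hGF) hy
  have hredX : redL A (FL F₀) hGF ⟨elG y hy, hX⟩ = rd A y := redL_int (hGF := hGF) hy
  have hXi : (elG y hy : FL F₀)⁻¹ ∈ Rw A (FL F₀) hGF :=
    inv_mem_of_redL_ne_zero (x := ⟨elG y hy, hX⟩) (by rw [hredX]; exact hne)
  have h1 : dia (elG y hy) ∈ Rw A (FL F₀) hGF :=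
    map_mem_Rw_of_huniq (redData A (FL F₀) hGF) E hu dia hfix hX
  have h2 : dia (elG y hy)⁻¹ ∈ Rw A (FL F₀) hGF :=
    map_mem_Rw_of_huniq (redData A (FL F₀) hGF) E hu dia hfix hXi
  have hX0 : (elG y hy : FL F₀) ≠ 0 := elG_ne_zero hy hne
  have hmul : (⟨dia (elG y hy), h1⟩ : Rw A (FL F₀) hGF) * ⟨dia (elG y hy)⁻¹, h2⟩ = 1 := by
    apply Subtype.ext
    show dia (elG y hy) * dia (elG y hy)⁻¹ = 1
    rw [← map_mul, mul_inv_cancel₀ hX0, map_one]
  have hne1 : redL A (FL F₀) hGF ⟨dia (elG y hy), h1⟩ ≠ 0 := by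
    intro h0
    have := congrArg (redL A (FL F₀) hGF) hmul
    rw [map_mul, h0, zero_mul, map_one] at this
    exact zero_ne_one this
  obtain ⟨a, b, hab⟩ := h1
  have hab' : IsFrac A (FL F₀) (((⟨dia (elG y hy), ⟨a, b, hab⟩⟩ : Rw A (FL F₀) hGF) : FL F₀) :
      LaurentSeries Qb) a b := hab
  have ha0 : rd A a ≠ 0 := by
    intro h0
    apply hne1
    rw [redL_eq hab', h0, zero_div]
  obtain ⟨ha, hb, hb0, hfrac⟩ := hab
  refine ⟨a, b, ha, hb, ha0, hb0, ?_⟩
  apply Subtype.ext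
  exact hfrac

/-- **(DIA-INT), correct form, from degree preservation** at a Gauss chart `t` fixed by the
diamond.  `F` is the function field in whatever presentation the reduction datum was built on
(`hF : FL F₀ = F`). -/
theorem diaInt2_of_hdeg (F : IntermediateField Qb (LaurentSeries Qb)) (hF : FL F₀ = F)
    (hGF : HasGaussFrac A F) (t : F) (hgc : (redData A F hGF).IsGaussChart t)
    [FiniteDimensional Qb⟮t⟯ F]
    (hdeg : Module.finrank Qb⟮t⟯ F ≤
      Module.finrank (ResidueField A)⟮(redData A F hGF).red ⟨t, hgc.1⟩⟯ (Fres A F hGF))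
    (dia : FL F₀ ≃ₐ[Qb] FL F₀)
    (hfix : ∀ x : FL F₀, (x : LaurentSeries Qb) = (t : LaurentSeries Qb) →
      ((dia x : FL F₀) : LaurentSeries Qb) = (t : LaurentSeries Qb)) :
    DiaInt2 F₀ dia A := by
  subst hF
  have hu := (redData A (FL F₀) hGF).huniq_of_finrank_le t hgc.1 hgc.2 hdeg
  exact diaInt2_of_huniq A hGF dia Qb⟮t⟯ hu
    (fix_adjoin_simple dia (Subtype.ext (hfix t rfl)))

end Main

/-! ### The instance `F₀ := F1 M`, chart `jE = j(q^M)` -/

section F1

variable (M : ℕ) [NeZero M] (A : ValuationSubring Qb)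

/-- **(DIA-INT) for `X₁(M)`** from Igusa's degree statement at the chart `jE = j(q^M)` (the body
of `K18sPortF1.IgusaAt M q` at `A`) for ANY automorphism of `ℚ̄(X₁(M))` fixing `j(q^M)`. -/
theorem diaInt2_F1 (x₀ : F1C Qb M) [IsGen Qb x₀]
    (hIG : Module.finrank Qb⟮genJ1 Qb A M (dvd_refl M)⟯ (F1C Qb M) ≤
      Module.finrank
        (ResidueField A)⟮(redData1C Qb A M).red
          ⟨genJ1 Qb A M (dvd_refl M), genJ1_mem_Rw1C Qb A M _⟩⟯
        (Fres1C Qb A M))
    (dia : FL (F1 M) ≃ₐ[Qb] FL (F1 M))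
    (hfix : ∀ x : FL (F1 M), (x : LaurentSeries Qb) = qExpand Qb M (jqModC Qb) →
      ((dia x : FL (F1 M)) : LaurentSeries Qb) = qExpand Qb M (jqModC Qb)) :
    DiaInt2 (F1 M) dia A := by
  have hgc := isGaussChart_jE Qb A M
  have htK : Transcendental Qb (genJ1 Qb A M (dvd_refl M)) :=
    IntRed.transcendental_of_isGaussChart hgc
  have : FiniteDimensional Qb⟮genJ1 Qb A M (dvd_refl M)⟯ (F1C Qb M) :=
    (IsGen.of_transcendental x₀ htK).finite
  refine diaInt2_of_hdeg A (F1C Qb M) (laurentBaseChange_F1 Qb M) (hasGaussFrac_F1C Qb A M)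
    (genJ1 Qb A M (dvd_refl M)) hgc hIG dia ?_
  intro x hx
  rw [coe_genJ1] at hx ⊢
  exact hfix x hx

end F1

end Fermat.Agent.DS.P2.DiaIntOfHdeg
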