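import Mathlib

/-!
# GATE-N / S48 J1-PORT, node P2 Igusa, leaf IG-3 (helper9): the fixed field of a stabiliser

`Γ` a finite subgroup of `E ≃ₐ[k] E`, `S ⊆ E`.  Every element of `E` fixed by the pointwise
stabiliser `H₀ = {g ∈ Γ | ∀ s ∈ S, g s = s}` lies in the subfield generated by `E^Γ` and `S`
(Artin + the Galois correspondence for `E / E^Γ`; no degree count).

Mathlib only.
-/

namespace Fermat.Agent.DS.P2.FixedFieldAbs

variable {k E : Type*} [Field k] [Field E] [Algebra k E]

/-- **IG-3.** -/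
theorem mem_closure_of_fixed (Γ : Subgroup (E ≃ₐ[k] E)) [Finite Γ] (S : Set E) (x : E)
    (hx : ∀ g ∈ Γ, (∀ s ∈ S, g s = s) → g x = x) :
    x ∈ Subfield.closure ({y : E | ∀ g ∈ Γ, g y = y} ∪ S) := by
  classical
  -- the Galois extension `E / E^Γ`
  let L : IntermediateField (FixedPoints.subfield Γ E) E := IntermediateField.adjoin _ S
  have hgal : IsGalois (FixedPoints.subfield Γ E) E := inferInstance
  have hfd : FiniteDimensional (FixedPoints.subfield Γ E) E := inferInstance
  -- `x` is fixed by the fixing subgroup of `L`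
  have hxL : x ∈ IntermediateField.fixedField L.fixingSubgroup := by
    rw [IntermediateField.mem_fixedField_iff]
    intro τ hτ
    obtain ⟨g, rfl⟩ := FixedPoints.toAlgAut_surjective Γ E τ
    have hg : ∀ s ∈ S, (g : E ≃ₐ[k] E) s = s := by
      intro s hs
      exact (IntermediateField.mem_fixingSubgroup_iff L _).mp hτ s
        (IntermediateField.subset_adjoin _ S hs)
    exact hx g g.2 hg
  rw [IsGalois.fixedField_fixingSubgroup] at hxL
  -- unfold the adjunction
  have hL : L.toSubfield = Subfield.closure (Set.range (algebraMap (FixedPoints.subfield Γ E) E) ∪ S) :=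
    IntermediateField.adjoin_toSubfield _ S
  have hx' : x ∈ L.toSubfield := hxL
  rw [hL] at hx'
  refine (Subfield.closure_mono ?_) hx'
  rintro y (⟨z, rfl⟩ | hy)
  · left
    intro g hg
    exact z.2 ⟨g, hg⟩
  · right; exact hy

/-- the pointwise stabiliser of `S` in `Γ`, as a subgroup of `Γ` -/
def stab (Γ : Subgroup (E ≃ₐ[k] E)) (S : Set E) : Subgroup Γ where
  carrier := {g | ∀ s ∈ S, ((g : Γ) : E ≃ₐ[k] E) s = s}
  one_mem' := fun _ _ => rfl
  mul_mem' := fun {a b} ha hb s hs => by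
    show ((a : E ≃ₐ[k] E) * (b : E ≃ₐ[k] E)) s = s
    rw [AlgEquiv.mul_apply, hb s hs, ha s hs]
  inv_mem' := fun {a} ha s hs => by
    show ((a : E ≃ₐ[k] E)⁻¹) s = s
    rw [AlgEquiv.aut_inv]
    exact (AlgEquiv.symm_apply_eq _).mpr (ha s hs).symm

theorem mem_stab {Γ : Subgroup (E ≃ₐ[k] E)} {S : Set E} {g : Γ} :
    g ∈ stab Γ S ↔ ∀ s ∈ S, ((g : Γ) : E ≃ₐ[k] E) s = s := Iff.rfl

/-- **IG-3 in the `hfix` shape of `IgusaAbs.rho_eq_zero_iff_of_twist`**: for every subgroup
`H₀ ≤ Γ` containing the pointwise stabiliser of `S`, the `H₀`-invariants lie in the subfield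
generated by the `Γ`-invariants and `S`. -/
theorem hfix_of_stab_le (Γ : Subgroup (E ≃ₐ[k] E)) [Finite Γ] (S : Set E) (H0 : Subgroup Γ)
    (hH0 : stab Γ S ≤ H0) :
    ∀ x : E, (∀ g ∈ H0, ((g : Γ) : E ≃ₐ[k] E) x = x) →
      x ∈ (Subfield.closure ({y : E | ∀ g ∈ Γ, g y = y} ∪ S) : Set E) := by
  intro x hx
  refine mem_closure_of_fixed Γ S x fun g hg hs => ?_
  exact hx ⟨g, hg⟩ (hH0 (show (⟨g, hg⟩ : Γ) ∈ stab Γ S from hs))

/-- the subfield generated by the invariants and `S` is fixed by the stabiliser (converse). -/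
theorem fixed_of_mem_closure (Γ : Subgroup (E ≃ₐ[k] E)) (S : Set E) {x : E}
    (hx : x ∈ Subfield.closure ({y : E | ∀ g ∈ Γ, g y = y} ∪ S)) :
    ∀ g ∈ stab Γ S, ((g : Γ) : E ≃ₐ[k] E) x = x := by
  intro g hg
  induction hx using Subfield.closure_induction with
  | mem y hy =>
    rcases hy with hy | hy
    · exact hy g g.2
    · exact hg y hy
  | one => exact map_one _
  | add a b _ _ ha hb => rw [map_add, ha, hb]
  | neg a _ ha => rw [map_neg, ha]
  | inv a _ ha => rw [map_inv₀, ha]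
  | mul a b _ _ ha hb => rw [map_mul, ha, hb]

end Fermat.Agent.DS.P2.FixedFieldAbs
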