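/-
GATE-N / S48 J1-port (helper63): the members `(a, b)` with `a ≡ 0 mod M` of the formal Fricke
family — the torsion points `u = ζ^b` of `𝔾ₘ/q^{Mℤ}` — in the weight-`0` normalisation, and the
uniform periodicity lemmas for `frickeL`.

* `frickeL_add_left`, `frickeL_add_right`, `frickeL_neg`;
* `frickeL0 M c ζ b w := qExpand M c * (1 + 12 * xL0 M ζ b w)` (`w = 1 - ζ^b` a unit),
  `twist_frickeL0` (INVARIANT under the twist: `(0,b) T = (0,b)`), `coeffMap_frickeL0`.
-/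
import Fermat.Agent.DS.P2.FrickeLaurent

set_option autoImplicit false

noncomputable section

namespace Fermat.Agent.DS.P2.Fricke

open HahnSeries ModularCurve Fermat.Agent.GJ.J3.QS

variable {R : Type*} [CommRing R]

theorem frickeL_add_left (M : ℕ) [NeZero M] (c : LaurentSeries R) (ζ : Rˣ) (a b k : ℤ) :
    frickeL M c ζ (a + k * M) b = frickeL M c ζ a b := by
  rw [frickeL, xL_add_left, frickeL]

theorem frickeL_add_right {M : ℕ} [NeZero M] (c : LaurentSeries R) {ζ : Rˣ} (hζ : ζ ^ M = 1)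
    (a b k : ℤ) : frickeL M c ζ a (b + k * M) = frickeL M c ζ a b := by
  rw [frickeL, xL_add_right hζ, frickeL]

theorem frickeL_neg (M : ℕ) [NeZero M] (c : LaurentSeries R) (ζ : Rˣ) (a b : ℤ) :
    frickeL M c ζ (-a) (-b) = frickeL M c ζ a b := by
  rw [frickeL, xL_neg, frickeL]

/-- `frickeL` only depends on `(a, b) mod M` -/
theorem frickeL_congr {M : ℕ} [NeZero M] (c : LaurentSeries R) {ζ : Rˣ} (hζ : ζ ^ M = 1)
    {a a' b b' : ℤ} (ha : (a : ZMod M) = (a' : ZMod M)) (hb : (b : ZMod M) = (b' : ZMod M)) :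
    frickeL M c ζ a b = frickeL M c ζ a' b' := by
  obtain ⟨k, hk⟩ := (ZMod.intCast_eq_intCast_iff_dvd_sub a a' M).mp ha
  obtain ⟨l, hl⟩ := (ZMod.intCast_eq_intCast_iff_dvd_sub b b' M).mp hb
  have ha' : a' = a + k * M := by linarith
  have hb' : b' = b + l * M := by linarith
  rw [ha', hb', frickeL_add_left, frickeL_add_right c hζ]

theorem xL0_add_right {M : ℕ} {ζ : Rˣ} (hζ : ζ ^ M = 1) (b k : ℤ) (w : Rˣ) :
    xL0 M ζ (b + k * M) w = xL0 M ζ b w := by
  have h : ζ ^ (b + k * M) = ζ ^ b := zpow_eq_of_cast_eq hζ (by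
    rw [Int.cast_add, Int.cast_mul, Int.cast_natCast, ZMod.natCast_self, mul_zero, add_zero])
  rw [xL0, xL0, xL_add_right hζ, h]

/-- the weight-`0` member at the torsion point `u = ζ^b` (`a ≡ 0`), `w = 1 - ζ^b` -/
def frickeL0 (M : ℕ) [NeZero M] (c : LaurentSeries R) (ζ : Rˣ) (b : ℤ) (w : Rˣ) :
    LaurentSeries R :=
  qExpand R M c * (1 + 12 * xL0 M ζ b w)

theorem twist_frickeL0 {M : ℕ} [NeZero M] (c : LaurentSeries R) {ζ : Rˣ} (hζ : ζ ^ M = 1)
    (b : ℤ) (w : Rˣ) : twist ζ (frickeL0 M c ζ b w) = frickeL0 M c ζ b w := by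
  have h12 : twist ζ (12 : LaurentSeries R) = 12 := map_ofNat (twistHom ζ) 12
  have h1 : twist ζ (1 : LaurentSeries R) = 1 := map_one (twistHom ζ)
  rw [frickeL0, twist_mul, twist_qExpand M ζ hζ, twist_add, twist_mul, twist_xL0 hζ, h12, h1]

theorem coeffMap_frickeL0 {S : Type*} [CommRing S] (f : R →+* S) (M : ℕ) [NeZero M]
    (c : LaurentSeries R) (ζ : Rˣ) (b : ℤ) (w : Rˣ) :
    coeffMap f (frickeL0 M c ζ b w) =
      frickeL0 M (coeffMap f c) (Units.map (f : R →* S) ζ) b (Units.map (f : R →* S) w) := by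
  rw [frickeL0, map_mul, coeffMap_qExpand, map_add, map_one, map_mul, map_ofNat, coeffMap_xL0,
    frickeL0]

theorem frickeL0_add_right {M : ℕ} [NeZero M] (c : LaurentSeries R) {ζ : Rˣ} (hζ : ζ ^ M = 1)
    (b k : ℤ) (w : Rˣ) : frickeL0 M c ζ (b + k * M) w = frickeL0 M c ζ b w := by
  rw [frickeL0, xL0_add_right hζ, frickeL0]

end Fermat.Agent.DS.P2.Fricke
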