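/-
GATE-N / S48 J1-port, node S48-P2-FRICKE-EXP (helper63): the cusp expansions of the ANALYTIC
Fricke functions `12·f_v` (helper71 `frickeFun`, helper26 `hasCuspExp_frickeFun`) ARE the FORMAL
family `frickeL` / `frickeL0` at `ζ = e(1/M)`, for EVERY `v = (a, b) ∈ ℤ² ∖ Mℤ²`
(= the binder `hV` of helper54's `IgusaFam`):

* `hasCuspExp_twelve_frickeFun (hv : ¬ (M:ℤ) ∣ v.1)` :
    `HasCuspExp M (fun τ => 12 * frickeFun M v τ) (frickeL M (weberFactorC ℂ) (zetaU M) v.1 v.2)`;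
* `oneSubZetaU M b hb : ℂˣ` (`= 1 - ζ^b` for `M ∤ b`);
* `hasCuspExp_twelve_frickeFun_zero (hv1 : (M:ℤ) ∣ v.1) (hv2 : ¬ (M:ℤ) ∣ v.2)` :
    `HasCuspExp M (fun τ => 12 * frickeFun M v τ)
       (frickeL0 M (weberFactorC ℂ) (zetaU M) v.2 (oneSubZetaU M v.2 hv2))`.
-/
import Fermat.Agent.DS.P1.WtNegTwoExp
import Fermat.Agent.DS.P2.FrickeAnBridge
import Fermat.Agent.DS.P2.FrickeZero

set_option autoImplicit false

noncomputable section

namespace Fermat.Agent.DS.P2.Fricke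

open Complex HahnSeries ModularCurve UpperHalfPlane
open Fermat.Agent.S28 Fermat.Agent.DS.P0 Fermat.Agent.DS.P1 Fermat.Agent.DS.P1.FrickeRows
  Fermat.Agent.DS.P1.WtNegTwoExp
open scoped Real

theorem ofNat12_eq_C : (12 : LaurentSeries ℂ) = HahnSeries.C (12 : ℂ) := by
  rw [map_ofNat]

/-- normalised representative: `0 < a < M`, all `b` -/
theorem hasCuspExp_twelve_frickeFun_nat (M : ℕ) [NeZero M] (a : ℕ) (b : ℤ) (ha0 : 0 < a)
    (ha : a < M) :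
    HasCuspExp M (fun τ => 12 * frickeFun M ((a : ℤ), b) τ)
      (frickeL M (weberFactorC ℂ) (zetaU M) (a : ℤ) b) := by
  have hM : (0 : ℝ) < M := by exact_mod_cast Nat.pos_of_ne_zero (NeZero.ne M)
  have h := (hasCuspExp_frickeFun M a b ha (fun h0 => absurd h0 ha0.ne')).const_mul hM 12
  rw [frickeL_eq_mul_lsOf M _ a b ha0, ofNat12_eq_C]
  convert h using 1
  ring

/-- reduction of the first coordinate mod `M` -/
theorem exists_nat_rep (M : ℕ) [NeZero M] (x : ℤ) :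
    ∃ (a : ℕ) (k : ℤ), a < M ∧ x = (a : ℤ) + k * M ∧ ((a = 0) ↔ (M : ℤ) ∣ x) := by
  have hM : (M : ℤ) ≠ 0 := by exact_mod_cast NeZero.ne M
  have hMpos : (0 : ℤ) < M := by exact_mod_cast Nat.pos_of_ne_zero (NeZero.ne M)
  have h0 : 0 ≤ x % (M : ℤ) := Int.emod_nonneg _ hM
  have hlt : x % (M : ℤ) < M := Int.emod_lt_of_pos x hMpos
  refine ⟨(x % (M : ℤ)).toNat, x / (M : ℤ), ?_, ?_, ?_⟩
  · omega
  · rw [Int.toNat_of_nonneg h0]
    have := Int.emod_add_mul_ediv x (M : ℤ)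
    linarith [mul_comm (x / (M : ℤ)) (M : ℤ)]
  · constructor
    · intro h
      have : x % (M : ℤ) = 0 := by omega
      exact Int.dvd_of_emod_eq_zero this
    · intro h
      have : x % (M : ℤ) = 0 := Int.emod_eq_zero_of_dvd h
      omega

/-- **cusp expansion of `12 f_v` for EVERY `v` with `M ∤ v.1`** -/
theorem hasCuspExp_twelve_frickeFun (M : ℕ) [NeZero M] (v : ℤ × ℤ) (hv : ¬ (M : ℤ) ∣ v.1) :
    HasCuspExp M (fun τ => 12 * frickeFun M v τ)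
      (frickeL M (weberFactorC ℂ) (zetaU M) v.1 v.2) := by
  obtain ⟨a, k, haM, hx, h0⟩ := exists_nat_rep M v.1
  have ha0 : 0 < a := Nat.pos_of_ne_zero fun h => hv (h0.mp h)
  have hv' : v = ((a : ℤ), v.2) + (M : ℤ) • ((k, 0) : ℤ × ℤ) := by
    ext
    · simp only [Prod.fst_add, Prod.smul_fst, smul_eq_mul]
      rw [hx]; ring
    · simp
  have hfun : (fun τ => 12 * frickeFun M v τ) = fun τ => 12 * frickeFun M ((a : ℤ), v.2) τ := by
    funext τ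
    have := frickeFun_add_smul (NeZero.ne M) ((a : ℤ), v.2) ((k, 0) : ℤ × ℤ) τ
    rw [← hv'] at this
    rw [this]
  rw [hfun, hx, frickeL_add_left]
  exact hasCuspExp_twelve_frickeFun_nat M a v.2 ha0 haM

/-! ### the points `u = ζ^b` -/

theorem zetaU_zpow_ne_one (M : ℕ) [NeZero M] (b : ℤ) (hb : ¬ (M : ℤ) ∣ b) :
    ((zetaU M ^ b : ℂˣ) : ℂ) ≠ 1 := by
  have hM : (M : ℂ) ≠ 0 := by exact_mod_cast NeZero.ne M
  rw [← xiPar_eq, xiPar]
  intro h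
  obtain ⟨n, hn⟩ := Complex.exp_eq_one_iff.mp h
  apply hb
  refine ⟨n, ?_⟩
  have h2 : (2 * (π : ℂ) * Complex.I) ≠ 0 := Complex.two_pi_I_ne_zero
  have h3 : (b : ℂ) = n * M := by
    have h4 : (2 * (π : ℂ) * Complex.I) * b = (2 * (π : ℂ) * Complex.I) * (n * M) := by
      have h5 : 2 * (π : ℂ) * Complex.I * b / M * M = n * (2 * π * Complex.I) * M := by rw [hn]
      rw [div_mul_cancel₀ _ hM] at h5
      rw [h5]; ring
    exact mul_left_cancel₀ h2 h4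
  have : (b : ℂ) = ((M * n : ℤ) : ℂ) := by rw [h3]; push_cast; ring
  exact_mod_cast this

/-- `1 - ζ^b` as a unit of `ℂ`, for `M ∤ b` -/
def oneSubZetaU (M : ℕ) [NeZero M] (b : ℤ) (hb : ¬ (M : ℤ) ∣ b) : ℂˣ :=
  Units.mk0 (1 - ((zetaU M ^ b : ℂˣ) : ℂ))
    (sub_ne_zero.mpr (zetaU_zpow_ne_one M b hb).symm)

theorem coe_oneSubZetaU (M : ℕ) [NeZero M] (b : ℤ) (hb : ¬ (M : ℤ) ∣ b) :
    ((oneSubZetaU M b hb : ℂˣ) : ℂ) = 1 - ((zetaU M ^ b : ℂˣ) : ℂ) := rfl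

theorem frickeConst_zero (M : ℕ) [NeZero M] (b : ℤ) (hb : ¬ (M : ℤ) ∣ b) :
    frickeConst M 0 b =
      1 / 12 + ((zetaU M ^ b * (oneSubZetaU M b hb)⁻¹ ^ 2 : ℂˣ) : ℂ) := by
  rw [frickeConst, if_pos rfl, xiPar_eq, Units.val_mul, Units.val_pow_eq_pow_val,
    Units.val_inv_eq_inv_val, coe_oneSubZetaU, inv_pow]
  ring

theorem twelve_mul_lsOf_frickePS_zero (M : ℕ) [NeZero M] (b : ℤ) (hb : ¬ (M : ℤ) ∣ b) :
    12 * lsOf 0 (frickePS M 0 b) = 1 + 12 * xL0 M (zetaU M) b (oneSubZetaU M b hb) := by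
  rw [lsOf_frickePS_eq, frickeConst_zero M b hb, xL0, Nat.cast_zero, map_add, ofNat12_eq_C]
  rw [mul_add, mul_add, mul_add, ← map_mul, ← add_assoc]
  congr 2
  norm_num

theorem frickeL0_eq_mul_lsOf (M : ℕ) [NeZero M] (c : LaurentSeries ℂ) (b : ℤ)
    (hb : ¬ (M : ℤ) ∣ b) :
    frickeL0 M c (zetaU M) b (oneSubZetaU M b hb) =
      qExpand ℂ M c * (12 * lsOf 0 (frickePS M 0 b)) := by
  rw [frickeL0, twelve_mul_lsOf_frickePS_zero M b hb]

theorem hasCuspExp_twelve_frickeFun_zero_nat (M : ℕ) [NeZero M] (b : ℤ) (hb : ¬ (M : ℤ) ∣ b) :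
    HasCuspExp M (fun τ => 12 * frickeFun M ((0 : ℤ), b) τ)
      (frickeL0 M (weberFactorC ℂ) (zetaU M) b (oneSubZetaU M b hb)) := by
  have hM : (0 : ℝ) < M := by exact_mod_cast Nat.pos_of_ne_zero (NeZero.ne M)
  have h := (hasCuspExp_frickeFun M 0 b (Nat.pos_of_ne_zero (NeZero.ne M))
    (fun _ => hb)).const_mul hM 12
  rw [Nat.cast_zero] at h
  rw [frickeL0_eq_mul_lsOf M _ b hb, ofNat12_eq_C]
  convert h using 1
  ring

/-- **cusp expansion of `12 f_v` for EVERY `v` with `M ∣ v.1`, `M ∤ v.2`** -/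
theorem hasCuspExp_twelve_frickeFun_zero (M : ℕ) [NeZero M] (v : ℤ × ℤ) (hv1 : (M : ℤ) ∣ v.1)
    (hv2 : ¬ (M : ℤ) ∣ v.2) :
    HasCuspExp M (fun τ => 12 * frickeFun M v τ)
      (frickeL0 M (weberFactorC ℂ) (zetaU M) v.2 (oneSubZetaU M v.2 hv2)) := by
  obtain ⟨k, hk⟩ := hv1
  have hv' : v = ((0 : ℤ), v.2) + (M : ℤ) • ((k, 0) : ℤ × ℤ) := by
    ext
    · simp only [Prod.fst_add, Prod.smul_fst, smul_eq_mul, zero_add]
      exact hk
    · simp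
  have hfun : (fun τ => 12 * frickeFun M v τ) = fun τ => 12 * frickeFun M ((0 : ℤ), v.2) τ := by
    funext τ
    have := frickeFun_add_smul (NeZero.ne M) ((0 : ℤ), v.2) ((k, 0) : ℤ × ℤ) τ
    rw [← hv'] at this
    rw [this]
  rw [hfun]
  exact hasCuspExp_twelve_frickeFun_zero_nat M v.2 hv2

end Fermat.Agent.DS.P2.Fricke
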