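/-
GATE-N / S48 J1-PORT, node S48-P2-IG-DEG, file 4 (helper92): **the `hIG` binder of
`DS/P2/ChartBridge.hdeg_j1_of_hdeg_jM` / `DS/P2/K18s1OfIgusa.k18s1_of_igusa` from the core
statement of the Igusa node**, for `L(X₁(M)) = F1C L M` at the charts `j(q^d)`, `d ∣ M`
(`d = M`: the port chart `jE`).

* `hIG_of_coreSer_dvr` : generic base `(K₀, O)` (e.g. `(E, OE A E)`, `E ⊂ ℚ̄` a number field), `L / K₀`
  any extension, `A ⊇ O` a valuation subring of `L`:
    `CoreSer O (F1C K₀ M) (j(q^d))  ⟹  [F1C L M : L(j(q^d))] ≤ [Fres1C L A M : κ(red j(q^d))]`;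
* `hIG_of_coreSer_rat` : the same from the core statement over `(ℚ, ℤ_(ℓ))`
  (`= (KER)`: the kernel of the reduction on the integral closure of `ℤ_(ℓ)[j(q^d)]` in `F1 M` is
  `(ℓ)`), for EVERY field `L` of characteristic `0` and EVERY valuation subring `A` over `ℓ`;
* `hIG_of_coreSer` : the same from the core statement over ANY `(k, O)` above `ℓ`
  (`k ⊇ ℚ` any field, `O` a DVR with fraction field `k`, `O ∩ ℚ = ℤ_(ℓ)`) on ANY set `Fbig` of
  series over `k` containing `F1C k M` and stable under the constants (e.g. the level-`M` Fricke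
  field of helper87/helper54) — via the descent `CoreDescent.coreSer_rat_of_coreSer`.

NO finiteness hypothesis: if `F1C L M` is not finite over `L(j(q^d))` the left side is `0`.
-/
import Fermat.Agent.DS.P2.DegPresGenBC
import Fermat.Agent.DS.P2.CoreDescent
import Fermat.Agent.DS.P2.GaussF1
import Fermat.Agent.GJ.J1.Gauss.DegPres
import Fermat.Agent.GK.AL.SecondVal

set_option autoImplicit false
set_option linter.unusedSectionVars false
set_option linter.style.haveILetI false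

noncomputable section

namespace Fermat.Agent.DS.P2.HdegF1

open Polynomial HahnSeries ModularCurve IntermediateField IsLocalRing GaloisRep
open Fermat.Agent.S28 Fermat.Agent.GJ.GaussDeg Fermat.Agent.DS.P2.DegPresGen
open Fermat.Agent.GJ.J1 Fermat.Agent.GJ.J1.Val Fermat.Agent.DS.P0 Fermat.Agent.DS.P2.GaussF1

/-! ### The generators of `F1C` are integral series -/

section Gen

variable {O K₀ : Type*} [CommRing O] [IsDomain O] [IsDiscreteValuationRing O]
  [Field K₀] [Algebra O K₀] [IsFractionRing O K₀]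
variable (M : ℕ) [NeZero M]

theorem serEmb_jqd (d : ℕ) [NeZero d] :
    serEmb O K₀ (qExpand O d (jqModC O)) = qExpand K₀ d (jqModC K₀) := by
  rw [serEmb, coeffMap_qExpand, coeffMap_jqModC]

theorem serEmb_weber (a : ZMod M) : serEmb O K₀ (weber12C O M a) = weber12C K₀ M a := by
  rw [serEmb, coeffMap_weber12C]

/-- `K₀(X₁(M))` consists of quotients of `O`-integral series -/
theorem mem_gaussField_of_mem_F1C {x : LaurentSeries K₀} (hx : x ∈ F1C K₀ M) :
    x ∈ gaussField O K₀ := by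
  refine mem_gaussField_of_mem_adjoin (O := O) ?_ hx
  rintro s (⟨d, hne, hd, rfl⟩ | ⟨a, ha, rfl⟩)
  · exact ⟨qExpand O d (jqModC O), serEmb_jqd d⟩
  · exact ⟨weber12C O M a, serEmb_weber M a⟩

end Gen

/-! ### `F1C L M` is the base change of `F1C K₀ M` -/

section BC

variable {K₀ L : Type*} [Field K₀] [Field L] [Algebra K₀ L] (M : ℕ) [NeZero M]

theorem F1C_le_adjoin_image :
    F1C L M ≤ IntermediateField.adjoin L
      (⇑(coeffMap (algebraMap K₀ L)) '' (F1C K₀ M : Set (LaurentSeries K₀))) := by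
  unfold F1C
  rw [IntermediateField.adjoin_le_iff]
  rintro _ (⟨d, hne, hd, rfl⟩ | ⟨a, ha, rfl⟩)
  · refine IntermediateField.subset_adjoin L _ ⟨qExpand K₀ d (jqModC K₀), ?_, ?_⟩
    · exact IntermediateField.subset_adjoin K₀ _ (Or.inl (mem_divisorExpansionsC K₀ M hd))
    · rw [coeffMap_qExpand, coeffMap_jqModC]
  · refine IntermediateField.subset_adjoin L _ ⟨weber12C K₀ M a, ?_, ?_⟩
    · exact IntermediateField.subset_adjoin K₀ _ (Or.inr (mem_weberExpansionsC K₀ M ha))
    · rw [coeffMap_weber12C]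

end BC

/-! ### `hIG` over a generic base -/

section Dvr

variable {O K₀ : Type*} [CommRing O] [IsDomain O] [IsDiscreteValuationRing O]
  [Field K₀] [Algebra O K₀] [IsFractionRing O K₀] [CharZero K₀]
variable {L : Type*} [Field L] [Algebra K₀ L] (A : ValuationSubring L)
variable (hOA : ∀ a : O, algebraMap K₀ L (algebraMap O K₀ a) ∈ A)
variable (M : ℕ) [NeZero M]

/-- **`hIG` from the core statement over a generic base `(K₀, O)`.** -/
theorem hIG_of_coreSer_dvr
    (hmax : ∀ a ∈ IsLocalRing.maximalIdeal O, toA A hOA a ∈ IsLocalRing.maximalIdeal ↥A)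
    {d : ℕ} [NeZero d] (hd : d ∣ M)
    (hcore : CoreSer O (F1C K₀ M : Set (LaurentSeries K₀)) (qExpand K₀ d (jqModC K₀))) :
    Module.finrank L⟮genJ1 L A M hd⟯ (F1C L M) ≤
      Module.finrank (ResidueField ↥A)⟮(redData1C L A M).red
        ⟨genJ1 L A M hd, genJ1_mem_Rw1C L A M hd⟩⟯ (Fres1C L A M) := by
  by_cases hfd : FiniteDimensional L⟮genJ1 L A M hd⟯ (F1C L M)
  · have e := serEmb_jqd (O := O) (K₀ := K₀) d
    rw [← e] at hcore
    have ht : serEmb O K₀ (qExpand O d (jqModC O)) ∈ F1C K₀ M := by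
      rw [e]; exact jqModCd_mem_F1C K₀ M hd
    have httr : Transcendental K₀ (serEmb O K₀ (qExpand O d (jqModC O))) := by
      rw [e]; exact Fermat.Agent.GK.AL.transcendental_qExpand_jqModC K₀ d
    have ha : qExpand ↥A d (jqModC ↥A) = coeffMap (toA A hOA) (qExpand O d (jqModC O)) := by
      rw [coeffMap_qExpand, coeffMap_jqModC]
    haveI : FiniteDimensional
        L⟮(⟨emb A (qExpand ↥A d (jqModC ↥A)), emb_genJ1_mem L A M hd⟩ : F1C L M)⟯ (F1C L M) := hfd
    exact finrank_le_finrank_Fres_of_core A hOA hmax (F1C K₀ M) (qExpand O d (jqModC O)) ht httr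
      (fun x hx => mem_gaussField_of_mem_F1C M hx) hcore (F1C L M) (hasGaussFrac_F1C L A M)
      (fun x hx => coeffMap_mem_F1C K₀ M (algebraMap K₀ L) hx) (F1C_le_adjoin_image M) ha
      (emb_genJ1_mem L A M hd)
  · rw [Module.finrank_of_not_finite hfd]
    exact Nat.zero_le _

end Dvr

/-! ### `hIG` from the core statement over `(ℚ, ℤ_(ℓ))` -/

section Rat

variable {ℓ : ℕ} [Fact ℓ.Prime]
variable {L : Type*} [Field L] [Algebra ℚ L] (A : ValuationSubring L)
variable (M : ℕ) [NeZero M]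

theorem hOA_rat (hA : A.LiesOverPrime ℓ) (a : ↥(ratLocalizedAt ℓ)) :
    algebraMap ℚ L (algebraMap ↥(ratLocalizedAt ℓ) ℚ a) ∈ A :=
  algebraMap_rat_mem A hA a

theorem hmax_rat (hA : A.LiesOverPrime ℓ) :
    ∀ a ∈ IsLocalRing.maximalIdeal ↥(ratLocalizedAt ℓ),
      toA A (hOA_rat A hA) a ∈ IsLocalRing.maximalIdeal ↥A := by
  intro a ha
  rw [maximalIdeal_ratLocalizedAt, Ideal.mem_span_singleton] at ha
  obtain ⟨c, rfl⟩ := ha
  rw [map_mul]
  refine Ideal.mul_mem_right _ _ ?_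
  rw [map_natCast]
  have h0 : (((ℓ : ℕ) : ↥A) : L) ∈ A.nonunits := by
    have : (((ℓ : ℕ) : ↥A) : L) = (ℓ : L) := by simp
    rw [this]; exact hA
  rw [ValuationSubring.mem_nonunits_iff_exists_mem_maximalIdeal] at h0
  obtain ⟨hmem, hmax⟩ := h0
  exact hmax

/-- **`hIG` from `(KER)`**: the core statement over `(ℚ, ℤ_(ℓ))` for `F1 M = ℚ(X₁(M))` at the chart
`j(q^d)` gives degree preservation of `L(X₁(M))` at `j(q^d)` for EVERY field `L` of characteristic
`0` and EVERY valuation subring `A` of `L` lying over `ℓ`. -/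
theorem hIG_of_coreSer_rat (hA : A.LiesOverPrime ℓ) {d : ℕ} [NeZero d] (hd : d ∣ M)
    (hcore : CoreSer ↥(ratLocalizedAt ℓ) (F1 M : Set (LaurentSeries ℚ))
      (qExpand ℚ d (jqModC ℚ))) :
    Module.finrank L⟮genJ1 L A M hd⟯ (F1C L M) ≤
      Module.finrank (ResidueField ↥A)⟮(redData1C L A M).red
        ⟨genJ1 L A M hd, genJ1_mem_Rw1C L A M hd⟩⟯ (Fres1C L A M) :=
  hIG_of_coreSer_dvr A (hOA_rat A hA) M (hmax_rat A hA) hd hcore

/-- **`hIG` from the Igusa core over ANY `(k, O)` above `ℓ`**, on any set `Fbig` of series over `k`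
containing `F1C k M` and stable under the constants. -/
theorem hIG_of_coreSer (hA : A.LiesOverPrime ℓ) {d : ℕ} [NeZero d] (hd : d ∣ M)
    {k : Type*} [Field k] [Algebra ℚ k]
    {O : Type*} [CommRing O] [IsDomain O] [IsDiscreteValuationRing O] [Algebra O k]
    [IsFractionRing O k]
    (f : ↥(ratLocalizedAt ℓ) →+* O)
    (hf : ∀ r : ↥(ratLocalizedAt ℓ), algebraMap O k (f r) = algebraMap ℚ k (r : ℚ))
    (hZ : ∀ x : ℚ, algebraMap ℚ k x ∈ (algebraMap O k).range → x ∈ ratLocalizedAt ℓ)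
    (Fbig : Set (LaurentSeries k)) (hFbig : ∀ x ∈ F1C k M, x ∈ Fbig)
    (hFC : ∀ (c : k), ∀ x ∈ Fbig, HahnSeries.C c * x ∈ Fbig)
    (hcore : CoreSer O Fbig (qExpand k d (jqModC k))) :
    Module.finrank L⟮genJ1 L A M hd⟯ (F1C L M) ≤
      Module.finrank (ResidueField ↥A)⟮(redData1C L A M).red
        ⟨genJ1 L A M hd, genJ1_mem_Rw1C L A M hd⟩⟯ (Fres1C L A M) := by
  refine hIG_of_coreSer_rat A M hA hd ?_
  have hι : (DescentLemma.iota (qExpand ℚ d (jqModC ℚ)) : LaurentSeries k) =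
      qExpand k d (jqModC k) := by
    rw [DescentLemma.iota, coeffMap_qExpand, coeffMap_jqModC]
  rw [← hι] at hcore
  exact coreSer_rat_of_coreSer f hf hZ (F1 M : Set (LaurentSeries ℚ)) Fbig
    (fun x hx => hFbig _ (coeffMap_mem_F1C ℚ M (algebraMap ℚ k) hx)) hFC
    (Fermat.Agent.GK.AL.transcendental_qExpand_jqModC ℚ d) hcore

end Rat

end Fermat.Agent.DS.P2.HdegF1
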