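import Fermat.Agent.S28.CoreGauss5

/-!
# GATE-N / P2 : the abstract Igusa step (uniqueness of the Gauss valuation on a Galois level
structure field) from the `X₀`-uniqueness, the `q`-twist and "generated by transvections"

`E` is a field over `k = Frac O` (`O` a DVR), `Γ` a finite group of `k`-automorphisms of `E`,
`σ₀ : E →ₐ[k] k((q))` the standard expansion and `σ g := σ₀ ∘ g` the other expansions.  Assume the
chart hypotheses `ChartHyp σ G Gs` of `S28/CoreGauss2` (so that the reductions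
`h.rho g : intSubring (evalE O k G) →+* κ((q))` exist).  Let `D` be the set of `g` such that
`h.rho g` and `h.rho 1` have the same kernel.

* `T ∈ D` (`hT`: the `q ↦ ζ q` twist commutes with reduction);
* `H0 ≤ Γ` with fixed field contained in `E0` (`hfix`), and all expansions have the same kernel on
  the integral elements of `E0` (`hX0`: this is the `X₀`-theorem of S28);
* `H0` normalises `⟨T⟩` (`hnorm`);
* the conjugates of `T` generate `Γ` (`hgen`).

Then `D = Γ` (`rho_eq_zero_iff_of_twist`), hence the whole `S28/CoreGauss5` conclusion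
(`coreFin_of_twist`, `coreInf_of_twist`).

Also: `ChartHyp.exists_eq_sigma` — every `k`-algebra embedding `τ : E → k((q))` with `τ G = Gs` is
one of the `σ i` of a chart family (used to obtain `hX0` from an abstractly given S28 cusp datum).
-/

set_option autoImplicit false
set_option linter.unusedSectionVars false

noncomputable section

namespace Fermat.Agent.DS.P2.IgusaAbs

open Polynomial Fermat.Agent.S28

/-! ## 1. Transitivity of a finite group on the primes above a prime of the fixed ring -/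

section Trans

variable {R : Type*} [CommRing R] {H : Type*} [Group H] [Fintype H]

theorem act_mul_apply (act : H →* (R ≃+* R)) (a b : H) (x : R) :
    act (a * b) x = act a (act b x) := by
  rw [map_mul]; rfl

theorem act_prod_eq (act : H →* (R ≃+* R)) (b : R) (g : H) :
    act g (∏ h, act h b) = ∏ h, act h b := by
  rw [map_prod]
  have h1 : ∀ h, act g (act h b) = act (g * h) b := fun h => (act_mul_apply act g h b).symm
  simp_rw [h1]
  exact Fintype.prod_equiv (Equiv.mulLeft g) _ _ (fun h => rfl)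

theorem exists_forall_mem_of_fixed (act : H →* (R ≃+* R)) (P Q : Ideal R) (hP : P.IsPrime)
    (hPQ : ∀ x : R, (∀ h, act h x = x) → (x ∈ Q → x ∈ P)) :
    ∃ h : H, ∀ x ∈ Q, act h x ∈ P := by
  classical
  have hsub : (Q : Set R) ⊆ ⋃ h ∈ ((Finset.univ : Finset H) : Set H),
      ((P.comap (act h : R →+* R) : Ideal R) : Set R) := by
    intro b hb
    have hdvd : b ∣ ∏ h, act h b := by
      have h1 : act 1 b = b := by simp
      calc b = act 1 b := h1.symm
        _ ∣ ∏ h, act h b := Finset.dvd_prod_of_mem _ (Finset.mem_univ 1)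
    have hN : ∏ h, act h b ∈ Q := Q.mem_of_dvd hdvd hb
    have hNP : ∏ h, act h b ∈ P := hPQ _ (act_prod_eq act b) hN
    obtain ⟨h, -, hh⟩ := (hP.prod_mem_iff).mp hNP
    simp only [Finset.coe_univ, Set.mem_univ, Set.iUnion_true, Set.mem_iUnion, SetLike.mem_coe,
      Ideal.mem_comap]
    exact ⟨h, hh⟩
  obtain ⟨h, -, hh⟩ := (Ideal.subset_union_prime (1 : H) (1 : H)
    (fun h _ _ _ => Ideal.comap_isPrime (act h : R →+* R) P)).mp hsub
  exact ⟨h, fun x hx => hh hx⟩

/-- **Transitivity**: two primes with the same trace on the fixed elements are conjugate. -/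
theorem exists_forall_mem_iff_of_fixed (act : H →* (R ≃+* R)) (P Q : Ideal R) (hP : P.IsPrime)
    (hQ : Q.IsPrime) (hPQ : ∀ x : R, (∀ h, act h x = x) → (x ∈ P ↔ x ∈ Q)) :
    ∃ h : H, ∀ x : R, x ∈ Q ↔ act h x ∈ P := by
  obtain ⟨h, hh⟩ := exists_forall_mem_of_fixed act P Q hP fun x hx => (hPQ x hx).mpr
  obtain ⟨h', hh'⟩ := exists_forall_mem_of_fixed act Q P hQ fun x hx => (hPQ x hx).mp
  -- `g = h' * h` maps `Q` into `Q`
  have hg : ∀ x ∈ Q, act (h' * h) x ∈ Q := fun x hx => by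
    rw [act_mul_apply]; exact hh' _ (hh x hx)
  have hpow : ∀ (n : ℕ) (x : R), x ∈ Q → act ((h' * h) ^ n) x ∈ Q := by
    intro n
    induction n with
    | zero => intro x hx; simpa using hx
    | succ n ih =>
      intro x hx
      rw [pow_succ, act_mul_apply]
      exact ih _ (hg x hx)
  refine ⟨h, fun x => ⟨hh x, fun hx => ?_⟩⟩
  have h1 : act (h' * h) x ∈ Q := by rw [act_mul_apply]; exact hh' _ hx
  obtain ⟨n, hn, hn1⟩ := isOfFinOrder_iff_pow_eq_one.mp (isOfFinOrder_of_finite (h' * h))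
  obtain ⟨m, rfl⟩ : ∃ m, n = m + 1 := ⟨n - 1, by omega⟩
  have h2 := hpow m _ h1
  have h3 : act ((h' * h) ^ m) (act (h' * h) x) = x := by
    rw [← act_mul_apply, ← pow_succ, hn1]; simp
  rwa [h3] at h2

end Trans

/-! ## 2. Generic consequences of "all reductions have the same kernel" -/

section Generic

variable {O : Type*} {k : Type*} [CommRing O] [IsDomain O] [IsDiscreteValuationRing O]
  [Field k] [Algebra O k] [IsFractionRing O k]
variable {E : Type*} [Field E] [Algebra k E] {I : Type*} [Fintype I] [DecidableEq I]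
variable {σ : I → (E →ₐ[k] LaurentSeries k)} {G : E} {Gs : LaurentSeries k}

/-- divisibility by the uniformizer at the distinguished expansion propagates to all, once all
the reductions have the same zero set -/
theorem key_of_ker (h : ChartHyp (O := O) σ G Gs) (i₀ : I)
    (hker : ∀ (i : I) (x : intSubring (evalE O k G)), h.rho i x = 0 ↔ h.rho i₀ x = 0)
    {ϖ : O} (hϖ : Irreducible ϖ) {a : E} (ha : (evalE O k G).IsIntegralElem a)
    (hdiv : ∃ v ∈ gaussRing O k, σ i₀ a = HahnSeries.C (algebraMap O k ϖ) * v) (i : I) :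
    ∃ v ∈ gaussRing O k, σ i a = HahnSeries.C (algebraMap O k ϖ) * v := by
  have h0 : h.rho i₀ ⟨a, ha⟩ = 0 := by
    rw [ChartHyp.rho_apply]
    exact (gaussRed_eq_zero_iff hϖ _).mpr hdiv
  have h1 : h.rho i ⟨a, ha⟩ = 0 := (hker i _).mpr h0
  rw [ChartHyp.rho_apply] at h1
  exact (gaussRed_eq_zero_iff hϖ _).mp h1

/-- **Abstract core, finite chart** (from equality of the kernels). -/
theorem coreFin_of_ker (h : ChartHyp (O := O) σ G Gs) (i₀ : I)
    (hker : ∀ (i : I) (x : intSubring (evalE O k G)), h.rho i x = 0 ↔ h.rho i₀ x = 0)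
    {ϖ : O} (hϖ : Irreducible ϖ) {a : E} (ha : (evalE O k G).IsIntegralElem a)
    (hdiv : ∃ v ∈ gaussRing O k, σ i₀ a = HahnSeries.C (algebraMap O k ϖ) * v) :
    (evalE O k G).IsIntegralElem (algebraMap k E (algebraMap O k ϖ)⁻¹ * a) :=
  h.div_unif i₀ hϖ ha (key_of_ker h i₀ hker hϖ ha hdiv)

/-- **Abstract core, chart at infinity** (from equality of the kernels). -/
theorem coreInf_of_ker (h : ChartHyp (O := O) σ G Gs) (h' : ChartHyp (O := O) σ G⁻¹ Gs⁻¹)
    (i₀ : I)
    (hker : ∀ (i : I) (x : intSubring (evalE O k G)), h.rho i x = 0 ↔ h.rho i₀ x = 0)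
    {ϖ : O} (hϖ : Irreducible ϖ) {b : E} (hb : (evalE O k G⁻¹).IsIntegralElem b)
    (hdiv : ∃ v ∈ gaussRing O k, σ i₀ b = HahnSeries.C (algebraMap O k ϖ) * v) :
    (evalE O k G⁻¹).IsIntegralElem (algebraMap k E (algebraMap O k ϖ)⁻¹ * b) := by
  have hG0 : G ≠ 0 := by
    rintro rfl
    have h1 := h.map_G i₀
    rw [map_zero] at h1
    have h2 : evalLk Gs Polynomial.X = evalLk Gs 0 := by simp [evalLk, ← h1]
    exact Polynomial.X_ne_zero (h.inj_k h2)
  have hGs0 : Gs ≠ 0 := by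
    intro h0
    apply hG0
    have h1 := h.map_G i₀
    rw [h0] at h1
    exact (map_eq_zero_iff _ (σ i₀ : E →+* LaurentSeries k).injective).mp h1
  obtain ⟨m, hm⟩ := CoreAlg.exists_pow_mul_isIntegralElem
    ((algebraMap k E).comp (algebraMap O k)) G hG0 hb
  have hdiv' : ∃ v ∈ gaussRing O k, σ i₀ (G ^ m * b) = HahnSeries.C (algebraMap O k ϖ) * v := by
    obtain ⟨v, hv, hbv⟩ := hdiv
    refine ⟨Gs ^ m * v, mul_mem (pow_mem h.mem m) hv, ?_⟩
    rw [map_mul, map_pow, h.map_G, hbv]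
    ring
  have hall := key_of_ker h i₀ hker hϖ hm hdiv'
  refine h'.div_unif i₀ hϖ hb fun i => ?_
  obtain ⟨v, hv, hav⟩ := hall i
  refine ⟨Gs⁻¹ ^ m * v, mul_mem (pow_mem h'.mem m) hv, ?_⟩
  rw [map_mul, map_pow, h.map_G] at hav
  have h3 : σ i b = Gs⁻¹ ^ m * (Gs ^ m * σ i b) := by
    rw [← mul_assoc, ← mul_pow, inv_mul_cancel₀ hGs0, one_pow, one_mul]
  rw [h3, hav]
  ring

/-! ### every embedding over `k(G)` is one of the `σ i` -/

omit [IsDomain O] [IsDiscreteValuationRing O] [IsFractionRing O k] in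
theorem exists_apply_eq_sigma [IsDomain O] [IsDiscreteValuationRing O] [IsFractionRing O k]
    [Nonempty I] (h : ChartHyp (O := O) σ G Gs)
    (τ : E →ₐ[k] LaurentSeries k) (hτ : τ G = Gs) (x : E) : ∃ i, τ x = σ i x := by
  classical
  set Pol : (LaurentSeries k)[X] := ∏ i, (X - C (σ i x)) with hPol
  have hsym := h.symrat x
  choose p q hq hpq using hsym
  have hq' : ∀ m, evalLk Gs (q m) ≠ 0 := fun m h0 => hq m (h.inj_k (by rw [h0, map_zero]))
  set a : ℕ → E := fun m => evalEk k G (p m) / evalEk k G (q m) with ha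
  have hmap : ∀ (ρ : E →ₐ[k] LaurentSeries k), ρ G = Gs → ∀ m, ρ (a m) = Pol.coeff m := by
    intro ρ hρ m
    have h1 : ∀ P : k[X], ρ (evalEk k G P) = evalLk Gs P := fun P => by
      have := congrArg (fun f => f P) (sigma_comp_evalEk ρ G)
      simpa [hρ] using this
    simp only [ha]
    rw [map_div₀, h1, h1, div_eq_iff (hq' m)]
    exact (hpq m).symm
  set n := Fintype.card I with hn
  have hdeg : Pol.natDegree < n + 1 := by
    have : Pol.natDegree = n := by
      rw [hPol, natDegree_prod_of_monic _ _ (fun i _ => monic_X_sub_C _)]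
      simp [hn]
    omega
  set F : E[X] := ∑ m ∈ Finset.range (n + 1), monomial m (a m) with hF
  have hFmap : ∀ (ρ : E →ₐ[k] LaurentSeries k), ρ G = Gs →
      F.map (ρ : E →+* LaurentSeries k) = Pol := by
    intro ρ hρ
    rw [hF, Polynomial.map_sum]
    simp_rw [Polynomial.map_monomial]
    conv_rhs => rw [Pol.as_sum_range' (n + 1) hdeg]
    refine Finset.sum_congr rfl fun m _ => ?_
    rw [← hmap ρ hρ m]
    rfl
  obtain ⟨i₀⟩ := ‹Nonempty I›
  have hFx : F.eval x = 0 := by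
    apply (σ i₀ : E →+* LaurentSeries k).injective
    rw [map_zero, ← Polynomial.eval_map_apply, hFmap (σ i₀) (h.map_G i₀), hPol, eval_prod]
    exact Finset.prod_eq_zero (Finset.mem_univ i₀) (by simp)
  have h2 : Pol.eval (τ x) = 0 := by
    have h3 := congrArg (τ : E →+* LaurentSeries k) hFx
    rwa [map_zero, ← Polynomial.eval_map_apply, hFmap τ hτ] at h3
  rw [hPol, eval_prod, Finset.prod_eq_zero_iff] at h2
  obtain ⟨i, -, hi⟩ := h2
  refine ⟨i, ?_⟩
  simpa [sub_eq_zero] using hi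

omit [IsDomain O] [IsDiscreteValuationRing O] [IsFractionRing O k] in
/-- **Every `k`-embedding of `E` into `k((q))` which sends `G` to `Gs` is one of the `σ i`.** -/
theorem exists_eq_sigma [IsDomain O] [IsDiscreteValuationRing O] [IsFractionRing O k]
    [Infinite k] [Nonempty I] (h : ChartHyp (O := O) σ G Gs)
    (τ : E →ₐ[k] LaurentSeries k) (hτ : τ G = Gs) : ∃ i, τ = σ i := by
  let P : I → Submodule k E := fun i =>
    { carrier := {x | τ x = σ i x}
      add_mem' := fun {a b} ha hb => by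
        simp only [Set.mem_ofPred_eq] at ha hb ⊢
        rw [map_add, map_add, ha, hb]
      zero_mem' := by simp
      smul_mem' := fun c x hx => by
        simp only [Set.mem_ofPred_eq] at hx ⊢
        rw [Algebra.smul_def, map_mul, map_mul, hx, AlgHom.commutes, AlgHom.commutes] }
  have hcov : ⋃ i, ((P i : Submodule k E) : Set E) = Set.univ := by
    ext x
    simp only [Set.mem_iUnion, SetLike.mem_coe, Set.mem_univ, iff_true]
    obtain ⟨i, hi⟩ := exists_apply_eq_sigma h τ hτ x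
    exact ⟨i, hi⟩
  obtain ⟨i, hi⟩ := Subspace.exists_eq_top_of_iUnion_eq_univ hcov
  refine ⟨i, AlgHom.ext fun x => ?_⟩
  have : x ∈ P i := by
    rw [hi]; exact Submodule.mem_top
  exact this

omit [IsDomain O] [IsDiscreteValuationRing O] [IsFractionRing O k] in
/-- the fraction field of a DVR is infinite -/
theorem infinite_of_dvr [IsDomain O] [IsDiscreteValuationRing O] [IsFractionRing O k] :
    Infinite k := by
  obtain ⟨ϖ, hϖ⟩ := IsDiscreteValuationRing.exists_irreducible O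
  have h1 : Function.Injective (fun n : ℕ => ϖ ^ n) :=
    pow_injective_of_not_isUnit hϖ.not_isUnit hϖ.ne_zero
  exact Infinite.of_injective (fun n : ℕ => algebraMap O k (ϖ ^ n))
    ((IsFractionRing.injective O k).comp h1)

end Generic

/-! ## 3. The Igusa step -/

section Igusa

variable {O : Type*} {k : Type*} [CommRing O] [IsDomain O] [IsDiscreteValuationRing O]
  [Field k] [Algebra O k] [IsFractionRing O k]
variable {E : Type*} [Field E] [Algebra k E]

/-- composing `evalE` with a `k`-algebra endomorphism of `E` -/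
theorem algHom_comp_evalE (τ : E →ₐ[k] E) (G : E) :
    (τ : E →+* E).comp (evalE O k G) = evalE O k (τ G) := by
  apply Polynomial.ringHom_ext
  · intro a
    simp [evalE]
  · simp [evalE]

variable (Γ : Subgroup (E ≃ₐ[k] E)) [Fintype Γ] [DecidableEq Γ]

/-- the family of expansions `σ₀ ∘ g`, `g ∈ Γ` -/
def sig (σ₀ : E →ₐ[k] LaurentSeries k) (g : Γ) : E →ₐ[k] LaurentSeries k :=
  σ₀.comp ((g : E ≃ₐ[k] E) : E →ₐ[k] E)

@[simp] theorem sig_apply (σ₀ : E →ₐ[k] LaurentSeries k) (g : Γ) (x : E) :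
    sig Γ σ₀ g x = σ₀ ((g : E ≃ₐ[k] E) x) := rfl

variable {Γ} {σ₀ : E →ₐ[k] LaurentSeries k} {G : E} {Gs : LaurentSeries k}

/-- `G` is fixed by `Γ` -/
theorem smul_G (h : ChartHyp (O := O) (sig Γ σ₀) G Gs) (g : Γ) : (g : E ≃ₐ[k] E) G = G := by
  have h1 := h.map_G g
  have h2 := h.map_G 1
  rw [sig_apply] at h1 h2
  have h3 : ((1 : Γ) : E ≃ₐ[k] E) G = G := rfl
  rw [h3] at h2
  exact (σ₀ : E →+* LaurentSeries k).injective (h1.trans h2.symm)

/-- `Γ` preserves the integral closure of `O[G]` -/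
theorem smul_mem_intSubring (h : ChartHyp (O := O) (sig Γ σ₀) G Gs) (g : Γ) {x : E}
    (hx : x ∈ intSubring (evalE O k G)) : (g : E ≃ₐ[k] E) x ∈ intSubring (evalE O k G) := by
  have h1 := RingHom.IsIntegralElem.map (f := evalE O k G) hx
    ((((g : E ≃ₐ[k] E) : E →ₐ[k] E)) : E →+* E)
  rw [algHom_comp_evalE] at h1
  have h2 : (((g : E ≃ₐ[k] E) : E →ₐ[k] E)) G = G := smul_G h g
  rw [h2] at h1
  exact h1

/-- the action of `Γ` on the integral closure -/
def actR (h : ChartHyp (O := O) (sig Γ σ₀) G Gs) :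
    Γ →* (intSubring (evalE O k G) ≃+* intSubring (evalE O k G)) where
  toFun g :=
    { toFun := fun x => ⟨(g : E ≃ₐ[k] E) x, smul_mem_intSubring h g x.2⟩
      invFun := fun x => ⟨((g⁻¹ : Γ) : E ≃ₐ[k] E) x, smul_mem_intSubring h g⁻¹ x.2⟩
      left_inv := fun x => Subtype.ext (by
        show ((g⁻¹ : Γ) : E ≃ₐ[k] E) ((g : E ≃ₐ[k] E) x) = x
        rw [← AlgEquiv.mul_apply, ← Subgroup.coe_mul, inv_mul_cancel]; rfl)
      right_inv := fun x => Subtype.ext (by
        show (g : E ≃ₐ[k] E) (((g⁻¹ : Γ) : E ≃ₐ[k] E) x) = x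
        rw [← AlgEquiv.mul_apply, ← Subgroup.coe_mul, mul_inv_cancel]; rfl)
      map_mul' := fun x y => Subtype.ext (by simp)
      map_add' := fun x y => Subtype.ext (by simp) }
  map_one' := by
    ext x
    rfl
  map_mul' g g' := by
    ext x
    rfl

@[simp] theorem coe_actR (h : ChartHyp (O := O) (sig Γ σ₀) G Gs) (g : Γ)
    (x : intSubring (evalE O k G)) : ((actR h g x : intSubring (evalE O k G)) : E) =
      (g : E ≃ₐ[k] E) x := rfl

theorem rho_eq_rho_one (h : ChartHyp (O := O) (sig Γ σ₀) G Gs) (g : Γ)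
    (x : intSubring (evalE O k G)) : h.rho g x = h.rho 1 (actR h g x) := by
  rw [ChartHyp.rho_apply, ChartHyp.rho_apply]
  congr 1

theorem rho_mul (h : ChartHyp (O := O) (sig Γ σ₀) G Gs) (g g' : Γ)
    (x : intSubring (evalE O k G)) : h.rho (g * g') x = h.rho g (actR h g' x) := by
  rw [ChartHyp.rho_apply, ChartHyp.rho_apply]
  congr 1

/-- the decomposition group: those `g` whose reduction has the same kernel as the standard one -/
def decomp (h : ChartHyp (O := O) (sig Γ σ₀) G Gs) : Subgroup Γ where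
  carrier := {g | ∀ x : intSubring (evalE O k G), h.rho g x = 0 ↔ h.rho 1 x = 0}
  one_mem' := fun x => Iff.rfl
  mul_mem' := fun {g g'} hg hg' x => by
    rw [rho_mul, hg, ← rho_eq_rho_one, hg' x]
  inv_mem' := fun {g} hg x => by
    have h1 : h.rho g (actR h g⁻¹ x) = h.rho 1 x := by
      rw [← rho_mul, mul_inv_cancel]
    rw [rho_eq_rho_one h g⁻¹ x, ← hg, h1]

theorem mem_decomp (h : ChartHyp (O := O) (sig Γ σ₀) G Gs) {g : Γ} :
    g ∈ decomp h ↔ ∀ x : intSubring (evalE O k G), h.rho g x = 0 ↔ h.rho 1 x = 0 := Iff.rfl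

theorem actR_mul_inv_apply (h : ChartHyp (O := O) (sig Γ σ₀) G Gs) (g : Γ)
    (x : intSubring (evalE O k G)) : actR h g (actR h g⁻¹ x) = x := by
  have h1 : actR h g (actR h g⁻¹ x) = actR h (g * g⁻¹) x := by rw [map_mul]; rfl
  rw [h1, mul_inv_cancel, map_one]; rfl

/-- **`D · H0 = Γ`**: from the `X₀`-uniqueness and the transitivity of `H0` on the primes above a
prime of the fixed ring. -/
theorem exists_mul_mem_decomp (h : ChartHyp (O := O) (sig Γ σ₀) G Gs) (E0 : Set E)
    (H0 : Subgroup Γ)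
    (hfix : ∀ x : E, (∀ g ∈ H0, ((g : Γ) : E ≃ₐ[k] E) x = x) → x ∈ E0)
    (hX0 : ∀ (g : Γ) (x : intSubring (evalE O k G)), (x : E) ∈ E0 →
      (h.rho g x = 0 ↔ h.rho 1 x = 0))
    (γ : Γ) : ∃ g ∈ H0, γ * g⁻¹ ∈ decomp h := by
  classical
  haveI : Fintype H0 := Fintype.ofFinite H0
  let act : H0 →* (intSubring (evalE O k G) ≃+* intSubring (evalE O k G)) :=
    (actR h).comp H0.subtype
  have hPQ : ∀ x : intSubring (evalE O k G), (∀ g : H0, act g x = x) →
      (x ∈ RingHom.ker (h.rho 1) ↔ x ∈ RingHom.ker (h.rho γ)) := by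
    intro x hx
    have hxE0 : (x : E) ∈ E0 := by
      apply hfix
      intro g hg
      have := congrArg (fun y : intSubring (evalE O k G) => (y : E)) (hx ⟨g, hg⟩)
      exact this
    rw [RingHom.mem_ker, RingHom.mem_ker]
    exact (hX0 γ x hxE0).symm
  obtain ⟨g0, hg0⟩ := exists_forall_mem_iff_of_fixed act (RingHom.ker (h.rho 1))
    (RingHom.ker (h.rho γ)) (RingHom.ker_isPrime _) (RingHom.ker_isPrime _) hPQ
  refine ⟨g0.1, g0.2, ?_⟩
  rw [mem_decomp]
  intro x
  rw [rho_mul]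
  have h1 := hg0 (actR h (g0 : Γ)⁻¹ x)
  rw [RingHom.mem_ker, RingHom.mem_ker] at h1
  rw [h1]
  have h2 : act g0 (actR h (g0 : Γ)⁻¹ x) = x := actR_mul_inv_apply h (g0 : Γ) x
  rw [h2]

/-- **The Igusa step**: the decomposition group is everything. -/
theorem decomp_eq_top (h : ChartHyp (O := O) (sig Γ σ₀) G Gs) (T : Γ) (hT : T ∈ decomp h)
    (E0 : Set E) (H0 : Subgroup Γ)
    (hfix : ∀ x : E, (∀ g ∈ H0, ((g : Γ) : E ≃ₐ[k] E) x = x) → x ∈ E0)
    (hX0 : ∀ (g : Γ) (x : intSubring (evalE O k G)), (x : E) ∈ E0 →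
      (h.rho g x = 0 ↔ h.rho 1 x = 0))
    (hnorm : ∀ g ∈ H0, g * T * g⁻¹ ∈ Subgroup.zpowers T)
    (hgen : Subgroup.normalClosure ({T} : Set Γ) = ⊤) : decomp h = ⊤ := by
  rw [eq_top_iff, ← hgen, Subgroup.normalClosure, Subgroup.closure_le]
  intro a ha
  obtain ⟨b, hb, hba⟩ := Group.mem_conjugatesOfSet_iff.mp ha
  rw [Set.mem_singleton_iff] at hb
  subst hb
  obtain ⟨γ, rfl⟩ := isConj_iff.mp hba
  obtain ⟨g, hg, hd⟩ := exists_mul_mem_decomp h E0 H0 hfix hX0 γ
  have hz : Subgroup.zpowers b ≤ decomp h := (Subgroup.zpowers_le).mpr hT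
  have h1 : g * b * g⁻¹ ∈ decomp h := hz (hnorm g hg)
  have h2 : γ * b * γ⁻¹ = (γ * g⁻¹) * (g * b * g⁻¹) * (γ * g⁻¹)⁻¹ := by group
  show γ * b * γ⁻¹ ∈ decomp h
  rw [h2]
  exact (decomp h).mul_mem ((decomp h).mul_mem hd h1) ((decomp h).inv_mem hd)

/-- all the reductions have the same zero set -/
theorem rho_eq_zero_iff_of_twist (h : ChartHyp (O := O) (sig Γ σ₀) G Gs) (T : Γ)
    (hT : ∀ x : intSubring (evalE O k G), h.rho T x = 0 ↔ h.rho 1 x = 0)
    (E0 : Set E) (H0 : Subgroup Γ)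
    (hfix : ∀ x : E, (∀ g ∈ H0, ((g : Γ) : E ≃ₐ[k] E) x = x) → x ∈ E0)
    (hX0 : ∀ (g : Γ) (x : intSubring (evalE O k G)), (x : E) ∈ E0 →
      (h.rho g x = 0 ↔ h.rho 1 x = 0))
    (hnorm : ∀ g ∈ H0, g * T * g⁻¹ ∈ Subgroup.zpowers T)
    (hgen : Subgroup.normalClosure ({T} : Set Γ) = ⊤)
    (g : Γ) (x : intSubring (evalE O k G)) : h.rho g x = 0 ↔ h.rho 1 x = 0 := by
  have h1 : g ∈ decomp h := by
    rw [decomp_eq_top h T hT E0 H0 hfix hX0 hnorm hgen]; exact Subgroup.mem_top g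
  exact h1 x

/-- **Core, finite chart**: an element integral over `O[G]` whose standard expansion is divisible
by the uniformizer in the Gauss ring stays integral after division by the uniformizer. -/
theorem coreFin_of_twist (h : ChartHyp (O := O) (sig Γ σ₀) G Gs) (T : Γ)
    (hT : ∀ x : intSubring (evalE O k G), h.rho T x = 0 ↔ h.rho 1 x = 0)
    (E0 : Set E) (H0 : Subgroup Γ)
    (hfix : ∀ x : E, (∀ g ∈ H0, ((g : Γ) : E ≃ₐ[k] E) x = x) → x ∈ E0)
    (hX0 : ∀ (g : Γ) (x : intSubring (evalE O k G)), (x : E) ∈ E0 →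
      (h.rho g x = 0 ↔ h.rho 1 x = 0))
    (hnorm : ∀ g ∈ H0, g * T * g⁻¹ ∈ Subgroup.zpowers T)
    (hgen : Subgroup.normalClosure ({T} : Set Γ) = ⊤)
    {ϖ : O} (hϖ : Irreducible ϖ) {a : E} (ha : (evalE O k G).IsIntegralElem a)
    (hdiv : ∃ v ∈ gaussRing O k, σ₀ a = HahnSeries.C (algebraMap O k ϖ) * v) :
    (evalE O k G).IsIntegralElem (algebraMap k E (algebraMap O k ϖ)⁻¹ * a) :=
  coreFin_of_ker h 1 (rho_eq_zero_iff_of_twist h T hT E0 H0 hfix hX0 hnorm hgen) hϖ ha hdiv

/-- **Core, chart at infinity.** -/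
theorem coreInf_of_twist (h : ChartHyp (O := O) (sig Γ σ₀) G Gs)
    (h' : ChartHyp (O := O) (sig Γ σ₀) G⁻¹ Gs⁻¹) (T : Γ)
    (hT : ∀ x : intSubring (evalE O k G), h.rho T x = 0 ↔ h.rho 1 x = 0)
    (E0 : Set E) (H0 : Subgroup Γ)
    (hfix : ∀ x : E, (∀ g ∈ H0, ((g : Γ) : E ≃ₐ[k] E) x = x) → x ∈ E0)
    (hX0 : ∀ (g : Γ) (x : intSubring (evalE O k G)), (x : E) ∈ E0 →
      (h.rho g x = 0 ↔ h.rho 1 x = 0))
    (hnorm : ∀ g ∈ H0, g * T * g⁻¹ ∈ Subgroup.zpowers T)
    (hgen : Subgroup.normalClosure ({T} : Set Γ) = ⊤)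
    {ϖ : O} (hϖ : Irreducible ϖ) {b : E} (hb : (evalE O k G⁻¹).IsIntegralElem b)
    (hdiv : ∃ v ∈ gaussRing O k, σ₀ b = HahnSeries.C (algebraMap O k ϖ) * v) :
    (evalE O k G⁻¹).IsIntegralElem (algebraMap k E (algebraMap O k ϖ)⁻¹ * b) :=
  coreInf_of_ker h h' 1 (rho_eq_zero_iff_of_twist h T hT E0 H0 hfix hX0 hnorm hgen) hϖ hb hdiv

end Igusa

end Fermat.Agent.DS.P2.IgusaAbs
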