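import Fermat.Agent.S28.Extend

/-!
# GATE-N / P2 / IG-1 : the action of `SL(2,ℤ)` on a field generated by a permuted family

`gen : X → L` is a family of elements of a field `L ⊇ k`, `Ebig gen = k(gen x : x ∈ X)`.
If a group `Γ₀` permutes the index set `X` (`π : Γ₀ →* Equiv.Perm X`) and the permuted family
satisfies the same polynomial relations (`hker`), then `Γ₀` acts on `Ebig gen` by `k`-algebra
automorphisms with `α g (gen x) = gen (π g x)` (`alphaHom`, `alphaHom_gen`); the image is finite
when `X` is.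

For `Γ₀ = SL(2,ℤ)`: the normal closure of `T` is everything (`normalClosure_T`), and when the
action on `X` factors through `SL(2, ℤ/M)`, `Γ₀(M)` normalises `⟨T⟩` in the image
(`conj_T_mem_zpowers`).
-/

set_option autoImplicit false
set_option linter.unusedSectionVars false

noncomputable section

namespace Fermat.Agent.DS.P2.IgusaAct

open Fermat.Agent.S28

section Perm

variable {k L : Type*} [Field k] [Field L] [Algebra k L] {X : Type*}

/-- the field generated by the family -/
abbrev Ebig (gen : X → L) : IntermediateField k L := IntermediateField.adjoin k (Set.range gen)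

variable (gen : X → L)

theorem gen_mem (x : X) : gen x ∈ (Ebig gen : IntermediateField k L) :=
  IntermediateField.subset_adjoin k _ ⟨x, rfl⟩

/-- the generator as an element of the field -/
def genE (x : X) : (Ebig gen : IntermediateField k L) := ⟨gen x, gen_mem gen x⟩

theorem aeval_mem (P : MvPolynomial X k) :
    MvPolynomial.aeval gen P ∈ (Ebig gen : IntermediateField k L) := by
  apply IntermediateField.algebra_adjoin_le_adjoin k
  rw [Algebra.adjoin_range_eq_range_aeval]
  exact ⟨P, rfl⟩

/-- two `k`-algebra homs out of `Ebig gen` which agree on the generators are equal -/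
theorem algHom_ext_gen {L' : Type*} [Field L'] [Algebra k L']
    {σ τ : (Ebig gen : IntermediateField k L) →ₐ[k] L'}
    (h : ∀ x, σ (genE gen x) = τ (genE gen x)) : σ = τ := by
  have hP : ∀ P : MvPolynomial X k,
      σ ⟨MvPolynomial.aeval gen P, aeval_mem gen P⟩ =
        τ ⟨MvPolynomial.aeval gen P, aeval_mem gen P⟩ := by
    intro P
    have h1 : (⟨MvPolynomial.aeval gen P, aeval_mem gen P⟩ : (Ebig gen : IntermediateField k L)) =
        MvPolynomial.aeval (genE gen) P := by
      apply Subtype.ext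
      have := (MvPolynomial.comp_aeval_apply (f := genE gen)
        ((Ebig gen : IntermediateField k L).val) P).symm
      exact this
    rw [h1, MvPolynomial.comp_aeval_apply, MvPolynomial.comp_aeval_apply]
    congr 2
    funext x
    exact h x
  apply AlgHom.ext
  rintro ⟨x, hx⟩
  have hx' := hx
  rw [IntermediateField.mem_adjoin_iff_div] at hx'
  obtain ⟨a, ha, b, hb, rfl⟩ := hx'
  rw [Algebra.adjoin_range_eq_range_aeval] at ha hb
  obtain ⟨P, hPa⟩ : ∃ P, MvPolynomial.aeval gen P = a := ha
  obtain ⟨Q, hQb⟩ : ∃ Q, MvPolynomial.aeval gen Q = b := hb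
  subst hPa hQb
  have hdiv : (⟨MvPolynomial.aeval gen P / MvPolynomial.aeval gen Q, hx⟩ :
      (Ebig gen : IntermediateField k L)) =
      ⟨MvPolynomial.aeval gen P, aeval_mem gen P⟩ /
      ⟨MvPolynomial.aeval gen Q, aeval_mem gen Q⟩ := rfl
  rw [hdiv, map_div₀, map_div₀, hP P, hP Q]

variable (k) in
/-- the permuted family satisfies the same polynomial relations over `k` -/
def RelInv (p : Equiv.Perm X) : Prop :=
  ∀ P : MvPolynomial X k, MvPolynomial.aeval gen P = 0 ↔ MvPolynomial.aeval (gen ∘ p) P = 0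

theorem aeval_comp_mem (p : X → X) (P : MvPolynomial X k) :
    MvPolynomial.aeval (gen ∘ p) P ∈ (Ebig gen : IntermediateField k L) := by
  rw [← MvPolynomial.aeval_rename]
  exact aeval_mem gen _

/-- the endomorphism of `Ebig gen` attached to a relation-invariant permutation -/
theorem exists_endo (p : Equiv.Perm X) (hp : RelInv k gen p) :
    ∃ σ : (Ebig gen : IntermediateField k L) →ₐ[k] (Ebig gen : IntermediateField k L),
      ∀ x, σ (genE gen x) = genE gen (p x) := by
  obtain ⟨σ0, hσ0⟩ := exists_algHom_adjoin_field (k := k) gen (gen ∘ p) hp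
  have hmem : ∀ y : (Ebig gen : IntermediateField k L),
      σ0 y ∈ (Ebig gen : IntermediateField k L).toSubalgebra := by
    rintro ⟨y, hy⟩
    have hy' := hy
    rw [IntermediateField.mem_adjoin_iff_div] at hy'
    obtain ⟨a, ha, b, hb, rfl⟩ := hy'
    rw [Algebra.adjoin_range_eq_range_aeval] at ha hb
    obtain ⟨P, hPa⟩ : ∃ P, MvPolynomial.aeval gen P = a := ha
    obtain ⟨Q, hQb⟩ : ∃ Q, MvPolynomial.aeval gen Q = b := hb
    subst hPa hQb
    have hdiv : (⟨MvPolynomial.aeval gen P / MvPolynomial.aeval gen Q, hy⟩ :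
        (Ebig gen : IntermediateField k L)) =
        ⟨MvPolynomial.aeval gen P, aeval_mem gen P⟩ /
        ⟨MvPolynomial.aeval gen Q, aeval_mem gen Q⟩ := rfl
    rw [hdiv, map_div₀, hσ0 P, hσ0 Q]
    exact (Ebig gen : IntermediateField k L).div_mem (aeval_comp_mem gen p P)
      (aeval_comp_mem gen p Q)
  refine ⟨σ0.codRestrict (Ebig gen : IntermediateField k L).toSubalgebra hmem, fun x => ?_⟩
  apply Subtype.ext
  have h1 : (genE gen x : (Ebig gen : IntermediateField k L)) =
      ⟨MvPolynomial.aeval gen (MvPolynomial.X x), aeval_mem gen _⟩ := by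
    apply Subtype.ext
    simp [genE]
  show σ0 (genE gen x) = gen (p x)
  rw [h1, hσ0]
  simp

end Perm

section Act

variable {k L : Type*} [Field k] [Field L] [Algebra k L] {X : Type*} (gen : X → L)
variable {Γ₀ : Type*} [Group Γ₀] (π : Γ₀ →* Equiv.Perm X) (hπ : ∀ g, RelInv k gen (π g))

/-- the endomorphism attached to `g` -/
def endo (g : Γ₀) : (Ebig gen : IntermediateField k L) →ₐ[k] (Ebig gen : IntermediateField k L) :=
  (exists_endo gen (π g) (hπ g)).choose

theorem endo_gen (g : Γ₀) (x : X) : endo gen π hπ g (genE gen x) = genE gen (π g x) :=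
  (exists_endo gen (π g) (hπ g)).choose_spec x

theorem endo_mul (g g' : Γ₀) :
    endo gen π hπ (g * g') = (endo gen π hπ g).comp (endo gen π hπ g') := by
  apply algHom_ext_gen
  intro x
  rw [AlgHom.comp_apply, endo_gen, endo_gen, endo_gen, map_mul]
  rfl

theorem endo_one : endo gen π hπ 1 = AlgHom.id k _ := by
  apply algHom_ext_gen
  intro x
  rw [endo_gen, map_one]
  rfl

theorem endo_eq_of_perm_eq {g g' : Γ₀} (h : π g = π g') : endo gen π hπ g = endo gen π hπ g' := by
  apply algHom_ext_gen
  intro x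
  rw [endo_gen, endo_gen, h]

/-- **the action of `Γ₀` on the generated field** -/
def alphaHom : Γ₀ →* ((Ebig gen : IntermediateField k L) ≃ₐ[k] (Ebig gen : IntermediateField k L)) where
  toFun g := AlgEquiv.ofAlgHom (endo gen π hπ g) (endo gen π hπ g⁻¹)
    (by rw [← endo_mul, mul_inv_cancel, endo_one])
    (by rw [← endo_mul, inv_mul_cancel, endo_one])
  map_one' := by
    apply AlgEquiv.ext
    intro x
    show endo gen π hπ 1 x = x
    rw [endo_one]; rfl
  map_mul' g g' := by
    apply AlgEquiv.ext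
    intro x
    show endo gen π hπ (g * g') x = endo gen π hπ g (endo gen π hπ g' x)
    rw [endo_mul]; rfl

theorem alphaHom_apply (g : Γ₀) (y : (Ebig gen : IntermediateField k L)) :
    alphaHom gen π hπ g y = endo gen π hπ g y := rfl

theorem alphaHom_gen (g : Γ₀) (x : X) :
    alphaHom gen π hπ g (genE gen x) = genE gen (π g x) := endo_gen gen π hπ g x

theorem alphaHom_eq_of_perm_eq {g g' : Γ₀} (h : π g = π g') :
    alphaHom gen π hπ g = alphaHom gen π hπ g' := by
  apply AlgEquiv.ext
  intro y
  rw [alphaHom_apply, alphaHom_apply, endo_eq_of_perm_eq gen π hπ h]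

/-- the image of the action is finite when the index set is -/
theorem finite_range [Finite X] : Finite (alphaHom gen π hπ).range := by
  classical
  have : Finite (Equiv.Perm X) := inferInstance
  have : Finite π.range := inferInstance
  let f : π.range → (alphaHom gen π hπ).range := fun p =>
    ⟨alphaHom gen π hπ (MonoidHom.mem_range.mp p.2).choose, MonoidHom.mem_range.mpr ⟨_, rfl⟩⟩
  refine Finite.of_surjective f ?_
  rintro ⟨a, ha⟩
  obtain ⟨g, rfl⟩ := MonoidHom.mem_range.mp ha
  refine ⟨⟨π g, MonoidHom.mem_range.mpr ⟨g, rfl⟩⟩, ?_⟩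
  apply Subtype.ext
  show alphaHom gen π hπ _ = alphaHom gen π hπ g
  apply alphaHom_eq_of_perm_eq
  exact (MonoidHom.mem_range.mp (⟨π g, MonoidHom.mem_range.mpr ⟨g, rfl⟩⟩ : π.range).2).choose_spec

end Act

/-! ## `SL(2,ℤ)`: the conjugates of `T` generate; `Γ₀(M)` normalises `⟨T⟩` modulo `Γ(M)` -/

section SL2

open Matrix ModularGroup MatrixGroups CongruenceSubgroup

theorem S_eq_conj : (S : SL(2, ℤ)) = T⁻¹ * (S * T⁻¹ * S⁻¹) * T⁻¹ := by
  decide

/-- the conjugates of `T` generate `SL(2,ℤ)` -/
theorem normalClosure_T : Subgroup.normalClosure ({T} : Set SL(2, ℤ)) = ⊤ := by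
  have hT : T ∈ Subgroup.normalClosure ({T} : Set SL(2, ℤ)) := Subgroup.subset_normalClosure rfl
  have hTi := (Subgroup.normalClosure ({T} : Set SL(2, ℤ))).inv_mem hT
  rw [eq_top_iff, ← _root_.SpecialLinearGroup.SL2Z_generators, Subgroup.closure_le]
  rintro g (rfl | rfl)
  · rw [S_eq_conj]
    exact mul_mem (mul_mem hTi (Subgroup.normalClosure_normal.conj_mem _ hTi _)) hTi
  · exact hT

theorem conj_upper {R : Type*} [CommRing R] (A U : SL(2, R)) (hA : A 1 0 = 0)
    (hU : (U : Matrix (Fin 2) (Fin 2) R) = !![1, 1; 0, 1]) :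
    ((A * U * A⁻¹ : SL(2, R)) : Matrix (Fin 2) (Fin 2) R) = !![1, (A 0 0) ^ 2; 0, 1] := by
  have hdet : A 0 0 * A 1 1 - A 0 1 * A 1 0 = 1 := by
    have := A.det_coe
    rwa [Matrix.det_fin_two] at this
  rw [hA, mul_zero, sub_zero] at hdet
  rw [Matrix.SpecialLinearGroup.coe_mul, Matrix.SpecialLinearGroup.coe_mul,
    Matrix.SpecialLinearGroup.coe_inv, Matrix.adjugate_fin_two, hU]
  ext i j
  fin_cases i <;> fin_cases j <;>
    simp [Matrix.mul_apply, Fin.sum_univ_two, hA] <;>
    first | linear_combination hdet | linear_combination (-1 : R) * hdet | ring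

/-- for `h ∈ Γ₀(M)`: `h T h⁻¹ ≡ T ^ (a²)` modulo `M` -/
theorem map_conj_T (M : ℕ) (h : SL(2, ℤ)) (hh : h ∈ Gamma0 M) :
    Matrix.SpecialLinearGroup.map (Int.castRingHom (ZMod M)) (h * T * h⁻¹) =
      Matrix.SpecialLinearGroup.map (Int.castRingHom (ZMod M)) (T ^ ((h 0 0) ^ 2 : ℤ)) := by
  have hc : ((h 1 0 : ℤ) : ZMod M) = 0 := Gamma0_mem.mp hh
  apply Subtype.ext
  rw [map_mul, map_mul, map_inv]
  rw [conj_upper]
  · conv_rhs => rw [Matrix.SpecialLinearGroup.map_apply_coe, coe_T_zpow]
    ext i j
    fin_cases i <;> fin_cases j <;> simp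
  · simpa using hc
  · rw [Matrix.SpecialLinearGroup.map_apply_coe, coe_T]
    ext i j
    fin_cases i <;> fin_cases j <;> simp

variable {k L : Type*} [Field k] [Field L] [Algebra k L] {X : Type*} (gen : X → L)
variable (π : SL(2, ℤ) →* Equiv.Perm X) (hπ : ∀ g, RelInv k gen (π g))

/-- the image of `SL(2,ℤ)` in the automorphism group of the generated field -/
abbrev Gam : Subgroup ((Ebig gen : IntermediateField k L) ≃ₐ[k] (Ebig gen : IntermediateField k L)) :=
  (alphaHom gen π hπ).range

/-- the image of `T` -/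
def Tbar : Gam gen π hπ := (alphaHom gen π hπ).rangeRestrict T

/-- the image of `Γ₀(M)` -/
def H0bar (M : ℕ) : Subgroup (Gam gen π hπ) := (Gamma0 M).map (alphaHom gen π hπ).rangeRestrict

theorem coe_rangeRestrict (g : SL(2, ℤ)) :
    (((alphaHom gen π hπ).rangeRestrict g : Gam gen π hπ) :
      (Ebig gen : IntermediateField k L) ≃ₐ[k] (Ebig gen : IntermediateField k L)) =
      alphaHom gen π hπ g := rfl

/-- **the conjugates of the image of `T` generate the image group** -/
theorem normalClosure_Tbar :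
    Subgroup.normalClosure ({Tbar gen π hπ} : Set (Gam gen π hπ)) = ⊤ := by
  have hsurj : Function.Surjective (alphaHom gen π hπ).rangeRestrict :=
    (alphaHom gen π hπ).rangeRestrict_surjective
  have h1 := Subgroup.map_normalClosure ({T} : Set SL(2, ℤ)) (alphaHom gen π hπ).rangeRestrict hsurj
  rw [normalClosure_T, Subgroup.map_top_of_surjective _ hsurj, Set.image_singleton] at h1
  exact h1.symm

/-- **`Γ₀(M)` normalises `⟨T⟩`** in the image group, when the action on the index set factors
through `SL(2, ℤ/M)` -/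
theorem conj_Tbar_mem_zpowers (M : ℕ)
    (hπM : ∀ g g' : SL(2, ℤ), Matrix.SpecialLinearGroup.map (Int.castRingHom (ZMod M)) g =
      Matrix.SpecialLinearGroup.map (Int.castRingHom (ZMod M)) g' → π g = π g')
    (g : Gam gen π hπ) (hg : g ∈ H0bar gen π hπ M) :
    g * Tbar gen π hπ * g⁻¹ ∈ Subgroup.zpowers (Tbar gen π hπ) := by
  obtain ⟨h, hh, rfl⟩ := hg
  have h1 : (alphaHom gen π hπ).rangeRestrict h * Tbar gen π hπ *
      ((alphaHom gen π hπ).rangeRestrict h)⁻¹ =
      (alphaHom gen π hπ).rangeRestrict (h * T * h⁻¹) := by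
    rw [map_mul, map_mul, map_inv]; rfl
  have h2 : (alphaHom gen π hπ).rangeRestrict (h * T * h⁻¹) =
      (alphaHom gen π hπ).rangeRestrict (T ^ ((h 0 0) ^ 2 : ℤ)) := by
    apply Subtype.ext
    rw [coe_rangeRestrict, coe_rangeRestrict]
    exact alphaHom_eq_of_perm_eq gen π hπ (hπM _ _ (map_conj_T M h hh))
  rw [h1, h2, map_zpow]
  exact Subgroup.zpow_mem_zpowers _ _

end SL2

end Fermat.Agent.DS.P2.IgusaAct
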