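import Fermat.Agent.DS.P2.IgusaAbs
import Fermat.Agent.S28.CuspSeries

/-!
# GATE-N / P2 / IG-2 : the `q ↦ ζ q` twist commutes with the Gauss reduction

`ζ : Oˣ`.  The substitution `twK ζ = scaleHom k ζ` preserves the Gauss ring and
`gaussRed (twK ζ x) = twκ ζ (gaussRed x)`; hence if the expansion of `T x` is the twist of the
expansion of `x`, the reductions `h.rho T` and `h.rho 1` have the same zero set (`rho_T_iff`:
hypothesis `hT` of `IgusaAbs.rho_eq_zero_iff_of_twist`).
-/

set_option autoImplicit false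
set_option linter.unusedSectionVars false

noncomputable section

namespace Fermat.Agent.DS.P2.IgusaTwist

open Polynomial ModularCurve Fermat.Agent.S28 Fermat.Agent.DS.P2.IgusaAbs

variable {O : Type*} {k : Type*} [CommRing O] [IsDomain O] [IsDiscreteValuationRing O]
  [Field k] [Algebra O k] [IsFractionRing O k]

variable (k) in
/-- the twist `q ↦ ζ q` on `k((q))` -/
def twK (ζ : Oˣ) : LaurentSeries k →+* LaurentSeries k :=
  scaleHom k (Units.map ((algebraMap O k : O →+* k) : O →* k) ζ)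

/-- the twist `q ↦ ζ̄ q` on `κ((q))` -/
def twκ (ζ : Oˣ) : LaurentSeries (IsLocalRing.ResidueField O) →+*
    LaurentSeries (IsLocalRing.ResidueField O) :=
  scaleHom (IsLocalRing.ResidueField O)
    (Units.map ((IsLocalRing.residue O : O →+* IsLocalRing.ResidueField O) :
      O →* IsLocalRing.ResidueField O) ζ)

theorem scaleHom_injective {R : Type*} [CommRing R] (c : Rˣ) :
    Function.Injective (scaleHom R c) := by
  rw [injective_iff_map_eq_zero]
  intro x hx
  ext m
  have := congrArg (fun y => y.coeff m) hx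
  simp only [scaleHom_coeff, HahnSeries.coeff_zero] at this
  simpa using this

theorem twK_serEmb (ζ : Oˣ) (g : LaurentSeries O) :
    twK k ζ (serEmb O k g) = serEmb O k (scaleHom O ζ g) := by
  show scaleHom k _ (coeffMap (algebraMap O k) g) = coeffMap (algebraMap O k) (scaleHom O ζ g)
  rw [coeffMap_scaleHom]

theorem twκ_serRed (ζ : Oˣ) (g : LaurentSeries O) :
    twκ ζ (serRed O g) = serRed O (scaleHom O ζ g) := by
  show scaleHom _ _ (coeffMap (IsLocalRing.residue O) g) =
    coeffMap (IsLocalRing.residue O) (scaleHom O ζ g)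
  rw [coeffMap_scaleHom]

theorem twK_mem_gaussRing (ζ : Oˣ) {x : LaurentSeries k} (hx : x ∈ gaussRing O k) :
    twK k ζ x ∈ gaussRing O k := by
  obtain ⟨g, h, hh, hxgh⟩ := mem_gaussRing_iff.mp hx
  refine ⟨scaleHom O ζ g, scaleHom O ζ h, ?_, ?_⟩
  · rw [← twκ_serRed]
    intro h0
    apply hh
    apply scaleHom_injective (R := IsLocalRing.ResidueField O)
    rw [map_zero]
    exact h0
  · rw [← twK_serEmb, ← twK_serEmb, ← map_mul, hxgh]

theorem gaussRed_twK (ζ : Oˣ) {x : LaurentSeries k} (hx : x ∈ gaussRing O k) :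
    gaussRed O k ⟨twK k ζ x, twK_mem_gaussRing ζ hx⟩ = twκ ζ (gaussRed O k ⟨x, hx⟩) := by
  obtain ⟨g, h, hh, hxgh⟩ := mem_gaussRing_iff.mp hx
  have hh' : serRed O (scaleHom O ζ h) ≠ 0 := by
    rw [← twκ_serRed]
    intro h0
    apply hh
    apply scaleHom_injective (R := IsLocalRing.ResidueField O)
    rw [map_zero]
    exact h0
  have hx' : twK k ζ x * serEmb O k (scaleHom O ζ h) = serEmb O k (scaleHom O ζ g) := by
    rw [← twK_serEmb, ← twK_serEmb, ← map_mul, hxgh]
  rw [gaussRed_mk_eq _ hh' hx', gaussRed_mk_eq hx hh hxgh, map_div₀, twκ_serRed, twκ_serRed]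

theorem gaussRed_twK_eq_zero_iff (ζ : Oˣ) {x : LaurentSeries k} (hx : x ∈ gaussRing O k) :
    gaussRed O k ⟨twK k ζ x, twK_mem_gaussRing ζ hx⟩ = 0 ↔ gaussRed O k ⟨x, hx⟩ = 0 := by
  rw [gaussRed_twK]
  exact map_eq_zero_iff _ (scaleHom_injective _)

section Rho

variable {E : Type*} [Field E] [Algebra k E]
variable {Γ : Subgroup (E ≃ₐ[k] E)} [Fintype Γ] [DecidableEq Γ]
  {σ₀ : E →ₐ[k] LaurentSeries k} {G : E} {Gs : LaurentSeries k}

/-- **`T` lies in the decomposition group** as soon as the expansion of `T x` is the twist of the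
expansion of `x`. -/
theorem rho_T_iff (h : ChartHyp (O := O) (sig Γ σ₀) G Gs) (T : Γ) (ζ : Oˣ)
    (htw : ∀ x : E, σ₀ ((T : E ≃ₐ[k] E) x) = twK k ζ (σ₀ x))
    (x : intSubring (evalE O k G)) : h.rho T x = 0 ↔ h.rho 1 x = 0 := by
  have hx1 : σ₀ (x : E) ∈ gaussRing O k := by
    have := h.sigma_mem_gaussRing x.2 1
    exact this
  have h1 : h.rho T x = gaussRed O k ⟨twK k ζ (σ₀ (x : E)), twK_mem_gaussRing ζ hx1⟩ := by
    rw [ChartHyp.rho_apply]
    congr 1
    apply Subtype.ext
    exact htw x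
  have h2 : h.rho 1 x = gaussRed O k ⟨σ₀ (x : E), hx1⟩ := by
    rw [ChartHyp.rho_apply]
    rfl
  rw [h1, h2]
  exact gaussRed_twK_eq_zero_iff ζ hx1

end Rho

end Fermat.Agent.DS.P2.IgusaTwist
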