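import Fermat.Agent.DS.P2.IgusaAbs

/-!
# GATE-N / P2 / IG-4 : the `X₀`-input of the Igusa step, and the fixed field of the full group

* `ChartHyp.restrict`: the chart hypotheses restrict to an intermediate field containing `G`;
* `hX0_of_chart`: if `φ : F1 →ₐ[k] E` (`F1` an intermediate field of a second chart family
  `(E1, σ1, G1, Gs)` all of whose reductions have the same kernel) satisfies `φ G1 = G`, then all the
  reductions `h.rho g` of the big family agree (as to vanishing) on the integral elements of `E` lying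
  in the image of `φ` — this is the hypothesis `hX0` of `IgusaAbs.rho_eq_zero_iff_of_twist`;
* `fixed_mem_of_symrat`: an element of `E` fixed by the whole group `Γ` is a rational function of `G`
  (characteristic zero) — the fixed field of `Γ` is `k(G)`.
-/

set_option autoImplicit false
set_option linter.unusedSectionVars false

noncomputable section

namespace Fermat.Agent.DS.P2.IgusaX0

open Polynomial Fermat.Agent.S28 Fermat.Agent.DS.P2.IgusaAbs

variable {O : Type*} {k : Type*} [CommRing O] [IsDomain O] [IsDiscreteValuationRing O]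
  [Field k] [Algebra O k] [IsFractionRing O k]

section Restrict

variable {E1 : Type*} [Field E1] [Algebra k E1] {I : Type*} [Fintype I] [DecidableEq I]
variable {σ1 : I → (E1 →ₐ[k] LaurentSeries k)} {G1 : E1} {Gs : LaurentSeries k}

/-- composing `evalE` with a `k`-algebra hom between two fields -/
theorem algHom_comp_evalE' {E E' : Type*} [Field E] [Algebra k E] [Field E'] [Algebra k E']
    (τ : E →ₐ[k] E') (G : E) :
    (τ : E →+* E').comp (evalE O k G) = evalE O k (τ G) := by
  apply Polynomial.ringHom_ext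
  · intro a
    simp [evalE]
  · simp [evalE]

/-- the chart hypotheses restrict to an intermediate field containing the parameter -/
theorem ChartHyp.restrict (h1 : ChartHyp (O := O) σ1 G1 Gs) (F1 : IntermediateField k E1)
    (hG1 : G1 ∈ F1) :
    ChartHyp (O := O) (fun i => (σ1 i).comp F1.val) (⟨G1, hG1⟩ : F1) Gs where
  map_G := fun i => h1.map_G i
  mem := h1.mem
  inj_k := h1.inj_k
  inj_κ := h1.inj_κ
  field := fun i x => h1.field i x
  symrat := fun x m => h1.symrat x m

end Restrict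

section X0

variable {E : Type*} [Field E] [Algebra k E]
variable {Γ : Subgroup (E ≃ₐ[k] E)} [Fintype Γ] [DecidableEq Γ]
  {σ₀ : E →ₐ[k] LaurentSeries k} {G : E} {Gs : LaurentSeries k}
variable {E1 : Type*} [Field E1] [Algebra k E1] {I : Type*} [Fintype I] [DecidableEq I]
variable {σ1 : I → (E1 →ₐ[k] LaurentSeries k)} {G1 : E1}

/-- **The `X₀`-input.** -/
theorem hX0_of_chart (h : ChartHyp (O := O) (sig Γ σ₀) G Gs) [Nonempty I]
    (h1 : ChartHyp (O := O) σ1 G1 Gs)
    (hker1 : ∀ (i i' : I) (y : intSubring (evalE O k G1)), h1.rho i y = 0 ↔ h1.rho i' y = 0)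
    (F1 : IntermediateField k E1) (hG1 : G1 ∈ F1) (φ : F1 →ₐ[k] E) (hφG : φ ⟨G1, hG1⟩ = G)
    (E0 : Set E) (hE0 : E0 ⊆ Set.range φ)
    (g : Γ) (x : intSubring (evalE O k G)) (hx : (x : E) ∈ E0) :
    h.rho g x = 0 ↔ h.rho 1 x = 0 := by
  have : Infinite k := infinite_of_dvr (O := O)
  obtain ⟨y, hy⟩ := hE0 hx
  -- `y` is integral over `O[G1]`
  have hyint : ((y : F1) : E1) ∈ intSubring (evalE O k G1) := by
    have h2 : (evalE O k (⟨G1, hG1⟩ : F1)).IsIntegralElem y := by
      apply RingHom.IsIntegralElem.of_map (g := (φ : F1 →+* E)) φ.toRingHom.injective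
      rw [algHom_comp_evalE', hφG]
      show (evalE O k G).IsIntegralElem (φ y)
      rw [hy]
      exact x.2
    have h3 := h2.map ((F1.val : F1 →ₐ[k] E1) : F1 →+* E1)
    rw [algHom_comp_evalE'] at h3
    exact h3
  -- every `σ₀ ∘ g' ∘ φ` is one of the `σ1 i` on `F1`
  have hrestr := ChartHyp.restrict h1 F1 hG1
  have key : ∀ g' : Γ, ∃ i : I, h.rho g' x = h1.rho i ⟨(y : E1), hyint⟩ := by
    intro g'
    have hτ : ((sig Γ σ₀ g').comp φ) (⟨G1, hG1⟩ : F1) = Gs := by
      rw [AlgHom.comp_apply, hφG]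
      exact h.map_G g'
    obtain ⟨i, hi⟩ := exists_eq_sigma hrestr ((sig Γ σ₀ g').comp φ) hτ
    refine ⟨i, ?_⟩
    rw [ChartHyp.rho_apply, ChartHyp.rho_apply]
    congr 1
    apply Subtype.ext
    have := congrArg (fun f => f y) hi
    simp only [AlgHom.comp_apply] at this
    rw [hy] at this
    exact this
  obtain ⟨i, hi⟩ := key g
  obtain ⟨i', hi'⟩ := key 1
  rw [hi, hi']
  exact hker1 i i' _

end X0

section Fixed

variable {E : Type*} [Field E] [Algebra k E]
variable {Γ : Subgroup (E ≃ₐ[k] E)} [Fintype Γ] [DecidableEq Γ]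
  {σ₀ : E →ₐ[k] LaurentSeries k} {G : E} {Gs : LaurentSeries k}

/-- **The fixed field of `Γ` is `k(G)`**: an element fixed by all of `Γ` is a rational function
of `G`. -/
theorem fixed_mem_of_symrat [CharZero k] (h : ChartHyp (O := O) (sig Γ σ₀) G Gs) (x : E)
    (hx : ∀ g : Γ, (g : E ≃ₐ[k] E) x = x) :
    ∃ p q : k[X], evalEk k G q ≠ 0 ∧ x = evalEk k G p / evalEk k G q := by
  classical
  set n := Fintype.card Γ with hn
  have hn0 : n ≠ 0 := Fintype.card_ne_zero
  obtain ⟨m, hm⟩ : ∃ m, n = m + 1 := ⟨n - 1, by omega⟩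
  obtain ⟨p, q, hq, hpq⟩ := h.symrat x m
  have hprod : ∏ g : Γ, (X - C (sig Γ σ₀ g x)) = (X - C (σ₀ x)) ^ n := by
    rw [hn, ← Finset.card_univ, ← Finset.prod_const]
    refine Finset.prod_congr rfl fun g _ => ?_
    rw [sig_apply, hx g]
  rw [hprod, hm, sub_eq_add_neg, ← C_neg, Polynomial.coeff_X_add_C_pow] at hpq
  have h1 : m + 1 - m = 1 := by omega
  rw [h1, pow_one, Nat.choose_succ_self_right] at hpq
  -- `-(σ₀ x) * (m+1) * q(Gs) = p(Gs)`
  have hqE : evalEk k G q ≠ 0 := by
    intro h0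
    apply hq
    apply h.inj_k
    have h2 := congrArg (fun f => f q) (sigma_comp_evalEk σ₀ G)
    simp only [RingHom.comp_apply] at h2
    have hG : σ₀ G = Gs := by
      have := h.map_G 1
      rwa [sig_apply] at this
    rw [hG] at h2
    rw [← h2, map_zero]
    show σ₀ (evalEk k G q) = 0
    rw [h0, map_zero]
  have hnk : ((m + 1 : ℕ) : k) ≠ 0 := by exact_mod_cast Nat.succ_ne_zero m
  refine ⟨C (-((m + 1 : ℕ) : k))⁻¹ * p, q, hqE, ?_⟩
  rw [eq_div_iff hqE]
  apply (σ₀ : E →+* LaurentSeries k).injective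
  have hG : σ₀ G = Gs := by
    have := h.map_G 1
    rwa [sig_apply] at this
  have hev : ∀ P : k[X], σ₀ (evalEk k G P) = evalLk Gs P := fun P => by
    have h2 := congrArg (fun f => f P) (sigma_comp_evalEk σ₀ G)
    simp only [RingHom.comp_apply] at h2
    rw [hG] at h2
    exact h2
  show σ₀ (x * evalEk k G q) = σ₀ (evalEk k G (C (-((m + 1 : ℕ) : k))⁻¹ * p))
  rw [map_mul, hev, hev, map_mul, ← hpq]
  have hC : evalLk Gs (C (-((m + 1 : ℕ) : k))⁻¹) = HahnSeries.C (-((m + 1 : ℕ) : k))⁻¹ := by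
    simp [evalLk]
  rw [hC]
  have hcast : ((m + 1 : ℕ) : LaurentSeries k) = HahnSeries.C ((m + 1 : ℕ) : k) :=
    (map_natCast (HahnSeries.C : k →+* LaurentSeries k) (m + 1)).symm
  rw [hcast]
  have : HahnSeries.C (-((m + 1 : ℕ) : k))⁻¹ * (-(σ₀ x) * HahnSeries.C ((m + 1 : ℕ) : k) *
      evalLk Gs q) = (HahnSeries.C (-((m + 1 : ℕ) : k))⁻¹ * HahnSeries.C (-((m + 1 : ℕ) : k))) *
      (σ₀ x * evalLk Gs q) := by
    rw [map_neg]; ring
  rw [this, ← map_mul, inv_mul_cancel₀ (neg_ne_zero.mpr hnk), map_one, one_mul]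

end Fixed

end Fermat.Agent.DS.P2.IgusaX0
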