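/-
# GATE-N / P2 / IG-6 (helper87): assembly of the Igusa step for a family of generators

`gen : X → k((q))` a finite family of Laurent series, permuted by `SL(2,ℤ)` through
`π : SL(2,ℤ) →* Perm X` compatibly with all polynomial relations (`RelInv`), the action factoring
through `SL(2, ℤ/M)`.  `E := Ebig gen = k(gen x : x ∈ X)`, `Γ := Gam gen π hπ` the image of
`SL(2,ℤ)` in `Aut(E/k)`, `σ₀` the inclusion `E ⊆ k((q))`.

* `chartHyp_family` : the S28 chart hypotheses for `(sig Γ σ₀, G := genE x₀, Gs := j(q^M))` from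
  "all generators lie in the Gauss field" and the symmetric function property on `k[gen]`.
* `rho_eq_zero_iff_family` : all reductions `h.rho g` have the same zero set, from
  the twist law `gen (π T x) = gen x (ζ q)`, an S28 cusp datum of level `M` (the `X₀(M)`-theorem),
  a generator `gen c₀ = j(q^(M²))` whose stabiliser is (the image of) `Γ₀(M)`.
* `igusa_coreFin`, `igusa_coreInf` : the S28 core conclusions on `E`.
-/
import Fermat.Agent.DS.P2.IgusaAbs
import Fermat.Agent.DS.P2.IgusaAct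
import Fermat.Agent.DS.P2.IgusaX0
import Fermat.Agent.DS.P2.IgusaTwist
import Fermat.Agent.DS.P2.FixedFieldAbs
import Fermat.Agent.S28.ChartHypInst
import Fermat.Agent.S28.ChartUnits
import Fermat.Agent.S28.SymExtend
import Fermat.Agent.S28.CoreBridge

set_option autoImplicit false
set_option linter.unusedSectionVars false

noncomputable section

namespace Fermat.Agent.DS.P2.IgusaAsm

open Polynomial ModularCurve Matrix ModularGroup MatrixGroups CongruenceSubgroup
open Fermat.Agent.S28 Fermat.Agent.DS.P2.IgusaAbs Fermat.Agent.DS.P2.IgusaAct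
  Fermat.Agent.DS.P2.IgusaX0 Fermat.Agent.DS.P2.IgusaTwist Fermat.Agent.DS.P2.FixedFieldAbs

variable {k O : Type} [Field k] [CommRing O] [IsDomain O] [IsDiscreteValuationRing O]
  [Algebra O k] [IsFractionRing O k]
variable {X : Type*} (gen : X → LaurentSeries k) (π : SL(2, ℤ) →* Equiv.Perm X)
  (hπ : ∀ g, RelInv k gen (π g))

/-- the generated field -/
abbrev EE : IntermediateField k (LaurentSeries k) := Ebig gen

/-- the standard expansion: the inclusion of the generated field -/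
abbrev sig0 : (EE gen) →ₐ[k] LaurentSeries k := (EE gen).val

theorem coe_aeval_genE (P : MvPolynomial X k) :
    ((MvPolynomial.aeval (genE gen) P : EE gen) : LaurentSeries k) = MvPolynomial.aeval gen P :=
  MvPolynomial.comp_aeval_apply (f := genE gen) (EE gen).val P

theorem coe_alpha_aeval (g : SL(2, ℤ)) (P : MvPolynomial X k) :
    ((alphaHom gen π hπ g (MvPolynomial.aeval (genE gen) P) : EE gen) : LaurentSeries k) =
      MvPolynomial.aeval (fun x => gen (π g x)) P := by
  have h1 := MvPolynomial.comp_aeval_apply (f := genE gen)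
    ((EE gen).val.comp ((alphaHom gen π hπ g : EE gen ≃ₐ[k] EE gen) : EE gen →ₐ[k] EE gen)) P
  have h2 : (fun i => ((EE gen).val.comp
      ((alphaHom gen π hπ g : EE gen ≃ₐ[k] EE gen) : EE gen →ₐ[k] EE gen)) (genE gen i)) =
      fun x => gen (π g x) := by
    funext x
    show ((alphaHom gen π hπ g (genE gen x) : EE gen) : LaurentSeries k) = gen (π g x)
    rw [alphaHom_gen]
    rfl
  rw [h2] at h1
  exact h1

/-- every element of the generated field lies in the Gauss field, if the generators do -/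
theorem mem_gaussField_of_gen (hGF : ∀ x, gen x ∈ gaussField O k) (y : LaurentSeries k)
    (hy : y ∈ EE gen) : y ∈ gaussField O k := by
  induction hy using IntermediateField.adjoin_induction with
  | mem y hy =>
    obtain ⟨x, rfl⟩ := hy
    exact hGF x
  | algebraMap c =>
    rw [algebraMap_eq_C]
    exact C_mem_gaussField c
  | add y z _ _ ihy ihz => exact add_mem ihy ihz
  | inv y _ ihy => exact inv_mem ihy
  | mul y z _ _ ihy ihz => exact mul_mem ihy ihz

/-- every element of the generated field is a quotient of polynomials in the generators -/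
theorem exists_frac (x : EE gen) : ∃ r s : MvPolynomial X k,
    (MvPolynomial.aeval (genE gen) s : EE gen) ≠ 0 ∧
      x * (MvPolynomial.aeval (genE gen) s : EE gen) = MvPolynomial.aeval (genE gen) r := by
  obtain ⟨r, s, hrs⟩ : ∃ r s : MvPolynomial X k, (x : LaurentSeries k) =
      MvPolynomial.aeval (R := k) gen r / MvPolynomial.aeval (R := k) gen s :=
    (IntermediateField.mem_adjoin_range_iff (F := k) gen (x : LaurentSeries k)).mp x.2
  by_cases hs : (MvPolynomial.aeval (genE gen) s : EE gen) = 0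
  · refine ⟨0, 1, by simp, ?_⟩
    have hs' : MvPolynomial.aeval gen s = 0 := by
      rw [← coe_aeval_genE, hs]; rfl
    have hx0 : x = 0 := by
      apply Subtype.ext
      rw [hrs, hs', div_zero]; rfl
    simp [hx0]
  · refine ⟨r, s, hs, ?_⟩
    apply Subtype.ext
    have hs' : MvPolynomial.aeval gen s ≠ 0 := by
      intro h0
      apply hs
      apply Subtype.ext
      rw [coe_aeval_genE, h0]; rfl
    rw [MulMemClass.coe_mul, coe_aeval_genE, coe_aeval_genE, hrs, div_mul_cancel₀ _ hs']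

/-- a set-theoretic section of `SL(2,ℤ) → Γ` -/
def sec (γ : Gam gen π hπ) : SL(2, ℤ) := (MonoidHom.mem_range.mp γ.2).choose

theorem alphaHom_sec (γ : Gam gen π hπ) : alphaHom gen π hπ (sec gen π hπ γ) = γ :=
  (MonoidHom.mem_range.mp γ.2).choose_spec

section Chart

variable [Fintype (Gam gen π hπ)] [DecidableEq (Gam gen π hπ)] {M : ℕ} [NeZero M]

set_option maxHeartbeats 1600000 in
/-- **the chart hypotheses for the generated field** -/
theorem chartHyp_family (D : CuspDatum k M O)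
    (x₀ : X) (hx₀ : gen x₀ = ChartHypInst.Gs k M) (hfx₀ : ∀ g, π g x₀ = x₀)
    (hGF : ∀ x, gen x ∈ gaussField O k)
    (hsym : ∀ (P : MvPolynomial X k) (m : ℕ),
      (∏ γ : Gam gen π hπ, (Polynomial.X - Polynomial.C
        (sig (Gam gen π hπ) (sig0 gen) γ (MvPolynomial.aeval (genE gen) P)))).coeff m ∈
        Set.range (evalLk (ChartHypInst.Gs k M))) :
    ChartHyp (O := O) (sig (Gam gen π hπ) (sig0 gen)) (genE gen x₀) (ChartHypInst.Gs k M) := by
  have hmapG : ∀ γ : Gam gen π hπ, sig (Gam gen π hπ) (sig0 gen) γ (genE gen x₀) =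
      ChartHypInst.Gs k M := by
    rintro ⟨γ, g, rfl⟩
    rw [sig_apply]
    show ((alphaHom gen π hπ g (genE gen x₀) : EE gen) : LaurentSeries k) = _
    rw [alphaHom_gen, hfx₀]
    exact hx₀
  have h1 := ChartHypInst.chartHyp D
  refine ⟨hmapG, h1.mem, h1.inj_k, h1.inj_κ, fun γ x => ?_, fun x m => ?_⟩
  · rw [sig_apply]
    exact mem_gaussField_of_gen gen hGF _ (SetLike.coe_mem _)
  · -- symmetric functions: extend from `k[gen]` to its fraction field
    set B : Subring (EE gen) := (MvPolynomial.aeval (R := k) (genE gen)).range.toSubring with hB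
    have hφ : ∀ γ : Gam gen π hπ,
        ((sig (Gam gen π hπ) (sig0 gen) γ : EE gen →ₐ[k] LaurentSeries k) :
          EE gen →+* LaurentSeries k).comp (evalEk k (genE gen x₀)) =
          evalLk (ChartHypInst.Gs k M) := by
      intro γ
      rw [sigma_comp_evalEk, hmapG γ]
    have hφB : ∀ a : k[X], evalEk k (genE gen x₀) a ∈ B := by
      intro a
      refine ⟨Polynomial.aeval (MvPolynomial.X x₀ : MvPolynomial X k) a, ?_⟩
      show MvPolynomial.aeval (genE gen) (Polynomial.aeval (MvPolynomial.X x₀ : MvPolynomial X k) a)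
        = _
      rw [← Polynomial.aeval_algHom_apply, MvPolynomial.aeval_X]
      rfl
    have hsymB : ∀ y ∈ B, ∀ m, (∏ γ : Gam gen π hπ, (Polynomial.X - Polynomial.C
        (((sig (Gam gen π hπ) (sig0 gen) γ : EE gen →ₐ[k] LaurentSeries k) :
          EE gen →+* LaurentSeries k) y))).coeff m ∈
        Set.range (evalLk (ChartHypInst.Gs k M)) := by
      rintro y ⟨P, rfl⟩ m
      exact hsym P m
    have hfrac : ∀ x : EE gen, ∃ r ∈ B, ∃ s ∈ B, s ≠ 0 ∧ x * s = r := by
      intro x
      obtain ⟨r, s, hs, hxs⟩ := exists_frac gen x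
      exact ⟨_, ⟨r, rfl⟩, _, ⟨s, rfl⟩, hs, hxs⟩
    obtain ⟨p, q, hq, hpq⟩ := SymExtend.symrat_extend
      (fun γ : Gam gen π hπ => ((sig (Gam gen π hπ) (sig0 gen) γ : EE gen →ₐ[k] LaurentSeries k) :
          EE gen →+* LaurentSeries k)) (evalEk k (genE gen x₀)) (evalLk (ChartHypInst.Gs k M))
      hφ B hφB 1 hsymB hfrac x m
    exact ⟨p, q, fun h0 => hq (by rw [h0, map_zero]), hpq⟩

/-- the symmetric function hypothesis of `chartHyp_family` from its form along a section
`s : Γ → SL(2,ℤ)` (the shape produced by the analytic family: the `γ`-th conjugate of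
`P(gen)` is `P(gen ∘ π (s γ))`) -/
theorem hsym_of_section (s : Gam gen π hπ → SL(2, ℤ))
    (hs : ∀ γ : Gam gen π hπ, alphaHom gen π hπ (s γ) = γ)
    (hsec : ∀ (P : MvPolynomial X k) (m : ℕ),
      (∏ γ : Gam gen π hπ, (Polynomial.X - Polynomial.C
        (MvPolynomial.aeval (fun x => gen (π (s γ) x)) P))).coeff m ∈
        (qExpand k M) '' (Algebra.adjoin k {jqModC k} : Set (LaurentSeries k)))
    (P : MvPolynomial X k) (m : ℕ) :
    (∏ γ : Gam gen π hπ, (Polynomial.X - Polynomial.C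
      (sig (Gam gen π hπ) (sig0 gen) γ (MvPolynomial.aeval (genE gen) P)))).coeff m ∈
      Set.range (evalLk (ChartHypInst.Gs k M)) := by
  have hfac : ∀ γ : Gam gen π hπ,
      sig (Gam gen π hπ) (sig0 gen) γ (MvPolynomial.aeval (genE gen) P) =
        MvPolynomial.aeval (fun x => gen (π (s γ) x)) P := by
    intro γ
    rw [sig_apply, ← coe_alpha_aeval gen π hπ (s γ) P, hs γ]
    rfl
  simp_rw [hfac]
  obtain ⟨y, hy, hyx⟩ := hsec P m
  rw [SetLike.mem_coe, Algebra.adjoin_singleton_eq_range_aeval] at hy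
  obtain ⟨w, rfl⟩ := hy
  refine ⟨w, ?_⟩
  rw [← hyx, ChartHypInst.Gs, ChartHypInst.evalLk_qExpand, ChartHypInst.evalLk_eq_aeval]
  rfl

end Chart

section Main

/-- the twist as a `k`-algebra homomorphism -/
def twAlg (ζ : Oˣ) : LaurentSeries k →ₐ[k] LaurentSeries k :=
  { twK k ζ with
    commutes' := fun a => by
      show twK k ζ (algebraMap k (LaurentSeries k) a) = algebraMap k (LaurentSeries k) a
      rw [algebraMap_eq_C]
      ext m
      rw [twK, scaleHom_coeff, HahnSeries.C_apply, HahnSeries.coeff_single]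
      split_ifs with h
      · subst h; simp
      · simp }

@[simp] theorem twAlg_apply (ζ : Oˣ) (y : LaurentSeries k) : twAlg (k := k) ζ y = twK k ζ y := rfl

variable [Fintype (Gam gen π hπ)] [DecidableEq (Gam gen π hπ)] {M : ℕ} [NeZero M]

/-- the twist law extends from the generators to the generated field -/
theorem twist_expansion (ζ : Oˣ) (htw : ∀ x, gen (π T x) = twK k ζ (gen x)) (y : EE gen) :
    sig0 gen (((Tbar gen π hπ : Gam gen π hπ) : EE gen ≃ₐ[k] EE gen) y) =
      twK k ζ (sig0 gen y) := by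
  have h : (sig0 gen).comp
      ((((Tbar gen π hπ : Gam gen π hπ) : EE gen ≃ₐ[k] EE gen)) : EE gen →ₐ[k] EE gen) =
      (twAlg ζ).comp (sig0 gen) := by
    apply algHom_ext_gen gen
    intro x
    show ((alphaHom gen π hπ T (genE gen x) : EE gen) : LaurentSeries k) = twK k ζ (gen x)
    rw [alphaHom_gen]
    exact htw x
  exact AlgHom.congr_fun h y

/-- an intermediate field generated by two elements maps into any intermediate field containing
the images of the two elements -/
theorem exists_phi {E1 : Type*} [Field E1] [Algebra k E1] (τ : E1 →ₐ[k] LaurentSeries k)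
    (a b : E1) (K : IntermediateField k (LaurentSeries k)) (ha : τ a ∈ K) (hb : τ b ∈ K) :
    ∃ (F1 : IntermediateField k E1) (_ : a ∈ F1) (_ : b ∈ F1) (φ : F1 →ₐ[k] K),
      ∀ y : F1, ((φ y : K) : LaurentSeries k) = τ y := by
  have hle : IntermediateField.adjoin k {a, b} ≤ K.comap τ := by
    rw [IntermediateField.adjoin_le_iff]
    rintro y (rfl | rfl)
    · exact ha
    · exact hb
  refine ⟨IntermediateField.adjoin k {a, b}, IntermediateField.subset_adjoin k _ (by simp),
    IntermediateField.subset_adjoin k _ (by simp),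
    (τ.comp (IntermediateField.adjoin k {a, b}).val).codRestrict K.toSubalgebra
      (fun y => hle y.2), fun y => rfl⟩

variable [CharZero k]

set_option maxHeartbeats 1600000 in
/-- **All reductions of the generated field have the same zero set** (generic form: the
`X₀`-input is any chart family `(E1, σ1, G1)` with the same `Gs` and equal kernels, together with
elements `G1, J1 : E1` whose `σ1 i₀`-expansions are the two generators `gen x₀`, `gen c₀`). -/
theorem rho_eq_zero_iff_family_of_chart {Gs : LaurentSeries k}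
    {E1 : Type*} [Field E1] [Algebra k E1] {I : Type*} [Fintype I] [DecidableEq I]
    {σ1 : I → (E1 →ₐ[k] LaurentSeries k)} {G1 : E1}
    (h1 : ChartHyp (O := O) σ1 G1 Gs)
    (hker1 : ∀ (i i' : I) (y : intSubring (evalE O k G1)), h1.rho i y = 0 ↔ h1.rho i' y = 0)
    (i₀ : I) (J1 : E1) (x₀ c₀ : X) (hσG : σ1 i₀ G1 = gen x₀) (hσJ : σ1 i₀ J1 = gen c₀)
    (h : ChartHyp (O := O) (sig (Gam gen π hπ) (sig0 gen)) (genE gen x₀) Gs)
    (hπM : ∀ g g' : SL(2, ℤ), Matrix.SpecialLinearGroup.map (Int.castRingHom (ZMod M)) g =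
      Matrix.SpecialLinearGroup.map (Int.castRingHom (ZMod M)) g' → π g = π g')
    (ζ : Oˣ) (htw : ∀ x, gen (π T x) = twK k ζ (gen x))
    (hstab : ∀ g : SL(2, ℤ), gen (π g c₀) = gen c₀ → ∃ g' ∈ Gamma0 M, π g' = π g)
    (g : Gam gen π hπ) (x : intSubring (evalE O k (genE gen x₀))) :
    h.rho g x = 0 ↔ h.rho 1 x = 0 := by
  classical
  have hfin : Finite (Gam gen π hπ) := Finite.of_fintype _
  have hne : Nonempty I := ⟨i₀⟩
  set S : Set (EE gen) := {genE gen c₀} with hS
  set E0 : Set (EE gen) :=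
    (Subfield.closure ({y : EE gen | ∀ g ∈ Gam gen π hπ, g y = y} ∪ S) : Set (EE gen)) with hE0def
  -- `hfix`
  have hst : stab (Gam gen π hπ) S ≤ H0bar gen π hπ M := by
    rintro ⟨γ, g₀, rfl⟩ hγ
    have h1 : alphaHom gen π hπ g₀ (genE gen c₀) = genE gen c₀ := hγ (genE gen c₀) rfl
    rw [alphaHom_gen] at h1
    have h2 : gen (π g₀ c₀) = gen c₀ := congrArg (fun y : EE gen => (y : LaurentSeries k)) h1
    obtain ⟨g', hg', hgg⟩ := hstab g₀ h2
    refine ⟨g', hg', ?_⟩
    apply Subtype.ext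
    exact alphaHom_eq_of_perm_eq gen π hπ hgg
  have hfix := hfix_of_stab_le (Gam gen π hπ) S (H0bar gen π hπ M) hst
  -- `hT`
  have hT := rho_T_iff h (Tbar gen π hπ) ζ (twist_expansion gen π hπ ζ htw)
  -- `hX0`
  obtain ⟨F1, hG1, hJ1, φ, hφ⟩ := exists_phi (σ1 i₀) G1 J1 (EE gen)
    (by rw [hσG]; exact gen_mem gen x₀) (by rw [hσJ]; exact gen_mem gen c₀)
  have hφG : φ ⟨G1, hG1⟩ = genE gen x₀ := Subtype.ext ((hφ _).trans hσG)
  have hφJ : φ ⟨J1, hJ1⟩ = genE gen c₀ := Subtype.ext ((hφ _).trans hσJ)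
  have hE0 : E0 ⊆ Set.range φ := by
    have hcl : Subfield.closure ({y : EE gen | ∀ g ∈ Gam gen π hπ, g y = y} ∪ S) ≤
        φ.fieldRange.toSubfield := by
      rw [Subfield.closure_le]
      rintro y (hy | hy)
      · obtain ⟨p, q, hq, rfl⟩ := fixed_mem_of_symrat h y (fun g => hy g g.2)
        have hev : ∀ P : k[X], evalEk k (genE gen x₀) P =
            φ (evalEk k (⟨G1, hG1⟩ : F1) P) := by
          intro P
          rw [← hφG]
          show Polynomial.aeval (φ ⟨G1, hG1⟩) P = φ (Polynomial.aeval (⟨G1, hG1⟩ : F1) P)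
          exact Polynomial.aeval_algHom_apply φ _ P
        refine ⟨evalEk k (⟨G1, hG1⟩ : F1) p / evalEk k (⟨G1, hG1⟩ : F1) q, ?_⟩
        show φ (evalEk k (⟨G1, hG1⟩ : F1) p / evalEk k (⟨G1, hG1⟩ : F1) q) = _
        rw [map_div₀, ← hev, ← hev]
      · rw [hS, Set.mem_singleton_iff] at hy
        subst hy
        exact ⟨⟨J1, hJ1⟩, hφJ⟩
    intro y hy
    exact hcl hy
  have hX0 : ∀ (g : Gam gen π hπ) (x : intSubring (evalE O k (genE gen x₀))), (x : EE gen) ∈ E0 →
      (h.rho g x = 0 ↔ h.rho 1 x = 0) := fun g x hx =>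
    hX0_of_chart h h1 hker1 F1 hG1 φ hφG E0 hE0 g x hx
  exact rho_eq_zero_iff_of_twist h (Tbar gen π hπ) hT E0 (H0bar gen π hπ M) hfix hX0
    (conj_Tbar_mem_zpowers gen π hπ M hπM) (normalClosure_Tbar gen π hπ) g x

/-- the kernels of the reductions of an S28 cusp datum coincide (S28 `X₀`-theorem) -/
theorem hker_datum (D : CuspDatum k M O) (i i' : D.I)
    (y : intSubring (evalE O k (ChartHypInst.Gj k M))) :
    (ChartHypInst.chartHyp D).rho i y = 0 ↔ (ChartHypInst.chartHyp D).rho i' y = 0 := by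
  have := (ChartHypInst.chartHyp D).rho_ker_eq M (NeZero.ne M) D.cI D.cI_dvd D.i₀ D.cI_eq_iff
    (ChartUnits.hunits D) i i'
  rw [← RingHom.mem_ker, ← RingHom.mem_ker, this]

/-- **All reductions of the generated field have the same zero set** (with an S28 cusp datum of
level `M` as `X₀`-input). -/
theorem rho_eq_zero_iff_family
    (D : CuspDatum k M O) (x₀ : X) (hx₀ : gen x₀ = ChartHypInst.Gs k M)
    (h : ChartHyp (O := O) (sig (Gam gen π hπ) (sig0 gen)) (genE gen x₀) (ChartHypInst.Gs k M))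
    (hπM : ∀ g g' : SL(2, ℤ), Matrix.SpecialLinearGroup.map (Int.castRingHom (ZMod M)) g =
      Matrix.SpecialLinearGroup.map (Int.castRingHom (ZMod M)) g' → π g = π g')
    (ζ : Oˣ) (htw : ∀ x, gen (π T x) = twK k ζ (gen x))
    (c₀ : X) (hc₀ : gen c₀ = qExpand k M (jS k M))
    (hstab : ∀ g : SL(2, ℤ), gen (π g c₀) = gen c₀ → ∃ g' ∈ Gamma0 M, π g' = π g)
    (g : Gam gen π hπ) (x : intSubring (evalE O k (genE gen x₀))) :
    h.rho g x = 0 ↔ h.rho 1 x = 0 := by
  have hσG : D.σ D.i₀ (ChartHypInst.Gj k M) = gen x₀ := by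
    rw [D.σ_i₀, hx₀]; rfl
  have hσJ : D.σ D.i₀ ⟨jS k M, jS_mem_bigField k M dvd_rfl⟩ = gen c₀ := by
    rw [D.σ_i₀, hc₀]
  exact rho_eq_zero_iff_family_of_chart gen π hπ (ChartHypInst.chartHyp D) (hker_datum D) D.i₀
    ⟨jS k M, jS_mem_bigField k M dvd_rfl⟩ x₀ c₀ hσG hσJ h hπM ζ htw hstab g x

/-- the chart hypotheses for the chart at infinity -/
theorem chartHyp_family_inv (D : CuspDatum k M O) {x₀ : X}
    (h : ChartHyp (O := O) (sig (Gam gen π hπ) (sig0 gen)) (genE gen x₀)
      (ChartHypInst.Gs k M)) :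
    ChartHyp (O := O) (sig (Gam gen π hπ) (sig0 gen)) (genE gen x₀)⁻¹
      (ChartHypInst.Gs k M)⁻¹ where
  map_G := fun i => by rw [map_inv₀]; exact congrArg _ (h.map_G i)
  mem := (ChartHypInst.chartHyp_inv D).mem
  inj_k := (ChartHypInst.chartHyp_inv D).inj_k
  inj_κ := (ChartHypInst.chartHyp_inv D).inj_κ
  field := h.field
  symrat := fun x m => ChartHypInst.exists_evalLk_inv ChartHypInst.Gs_ne_zero (h.symrat x m)

/-- **Igusa core, finite chart**: an element of the generated field, integral over `O[j(q^M)]`,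
whose expansion is divisible by the uniformizer in the Gauss ring, stays integral after division
by the uniformizer. -/
theorem igusa_coreFin
    (D : CuspDatum k M O) (x₀ : X) (hx₀ : gen x₀ = ChartHypInst.Gs k M)
    (h : ChartHyp (O := O) (sig (Gam gen π hπ) (sig0 gen)) (genE gen x₀) (ChartHypInst.Gs k M))
    (hπM : ∀ g g' : SL(2, ℤ), Matrix.SpecialLinearGroup.map (Int.castRingHom (ZMod M)) g =
      Matrix.SpecialLinearGroup.map (Int.castRingHom (ZMod M)) g' → π g = π g')
    (ζ : Oˣ) (htw : ∀ x, gen (π T x) = twK k ζ (gen x))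
    (c₀ : X) (hc₀ : gen c₀ = qExpand k M (jS k M))
    (hstab : ∀ g : SL(2, ℤ), gen (π g c₀) = gen c₀ → ∃ g' ∈ Gamma0 M, π g' = π g)
    {ϖ : O} (hϖ : Irreducible ϖ) {a : EE gen}
    (ha : (evalE O k (genE gen x₀)).IsIntegralElem a)
    (hdiv : ∃ v ∈ gaussRing O k, (a : LaurentSeries k) = HahnSeries.C (algebraMap O k ϖ) * v) :
    (evalE O k (genE gen x₀)).IsIntegralElem
      (algebraMap k (EE gen) (algebraMap O k ϖ)⁻¹ * a) :=
  coreFin_of_ker h 1
    (rho_eq_zero_iff_family gen π hπ D x₀ hx₀ h hπM ζ htw c₀ hc₀ hstab) hϖ ha hdiv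

/-- **Igusa core, chart at infinity.** -/
theorem igusa_coreInf
    (D : CuspDatum k M O) (x₀ : X) (hx₀ : gen x₀ = ChartHypInst.Gs k M)
    (h : ChartHyp (O := O) (sig (Gam gen π hπ) (sig0 gen)) (genE gen x₀) (ChartHypInst.Gs k M))
    (hπM : ∀ g g' : SL(2, ℤ), Matrix.SpecialLinearGroup.map (Int.castRingHom (ZMod M)) g =
      Matrix.SpecialLinearGroup.map (Int.castRingHom (ZMod M)) g' → π g = π g')
    (ζ : Oˣ) (htw : ∀ x, gen (π T x) = twK k ζ (gen x))
    (c₀ : X) (hc₀ : gen c₀ = qExpand k M (jS k M))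
    (hstab : ∀ g : SL(2, ℤ), gen (π g c₀) = gen c₀ → ∃ g' ∈ Gamma0 M, π g' = π g)
    {ϖ : O} (hϖ : Irreducible ϖ) {b : EE gen}
    (hb : (evalE O k (genE gen x₀)⁻¹).IsIntegralElem b)
    (hdiv : ∃ v ∈ gaussRing O k, (b : LaurentSeries k) = HahnSeries.C (algebraMap O k ϖ) * v) :
    (evalE O k (genE gen x₀)⁻¹).IsIntegralElem
      (algebraMap k (EE gen) (algebraMap O k ϖ)⁻¹ * b) :=
  coreInf_of_ker h (chartHyp_family_inv gen π hπ D h) 1
    (rho_eq_zero_iff_family gen π hπ D x₀ hx₀ h hπM ζ htw c₀ hc₀ hstab) hϖ hb hdiv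

/-- **Igusa core, finite chart, inside `k((q))`.** -/
theorem igusa_coreFin_series
    (D : CuspDatum k M O) (x₀ : X) (hx₀ : gen x₀ = ChartHypInst.Gs k M)
    (h : ChartHyp (O := O) (sig (Gam gen π hπ) (sig0 gen)) (genE gen x₀) (ChartHypInst.Gs k M))
    (hπM : ∀ g g' : SL(2, ℤ), Matrix.SpecialLinearGroup.map (Int.castRingHom (ZMod M)) g =
      Matrix.SpecialLinearGroup.map (Int.castRingHom (ZMod M)) g' → π g = π g')
    (ζ : Oˣ) (htw : ∀ x, gen (π T x) = twK k ζ (gen x))
    (c₀ : X) (hc₀ : gen c₀ = qExpand k M (jS k M))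
    (hstab : ∀ g : SL(2, ℤ), gen (π g c₀) = gen c₀ → ∃ g' ∈ Gamma0 M, π g' = π g)
    {ϖ : O} (hϖ : Irreducible ϖ) {a : LaurentSeries k} (haE : a ∈ EE gen)
    (ha : IsIntegral (Algebra.adjoin O {ChartHypInst.Gs k M}) a)
    (hdiv : ∃ v ∈ gaussRing O k, a = HahnSeries.C (algebraMap O k ϖ) * v) :
    IsIntegral (Algebra.adjoin O {ChartHypInst.Gs k M})
      (HahnSeries.C (algebraMap O k ϖ)⁻¹ * a) := by
  have hG : ((genE gen x₀ : EE gen) : LaurentSeries k) = ChartHypInst.Gs k M := hx₀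
  have ha' : (evalE O k (genE gen x₀)).IsIntegralElem (⟨a, haE⟩ : EE gen) := by
    rw [CoreBridge.isIntegralElem_evalE_iff, hG]
    exact ha
  have h1 := igusa_coreFin gen π hπ D x₀ hx₀ h hπM ζ htw c₀ hc₀ hstab hϖ ha' hdiv
  rw [CoreBridge.isIntegralElem_evalE_iff, hG, CoreBridge.coe_algebraMap_mul] at h1
  exact h1

/-- **Igusa core, chart at infinity, inside `k((q))`.** -/
theorem igusa_coreInf_series
    (D : CuspDatum k M O) (x₀ : X) (hx₀ : gen x₀ = ChartHypInst.Gs k M)
    (h : ChartHyp (O := O) (sig (Gam gen π hπ) (sig0 gen)) (genE gen x₀) (ChartHypInst.Gs k M))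
    (hπM : ∀ g g' : SL(2, ℤ), Matrix.SpecialLinearGroup.map (Int.castRingHom (ZMod M)) g =
      Matrix.SpecialLinearGroup.map (Int.castRingHom (ZMod M)) g' → π g = π g')
    (ζ : Oˣ) (htw : ∀ x, gen (π T x) = twK k ζ (gen x))
    (c₀ : X) (hc₀ : gen c₀ = qExpand k M (jS k M))
    (hstab : ∀ g : SL(2, ℤ), gen (π g c₀) = gen c₀ → ∃ g' ∈ Gamma0 M, π g' = π g)
    {ϖ : O} (hϖ : Irreducible ϖ) {b : LaurentSeries k} (hbE : b ∈ EE gen)
    (hb : IsIntegral (Algebra.adjoin O {(ChartHypInst.Gs k M)⁻¹}) b)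
    (hdiv : ∃ v ∈ gaussRing O k, b = HahnSeries.C (algebraMap O k ϖ) * v) :
    IsIntegral (Algebra.adjoin O {(ChartHypInst.Gs k M)⁻¹})
      (HahnSeries.C (algebraMap O k ϖ)⁻¹ * b) := by
  have hG : (((genE gen x₀)⁻¹ : EE gen) : LaurentSeries k) = (ChartHypInst.Gs k M)⁻¹ := by
    rw [IntermediateField.coe_inv]
    exact congrArg _ hx₀
  have hb' : (evalE O k (genE gen x₀)⁻¹).IsIntegralElem (⟨b, hbE⟩ : EE gen) := by
    rw [CoreBridge.isIntegralElem_evalE_iff, hG]
    exact hb
  have h1 := igusa_coreInf gen π hπ D x₀ hx₀ h hπM ζ htw c₀ hc₀ hstab hϖ hb' hdiv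
  rw [CoreBridge.isIntegralElem_evalE_iff, hG, CoreBridge.coe_algebraMap_mul] at h1
  exact h1

end Main

end Fermat.Agent.DS.P2.IgusaAsm
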