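/-
# GATE-N / P2 / IG-6-IOTA (helper66): the embedding `k(j(q), j(q^M)) → Ebig gen`, `x(q) ↦ x(q^M)`

`E1 := S28.bigField k M` (the `X₀(M)` big field inside `k((q))`), `D : CuspDatum k M O`,
`F1 := k(j(q), j(q^M)) ≤ E1`.  For a family `gen : X → k((q))` with
`gen x₀ = j(q^M)` and `gen c₀ = j(q^(M²))`:

* `iota D gen hx₀ hc₀ : F1 k M →ₐ[k] Ebig gen` — the corestriction of `(D.σ D.i₀) ∘ F1.val`
  (`= qExpand k M` by `D.σ_i₀`), with `iota_Gj`, `iota_GjM`, `coe_iota`;
* `hker1 D` — all reductions of the S28 chart have the same zero set (binder shape of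
  `IgusaX0.hX0_of_chart`);
* `hX0_igusa` — the resulting `hX0` of `IgusaAbs.rho_eq_zero_iff_of_twist` with
  `E0 := Set.range (iota …)`, and `adjoin_le_fieldRange`: `k(genE x₀, genE c₀) ≤ range`.
-/
import Fermat.Agent.DS.P2.IgusaAct
import Fermat.Agent.DS.P2.IgusaX0
import Fermat.Agent.S28.ChartUnits

set_option autoImplicit false
set_option linter.unusedSectionVars false

noncomputable section

namespace Fermat.Agent.DS.P2.IgusaIota

open Polynomial ModularCurve Fermat.Agent.S28 Fermat.Agent.DS.P2.IgusaAct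
  Fermat.Agent.DS.P2.IgusaAbs Fermat.Agent.DS.P2.IgusaX0

section Field

variable (k : Type) [Field k] (M : ℕ) [NeZero M]

/-- `j(q^M)` as an element of the `X₀(M)` big field -/
def GjM : bigField k M := ⟨jS k M, jS_mem_bigField k M dvd_rfl⟩

@[simp] theorem coe_GjM : ((GjM k M : bigField k M) : LaurentSeries k) = jS k M := rfl

/-- the subfield `k(j(q), j(q^M))` of the big field -/
def F1 : IntermediateField k (bigField k M) :=
  IntermediateField.adjoin k {ChartHypInst.Gj k M, GjM k M}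

theorem Gj_mem_F1 : ChartHypInst.Gj k M ∈ F1 k M :=
  IntermediateField.subset_adjoin k _ (Set.mem_insert _ _)

theorem GjM_mem_F1 : GjM k M ∈ F1 k M :=
  IntermediateField.subset_adjoin k _ (Set.mem_insert_of_mem _ rfl)

end Field

section Iota

variable {k : Type} [Field k] {O : Type} [CommRing O] [IsDomain O] [IsDiscreteValuationRing O]
  [Algebra O k] [IsFractionRing O k] {M : ℕ} [NeZero M]
variable {X : Type*} (gen : X → LaurentSeries k) {x₀ c₀ : X}

/-- the expansion at `∞` restricted to `F1` -/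
def psi (D : CuspDatum k M O) : F1 k M →ₐ[k] LaurentSeries k :=
  (D.σ D.i₀).comp (F1 k M).val

theorem psi_apply (D : CuspDatum k M O) (y : F1 k M) :
    psi D y = qExpand k M (((y : bigField k M)) : LaurentSeries k) :=
  D.σ_i₀ _

theorem psi_mem (D : CuspDatum k M O) (hx₀ : gen x₀ = qExpand k M (jqModC k))
    (hc₀ : gen c₀ = qExpand k M (jS k M)) (y : F1 k M) :
    psi D y ∈ (Ebig (k := k) gen).toSubalgebra := by
  obtain ⟨y, hy⟩ := y
  show psi D ⟨y, hy⟩ ∈ (Ebig (k := k) gen)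
  induction hy using IntermediateField.adjoin_induction with
  | mem z hz =>
    rcases hz with rfl | hz
    · rw [psi_apply]
      show qExpand k M (jqModC k) ∈ _
      rw [← hx₀]
      exact gen_mem gen x₀
    · rw [Set.mem_singleton_iff] at hz
      subst hz
      rw [psi_apply]
      show qExpand k M (jS k M) ∈ _
      rw [← hc₀]
      exact gen_mem gen c₀
  | algebraMap a =>
    have h1 : (⟨algebraMap k (bigField k M) a, IntermediateField.algebraMap_mem _ a⟩ : F1 k M)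
        = algebraMap k (F1 k M) a := rfl
    rw [h1, AlgHom.commutes]
    exact IntermediateField.algebraMap_mem _ a
  | add z w hz hw ihz ihw =>
    have h1 : (⟨z + w, add_mem hz hw⟩ : F1 k M) = ⟨z, hz⟩ + ⟨w, hw⟩ := rfl
    rw [h1, map_add]
    exact add_mem ihz ihw
  | inv z hz ihz =>
    have h1 : (⟨z⁻¹, inv_mem hz⟩ : F1 k M) = (⟨z, hz⟩ : F1 k M)⁻¹ := rfl
    rw [h1, map_inv₀]
    exact inv_mem ihz
  | mul z w hz hw ihz ihw =>
    have h1 : (⟨z * w, mul_mem hz hw⟩ : F1 k M) = ⟨z, hz⟩ * ⟨w, hw⟩ := rfl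
    rw [h1, map_mul]
    exact mul_mem ihz ihw

/-- **The embedding** `F1 = k(j(q), j(q^M)) → Ebig gen`, `x(q) ↦ x(q^M)`. -/
def iota (D : CuspDatum k M O) (hx₀ : gen x₀ = qExpand k M (jqModC k))
    (hc₀ : gen c₀ = qExpand k M (jS k M)) : F1 k M →ₐ[k] (Ebig (k := k) gen) :=
  (psi D).codRestrict (Ebig (k := k) gen).toSubalgebra (psi_mem gen D hx₀ hc₀)

theorem coe_iota (D : CuspDatum k M O) (hx₀ : gen x₀ = qExpand k M (jqModC k))
    (hc₀ : gen c₀ = qExpand k M (jS k M)) (y : F1 k M) :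
    ((iota gen D hx₀ hc₀ y : (Ebig (k := k) gen)) : LaurentSeries k)
      = qExpand k M (((y : bigField k M)) : LaurentSeries k) :=
  psi_apply D y

theorem iota_Gj (D : CuspDatum k M O) (hx₀ : gen x₀ = qExpand k M (jqModC k))
    (hc₀ : gen c₀ = qExpand k M (jS k M)) :
    iota gen D hx₀ hc₀ ⟨ChartHypInst.Gj k M, Gj_mem_F1 k M⟩ = genE gen x₀ := by
  apply Subtype.ext
  rw [coe_iota]
  exact hx₀.symm

theorem iota_GjM (D : CuspDatum k M O) (hx₀ : gen x₀ = qExpand k M (jqModC k))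
    (hc₀ : gen c₀ = qExpand k M (jS k M)) :
    iota gen D hx₀ hc₀ ⟨GjM k M, GjM_mem_F1 k M⟩ = genE gen c₀ := by
  apply Subtype.ext
  rw [coe_iota]
  exact hc₀.symm

/-- the image of `iota` contains `k(genE x₀, genE c₀)` -/
theorem adjoin_le_fieldRange (D : CuspDatum k M O) (hx₀ : gen x₀ = qExpand k M (jqModC k))
    (hc₀ : gen c₀ = qExpand k M (jS k M)) :
    IntermediateField.adjoin k {genE gen x₀, genE gen c₀} ≤ (iota gen D hx₀ hc₀).fieldRange := by
  rw [IntermediateField.adjoin_le_iff]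
  rintro z (rfl | hz)
  · exact ⟨_, iota_Gj gen D hx₀ hc₀⟩
  · rw [Set.mem_singleton_iff] at hz
    subst hz
    exact ⟨_, iota_GjM gen D hx₀ hc₀⟩

/-- all reductions of the S28 chart have the same zero set (`hker1` of `hX0_of_chart`) -/
theorem hker1 (D : CuspDatum k M O) (i i' : D.I)
    (y : intSubring (evalE O k (ChartHypInst.Gj k M))) :
    (ChartHypInst.chartHyp D).rho i y = 0 ↔ (ChartHypInst.chartHyp D).rho i' y = 0 := by
  have hker := (ChartHypInst.chartHyp D).rho_ker_eq M (NeZero.ne M) D.cI D.cI_dvd D.i₀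
    D.cI_eq_iff (ChartUnits.hunits D) i i'
  rw [← RingHom.mem_ker, ← RingHom.mem_ker, hker]

/-- **`hX0` for the Igusa family**: `E0 := Set.range (iota …)`. -/
theorem hX0_igusa (D : CuspDatum k M O) (hx₀ : gen x₀ = qExpand k M (jqModC k))
    (hc₀ : gen c₀ = qExpand k M (jS k M))
    {Γ : Subgroup ((Ebig (k := k) gen) ≃ₐ[k] (Ebig (k := k) gen))} [Fintype Γ] [DecidableEq Γ]
    {σ₀ : (Ebig (k := k) gen) →ₐ[k] LaurentSeries k}
    (h : ChartHyp (O := O) (sig Γ σ₀) (genE gen x₀) (ChartHypInst.Gs k M))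
    (g : Γ) (x : intSubring (evalE O k (genE gen x₀)))
    (hx : (x : (Ebig (k := k) gen)) ∈ Set.range (iota gen D hx₀ hc₀)) :
    h.rho g x = 0 ↔ h.rho 1 x = 0 := by
  haveI : Nonempty D.I := ⟨D.i₀⟩
  exact hX0_of_chart h (ChartHypInst.chartHyp D) (hker1 D) (F1 k M) (Gj_mem_F1 k M)
    (iota gen D hx₀ hc₀) (iota_Gj gen D hx₀ hc₀) (Set.range (iota gen D hx₀ hc₀))
    (le_refl _) g x hx

end Iota

end Fermat.Agent.DS.P2.IgusaIota
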