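/-
# GATE-N / P2 / IG-2 (helper66): the `q ↦ ζ q` twist and the Gauss valuation

For a unit `ζ` of the DVR `O` (e.g. a root of unity), `c = ζ` in `k = Frac O` and `ζ̄` in the
residue field `κ`:

* `scaleHom_mem_gaussRing` : `scaleHom k c` preserves the Gauss ring `gaussRing O k`;
* `gaussRed_scaleHom` : `gaussRed (scaleHom k c x) = scaleHom κ ζ̄ (gaussRed x)`;
* `scaleHom_mem_gaussRing_iff`, `gaussRed_scaleHom_eq_zero_iff`;
* `ChartHyp.rho_eq_zero_iff_of_scale` : if two expansions of a chart family differ by the twist,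
  `σ i x = scaleHom k c (σ j x)` for all `x`, then their reductions have the same zero set —
  this is hypothesis `hT` of `IgusaAbs.rho_eq_zero_iff_of_twist` (with `σ = sig Γ σ₀`, `i = T`,
  `j = 1`) once the twist law `σ₀ (T x) = scaleHom k c (σ₀ x)` is known (on generators:
  `algHom_eq_scale_of_gen`).
-/
import Fermat.Agent.S28.CoreGauss5
import Fermat.Agent.S28.CuspExpansion
import Fermat.Agent.S28.CuspSeries

set_option autoImplicit false
set_option linter.unusedSectionVars false

noncomputable section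

namespace Fermat.Agent.DS.P2.IgusaTwistGauss

open Fermat.Agent.S28 Fermat.Agent.S28.CuspExp ModularCurve

section Gauss

variable {O : Type*} {k : Type*} [CommRing O] [IsDomain O] [IsDiscreteValuationRing O]
  [Field k] [Algebra O k] [IsFractionRing O k]

/-- the image of a unit of `O` in `k` -/
abbrev unitK (ζ : Oˣ) : kˣ := Units.map (algebraMap O k : O →* k) ζ

/-- the image of a unit of `O` in the residue field -/
abbrev unitκ (ζ : Oˣ) : (IsLocalRing.ResidueField O)ˣ :=
  Units.map (IsLocalRing.residue O : O →* IsLocalRing.ResidueField O) ζ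

theorem serEmb_scaleHom (ζ : Oˣ) (g : LaurentSeries O) :
    serEmb O k (scaleHom O ζ g) = scaleHom k (unitK ζ) (serEmb O k g) :=
  coeffMap_scaleHom (algebraMap O k) ζ g

theorem serRed_scaleHom (ζ : Oˣ) (g : LaurentSeries O) :
    serRed O (scaleHom O ζ g) = scaleHom _ (unitκ ζ) (serRed O g) :=
  coeffMap_scaleHom (IsLocalRing.residue O) ζ g

/-- **The twist preserves the Gauss ring.** -/
theorem scaleHom_mem_gaussRing (ζ : Oˣ) {x : LaurentSeries k} (hx : x ∈ gaussRing O k) :
    scaleHom k (unitK ζ) x ∈ gaussRing O k := by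
  obtain ⟨g, h, hh, hxgh⟩ := mem_gaussRing_iff.mp hx
  refine mem_gaussRing_iff.mpr ⟨scaleHom O ζ g, scaleHom O ζ h, ?_, ?_⟩
  · rw [serRed_scaleHom]
    exact fun h0 => hh ((scaleHom_eq_zero_iff _ _).mp h0)
  · rw [serEmb_scaleHom, serEmb_scaleHom, ← map_mul, hxgh]

/-- **The twist commutes with the Gauss reduction.** -/
theorem gaussRed_scaleHom (ζ : Oˣ) {x : LaurentSeries k} (hx : x ∈ gaussRing O k) :
    gaussRed O k ⟨scaleHom k (unitK ζ) x, scaleHom_mem_gaussRing ζ hx⟩
      = scaleHom _ (unitκ ζ) (gaussRed O k ⟨x, hx⟩) := by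
  obtain ⟨g, h, hh, hxgh⟩ := mem_gaussRing_iff.mp hx
  have hh' : serRed O (scaleHom O ζ h) ≠ 0 := by
    rw [serRed_scaleHom]
    exact fun h0 => hh ((scaleHom_eq_zero_iff _ _).mp h0)
  have hx' : scaleHom k (unitK ζ) x * serEmb O k (scaleHom O ζ h)
      = serEmb O k (scaleHom O ζ g) := by
    rw [serEmb_scaleHom, serEmb_scaleHom, ← map_mul, hxgh]
  rw [gaussRed_mk_eq _ hh' hx', gaussRed_mk_eq hx hh hxgh, serRed_scaleHom, serRed_scaleHom,
    map_div₀]

theorem unitK_inv (ζ : Oˣ) : unitK (k := k) ζ⁻¹ = (unitK ζ)⁻¹ := map_inv _ _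

theorem scaleHom_inv_scaleHom {R : Type*} [CommRing R] (c : Rˣ) (x : LaurentSeries R) :
    scaleHom R c⁻¹ (scaleHom R c x) = x := by
  ext m
  rw [scaleHom_coeff, scaleHom_coeff, ← mul_assoc, ← Units.val_mul, inv_zpow, inv_mul_cancel,
    Units.val_one, one_mul]

theorem scaleHom_mem_gaussRing_iff (ζ : Oˣ) {x : LaurentSeries k} :
    scaleHom k (unitK ζ) x ∈ gaussRing O k ↔ x ∈ gaussRing O k := by
  refine ⟨fun hx => ?_, scaleHom_mem_gaussRing ζ⟩
  have := scaleHom_mem_gaussRing (O := O) ζ⁻¹ hx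
  rwa [unitK_inv, scaleHom_inv_scaleHom] at this

theorem gaussRed_scaleHom_eq_zero_iff (ζ : Oˣ) {x : LaurentSeries k} (hx : x ∈ gaussRing O k) :
    gaussRed O k ⟨scaleHom k (unitK ζ) x, scaleHom_mem_gaussRing ζ hx⟩ = 0
      ↔ gaussRed O k ⟨x, hx⟩ = 0 := by
  rw [gaussRed_scaleHom, scaleHom_eq_zero_iff]

/-- `scaleHom k c` is `k`-linear. -/
theorem scaleHom_algebraMap (c : kˣ) (a : k) :
    scaleHom k c (algebraMap k (LaurentSeries k) a) = algebraMap k (LaurentSeries k) a := by
  rw [algebraMap_eq_C, scaleHom_C]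

/-- `scaleHom k c` as a `k`-algebra endomorphism of `k((q))`. -/
def scaleAlgHom (c : kˣ) : LaurentSeries k →ₐ[k] LaurentSeries k :=
  { scaleHom k c with commutes' := scaleHom_algebraMap c }

@[simp] theorem scaleAlgHom_apply (c : kˣ) (x : LaurentSeries k) :
    scaleAlgHom c x = scaleHom k c x := rfl

end Gauss

section Chart

variable {O : Type*} {k : Type*} [CommRing O] [IsDomain O] [IsDiscreteValuationRing O]
  [Field k] [Algebra O k] [IsFractionRing O k]
variable {E : Type*} [Field E] [Algebra k E] {I : Type*} [Fintype I] [DecidableEq I]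
variable {σ : I → (E →ₐ[k] LaurentSeries k)} {G : E} {Gs : LaurentSeries k}

/-- **`hT` of `IgusaAbs.rho_eq_zero_iff_of_twist`**: two expansions differing by the twist
`q ↦ ζ q` reduce with the same zero set. -/
theorem ChartHyp.rho_eq_zero_iff_of_scale (h : ChartHyp (O := O) σ G Gs) (ζ : Oˣ) (i j : I)
    (htw : ∀ x : E, σ i x = scaleHom k (unitK ζ) (σ j x))
    (x : intSubring (evalE O k G)) : h.rho i x = 0 ↔ h.rho j x = 0 := by
  rw [ChartHyp.rho_apply, ChartHyp.rho_apply]
  have hmem : σ j x ∈ gaussRing O k := h.sigma_mem_gaussRing x.2 j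
  have h1 : (⟨σ i x, h.sigma_mem_gaussRing x.2 i⟩ : gaussRing O k)
      = ⟨scaleHom k (unitK ζ) (σ j x), scaleHom_mem_gaussRing ζ hmem⟩ :=
    Subtype.ext (htw x)
  rw [h1, gaussRed_scaleHom_eq_zero_iff]

/-- the reductions themselves differ by the twist of `κ((q))` -/
theorem ChartHyp.rho_eq_scale (h : ChartHyp (O := O) σ G Gs) (ζ : Oˣ) (i j : I)
    (htw : ∀ x : E, σ i x = scaleHom k (unitK ζ) (σ j x))
    (x : intSubring (evalE O k G)) : h.rho i x = scaleHom _ (unitκ ζ) (h.rho j x) := by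
  rw [ChartHyp.rho_apply, ChartHyp.rho_apply]
  have hmem : σ j x ∈ gaussRing O k := h.sigma_mem_gaussRing x.2 j
  have h1 : (⟨σ i x, h.sigma_mem_gaussRing x.2 i⟩ : gaussRing O k)
      = ⟨scaleHom k (unitK ζ) (σ j x), scaleHom_mem_gaussRing ζ hmem⟩ :=
    Subtype.ext (htw x)
  rw [h1, gaussRed_scaleHom]

/-- The twist law needs to be checked on field generators only. -/
theorem algHom_eq_scale_of_gen (τ τ' : E →ₐ[k] LaurentSeries k) (c : kˣ) (S : Set E)
    (hS : IntermediateField.adjoin k S = ⊤) (hgen : ∀ s ∈ S, τ s = scaleHom k c (τ' s)) :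
    ∀ x : E, τ x = scaleHom k c (τ' x) := by
  have hEq : ∀ x ∈ IntermediateField.adjoin k S, τ x = ((scaleAlgHom c).comp τ') x := by
    intro x hx
    induction hx using IntermediateField.adjoin_induction with
    | mem x hx => exact hgen x hx
    | algebraMap a => rw [AlgHom.commutes, AlgHom.commutes]
    | add x y _ _ hx hy => rw [map_add, map_add, hx, hy]
    | inv x _ hx => rw [map_inv₀, map_inv₀, hx]
    | mul x y _ _ hx hy => rw [map_mul, map_mul, hx, hy]
  intro x
  exact hEq x (by rw [hS]; exact IntermediateField.mem_top)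

end Chart

end Fermat.Agent.DS.P2.IgusaTwistGauss
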