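/-
# GATE-N / P2 / IG-6 assembly — HEDGE twin of helper87's IgusaAsm (helper66)

The Igusa core (finite chart and chart at infinity) for the field generated by a family of
Laurent series permuted by `SL(2,ℤ)`, from the landed pieces IG-1 … IG-4, IOTA, STAB-shape.
-/
import Fermat.Agent.DS.P2.IgusaIota
import Fermat.Agent.DS.P2.IgusaTwist
import Fermat.Agent.DS.P2.IgusaTwistGauss
import Fermat.Agent.DS.P2.FixedFieldAbs

set_option autoImplicit false
set_option linter.unusedSectionVars false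

noncomputable section

namespace Fermat.Agent.DS.P2.IgusaAsmH

open Polynomial ModularCurve MatrixGroups CongruenceSubgroup Fermat.Agent.S28
  Fermat.Agent.DS.P2.IgusaAct Fermat.Agent.DS.P2.IgusaAbs Fermat.Agent.DS.P2.IgusaX0
  Fermat.Agent.DS.P2.IgusaTwist Fermat.Agent.DS.P2.IgusaIota

variable {k : Type} [Field k] {O : Type} [CommRing O] [IsDomain O] [IsDiscreteValuationRing O]
  [Algebra O k] [IsFractionRing O k] {M : ℕ} [NeZero M]
variable {X : Type*} (gen : X → LaurentSeries k) (π : SL(2, ℤ) →* Equiv.Perm X)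
  (hπ : ∀ g, RelInv k gen (π g))

/-- the twist law on the whole field from the twist law on the generators -/
theorem htw_of_gen (ζ : Oˣ)
    (hgenT : ∀ x, gen (π ModularGroup.T x) = twK k ζ (gen x)) (y : Ebig (k := k) gen) :
    (Ebig (k := k) gen).val
        (((Tbar gen π hπ : Gam gen π hπ) : Ebig (k := k) gen ≃ₐ[k] Ebig (k := k) gen) y) =
      twK k ζ ((Ebig (k := k) gen).val y) := by
  have h : ((Ebig (k := k) gen).val.comp
      ((alphaHom gen π hπ ModularGroup.T : Ebig (k := k) gen ≃ₐ[k] Ebig (k := k) gen) :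
        Ebig (k := k) gen →ₐ[k] Ebig (k := k) gen)) =
      (IgusaTwistGauss.scaleAlgHom
        (Units.map ((algebraMap O k : O →+* k) : O →* k) ζ)).comp (Ebig (k := k) gen).val := by
    apply algHom_ext_gen
    intro x
    rw [AlgHom.comp_apply, AlgHom.comp_apply, AlgEquiv.coe_algHom, alphaHom_gen]
    exact hgenT x
  exact congrArg (fun f => f y) h

/-- the stabiliser of `genE c₀` in the image group is contained in the image of `Γ₀(M)` -/
theorem stab_le_H0bar {c₀ : X}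
    (hstab : ∀ g, gen (π g c₀) = gen c₀ → ∃ g' ∈ Gamma0 M, π g' = π g) :
    FixedFieldAbs.stab (Gam gen π hπ) {genE (k := k) gen c₀} ≤ H0bar gen π hπ M := by
  intro γ hγ
  obtain ⟨g, hg⟩ := MonoidHom.mem_range.mp γ.2
  have h1 : genE (k := k) gen (π g c₀) = genE gen c₀ := by
    rw [← alphaHom_gen gen π hπ, hg]
    exact hγ _ rfl
  obtain ⟨g', hg', hgg'⟩ := hstab g (congrArg Subtype.val h1)
  refine ⟨g', hg', Subtype.ext ?_⟩
  rw [coe_rangeRestrict, alphaHom_eq_of_perm_eq gen π hπ hgg', hg]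

variable [Fintype (Gam gen π hπ)] [DecidableEq (Gam gen π hπ)]

/-- the field `E0` of the `X₀`-input: generated by the invariants and `genE c₀` -/
def E0 (c₀ : X) : Subfield (Ebig (k := k) gen) :=
  Subfield.closure ({y | ∀ g ∈ Gam gen π hπ, g y = y} ∪ {genE (k := k) gen c₀})

theorem E0_le_range [CharZero k] (D : CuspDatum k M O) {x₀ c₀ : X}
    (hx₀ : gen x₀ = qExpand k M (jqModC k)) (hc₀ : gen c₀ = qExpand k M (jS k M))
    (h : ChartHyp (O := O) (sig (Gam gen π hπ) (Ebig (k := k) gen).val) (genE gen x₀)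
      (ChartHypInst.Gs k M)) :
    (E0 gen π hπ c₀ : Set (Ebig (k := k) gen)) ⊆ Set.range (iota gen D hx₀ hc₀) := by
  have hle : E0 gen π hπ c₀ ≤ (iota gen D hx₀ hc₀).fieldRange.toSubfield := by
    rw [E0, Subfield.closure_le]
    rintro y (hy | hy)
    · obtain ⟨p, q, -, rfl⟩ := fixed_mem_of_symrat h y (fun g => hy g g.2)
      have hG : ∀ p : k[X], evalEk k (genE (k := k) gen x₀) p ∈
          (iota gen D hx₀ hc₀).fieldRange := by
        intro p
        show Polynomial.eval₂ (algebraMap k _) (genE gen x₀) p ∈ _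
        rw [Polynomial.eval₂_eq_sum_range]
        refine sum_mem fun i _ => mul_mem (IntermediateField.algebraMap_mem _ _) (pow_mem ?_ i)
        exact ⟨_, iota_Gj gen D hx₀ hc₀⟩
      exact div_mem (hG p) (hG q)
    · rw [Set.mem_singleton_iff] at hy
      subst hy
      exact ⟨_, iota_GjM gen D hx₀ hc₀⟩
  intro y hy
  exact hle hy

/-- **Igusa core, finite chart.** -/
theorem igusa_coreFin [CharZero k] (D : CuspDatum k M O) {x₀ c₀ : X}
    (hx₀ : gen x₀ = qExpand k M (jqModC k)) (hc₀ : gen c₀ = qExpand k M (jS k M))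
    (hπM : ∀ g g' : SL(2, ℤ), Matrix.SpecialLinearGroup.map (Int.castRingHom (ZMod M)) g =
      Matrix.SpecialLinearGroup.map (Int.castRingHom (ZMod M)) g' → π g = π g')
    (ζ : Oˣ) (hgenT : ∀ x, gen (π ModularGroup.T x) = twK k ζ (gen x))
    (hstab : ∀ g, gen (π g c₀) = gen c₀ → ∃ g' ∈ Gamma0 M, π g' = π g)
    (h : ChartHyp (O := O) (sig (Gam gen π hπ) (Ebig (k := k) gen).val) (genE gen x₀)
      (ChartHypInst.Gs k M))
    {ϖ : O} (hϖ : Irreducible ϖ) {a : Ebig (k := k) gen}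
    (ha : (evalE O k (genE (k := k) gen x₀)).IsIntegralElem a)
    (hdiv : ∃ v ∈ gaussRing O k,
      ((a : Ebig (k := k) gen) : LaurentSeries k) = HahnSeries.C (algebraMap O k ϖ) * v) :
    (evalE O k (genE (k := k) gen x₀)).IsIntegralElem
      (algebraMap k (Ebig (k := k) gen) (algebraMap O k ϖ)⁻¹ * a) := by
  haveI : Nonempty D.I := ⟨D.i₀⟩
  haveI : Finite (Gam gen π hπ) := Finite.of_fintype _
  exact coreFin_of_twist h (Tbar gen π hπ)
    (rho_T_iff h (Tbar gen π hπ) ζ (htw_of_gen gen π hπ ζ hgenT))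
    (E0 gen π hπ c₀ : Set (Ebig (k := k) gen)) (H0bar gen π hπ M)
    (FixedFieldAbs.hfix_of_stab_le (Gam gen π hπ) {genE (k := k) gen c₀} (H0bar gen π hπ M)
      (stab_le_H0bar gen π hπ hstab))
    (fun g x hx => hX0_of_chart h (ChartHypInst.chartHyp D) (hker1 D) (F1 k M) (Gj_mem_F1 k M)
      (iota gen D hx₀ hc₀) (iota_Gj gen D hx₀ hc₀) (E0 gen π hπ c₀ : Set (Ebig (k := k) gen))
      (E0_le_range gen π hπ D hx₀ hc₀ h) g x hx)
    (conj_Tbar_mem_zpowers gen π hπ M hπM) (normalClosure_Tbar gen π hπ) hϖ ha hdiv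

/-- **Igusa core, chart at infinity.** -/
theorem igusa_coreInf [CharZero k] (D : CuspDatum k M O) {x₀ c₀ : X}
    (hx₀ : gen x₀ = qExpand k M (jqModC k)) (hc₀ : gen c₀ = qExpand k M (jS k M))
    (hπM : ∀ g g' : SL(2, ℤ), Matrix.SpecialLinearGroup.map (Int.castRingHom (ZMod M)) g =
      Matrix.SpecialLinearGroup.map (Int.castRingHom (ZMod M)) g' → π g = π g')
    (ζ : Oˣ) (hgenT : ∀ x, gen (π ModularGroup.T x) = twK k ζ (gen x))
    (hstab : ∀ g, gen (π g c₀) = gen c₀ → ∃ g' ∈ Gamma0 M, π g' = π g)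
    (h : ChartHyp (O := O) (sig (Gam gen π hπ) (Ebig (k := k) gen).val) (genE gen x₀)
      (ChartHypInst.Gs k M))
    (h' : ChartHyp (O := O) (sig (Gam gen π hπ) (Ebig (k := k) gen).val) (genE gen x₀)⁻¹
      (ChartHypInst.Gs k M)⁻¹)
    {ϖ : O} (hϖ : Irreducible ϖ) {b : Ebig (k := k) gen}
    (hb : (evalE O k (genE (k := k) gen x₀)⁻¹).IsIntegralElem b)
    (hdiv : ∃ v ∈ gaussRing O k,
      ((b : Ebig (k := k) gen) : LaurentSeries k) = HahnSeries.C (algebraMap O k ϖ) * v) :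
    (evalE O k (genE (k := k) gen x₀)⁻¹).IsIntegralElem
      (algebraMap k (Ebig (k := k) gen) (algebraMap O k ϖ)⁻¹ * b) := by
  haveI : Nonempty D.I := ⟨D.i₀⟩
  haveI : Finite (Gam gen π hπ) := Finite.of_fintype _
  exact coreInf_of_twist h h' (Tbar gen π hπ)
    (rho_T_iff h (Tbar gen π hπ) ζ (htw_of_gen gen π hπ ζ hgenT))
    (E0 gen π hπ c₀ : Set (Ebig (k := k) gen)) (H0bar gen π hπ M)
    (FixedFieldAbs.hfix_of_stab_le (Gam gen π hπ) {genE (k := k) gen c₀} (H0bar gen π hπ M)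
      (stab_le_H0bar gen π hπ hstab))
    (fun g x hx => hX0_of_chart h (ChartHypInst.chartHyp D) (hker1 D) (F1 k M) (Gj_mem_F1 k M)
      (iota gen D hx₀ hc₀) (iota_Gj gen D hx₀ hc₀) (E0 gen π hπ c₀ : Set (Ebig (k := k) gen))
      (E0_le_range gen π hπ D hx₀ hc₀ h) g x hx)
    (conj_Tbar_mem_zpowers gen π hπ M hπM) (normalClosure_Tbar gen π hπ) hϖ hb hdiv

end Fermat.Agent.DS.P2.IgusaAsmH
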