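import Fermat.Agent.DS.P2.KerOfCore
import Fermat.Agent.DS.P2.GaussF1Port
import Fermat.Agent.S28.ChartTransport

/-!
# GATE-N / P2 : the kernel statement (KER) on `F1 M` at the chart `jM = j(q^M)`, from the Igusa core

Closed call of `KerOfCore.ker_of_coreE` at `F₀ := F1 M` (helper45 `DS/P0/Weber`),
`T₀ := jqNModC ℚ M = j(q^M)`:

* `ker_F1_of_core` : GENERIC in `(k, O, f : ℤ_(ℓ) →+* O)`; `Eb` any intermediate field of `k((q))`
  containing `F1C k M` (helper54: `F1C k M ≤ Ebig gen`), `G : Eb` with `↑G = j(q^M)`, and the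
  conclusion of helper87 `IgusaAsm.igusa_coreFin` (`evalE`-form) as the hypothesis `hcore`;
* `ker_F1_cyc` : the same at `(k, O, f) := (cycK M, cycO M ℓ, ratLocToCycO M ℓ)`, `ℓ ∤ M`, with the
  uniformizer `ϖ := ℓ` (`S28.irreducible_ell_cycO`), `hcore` for an arbitrary irreducible `ϖ`.

Output shape: for `x ∈ F1 M` integral over `ℤ_(ℓ)[jM]` with `x = ℓ v`, `v` in the Gauss ring of
`ℤ_(ℓ)` (or with `gaussRed x = 0`), the series `ℓ⁻¹ x` lies in `F1 M` and is integral over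
`ℤ_(ℓ)[jM]`.
-/

set_option autoImplicit false
set_option linter.unusedSectionVars false

noncomputable section

namespace Fermat.Agent.DS.P2.IgusaKerF1

open HahnSeries GaloisRep Polynomial ModularCurve
open Fermat.Agent.S28 Fermat.Agent.S28.ChartReduction
open Fermat.Agent.DS.P0 Fermat.Agent.DS.P2.KerOfCore

section Generic

variable (M : ℕ) [NeZero M] {ℓ : ℕ} [Fact ℓ.Prime]
variable {k : Type} [Field k] [Algebra ℚ k]
variable {O : Type} [CommRing O] [IsDomain O] [IsDiscreteValuationRing O] [Algebra O k]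
  [IsFractionRing O k]

theorem transcendental_jM_rat : Transcendental ℚ (jqNModC ℚ M) :=
  Fermat.Agent.DS.P2.GaussF1.transcendental_jqNModC M ℚ

theorem iota_jM : (DescentLemma.iota (jqNModC ℚ M) : LaurentSeries k) = jqNModC k M :=
  coeffMap_jqNModC (algebraMap ℚ k) M

/-- **(KER) on `F1 M` at the chart `j(q^M)`** from the `evalE`-form Igusa core on a field
`Eb ⊇ F1C k M`; generic in `(k, O, f)`. -/
theorem ker_F1_of_core
    (f : ↥(ratLocalizedAt ℓ) →+* O)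
    (hf : ∀ r : ↥(ratLocalizedAt ℓ), algebraMap O k (f r) = algebraMap ℚ k (r : ℚ))
    (hZ : ∀ x : ℚ, algebraMap ℚ k x ∈ (algebraMap O k).range → x ∈ ratLocalizedAt ℓ)
    (Eb : IntermediateField k (LaurentSeries k)) (hF1 : F1C k M ≤ Eb)
    (G : Eb) (hG : (G : LaurentSeries k) = jqNModC k M)
    (hcore : ∀ a : Eb, (evalE O k G).IsIntegralElem a →
      (∃ v ∈ gaussRing O k, (a : LaurentSeries k) =
        HahnSeries.C (algebraMap O k (f (ℓ : ↥(ratLocalizedAt ℓ)))) * v) →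
      (evalE O k G).IsIntegralElem
        (algebraMap k Eb (algebraMap O k (f (ℓ : ↥(ratLocalizedAt ℓ))))⁻¹ * a))
    {x : LaurentSeries ℚ} (hxF : x ∈ F1 M)
    (hxint : IsIntegral (Algebra.adjoin ↥(ratLocalizedAt ℓ) {jqNModC ℚ M}) x)
    (hxdiv : ∃ v ∈ gaussRing ↥(ratLocalizedAt ℓ) ℚ, x = HahnSeries.C ((ℓ : ℕ) : ℚ) * v) :
    (HahnSeries.C ((ℓ : ℕ) : ℚ))⁻¹ * x ∈ F1 M ∧
      IsIntegral (Algebra.adjoin ↥(ratLocalizedAt ℓ) {jqNModC ℚ M})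
        ((HahnSeries.C ((ℓ : ℕ) : ℚ))⁻¹ * x) := by
  refine ker_of_coreE (F1 M) (jqNModC ℚ M) (transcendental_jM_rat M) f hf hZ Eb.val G ?_ ?_
    hcore hxF hxint hxdiv
  · rw [iota_jM]
    exact hG
  · intro y hy
    exact ⟨⟨_, hF1 (coeffMap_mem_F1C ℚ M (algebraMap ℚ k) hy)⟩, rfl⟩

/-- the same with the hypothesis `gaussRed x = 0`. -/
theorem ker_F1_of_core_red
    (f : ↥(ratLocalizedAt ℓ) →+* O)
    (hf : ∀ r : ↥(ratLocalizedAt ℓ), algebraMap O k (f r) = algebraMap ℚ k (r : ℚ))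
    (hZ : ∀ x : ℚ, algebraMap ℚ k x ∈ (algebraMap O k).range → x ∈ ratLocalizedAt ℓ)
    (Eb : IntermediateField k (LaurentSeries k)) (hF1 : F1C k M ≤ Eb)
    (G : Eb) (hG : (G : LaurentSeries k) = jqNModC k M)
    (hcore : ∀ a : Eb, (evalE O k G).IsIntegralElem a →
      (∃ v ∈ gaussRing O k, (a : LaurentSeries k) =
        HahnSeries.C (algebraMap O k (f (ℓ : ↥(ratLocalizedAt ℓ)))) * v) →
      (evalE O k G).IsIntegralElem
        (algebraMap k Eb (algebraMap O k (f (ℓ : ↥(ratLocalizedAt ℓ))))⁻¹ * a))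
    {x : LaurentSeries ℚ} (hxF : x ∈ F1 M)
    (hxint : IsIntegral (Algebra.adjoin ↥(ratLocalizedAt ℓ) {jqNModC ℚ M}) x)
    (hx : x ∈ gaussRing ↥(ratLocalizedAt ℓ) ℚ)
    (hred : gaussRed ↥(ratLocalizedAt ℓ) ℚ ⟨x, hx⟩ = 0) :
    (HahnSeries.C ((ℓ : ℕ) : ℚ))⁻¹ * x ∈ F1 M ∧
      IsIntegral (Algebra.adjoin ↥(ratLocalizedAt ℓ) {jqNModC ℚ M})
        ((HahnSeries.C ((ℓ : ℕ) : ℚ))⁻¹ * x) := by
  refine ker_F1_of_core M f hf hZ Eb hF1 G hG hcore hxF hxint ?_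
  obtain ⟨v, hv, hxv⟩ := (gaussRed_eq_zero_iff (irreducible_ell ℓ) hx).mp hred
  refine ⟨v, hv, ?_⟩
  rw [hxv]
  congr 2

end Generic

/-! ### The cyclotomic instance `(cycK M, cycO M ℓ)` -/

section Cyclo

variable (M : ℕ) [NeZero M] (ℓ : ℕ) [Fact ℓ.Prime]

/-- **(KER) on `F1 M` at `j(q^M)`, `ℓ ∤ M`**, from the Igusa core over `(cycK M, cycO M ℓ)` stated
for an arbitrary uniformizer `ϖ` (= the conclusion of helper87 `igusa_coreFin`). -/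
theorem ker_F1_cyc (hℓM : ¬ ℓ ∣ M)
    (Eb : IntermediateField ↥(cycK M) (LaurentSeries ↥(cycK M))) (hF1 : F1C ↥(cycK M) M ≤ Eb)
    (G : Eb) (hG : (G : LaurentSeries ↥(cycK M)) = jqNModC ↥(cycK M) M)
    (hcore : ∀ {ϖ : ↥(cycO M ℓ)}, Irreducible ϖ → ∀ {a : Eb},
      (evalE ↥(cycO M ℓ) ↥(cycK M) G).IsIntegralElem a →
      (∃ v ∈ gaussRing ↥(cycO M ℓ) ↥(cycK M), (a : LaurentSeries ↥(cycK M)) =
        HahnSeries.C (algebraMap ↥(cycO M ℓ) ↥(cycK M) ϖ) * v) →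
      (evalE ↥(cycO M ℓ) ↥(cycK M) G).IsIntegralElem
        (algebraMap ↥(cycK M) Eb (algebraMap ↥(cycO M ℓ) ↥(cycK M) ϖ)⁻¹ * a))
    {x : LaurentSeries ℚ} (hxF : x ∈ F1 M)
    (hxint : IsIntegral (Algebra.adjoin ↥(ratLocalizedAt ℓ) {jqNModC ℚ M}) x)
    (hxdiv : ∃ v ∈ gaussRing ↥(ratLocalizedAt ℓ) ℚ, x = HahnSeries.C ((ℓ : ℕ) : ℚ) * v) :
    (HahnSeries.C ((ℓ : ℕ) : ℚ))⁻¹ * x ∈ F1 M ∧
      IsIntegral (Algebra.adjoin ↥(ratLocalizedAt ℓ) {jqNModC ℚ M})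
        ((HahnSeries.C ((ℓ : ℕ) : ℚ))⁻¹ * x) := by
  have hirr : Irreducible (ratLocToCycO M ℓ ((ℓ : ℕ) : ↥(ratLocalizedAt ℓ))) := by
    rw [ratLocToCycO_ell]
    exact irreducible_ell_cycO M ℓ hℓM
  exact ker_F1_of_core M (ratLocToCycO M ℓ) (Fermat.Agent.S28.ChartTransport.ratLocToCycO_compat M ℓ)
    (hZ_cycO M ℓ) Eb hF1 G hG (fun a ha hdiv => hcore hirr ha hdiv) hxF hxint hxdiv

end Cyclo

end Fermat.Agent.DS.P2.IgusaKerF1
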