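/-
GATE-N / S48 J1-PORT, node P2b generic (helper96): the Kummer statement `K18s` and its proof from
chart data for an ARBITRARY field of `q`-expansions.

`GJ/S18/K18Strong.K18s A π N m` is the statement for the field
`laurentBaseChange L (modularFunctionFieldFull N)` (the `X₀(N)` field).  Nothing in Layer B
(`KummerRedData.kummer_redData_final`) or in the Gauss-valuation layer (`Val.redData`) uses the
shape of that field.  So we state

* `K18sF A π F m` for ANY `F : IntermediateField L (LaurentSeries L)`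
  (`K18s A π N m = K18sF A π (laurentBaseChange L (modularFunctionFieldFull N)) m` by `Iff.rfl`);
* `k18sF_of_chart` : `K18sF` over `ℚ̄` from the primitive chart hypotheses
  (Gauss fractions, a generator, a Gauss chart `t` with degree preservation, tame branching
  `X (X - β)`, `q`-order of `t~` prime to `ℓ`);
* `k18sF_of_le` : descent `F₁ ≤ F₂` of relative degree prime to `m`.

For the `X₁(M)` port: instantiate `F := FK1 M`, whatever its third generator is.
-/
import Fermat.Agent.GJ.J1.KummerRedDataFinal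
import Fermat.Agent.GJ.J1.Val.GaussRedData
import Fermat.Agent.GJ.J1.Val.CharP
import Fermat.Agent.GJ.AuxL.RankOneA
import Fermat.Agent.GJ.J1.ResidueAlgClosed
import Fermat.Agent.GJ.J1.Desc
import Fermat.Agent.GJ.S18.K18Strong

set_option autoImplicit false

noncomputable section

namespace Fermat.Agent.DS.P2.KGen

open ModularCurve Polynomial IntermediateField AlgebraicCurve HahnSeries
open Fermat.Agent.S24 Fermat.Agent.GJ.J1 Fermat.Agent.GJ.J1.Val
open Fermat.Agent.GJ.J1.DiffAdapter

section Def

variable {L : Type*} [Field L] (A : ValuationSubring L)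
variable {k : Type*} [Field k] (π : A →+* k)
variable (F : IntermediateField L (LaurentSeries L))

/-- The clause-free Kummer statement (K18s) for an arbitrary field `F` of `q`-expansions over `L`:
`a b` are series over `A` whose images over `L` lie in `F`, with the same nonzero coefficientwise
reduction, and all orders of `a / b` are divisible by `m`; then `a / b` is an `m`-th power. -/
def K18sF (m : ℕ) : Prop :=
  ∀ (a b : LaurentSeries A) (ha : coeffMap A.subtype a ∈ F) (hb : coeffMap A.subtype b ∈ F),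
    coeffMap π a = coeffMap π b → coeffMap π a ≠ 0 →
    (∀ P : Place L F, (m : ℤ) ∣ P.ord (⟨coeffMap A.subtype a, ha⟩ : F) -
        P.ord (⟨coeffMap A.subtype b, hb⟩ : F)) →
    ∃ v : F, v ≠ 0 ∧ (⟨coeffMap A.subtype a, ha⟩ : F) = ⟨coeffMap A.subtype b, hb⟩ * v ^ m

end Def

section X0

variable {L : Type*} [Field L] [Algebra ℚ L] (A : ValuationSubring L)
variable {k : Type*} [Field k] (π : A →+* k)

/-- at the `X₀(N)` field, `K18sF` IS `K18s`. -/
theorem k18s_iff_k18sF (N m : ℕ) :
    Fermat.Agent.GJ.S18.Front.K18s A π N m ↔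
      K18sF A π (laurentBaseChange L (modularFunctionFieldFull N)) m := Iff.rfl

end X0

section Descent

variable {L : Type*} [Field L] {A : ValuationSubring L}
variable {k : Type*} [Field k] {π : A →+* k}
variable {F₁ F₂ : IntermediateField L (LaurentSeries L)}

/-- **descent** for `K18sF` along `F₁ ≤ F₂` when `[F₂ : F₁]` is prime to `m`. -/
theorem k18sF_of_le (h : F₁ ≤ F₂) {m : ℕ} (hcop : (relfinrank F₁ F₂).Coprime m)
    (hK : K18sF A π F₂ m) : K18sF A π F₁ m := by
  intro a b ha hb hred hne hdiv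
  have hne' : coeffMap π b ≠ 0 := hred ▸ hne
  have hinj : Function.Injective (coeffMap A.subtype : LaurentSeries A → LaurentSeries L) :=
    Val.emb_injective A
  have ha0 : (⟨coeffMap A.subtype a, ha⟩ : F₁) ≠ 0 := by
    intro h0
    have h1 : coeffMap A.subtype a = 0 := congrArg Subtype.val h0
    have : a = 0 := hinj (by rw [h1, map_zero])
    exact hne (by rw [this, map_zero])
  have hb0 : (⟨coeffMap A.subtype b, hb⟩ : F₁) ≠ 0 := by
    intro h0
    have h1 : coeffMap A.subtype b = 0 := congrArg Subtype.val h0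
    have : b = 0 := hinj (by rw [h1, map_zero])
    exact hne' (by rw [this, map_zero])
  refine Fermat.Agent.GJ.J1.Desc.kummer_descent h hcop ha0 hb0 hdiv fun hdiv' => ?_
  exact hK a b (h ha) (h hb) hred hne hdiv'

end Descent

section Chart

local notation "Kbar" => AlgebraicClosure ℚ

variable (A : ValuationSubring Kbar) (F : IntermediateField Kbar (LaurentSeries Kbar))
variable (hGF : HasGaussFrac A F)

local notation "𝕜" => IsLocalRing.ResidueField A

/-- rank one for a valuation subring of `ℚ̄` over `ℓ` -/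
theorem hrank1 {ℓ : ℕ} (hℓ : ℓ.Prime) (hA : A.LiesOverPrime ℓ) :
    ∀ x c : Kbar, x ∈ A → A.valuation x < 1 → c ≠ 0 →
      ∃ n : ℕ, A.valuation (x ^ n) ≤ A.valuation c := fun _ _ _ hx hc =>
  Fermat.Agent.GJ.AuxL.RankOneA.exists_pow_valuation_le A hℓ hA hx hc

/-- **Layer B at the Gauss reduction datum of an arbitrary field `F` of `q`-expansions over `ℚ̄`**:
`K18sF` from a chart.  Hypotheses: `F` has Gauss fractions at `A` (`hGF`), `F` is a function field
in one variable (`IsGen ℚ̄ x₀`), `t` is a Gauss chart (`t ∈ Rw`, `t~` transcendental) with degree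
preservation `[F : ℚ̄(t)] ≤ [F~ : k(t~)]`, all places of `F` are tamely ramified over `ℚ̄(t)` with
branching only above `0`, `β`, `∞` (`PlaceBranch`, `β~ ≠ 0`), and the `q`-order of `t~` is prime
to `ℓ`. -/
theorem k18sF_of_chart {ℓ : ℕ} [Fact ℓ.Prime] (hA : A.LiesOverPrime ℓ)
    (x₀ : F) [IsGen Kbar x₀]
    {t : F} (hgc : (redData A F hGF).IsGaussChart t)
    (hdeg : Module.finrank Kbar⟮t⟯ F ≤
      Module.finrank 𝕜⟮(redData A F hGF).red ⟨t, hgc.1⟩⟯ (Fres A F hGF))
    (β : A) (hβ : (redData A F hGF).res β ≠ 0)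
    (hbr : PlaceBranch Kbar t (X * (X - Polynomial.C (β : Kbar))))
    (hord : ¬ (ℓ : ℤ) ∣ ((Fres A F hGF).val ((redData A F hGF).red ⟨t, hgc.1⟩)).order)
    {m : ℕ} (hm : ¬ ℓ ∣ m) : K18sF A (IsLocalRing.residue A) F m := by
  intro a b ha hb hred hne hdiv
  have : CharP 𝕜 ℓ := charP_residue A (Fact.out : ℓ.Prime) hA
  have ha' : (⟨emb A a, ha⟩ : F) ∈ (redData A F hGF).Rw := int_mem_Rw (hGF := hGF) ha
  have hb' : (⟨emb A b, hb⟩ : F) ∈ (redData A F hGF).Rw := int_mem_Rw (hGF := hGF) hb
  have hra : (((redData A F hGF).red ⟨⟨emb A a, ha⟩, ha'⟩ : Fres A F hGF) : LaurentSeries 𝕜) =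
      rd A a := redL_int ha
  have hrb : (((redData A F hGF).red ⟨⟨emb A b, hb⟩, hb'⟩ : Fres A F hGF) : LaurentSeries 𝕜) =
      rd A b := redL_int hb
  have hab : (redData A F hGF).red ⟨⟨emb A a, ha⟩, ha'⟩ =
      (redData A F hGF).red ⟨⟨emb A b, hb⟩, hb'⟩ := Subtype.ext (by rw [hra, hrb]; exact hred)
  have hne' : (redData A F hGF).red ⟨⟨emb A a, ha⟩, ha'⟩ ≠ 0 := by
    intro h0
    apply hne
    have := congrArg (fun y : Fres A F hGF => (y : LaurentSeries 𝕜)) h0
    simp only [hra] at this
    exact this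
  exact Fermat.Agent.GJ.J1.KummerRedData.kummer_redData_final ℓ x₀ (redData A F hGF)
    (Val.unramified A F hGF) (hrank1 A (Fact.out : ℓ.Prime) hA)
    hgc.1 hgc.2 hdeg β hβ hbr (Fres A F hGF).val hord hm ha' hb' hab hne' hdiv

end Chart

end Fermat.Agent.DS.P2.KGen
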