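/-
GATE-N / S48 J1-PORT, node P2 (helper9): `K18sF` for a field of `q`-expansions from the
ramification of `j` and degree preservation at `j` — all residue characteristics, including the
small primes `ℓ = 2, 3` (Hauptmodul charts `t₃`, `t₂`).

This is the field-generic twin of `GJ/J1/K18Modular.k18s_aux`.

* `k18sF_of_jRam` : `F` ANY field of `q`-expansions over `ℚ̄` with Gauss fractions at `A` (over `ℓ`),
  `j ∈ F` the series `jqModC`, `JRam v j` at every place (unramified off `0, 1728`; `e ∣ 3`, `e ∣ 2`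
  there), degree preservation at `j`; for `ℓ = 2` the Hauptmodul `t₃ ∈ F`, for `ℓ = 3` the
  Hauptmodul `t₂ ∈ F`; `ℓ ∤ m`.  Then `K18sF A (residue A) F m`.
* `k18s1_aux` : the instance `F = F1C ℚ̄ M` (`ℓ = 2 → 3 ∣ M`, `ℓ = 3 → 2 ∣ M`).

The three inputs that remain for `X₁(M)` are exactly: `IsGen` (P1), `JRam` (P1, helper96 OrbitGen),
degree preservation at `j` (Igusa; helper87/helper54).
-/
import Fermat.Agent.DS.P2.K18sF
import Fermat.Agent.DS.P2.GaussF1
import Fermat.Agent.GJ.J1.Haupt.ChartPack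

set_option autoImplicit false

noncomputable section

namespace Fermat.Agent.DS.P2.K18s1Aux

open ModularCurve Polynomial IntermediateField AlgebraicCurve
open Fermat.Agent.S24 Fermat.Agent.GJ.J1 Fermat.Agent.GJ.J1.Val Fermat.Agent.GJ.J1.Haupt
open Fermat.Agent.GJ.J1.DiffAdapter Fermat.Agent.GJ.Aux
open Fermat.Agent.DS.P2.KGen

local notation "Kbar" => AlgebraicClosure ℚ

section Generic

variable (A : ValuationSubring Kbar) (F : IntermediateField Kbar (LaurentSeries Kbar))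
variable (hGF : HasGaussFrac A F)

local notation "𝕜" => IsLocalRing.ResidueField A

/-- an element of `F` which is the image of an integral series -/
theorem eq_int_of_coe {t : F} {a : LaurentSeries A} (h : (t : LaurentSeries Kbar) = emb A a) :
    ∃ ha : emb A a ∈ F, t = ⟨emb A a, ha⟩ :=
  ⟨h ▸ t.2, Subtype.ext h⟩

/-- integral series with coefficientwise reduction of order `-1`: Gauss chart, order of the
reduction. -/
theorem chart_of_int {t : F} {a : LaurentSeries A} (h : (t : LaurentSeries Kbar) = emb A a)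
    (hord : (rd A a).order = -1) :
    ∃ hgc : (redData A F hGF).IsGaussChart t,
      (((redData A F hGF).red ⟨t, hgc.1⟩ : Fres A F hGF) : LaurentSeries 𝕜) = rd A a := by
  obtain ⟨ha, rfl⟩ := eq_int_of_coe A F h
  have htr : Transcendental 𝕜 (rd A a) :=
    transcendental_of_order_neg _ (by rw [hord]; norm_num)
  exact ⟨isGaussChart_of_int A F hGF ha htr, redL_int ha⟩

theorem hord_of_coe_red {p : ℕ} (hp : p.Prime) {y : Fres A F hGF}
    (h : (y : LaurentSeries 𝕜).order = -1) :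
    ¬ (p : ℤ) ∣ ((Fres A F hGF).val y).order := by
  show ¬ (p : ℤ) ∣ (y : LaurentSeries 𝕜).order
  rw [h]
  exact not_dvd_neg_one hp

theorem coe_intCast_A' (n : ℤ) : (((n : ℤ) : A) : Kbar) = (n : Kbar) := by
  push_cast; rfl

theorem res_intCast_ne_zero' {ℓ : ℕ} [CharP 𝕜 ℓ] {n : ℤ} (hn : ¬ (ℓ : ℤ) ∣ n) :
    (redData A F hGF).res ((n : ℤ) : A) ≠ 0 := by
  show IsLocalRing.residue A ((n : ℤ) : A) ≠ 0
  rw [map_intCast, Ne, CharP.intCast_eq_zero_iff 𝕜 ℓ]
  exact hn

theorem eval_X_mul_X_sub_C_ne_zero' {β c : Kbar} (h : (X * (X - Polynomial.C β) : Kbar[X]).eval c ≠ 0) :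
    c ≠ 0 ∧ c ≠ β := by
  rw [eval_mul, eval_X, eval_sub, eval_X, eval_C] at h
  exact ⟨left_ne_zero_of_mul h, fun hc => right_ne_zero_of_mul h (by rw [hc, sub_self])⟩

/-- **`K18sF` from the ramification of `j` and degree preservation at `j`**, all residue
characteristics. -/
theorem k18sF_of_jRam {ℓ : ℕ} [Fact ℓ.Prime] (hA : A.LiesOverPrime ℓ)
    (x₀ : F) [IsGen Kbar x₀]
    (j : F) (hj : (j : LaurentSeries Kbar) = jqModC Kbar)
    (hJ : ∀ v : Place Kbar F, Branch.JRam v j)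
    (hjRw : j ∈ (redData A F hGF).Rw)
    (hdegj : Module.finrank Kbar⟮j⟯ F ≤
      Module.finrank 𝕜⟮(redData A F hGF).red ⟨j, hjRw⟩⟯ (Fres A F hGF))
    (h2 : ℓ = 2 → ∃ t : F, (t : LaurentSeries Kbar) = tThree Kbar)
    (h3 : ℓ = 3 → ∃ t : F, (t : LaurentSeries Kbar) = tTwo Kbar)
    {m : ℕ} (hm : ¬ ℓ ∣ m) : K18sF A (IsLocalRing.residue A) F m := by
  have hℓ : ℓ.Prime := Fact.out
  have hcp : CharP 𝕜 ℓ := charP_residue A hℓ hA
  -- the chart `j`
  have hjA : (j : LaurentSeries Kbar) = emb A (jqModC A) := by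
    rw [hj, emb, coeffMap_jqModC]
  have hordj : (rd A (jqModC A)).order = -1 := by
    rw [rd, coeffMap_jqModC]; exact order_jqModC _
  obtain ⟨hgcj, hredj⟩ := chart_of_int A F hGF hjA hordj
  by_cases e2 : ℓ = 2
  · -- `ℓ = 2`: chart `t₃`, `β = -27`
    obtain ⟨t, ht⟩ := h2 e2
    subst e2
    have h3' : (3 : 𝕜) ≠ 0 := three_ne_zero_of_charP_two A
    have htA : (t : LaurentSeries Kbar) = emb A (tThree A) := by
      rw [ht, emb, coeffMap_tThree]
    have hordt : (rd A (tThree A)).order = -1 := by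
      rw [rd, coeffMap_tThree]; exact order_tThree _
    obtain ⟨hgct, hredt⟩ := chart_of_int A F hGF htA hordt
    have hrel : j * t ^ 3 = (t + 27) * (t + 243) ^ 3 := by
      apply Subtype.ext
      push_cast
      rw [hj, ht]
      exact jq_mul_tThree_cube Kbar
    have hbr : PlaceBranch Kbar t (X * (X - Polynomial.C ((((-27 : ℤ) : A)) : Kbar))) := by
      rw [coe_intCast_A']
      intro v c hc hpos
      obtain ⟨h0, h1⟩ := eval_X_mul_X_sub_C_ne_zero' hc
      exact Branch.t3_unramified_of_ne (hJ v) hrel c h0 (by simpa using h1) hpos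
    refine k18sF_of_chart A F hGF hA x₀ hgct ?_ ((-27 : ℤ) : A)
      (res_intCast_ne_zero' A F hGF (ℓ := 2) (by norm_num)) hbr
      (hord_of_coe_red A F hGF hℓ (by rw [hredt]; exact hordt)) hm
    exact DegChart.finrank_le_three (redData A F hGF) h3' hgcj hgct.1 hrel hdegj
  by_cases e3 : ℓ = 3
  · -- `ℓ = 3`: chart `t₂`, `β = -64`
    obtain ⟨t, ht⟩ := h3 e3
    subst e3
    have h2' : (2 : 𝕜) ≠ 0 := two_ne_zero_of_charP_three A
    have htA : (t : LaurentSeries Kbar) = emb A (tTwo A) := by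
      rw [ht, emb, coeffMap_tTwo]
    have hordt : (rd A (tTwo A)).order = -1 := by
      rw [rd, coeffMap_tTwo]; exact order_tTwo _
    obtain ⟨hgct, hredt⟩ := chart_of_int A F hGF htA hordt
    have hrel : j * t ^ 2 = (t + 256) ^ 3 := by
      apply Subtype.ext
      push_cast
      rw [hj, ht]
      exact jq_mul_tTwo_sq Kbar
    have hbr : PlaceBranch Kbar t (X * (X - Polynomial.C ((((-64 : ℤ) : A)) : Kbar))) := by
      rw [coe_intCast_A']
      intro v c hc hpos
      obtain ⟨h0, h1⟩ := eval_X_mul_X_sub_C_ne_zero' hc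
      exact Branch.t2_unramified_of_ne (hJ v) hrel c h0 (by simpa using h1) hpos
    refine k18sF_of_chart A F hGF hA x₀ hgct ?_ ((-64 : ℤ) : A)
      (res_intCast_ne_zero' A F hGF (ℓ := 3) (by norm_num)) hbr
      (hord_of_coe_red A F hGF hℓ (by rw [hredt]; exact hordt)) hm
    exact DegChart.finrank_le_two (redData A F hGF) h2' hgcj hgct.1 hrel hdegj
  · -- `ℓ ∤ 6`: chart `j`, `β = 1728`
    have hbr : PlaceBranch Kbar j (X * (X - Polynomial.C ((((1728 : ℤ) : A)) : Kbar))) := by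
      rw [coe_intCast_A']
      intro v c hc hpos
      obtain ⟨h0, h1⟩ := eval_X_mul_X_sub_C_ne_zero' hc
      exact (hJ v).gen c h0 (by simpa using h1) hpos
    have h1728 : ¬ (ℓ : ℤ) ∣ 1728 := by
      intro hd
      have h1 : ℓ ∣ 1728 := by exact_mod_cast hd
      have h4 : ℓ ∣ 2 ^ 6 * 3 ^ 3 := by norm_num; exact h1
      rcases (Nat.Prime.dvd_mul hℓ).mp h4 with h | h
      · exact e2 ((Nat.prime_dvd_prime_iff_eq hℓ Nat.prime_two).mp (hℓ.dvd_of_dvd_pow h))
      · exact e3 ((Nat.prime_dvd_prime_iff_eq hℓ Nat.prime_three).mp (hℓ.dvd_of_dvd_pow h))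
    exact k18sF_of_chart A F hGF hA x₀ hgcj hdegj ((1728 : ℤ) : A)
      (res_intCast_ne_zero' A F hGF h1728) hbr
      (hord_of_coe_red A F hGF hℓ (by rw [hredj]; exact hordj)) hm

end Generic

/-! ### The instance `F = F1C ℚ̄ M` -/

section F1

open Fermat.Agent.DS.P0 Fermat.Agent.DS.P2.GaussF1

variable (M : ℕ) [NeZero M] (A : ValuationSubring Kbar)

local notation "𝕜" => IsLocalRing.ResidueField A

/-- `t₂ ∈ ℚ̄(X₁(M))` for `2 ∣ M` -/
theorem tTwo_mem_F1C (h : 2 ∣ M) : tTwo Kbar ∈ F1C Kbar M :=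
  fullC_le_F1C Kbar M (tTwo_mem_full_of_dvd Kbar M h)

/-- `t₃ ∈ ℚ̄(X₁(M))` for `3 ∣ M` -/
theorem tThree_mem_F1C (h : 3 ∣ M) : tThree Kbar ∈ F1C Kbar M :=
  fullC_le_F1C Kbar M (tThree_mem_full_of_dvd Kbar M h)

/-- **(K18s) for `ℚ̄(X₁(M))` at the auxiliary levels** (`ℓ ∤ M` is implicit in `hdegj`; `ℓ = 2`
needs `3 ∣ M`, `ℓ = 3` needs `2 ∣ M`), from `IsGen`, the ramification of `j = j(q)` and degree
preservation at `j`. -/
theorem k18s1_aux {ℓ : ℕ} [Fact ℓ.Prime] (hA : A.LiesOverPrime ℓ)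
    (h2 : ℓ = 2 → 3 ∣ M) (h3 : ℓ = 3 → 2 ∣ M)
    (x₀ : F1C Kbar M) [IsGen Kbar x₀]
    (hJ : ∀ v : Place Kbar (F1C Kbar M), Branch.JRam v (genJ1 Kbar A M (one_dvd M)))
    (hdegj : Module.finrank Kbar⟮genJ1 Kbar A M (one_dvd M)⟯ (F1C Kbar M) ≤
      Module.finrank
        𝕜⟮(redData1C Kbar A M).red ⟨genJ1 Kbar A M (one_dvd M), genJ1_mem_Rw1C Kbar A M _⟩⟯
        (Fres1C Kbar A M))
    {m : ℕ} (hm : ¬ ℓ ∣ m) : K18sF A (IsLocalRing.residue A) (F1C Kbar M) m :=
  k18sF_of_jRam A (F1C Kbar M) (hasGaussFrac_F1C Kbar A M) hA x₀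
    (genJ1 Kbar A M (one_dvd M)) (by rw [coe_genJ1, qExpand_one_apply]) hJ
    (genJ1_mem_Rw1C Kbar A M _) hdegj
    (fun e => ⟨⟨tThree Kbar, tThree_mem_F1C M (h2 e)⟩, rfl⟩)
    (fun e => ⟨⟨tTwo Kbar, tTwo_mem_F1C M (h3 e)⟩, rfl⟩) hm

/-- **descent to an arbitrary level**: `K18sF` at `M` from `K18sF` at a multiple `M'` of `M`, given
the TOWER `ℚ̄(X₁(M)) ≤ ℚ̄(X₁(M'))` (NOT by construction in the `Γ¹`-model: the Weber function of
level `M` is a trace of Weber functions of level `M'`; a corollary of P1's field generation) and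
relative degree prime to `m`. -/
theorem k18s1_of_tower {M' : ℕ} [NeZero M'] {m : ℕ}
    (htower : F1C Kbar M ≤ F1C Kbar M')
    (hcop : (relfinrank (F1C Kbar M) (F1C Kbar M')).Coprime m)
    (hK : K18sF A (IsLocalRing.residue A) (F1C Kbar M') m) :
    K18sF A (IsLocalRing.residue A) (F1C Kbar M) m :=
  k18sF_of_le htower hcop hK

end F1

end Fermat.Agent.DS.P2.K18s1Aux
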