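/-
GATE-N / S48 J1-PORT, node P2-ASM (helper96): the EXPORT of P2 in the shape P4 consumes.

* `k18sG_iff_k18sF` : helper17's `DS/P4/ESGen.K18sG F₀ A m` IS `K18sF A (residue A)
  (laurentBaseChange L F₀) m` (`Iff.rfl`);
* `k18sG_F1_of_k18sF` : `K18sF` at `F1C L M` gives `K18sG (F1 M) A m`
  (`laurentBaseChange L (F1 M) = F1C L M`, helper45);
* `hK_F1_of_jRam` : **the `hK` binder of `esInertia1_of_k18s` / `esFrob1_of_k18s` VERBATIM at
  `F₀ := F1 M`**, from `IsGen` (P1), the ramification of `j = j(q)` (P1, `DS/P1/BranchAsm.jRam`)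
  and degree preservation at `j` at every valuation subring over `ℓ` (Igusa) — one call of
  helper9's `k18s1_aux` per valuation subring;
* `hG_F1` : the `hG` binder (Gauss fractions) of the same theorems, unconditional (helper45).
-/
import Fermat.Agent.DS.P2.K18s1Aux
import Fermat.Agent.DS.P2.GaussF1Port

set_option autoImplicit false

noncomputable section

namespace Fermat.Agent.DS.P2.K18sPort

open ModularCurve IntermediateField AlgebraicCurve
open Fermat.Agent.S24 Fermat.Agent.GJ.J1 Fermat.Agent.GJ.J1.Val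
open Fermat.Agent.DS.P0 Fermat.Agent.DS.P2.KGen Fermat.Agent.DS.P2.GaussF1

section Generic

variable {L : Type*} [Field L] [Algebra ℚ L] (A : ValuationSubring L)

/-- helper17's `K18sG` is `K18sF` at the base-change field. -/
theorem k18sG_iff_k18sF (F₀ : IntermediateField ℚ (LaurentSeries ℚ)) (m : ℕ) :
    Fermat.Agent.DS.P4.K18sG F₀ A m ↔
      K18sF A (IsLocalRing.residue A) (laurentBaseChange L F₀) m := Iff.rfl

/-- `K18sF` at `L(X₁(M))` is `K18sG` at `ℚ(X₁(M))`. -/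
theorem k18sG_F1_of_k18sF (M : ℕ) [NeZero M] {m : ℕ}
    (hK : K18sF A (IsLocalRing.residue A) (F1C L M) m) :
    Fermat.Agent.DS.P4.K18sG (F1 M) A m := by
  rw [k18sG_iff_k18sF, laurentBaseChange_F1]
  exact hK

theorem k18sF_of_k18sG_F1 (M : ℕ) [NeZero M] {m : ℕ}
    (hK : Fermat.Agent.DS.P4.K18sG (F1 M) A m) :
    K18sF A (IsLocalRing.residue A) (F1C L M) m := by
  rw [k18sG_iff_k18sF, laurentBaseChange_F1] at hK
  exact hK

end Generic

section Port

local notation "Kbar" => AlgebraicClosure ℚ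

variable (M : ℕ) [NeZero M]

/-- all the `genJ1 Kbar A M (one_dvd M)` are the same element `j(q)` of `ℚ̄(X₁(M))` -/
theorem genJ1_one_eq (A : ValuationSubring Kbar) {jF : F1C Kbar M}
    (hjF : (jF : LaurentSeries Kbar) = jqModC Kbar) :
    genJ1 Kbar A M (one_dvd M) = jF := by
  apply Subtype.ext
  rw [coe_genJ1, qExpand_one_apply, hjF]

/-- **P2 EXPORT = the `hK` binder of `DS/P4/ESGen.esInertia1_of_k18s` / `esFrob1_of_k18s`
at `F₀ := F1 M`**: from `IsGen`, the ramification of `j(q)` and degree preservation at `j(q)`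
at every valuation subring over `ℓ` (`ℓ = 2` needs `3 ∣ M`, `ℓ = 3` needs `2 ∣ M`). -/
theorem hK_F1_of_jRam {ℓ : ℕ} [Fact ℓ.Prime]
    (h2 : ℓ = 2 → 3 ∣ M) (h3 : ℓ = 3 → 2 ∣ M)
    (x₀ : F1C Kbar M) [IsGen Kbar x₀]
    (jF : F1C Kbar M) (hjF : (jF : LaurentSeries Kbar) = jqModC Kbar)
    (hJ : ∀ v : Place Kbar (F1C Kbar M), Fermat.Agent.GJ.Aux.Branch.JRam v jF)
    (hdegj : ∀ A : ValuationSubring Kbar, A.LiesOverPrime ℓ →
      Module.finrank Kbar⟮genJ1 Kbar A M (one_dvd M)⟯ (F1C Kbar M) ≤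
        Module.finrank
          (IsLocalRing.ResidueField A)⟮(redData1C Kbar A M).red
            ⟨genJ1 Kbar A M (one_dvd M), genJ1_mem_Rw1C Kbar A M _⟩⟯
          (Fres1C Kbar A M))
    {p : ℕ} (hp : ¬ ℓ ∣ p) :
    ∀ A : ValuationSubring Kbar, A.LiesOverPrime ℓ → Fermat.Agent.DS.P4.K18sG (F1 M) A p := by
  intro A hA
  apply k18sG_F1_of_k18sF
  refine Fermat.Agent.DS.P2.K18s1Aux.k18s1_aux M A hA h2 h3 x₀ ?_ (hdegj A hA) hp
  intro v
  rw [genJ1_one_eq M A hjF]
  exact hJ v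

/-- the `hG` binder of the same theorems (Gauss fractions), unconditional. -/
theorem hG_F1 (ℓ : ℕ) :
    ∀ A : ValuationSubring Kbar, A.LiesOverPrime ℓ →
      Fermat.Agent.DS.P4.GaussFracSeriesG (F1 M) A :=
  fun A _ => gaussFracSeriesG_F1 A M

end Port

end Fermat.Agent.DS.P2.K18sPort
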