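/-
GATE-N / S48 J1-PORT, node P2-ASM, instance (helper96): **the `hK` and `hG` binders of helper69's
`DS/P5/PortAsm.portExport1_of_leaves` VERBATIM at `F₀ := F1 M`**, from

* `D : WeberData M`            (P1 analytic: helper30 `DS/P1/RealizeF1`, the ONE open term of P1);
* `hIG`                         (Igusa: degree preservation at the chart `jE = j(q^M)` at every
                                 valuation subring over every prime `q ∤ M`; helper22's `hIG`);
* `2 ∣ M ∨ 3 ∣ M`               (small primes: the Hauptmodul charts `t₃`, `t₂`; helper52's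
                                 `DS/Top/SmallPrimes` reduces frozen S48 to such levels).

Chain: `RealizeF1.isGen_j1 / jRam_F1` (→ `OrbitGen`) + `ChartBridge.hdeg_j1_of_hdeg_jM`
→ `K18sPort.hK_F1_of_jRam` (→ helper9 `k18s1_aux` → `K18sF.k18sF_of_chart`).
-/
import Fermat.Agent.DS.P2.K18sPort
import Fermat.Agent.DS.P2.ChartBridge
import Fermat.Agent.DS.P1.RealizeF1

set_option autoImplicit false
set_option linter.style.haveILetI false

noncomputable section

namespace Fermat.Agent.DS.P2.K18sPortF1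

open ModularCurve IntermediateField AlgebraicCurve
open Fermat.Agent.S24 Fermat.Agent.GJ.J1 Fermat.Agent.GJ.J1.Val
open Fermat.Agent.DS.P0 Fermat.Agent.DS.P2.GaussF1 Fermat.Agent.DS.P2.K18sPort
open Fermat.Agent.DS.P1.RealizeF1

local notation "Kb" => AlgebraicClosure ℚ

variable {M : ℕ} [NeZero M]

/-- **Igusa's statement at the port level `M`** (the `hIG` binder of helper22's
`ChartBridge.hdeg_j1_of_hdeg_jM`, for all primes `q ∤ M` and all valuation subrings over `q`):
the reduction of `ℚ̄(X₁(M))` has full degree over `k(jE~)`, `jE = j(q^M)`. -/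
def IgusaAt (M : ℕ) [NeZero M] (q : ℕ) : Prop :=
  ∀ A : ValuationSubring Kb, A.LiesOverPrime q →
    Module.finrank Kb⟮genJ1 Kb A M (dvd_refl M)⟯ (F1C Kb M) ≤
      Module.finrank
        (IsLocalRing.ResidueField A)⟮(redData1C Kb A M).red
          ⟨genJ1 Kb A M (dvd_refl M), genJ1_mem_Rw1C Kb A M _⟩⟯
        (Fres1C Kb A M)

/-- **(K18s) of the port**: the `hK` binder of `portExport1_of_leaves` at `F₀ := F1 M`. -/
theorem hK_F1 (D : WeberData M) (h23 : 2 ∣ M ∨ 3 ∣ M) (p : ℕ)
    (hIG : ∀ q : ℕ, q.Prime → ¬ q ∣ M → IgusaAt M q) :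
    ∀ q : ℕ, q.Prime → ¬ q ∣ M * p → ∀ A : ValuationSubring Kb, A.LiesOverPrime q →
      Fermat.Agent.DS.P4.K18sG (F1 M) A p := by
  intro q hq hqMp
  haveI : Fact q.Prime := ⟨hq⟩
  have hqM : ¬ q ∣ M := fun h => hqMp (Dvd.dvd.mul_right h p)
  have hqp : ¬ q ∣ p := fun h => hqMp (Dvd.dvd.mul_left h M)
  have h2 : q = 2 → 3 ∣ M := by
    rintro rfl
    exact h23.resolve_left hqM
  have h3 : q = 3 → 2 ∣ M := by
    rintro rfl
    exact h23.resolve_right hqM
  haveI : IsGen Kb (j1K M) := isGen_j1 D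
  exact hK_F1_of_jRam M h2 h3 (j1K M) (j1K M) (qExpand_one_apply _) (jRam_F1 D)
    (fun A hA => Fermat.Agent.DS.P2.ChartBridge.hdeg_j1_of_hdeg_jM M A hqM hA (hIG q hq hqM A hA))
    hqp

/-- **(GU) of the port**: the `hG` binder of `portExport1_of_leaves` at `F₀ := F1 M`. -/
theorem hG_F1' (p : ℕ) :
    ∀ q : ℕ, q.Prime → ¬ q ∣ M * p → ∀ A : ValuationSubring Kb, A.LiesOverPrime q →
      Fermat.Agent.DS.P4.GaussFracSeriesG (F1 M) A :=
  fun q _ _ => hG_F1 M q

end Fermat.Agent.DS.P2.K18sPortF1
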