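/-
GATE-N / S48 J1-PORT, node S48-P2-IGUSAAT-PLUG (helper92): **closed plug
`Igusa core  ⟹  (KER) on F1 M  ⟹  CoreSer  ⟹  hIG  ⟹  IgusaAt M q  ⟹  hK_F1`.**

* `coreSer_rat_of_ker` : the `ℓ`-only kernel statement (helper40 `KerOfCore` / `IgusaKerF1` output
  shape: `x ∈ F`, integral over `ℤ_(ℓ)[T]`, `x = ℓ v` with `v` Gauss-integral `⟹ ℓ⁻¹ x` integral)
  gives `DegPresGen.CoreSer ℤ_(ℓ) F T` (every uniformizer of `ℤ_(ℓ)` is `ℓ` times a unit);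
* `igusaAt_of_ker` : helper96's `K18sPortF1.IgusaAt M q` from (KER) on `F1 M` at the chart
  `jM = j(q^M)`;
* `igusaAt_of_core` : the same from the `evalE`-form Igusa core over ANY `(k, O, f)` above `q`
  (hypotheses of helper40 `IgusaKerF1.ker_F1_of_core` VERBATIM);
* `igusaAt_of_core_cyc` : the same at `(cycK M, cycO M q)`, `q ∤ M` (hypotheses of
  `IgusaKerF1.ker_F1_cyc` VERBATIM = conclusion shape of helper87 `igusa_coreFin`);
* `hK_F1_of_ker` : `K18sPortF1.hK_F1` with `hIG` replaced by (KER) at every prime `q ∤ M`.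
-/
import Fermat.Agent.DS.P2.HdegF1
import Fermat.Agent.DS.P2.IgusaKerF1
import Fermat.Agent.DS.P2.K18sPortF1

set_option autoImplicit false
set_option linter.unusedSectionVars false
set_option linter.style.haveILetI false

noncomputable section

namespace Fermat.Agent.DS.P2.IgusaAtPlug

open HahnSeries GaloisRep Polynomial ModularCurve IntermediateField
open Fermat.Agent.S28 Fermat.Agent.S28.ChartReduction
open Fermat.Agent.DS.P0 Fermat.Agent.DS.P2.DegPresGen Fermat.Agent.DS.P2.KerOfCore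
open Fermat.Agent.DS.P2.K18sPortF1 Fermat.Agent.DS.P1.RealizeF1

local notation "Kb" => AlgebraicClosure ℚ

/-! ### (KER) `⟹` `CoreSer` over `ℤ_(ℓ)` -/

section Ker

variable {ℓ : ℕ} [Fact ℓ.Prime]

/-- **the `ℓ`-only kernel statement gives the core statement for every uniformizer of `ℤ_(ℓ)`.** -/
theorem coreSer_rat_of_ker (F : Set (LaurentSeries ℚ)) (T : LaurentSeries ℚ)
    (hker : ∀ x ∈ F, IsIntegral (Algebra.adjoin ↥(ratLocalizedAt ℓ) {T}) x →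
      (∃ v ∈ gaussRing ↥(ratLocalizedAt ℓ) ℚ, x = HahnSeries.C ((ℓ : ℕ) : ℚ) * v) →
      IsIntegral (Algebra.adjoin ↥(ratLocalizedAt ℓ) {T})
        ((HahnSeries.C ((ℓ : ℕ) : ℚ))⁻¹ * x)) :
    CoreSer ↥(ratLocalizedAt ℓ) F T := by
  intro ϖ hϖ x hx hint hdiv
  obtain ⟨v, hv, hxv⟩ := hdiv
  obtain ⟨u, hu⟩ := IsDiscreteValuationRing.associated_of_irreducible ↥(ratLocalizedAt ℓ)
    (irreducible_ell ℓ) hϖ
  -- `ϖ = ℓ * u`
  have hℓ0 : (((ℓ : ℕ) : ℚ)) ≠ 0 := by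
    exact_mod_cast (Fact.out : ℓ.Prime).ne_zero
  have hϖC : (HahnSeries.C (algebraMap ↥(ratLocalizedAt ℓ) ℚ ϖ) : LaurentSeries ℚ) =
      HahnSeries.C ((ℓ : ℕ) : ℚ) * HahnSeries.C (algebraMap ↥(ratLocalizedAt ℓ) ℚ (u : _)) := by
    rw [← hu, map_mul, map_mul, map_natCast]
  have hCu : (HahnSeries.C (algebraMap ↥(ratLocalizedAt ℓ) ℚ (u : ↥(ratLocalizedAt ℓ))) :
      LaurentSeries ℚ) *
      HahnSeries.C (algebraMap ↥(ratLocalizedAt ℓ) ℚ ((u⁻¹ : (↥(ratLocalizedAt ℓ))ˣ) : _)) = 1 := by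
    rw [← map_mul, ← map_mul, Units.mul_inv, map_one, map_one]
  have hCuinv : (HahnSeries.C (algebraMap ↥(ratLocalizedAt ℓ) ℚ (u : ↥(ratLocalizedAt ℓ))) :
      LaurentSeries ℚ)⁻¹ =
      HahnSeries.C (algebraMap ↥(ratLocalizedAt ℓ) ℚ ((u⁻¹ : (↥(ratLocalizedAt ℓ))ˣ) : _)) := by
    rw [inv_eq_iff_eq_inv, eq_comm, inv_eq_of_mul_eq_one_left hCu]
  have h1 := hker x hx hint
    ⟨HahnSeries.C (algebraMap ↥(ratLocalizedAt ℓ) ℚ (u : _)) * v,
      mul_mem (C_mem_gaussRing (u : ↥(ratLocalizedAt ℓ))) hv, by rw [hxv, hϖC, mul_assoc]⟩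
  have hunit : IsIntegral (Algebra.adjoin ↥(ratLocalizedAt ℓ) {T})
      (algebraMap ↥(ratLocalizedAt ℓ) (LaurentSeries ℚ)
        ((u⁻¹ : (↥(ratLocalizedAt ℓ))ˣ) : ↥(ratLocalizedAt ℓ))) :=
    isIntegral_algebraMap (x := (⟨_, Subalgebra.algebraMap_mem _
      ((u⁻¹ : (↥(ratLocalizedAt ℓ))ˣ) : ↥(ratLocalizedAt ℓ))⟩ :
      Algebra.adjoin ↥(ratLocalizedAt ℓ) {T}))
  have h2 := hunit.mul h1
  have h3 : algebraMap ↥(ratLocalizedAt ℓ) (LaurentSeries ℚ)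
      ((u⁻¹ : (↥(ratLocalizedAt ℓ))ˣ) : ↥(ratLocalizedAt ℓ)) *
      ((HahnSeries.C ((ℓ : ℕ) : ℚ))⁻¹ * x) =
      HahnSeries.C (algebraMap ↥(ratLocalizedAt ℓ) ℚ ϖ)⁻¹ * x := by
    rw [map_inv₀ (HahnSeries.C : ℚ →+* LaurentSeries ℚ), hϖC, mul_inv, hCuinv,
      DescentLemma.algebraMap_laurentSeries_apply]
    ring
  rwa [h3] at h2

end Ker

/-! ### `IgusaAt M q` -/

section Igusa

variable (M : ℕ) [NeZero M] (q : ℕ) [Fact q.Prime]

/-- **`IgusaAt M q` from (KER) on `F1 M` at the chart `j(q^M)`.** -/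
theorem igusaAt_of_ker
    (hker : ∀ x ∈ F1 M, IsIntegral (Algebra.adjoin ↥(ratLocalizedAt q) {jqNModC ℚ M}) x →
      (∃ v ∈ gaussRing ↥(ratLocalizedAt q) ℚ, x = HahnSeries.C ((q : ℕ) : ℚ) * v) →
      IsIntegral (Algebra.adjoin ↥(ratLocalizedAt q) {jqNModC ℚ M})
        ((HahnSeries.C ((q : ℕ) : ℚ))⁻¹ * x)) :
    IgusaAt M q := by
  intro A hA
  exact Fermat.Agent.DS.P2.HdegF1.hIG_of_coreSer_rat A M hA (dvd_refl M)
    (coreSer_rat_of_ker (F1 M : Set (LaurentSeries ℚ)) (jqNModC ℚ M) hker)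

/-- **`IgusaAt M q` from the `evalE`-form Igusa core over ANY `(k, O, f)` above `q`**
(hypotheses of `IgusaKerF1.ker_F1_of_core` VERBATIM). -/
theorem igusaAt_of_core
    {k : Type} [Field k] [Algebra ℚ k]
    {O : Type} [CommRing O] [IsDomain O] [IsDiscreteValuationRing O] [Algebra O k]
    [IsFractionRing O k]
    (f : ↥(ratLocalizedAt q) →+* O)
    (hf : ∀ r : ↥(ratLocalizedAt q), algebraMap O k (f r) = algebraMap ℚ k (r : ℚ))
    (hZ : ∀ x : ℚ, algebraMap ℚ k x ∈ (algebraMap O k).range → x ∈ ratLocalizedAt q)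
    (Eb : IntermediateField k (LaurentSeries k)) (hF1 : F1C k M ≤ Eb)
    (G : Eb) (hG : (G : LaurentSeries k) = jqNModC k M)
    (hcore : ∀ a : Eb, (evalE O k G).IsIntegralElem a →
      (∃ v ∈ gaussRing O k, (a : LaurentSeries k) =
        HahnSeries.C (algebraMap O k (f (q : ↥(ratLocalizedAt q)))) * v) →
      (evalE O k G).IsIntegralElem
        (algebraMap k Eb (algebraMap O k (f (q : ↥(ratLocalizedAt q))))⁻¹ * a)) :
    IgusaAt M q :=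
  igusaAt_of_ker M q fun _ hxF hxint hxdiv =>
    (Fermat.Agent.DS.P2.IgusaKerF1.ker_F1_of_core M f hf hZ Eb hF1 G hG hcore hxF hxint hxdiv).2

/-- **`IgusaAt M q`, `q ∤ M`, from the Igusa core over `(cycK M, cycO M q)`** stated for an arbitrary
uniformizer `ϖ` (hypotheses of `IgusaKerF1.ker_F1_cyc` VERBATIM). -/
theorem igusaAt_of_core_cyc (hqM : ¬ q ∣ M)
    (Eb : IntermediateField ↥(cycK M) (LaurentSeries ↥(cycK M))) (hF1 : F1C ↥(cycK M) M ≤ Eb)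
    (G : Eb) (hG : (G : LaurentSeries ↥(cycK M)) = jqNModC ↥(cycK M) M)
    (hcore : ∀ {ϖ : ↥(cycO M q)}, Irreducible ϖ → ∀ {a : Eb},
      (evalE ↥(cycO M q) ↥(cycK M) G).IsIntegralElem a →
      (∃ v ∈ gaussRing ↥(cycO M q) ↥(cycK M), (a : LaurentSeries ↥(cycK M)) =
        HahnSeries.C (algebraMap ↥(cycO M q) ↥(cycK M) ϖ) * v) →
      (evalE ↥(cycO M q) ↥(cycK M) G).IsIntegralElem
        (algebraMap ↥(cycK M) Eb (algebraMap ↥(cycO M q) ↥(cycK M) ϖ)⁻¹ * a)) :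
    IgusaAt M q :=
  igusaAt_of_ker M q fun _ hxF hxint hxdiv =>
    (Fermat.Agent.DS.P2.IgusaKerF1.ker_F1_cyc M q hqM Eb hF1 G hG hcore hxF hxint hxdiv).2

end Igusa

/-! ### The `hK` binder of the port from (KER) -/

section Port

variable {M : ℕ} [NeZero M]

/-- **(K18s) of the port from (KER) at every prime `q ∤ M`.** -/
theorem hK_F1_of_ker (D : WeberData M) (h23 : 2 ∣ M ∨ 3 ∣ M) (p : ℕ)
    (hker : ∀ (q : ℕ) [Fact q.Prime], ¬ q ∣ M → ∀ x ∈ F1 M,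
      IsIntegral (Algebra.adjoin ↥(ratLocalizedAt q) {jqNModC ℚ M}) x →
      (∃ v ∈ gaussRing ↥(ratLocalizedAt q) ℚ, x = HahnSeries.C ((q : ℕ) : ℚ) * v) →
      IsIntegral (Algebra.adjoin ↥(ratLocalizedAt q) {jqNModC ℚ M})
        ((HahnSeries.C ((q : ℕ) : ℚ))⁻¹ * x)) :
    ∀ q : ℕ, q.Prime → ¬ q ∣ M * p → ∀ A : ValuationSubring Kb, A.LiesOverPrime q →
      Fermat.Agent.DS.P4.K18sG (F1 M) A p :=
  hK_F1 D h23 p fun q hq hqM =>
    haveI : Fact q.Prime := ⟨hq⟩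
    igusaAt_of_ker M q (hker q hqM)

end Port

end Fermat.Agent.DS.P2.IgusaAtPlug
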