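/-
GATE-N / S48 J1-port, node S48-P2-IG-CUSP (= IG-5 of helper87's instance plan), file 1 (helper54):
the GENERIC analytic-to-formal bridge for a family of generators permuted by `SL(2, ℤ)`.

`k` a field with an embedding `φ : k →+* ℂ`, `M ≥ 1`.  A `FamAn φ M X` is a family of Laurent series
`gen x ∈ k((q))` (`x : X`) together with functions `F x : ℍ → ℂ` on the upper half plane such that
`F x` has the convergent cusp expansion `coeffMap φ (gen x)` in the parameter
`q = exp(2πi τ / M)` (`S28.HasCuspExp M`), and a map `act : X → SL(2, ℤ) → X` with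
`F x (g • τ) = F (act x g) τ`.  Then, with NO further input:

* `FamAn.hker`     : `P(gen) = 0 ↔ P(gen ∘ act · g) = 0` for every polynomial `P` over `k` and every
  `g` (relation invariance; this is the hypothesis from which the automorphisms `α g` of
  `k(gen x : x)` with `α g (gen x) = gen (act x g)` are built);
* `FamAn.gen_act_T`: the twist law `gen (act x T) = scaleHom ζ (gen x)` (`q ↦ ζ q`), `φ ζ = e^{2πi/M}`;
* `FamAn.sym`      : for a finite family `r : I → SL(2, ℤ)` which is permuted by right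
  multiplication (on the level of the series `gen`), the coefficients of
  `∏ i, (X - P(gen ∘ act · (r i)))` lie in `qExpand k M '' k[j]`  (the `sym` input of the S28 chart
  hypotheses `ChartHyp.symrat`, via `S28.SymExtend.symrat_extend`);
* `FamAn.F_eq_of_gen_eq`, `hasCuspExp_translate` (the `τ ↦ τ + 1` substitution for any period).

Everything is a consequence of the generic S28 machinery (`EvalBridge`, `CosetSym`, `LevelOnePoly`).
-/
import Fermat.Agent.S28.AnalyticInst
import Fermat.Agent.S28.SymBridge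
import Fermat.Agent.S28.Transport
import Fermat.Agent.S28.CosetSymJ

set_option autoImplicit false
set_option linter.unusedSectionVars false

noncomputable section

namespace Fermat.Agent.DS.P2.IgusaFam

open UpperHalfPlane ModularCurve HahnSeries MatrixGroups
open Fermat.Agent.S28 Fermat.Agent.S28.EvalBridge
open scoped Real Manifold

local notation "𝕢" => Function.Periodic.qParam

/-! ### The translation `τ ↦ τ + 1` for an arbitrary period -/

theorem qParam_add_one {h : ℝ} (hh : h ≠ 0) (z : ℂ) :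
    𝕢 h (z + 1) = Complex.exp (2 * π * Complex.I / h) * 𝕢 h z := by
  unfold Function.Periodic.qParam
  rw [← Complex.exp_add]
  congr 1
  have hh' : (h : ℂ) ≠ 0 := by exact_mod_cast hh
  field_simp
  ring

/-- **Translation**: if `f` has the expansion `L` in `𝕢 h`, then `τ ↦ f (τ + 1)` has the expansion
`L(ξ q)`, `ξ = exp(2πi/h)`. -/
theorem hasCuspExp_translate {h : ℝ} (hh : 0 < h) {f : ℍ → ℂ} {L : LaurentSeries ℂ}
    (hf : HasCuspExp h f L) (w : ℍ → ℍ) (hw : ∀ τ : ℍ, (w τ : ℂ) = (τ : ℂ) + 1)
    (ξ : ℂˣ) (hξ : (ξ : ℂ) = Complex.exp (2 * π * Complex.I / h)) :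
    HasCuspExp h (fun τ => f (w τ)) (scaleHom ℂ ξ L) := by
  obtain ⟨m, p, hp, rfl, hf⟩ := hf
  have hξnorm : ‖(ξ : ℂ)‖ ≤ 1 := by
    rw [hξ, Complex.norm_exp]
    have : (2 * (π : ℂ) * Complex.I / h).re = 0 := by
      have : (2 * (π : ℂ) * Complex.I / h) = ((2 * π / h : ℝ) : ℂ) * Complex.I := by
        push_cast; ring
      rw [this]; simp
    rw [this, Real.exp_zero]
  refine ⟨m, PowerSeries.C (((ξ ^ (-(m : ℤ)) : ℂˣ) : ℂ)) * PowerSeries.rescale (ξ : ℂ) p,
    (conv_C _).mul (conv_rescale hp hξnorm), ?_, fun τ => ?_⟩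
  · rw [lsOf, map_mul, scaleHom_single, scaleHom_ofPowerSeries, mul_one, ← lsOf_eq_single_mul]
  · have hq := norm_qParam_lt_one' hh τ
    have hkey : 𝕢 h (w τ) = (ξ : ℂ) * 𝕢 h τ := by
      rw [hw τ, hξ]; exact qParam_add_one hh.ne' _
    have h1 := hf (w τ)
    rw [evalDisc_mul (conv_C _) (conv_rescale hp hξnorm) hq, evalDisc_C,
      evalDisc_rescale hp hξnorm hq, ← hkey, ← h1, hkey, mul_pow]
    have hξM : ((ξ ^ (-(m : ℤ)) : ℂˣ) : ℂ) * (ξ : ℂ) ^ m = 1 := by
      rw [← Units.val_pow_eq_pow_val, ← Units.val_mul, zpow_neg, zpow_natCast, inv_mul_cancel,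
        Units.val_one]
    calc f (w τ) * 𝕢 h τ ^ m
        = (((ξ ^ (-(m : ℤ)) : ℂˣ) : ℂ) * (ξ : ℂ) ^ m) * (f (w τ) * 𝕢 h τ ^ m) := by
          rw [hξM, one_mul]
      _ = _ := by ring

/-- two functions with the same cusp expansion are equal -/
theorem eq_of_hasCuspExp {h : ℝ} (hh : 0 < h) {f g : ℍ → ℂ} {L : LaurentSeries ℂ}
    (hf : HasCuspExp h f L) (hg : HasCuspExp h g L) : f = g := by
  have h1 := hf.sub hh hg
  rw [sub_self] at h1
  funext τ
  have := h1.eq_zero_of_exp_eq_zero τ
  exact sub_eq_zero.mp this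

/-! ### Families of generators with an analytic realisation -/

section Fam

variable {k : Type*} [Field k] (φ : k →+* ℂ) (M : ℕ) [NeZero M]

/-- A family of Laurent series over `k` realised by functions on `ℍ` with convergent cusp
expansions in `exp(2πi τ/M)`, permuted by `SL(2, ℤ)`. -/
structure FamAn (X : Type*) where
  /-- the formal generators -/
  gen : X → LaurentSeries k
  /-- their analytic avatars -/
  F : X → ℍ → ℂ
  /-- the (right) action of `SL(2, ℤ)` on the index set -/
  act : X → SL(2, ℤ) → X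
  hasExp : ∀ x, HasCuspExp (M : ℝ) (F x) (coeffMap φ (gen x))
  equiv : ∀ (x : X) (g : SL(2, ℤ)) (τ : ℍ), F x (g • τ) = F (act x g) τ

variable {φ M}
variable {X : Type*} (A : FamAn φ M X)

include A in
theorem FamAn.period_pos : (0 : ℝ) < (M : ℝ) := by
  exact_mod_cast Nat.pos_of_ne_zero (NeZero.ne M)

theorem FamAn.isCE (x : X) : IsCE (M : ℝ) (A.F x) := (A.hasExp x).isCE

theorem FamAn.cuspExp_eq (x : X) : cuspExp (M : ℝ) (A.F x) = coeffMap φ (A.gen x) :=
  (A.hasExp x).cuspExp_eq A.period_pos

theorem FamAn.comp_smul_eq (x : X) (g : SL(2, ℤ)) : (fun τ => A.F x (g • τ)) = A.F (A.act x g) :=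
  funext fun τ => A.equiv x g τ

/-- the analytic avatar is determined by the formal generator -/
theorem FamAn.F_eq_of_gen_eq {x y : X} (h : A.gen x = A.gen y) : A.F x = A.F y :=
  eq_of_hasCuspExp A.period_pos (A.hasExp x) (h ▸ A.hasExp y)

/-- **Relation invariance.** -/
theorem FamAn.hker (g : SL(2, ℤ)) (P : MvPolynomial X k) :
    MvPolynomial.aeval A.gen P = 0 ↔
      MvPolynomial.aeval (fun x => A.gen (A.act x g)) P = 0 := by
  have hM := A.period_pos
  refine aeval_eq_zero_iff (meroExp_isCE hM) (meroExp_isCE hM)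
    (fun f hf h0 => hf.eq_zero_of_cuspExp_eq_zero h0)
    (fun f hf h0 => hf.eq_zero_of_cuspExp_eq_zero h0) φ A.F (fun x τ => A.F x (g • τ))
    A.isCE (fun x => ?_) (fun τ => g • τ) (MulAction.surjective g) (fun _ _ => rfl)
    A.gen (fun x => A.gen (A.act x g)) A.cuspExp_eq (fun x => ?_) P
  · rw [A.comp_smul_eq]; exact A.isCE _
  · rw [A.comp_smul_eq]; exact A.cuspExp_eq _

/-- **Twist law**: the translation `T` acts on the formal generators by `q ↦ ζ q`. -/
theorem FamAn.gen_act_T (ζ : kˣ) (hζ : φ (ζ : k) = Complex.exp (2 * π * Complex.I / M)) (x : X) :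
    A.gen (A.act x ModularGroup.T) = scaleHom k ζ (A.gen x) := by
  have hM := A.period_pos
  apply EvalBridge.coeffMap_injective φ φ.injective
  have h1 : HasCuspExp (M : ℝ) (A.F (A.act x ModularGroup.T))
      (scaleHom ℂ (Units.map (φ : k →* ℂ) ζ) (coeffMap φ (A.gen x))) := by
    rw [← A.comp_smul_eq]
    refine hasCuspExp_translate hM (A.hasExp x) (fun τ => ModularGroup.T • τ) (fun τ => ?_) _ ?_
    · rw [UpperHalfPlane.modular_T_smul, UpperHalfPlane.coe_vadd]
      push_cast
      ring
    · rw [Units.coe_map]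
      exact hζ
  rw [Fermat.Agent.S28.coeffMap_scaleHom]
  exact (A.hasExp _).unique hM h1

/-! ### Symmetric functions -/

/-- the function attached to a polynomial expression in the generators, moved by `g` -/
theorem FamAn.hasCuspExp_FP (P : MvPolynomial X k) (g : SL(2, ℤ)) :
    IsCE (M : ℝ) (fun τ => FP φ A.F P (g • τ)) ∧
      cuspExp (M : ℝ) (fun τ => FP φ A.F P (g • τ)) =
        coeffMap φ (MvPolynomial.aeval (fun x => A.gen (A.act x g)) P) := by
  have hM := A.period_pos
  have hfun : (fun τ => FP φ A.F P (g • τ)) = FP φ (fun x => A.F (A.act x g)) P := by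
    funext τ
    rw [FP_comp]
    congr 1
    funext x τ'
    exact A.equiv x g τ'
  rw [hfun]
  refine ⟨isMC_FP φ (meroExp_isCE hM) _ (fun x => A.isCE _) P, ?_⟩
  exact exp_FP φ (meroExp_isCE hM) _ (fun x => A.isCE _) (fun x => A.gen (A.act x g))
    (fun x => A.cuspExp_eq _) P

/-- **The `sym` property**: for a finite family of matrices permuted (on the level of the formal
generators) by right multiplication, the elementary symmetric functions of the conjugates of a
polynomial expression in the generators are polynomials in `j` over `k`. -/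
theorem FamAn.sym {I : Type} [Fintype I] (r : I → SL(2, ℤ))
    (hperm : ∀ δ : SL(2, ℤ), ∃ pm : Equiv.Perm I, ∀ (i : I) (x : X),
      A.gen (A.act x (r i * δ)) = A.gen (A.act x (r (pm i))))
    (P : MvPolynomial X k) (m : ℕ) :
    (∏ i, (Polynomial.X - Polynomial.C
        (MvPolynomial.aeval (fun x => A.gen (A.act x (r i))) P))).coeff m ∈
      (qExpand k M) '' (Algebra.adjoin k {jqModC k} : Set (LaurentSeries k)) := by
  classical
  have hM := A.period_pos
  set f : I → ℍ → ℂ := fun i τ => FP φ A.F P (r i • τ) with hf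
  have hfCE : ∀ i, IsCE (M : ℝ) (f i) := fun i => (A.hasCuspExp_FP P (r i)).1
  have hfexp : ∀ i, cuspExp (M : ℝ) (f i) =
      coeffMap φ (MvPolynomial.aeval (fun x => A.gen (A.act x (r i))) P) :=
    fun i => (A.hasCuspExp_FP P (r i)).2
  have hfmd : ∀ i, MDiff (f i) := fun i => (hfCE i).mdifferentiable hM
  -- the family is permuted
  have hfperm : CosetSym.IsPermuted f := by
    intro δ
    obtain ⟨pm, hpm⟩ := hperm δ
    refine ⟨pm, fun i z => ?_⟩
    have h1 : f i (δ • z) = FP φ (fun x => A.F (A.act x (r i * δ))) P z := by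
      show FP φ A.F P (r i • δ • z) = _
      rw [← mul_smul, FP_comp]
      congr 1
      funext x τ'
      exact A.equiv x _ τ'
    have h2 : f (pm i) z = FP φ (fun x => A.F (A.act x (r (pm i)))) P z := by
      show FP φ A.F P (r (pm i) • z) = _
      rw [FP_comp]
      congr 1
      funext x τ'
      exact A.equiv x _ τ'
    rw [h1, h2]
    congr 2
    funext x
    exact A.F_eq_of_gen_eq (hpm i x)
  -- uniform pole order
  have hbdd : ∃ m₀ : ℕ, ∀ i, IsBoundedAtImInfty fun z : ℍ => 𝕢 (M : ℝ) (z : ℂ) ^ m₀ * f i z := by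
    choose mm hmm using fun i => (hfCE i).exists_bdd hM
    refine ⟨Finset.univ.sup mm, fun i => ?_⟩
    exact CosetSym.isBoundedAtImInfty_qParam_pow_mul_of_le hM
      (Finset.le_sup (f := mm) (Finset.mem_univ i)) (hmm i)
  obtain ⟨m₀, hm₀⟩ := hbdd
  obtain ⟨Q, -, -, hQ⟩ := CuspExp.hauptmodul_jFun.exists_charPoly_eq_map hfmd hfperm hM hm₀
  have hJ : IsCE (M : ℝ) jFun := isCE_jFun.period_nat M
  have hJexp : cuspExp (M : ℝ) jFun = qExpand ℂ M (jqModC ℂ) := by
    rw [cuspExp_period_nat isCE_jFun M, cuspExp_jFun]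
  refine coeff_prod_mem_image (meroExp_isCE hM) φ M f hfCE jFun hJ (fun m => Q.coeff m)
    (fun m z => ?_) (fun i => MvPolynomial.aeval (fun x => A.gen (A.act x (r i))) P) hfexp hJexp m
  have h := hQ z
  unfold CosetSym.charPoly at h
  rw [h, Polynomial.coeff_map, Polynomial.coe_evalRingHom]

end Fam

end Fermat.Agent.DS.P2.IgusaFam
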