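/-
# GATE-N / P2 / IG-6-CHARTHYP (helper66): the chart hypotheses of the Igusa field from a `FamAn`

`gen : X → k((q))` a family permuted by `SL(2,ℤ)` (`π`), `Ebig gen = k(gen x : x)`,
`Γ ≤ Aut_k (Ebig gen)` a finite group, `σ₀ := (Ebig gen).val`.  This file builds

* `chartHyp_of_hsym` / `chartHyp_inv_of_hsym` : `ChartHyp (sig Γ σ₀) (genE x₀) (Gs k M)` and the chart
  at infinity, from: `gen x₀ = j(q^M)`, `Γ` fixes `genE x₀`, all generators lie in the Gauss field,
  and the symmetric function property `HSym` on POLYNOMIAL expressions in the generators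
  (extension to the fraction field by `S28.SymExtend.symrat_extend`);
* for an analytic family `A : FamAn φ M X` with `A.act x g = π g⁻¹ x`: `relInv_of_famAn` (`hπ`),
  `hsym_of_famAn` (`HSym` for `Γ := Gam A.gen π hπ`, from `FamAn.sym`), and the final
  `chartHyp_of_famAn`, `chartHyp_inv_of_famAn`.
-/
import Fermat.Agent.DS.P2.IgusaAct
import Fermat.Agent.DS.P2.IgusaAbs
import Fermat.Agent.DS.P2.IgusaFamAn
import Fermat.Agent.S28.ChartHypInst
import Fermat.Agent.S28.SymExtend

set_option autoImplicit false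
set_option linter.unusedSectionVars false

noncomputable section

namespace Fermat.Agent.DS.P2.IgusaChartHyp

open Polynomial ModularCurve MatrixGroups Fermat.Agent.S28 Fermat.Agent.DS.P2.IgusaAct
  Fermat.Agent.DS.P2.IgusaAbs

section Alg

variable {k : Type} [Field k] {X : Type*} (gen : X → LaurentSeries k)

/-- the value of a polynomial expression in the generators, inside `k((q))` -/
theorem coe_aeval_genE (P : MvPolynomial X k) :
    ((MvPolynomial.aeval (genE (k := k) gen) P : Ebig (k := k) gen) : LaurentSeries k) =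
      MvPolynomial.aeval gen P := by
  have := MvPolynomial.comp_aeval_apply (f := genE (k := k) gen)
    ((Ebig (k := k) gen).val) P
  exact this

/-- the subalgebra of `Ebig gen` generated by the generators -/
def genAlg : Subalgebra k (Ebig (k := k) gen) := (MvPolynomial.aeval (genE (k := k) gen)).range

theorem aeval_mem_genAlg (P : MvPolynomial X k) :
    MvPolynomial.aeval (genE (k := k) gen) P ∈ genAlg gen := ⟨P, rfl⟩

theorem genE_mem_genAlg (x : X) : genE (k := k) gen x ∈ genAlg gen :=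
  ⟨MvPolynomial.X x, by simp⟩

/-- every element of `Ebig gen` is a quotient of two polynomial expressions in the generators -/
theorem exists_frac (y : Ebig (k := k) gen) :
    ∃ r ∈ (genAlg gen).toSubring, ∃ s ∈ (genAlg gen).toSubring, s ≠ 0 ∧ y * s = r := by
  obtain ⟨y, hy⟩ := y
  have hy' := hy
  rw [IntermediateField.mem_adjoin_iff_div] at hy'
  obtain ⟨a, ha, b, hb, rfl⟩ := hy'
  rw [Algebra.adjoin_range_eq_range_aeval] at ha hb
  obtain ⟨P, hPa⟩ : ∃ P, MvPolynomial.aeval gen P = a := ha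
  obtain ⟨Q, hQb⟩ : ∃ Q, MvPolynomial.aeval gen Q = b := hb
  subst hPa hQb
  by_cases hQ0 : MvPolynomial.aeval gen Q = 0
  · refine ⟨0, Subring.zero_mem _, 1, Subring.one_mem _, one_ne_zero, ?_⟩
    apply Subtype.ext
    simp [hQ0]
  · refine ⟨MvPolynomial.aeval (genE (k := k) gen) P, aeval_mem_genAlg gen P,
      MvPolynomial.aeval (genE (k := k) gen) Q, aeval_mem_genAlg gen Q, ?_, ?_⟩
    · intro h0
      apply hQ0
      rw [← coe_aeval_genE, h0]
      rfl
    · apply Subtype.ext
      rw [MulMemClass.coe_mul, coe_aeval_genE, coe_aeval_genE]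
      exact div_mul_cancel₀ _ hQ0

end Alg

section Chart

variable {k : Type} [Field k] {O : Type} [CommRing O] [IsDomain O] [IsDiscreteValuationRing O]
  [Algebra O k] [IsFractionRing O k] (M : ℕ) [NeZero M]
variable {X : Type*} (gen : X → LaurentSeries k)

/-- every element of `Ebig gen` lies in the Gauss field once the generators do -/
theorem coe_mem_gaussField (hgauss : ∀ x, gen x ∈ gaussField O k) (y : Ebig (k := k) gen) :
    (y : LaurentSeries k) ∈ gaussField O k := by
  obtain ⟨y, hy⟩ := y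
  show y ∈ gaussField O k
  induction hy using IntermediateField.adjoin_induction with
  | mem z hz =>
    obtain ⟨x, rfl⟩ := hz
    exact hgauss x
  | algebraMap c =>
    rw [algebraMap_eq_C]
    exact C_mem_gaussField c
  | add y z _ _ ihy ihz => exact add_mem ihy ihz
  | inv y _ ihy => exact inv_mem ihy
  | mul y z _ _ ihy ihz => exact mul_mem ihy ihz

variable (Γ : Subgroup (Ebig (k := k) gen ≃ₐ[k] Ebig (k := k) gen)) [Fintype Γ] [DecidableEq Γ]

/-- the symmetric function property on polynomial expressions in the generators -/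
def HSym : Prop :=
  ∀ (P : MvPolynomial X k) (m : ℕ),
    (∏ γ : Γ, (Polynomial.X - Polynomial.C ((((γ : Ebig (k := k) gen ≃ₐ[k] Ebig (k := k) gen)
        (MvPolynomial.aeval (genE (k := k) gen) P) : Ebig (k := k) gen)) : LaurentSeries k))).coeff m ∈
      Set.range (evalLk (ChartHypInst.Gs k M))

variable {M gen Γ}

theorem map_G_of_fix {x₀ : X} (hx₀ : gen x₀ = ChartHypInst.Gs k M)
    (hfix₀ : ∀ γ : Γ, (γ : Ebig (k := k) gen ≃ₐ[k] Ebig (k := k) gen) (genE gen x₀) = genE gen x₀)
    (γ : Γ) : sig Γ (Ebig (k := k) gen).val γ (genE gen x₀) = ChartHypInst.Gs k M := by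
  rw [sig_apply, hfix₀]
  exact hx₀

/-- the `symrat` field -/
theorem symrat_of_hsym {x₀ : X} (hx₀ : gen x₀ = ChartHypInst.Gs k M)
    (hfix₀ : ∀ γ : Γ, (γ : Ebig (k := k) gen ≃ₐ[k] Ebig (k := k) gen) (genE gen x₀) = genE gen x₀)
    (hsym : HSym M gen Γ) (x : Ebig (k := k) gen) (m : ℕ) :
    ∃ p q : k[X], q ≠ 0 ∧
      (∏ γ : Γ, (Polynomial.X - Polynomial.C (sig Γ (Ebig (k := k) gen).val γ x))).coeff m *
        evalLk (ChartHypInst.Gs k M) q = evalLk (ChartHypInst.Gs k M) p := by
  have hφ : ∀ γ : Γ, ((sig Γ (Ebig (k := k) gen).val γ : Ebig (k := k) gen →ₐ[k] LaurentSeries k) :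
      Ebig (k := k) gen →+* LaurentSeries k).comp (evalEk k (genE gen x₀)) =
      evalLk (ChartHypInst.Gs k M) := fun γ => by
    rw [sigma_comp_evalEk, map_G_of_fix hx₀ hfix₀]
  have hφB : ∀ a : k[X], evalEk k (genE gen x₀) a ∈ (genAlg gen).toSubring := by
    intro a
    show Polynomial.eval₂ (algebraMap k _) (genE gen x₀) a ∈ genAlg gen
    rw [Polynomial.eval₂_eq_sum_range]
    exact Subalgebra.sum_mem _ fun i _ =>
      Subalgebra.mul_mem _ (Subalgebra.algebraMap_mem _ _)
        (Subalgebra.pow_mem _ (genE_mem_genAlg gen x₀) i)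
  have hsym' : ∀ y ∈ (genAlg gen).toSubring, ∀ m,
      (∏ γ : Γ, (Polynomial.X - Polynomial.C (((sig Γ (Ebig (k := k) gen).val γ :
        Ebig (k := k) gen →ₐ[k] LaurentSeries k) :
        Ebig (k := k) gen →+* LaurentSeries k) y))).coeff m ∈
        Set.range (evalLk (ChartHypInst.Gs k M)) := by
    rintro y ⟨P, rfl⟩ m
    exact hsym P m
  obtain ⟨p, q, hq, hpq⟩ := SymExtend.symrat_extend
    (fun γ : Γ => ((sig Γ (Ebig (k := k) gen).val γ : Ebig (k := k) gen →ₐ[k] LaurentSeries k) :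
      Ebig (k := k) gen →+* LaurentSeries k))
    (evalEk k (genE gen x₀)) (evalLk (ChartHypInst.Gs k M)) hφ (genAlg gen).toSubring hφB
    (1 : Γ) hsym' (exists_frac gen) x m
  refine ⟨p, q, fun h0 => hq (by rw [h0, map_zero]), ?_⟩
  exact hpq

/-- **the chart hypotheses, finite chart** (`G = genE x₀ = j(q^M)`), algebraic core -/
theorem chartHyp_of_hsym {x₀ : X} (hx₀ : gen x₀ = ChartHypInst.Gs k M)
    (hfix₀ : ∀ γ : Γ, (γ : Ebig (k := k) gen ≃ₐ[k] Ebig (k := k) gen) (genE gen x₀) = genE gen x₀)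
    (hgauss : ∀ x, gen x ∈ gaussField O k) (hsym : HSym M gen Γ) :
    ChartHyp (O := O) (sig Γ (Ebig (k := k) gen).val) (genE gen x₀) (ChartHypInst.Gs k M) where
  map_G := map_G_of_fix hx₀ hfix₀
  mem := ChartHypInst.Gs_mem O k M
  inj_k := ChartHypInst.evalLk_Gs_injective M
  inj_κ := by
    rw [ChartHypInst.gaussRed_Gs]
    exact ChartHypInst.evalLk_Gs_injective M
  field := fun γ y => coe_mem_gaussField gen hgauss _
  symrat := symrat_of_hsym hx₀ hfix₀ hsym

/-- **the chart hypotheses, chart at infinity** (`G = (genE x₀)⁻¹`), algebraic core -/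
theorem chartHyp_inv_of_hsym {x₀ : X} (hx₀ : gen x₀ = ChartHypInst.Gs k M)
    (hfix₀ : ∀ γ : Γ, (γ : Ebig (k := k) gen ≃ₐ[k] Ebig (k := k) gen) (genE gen x₀) = genE gen x₀)
    (hgauss : ∀ x, gen x ∈ gaussField O k) (hsym : HSym M gen Γ) :
    ChartHyp (O := O) (sig Γ (Ebig (k := k) gen).val) (genE gen x₀)⁻¹ (ChartHypInst.Gs k M)⁻¹ where
  map_G := fun γ => by
    rw [map_inv₀]
    exact congrArg _ (map_G_of_fix hx₀ hfix₀ γ)
  mem := ChartHypInst.GsInv_mem O k M
  inj_k := ChartHypInst.evalLk_GsInv_injective M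
  inj_κ := by
    rw [ChartHypInst.gaussRed_GsInv]
    exact ChartHypInst.evalLk_GsInv_injective M
  field := fun γ y => coe_mem_gaussField gen hgauss _
  symrat := fun x m =>
    ChartHypInst.exists_evalLk_inv ChartHypInst.Gs_ne_zero (symrat_of_hsym hx₀ hfix₀ hsym x m)

end Chart

section Fam

variable {k : Type} [Field k] {φ : k →+* ℂ} {M : ℕ} [NeZero M] {X : Type*}
  (A : IgusaFam.FamAn φ M X) (π : SL(2, ℤ) →* Equiv.Perm X)
  (hact : ∀ (x : X) (g : SL(2, ℤ)), A.act x g = π g⁻¹ x)

include hact in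
/-- **`hπ`**: the permuted family satisfies the same relations -/
theorem relInv_of_famAn (g : SL(2, ℤ)) : RelInv k A.gen (π g) := by
  intro P
  rw [A.hker g⁻¹ P]
  have h : (fun x => A.gen (A.act x g⁻¹)) = A.gen ∘ π g := by
    funext x
    rw [hact, inv_inv]
    rfl
  rw [h]

include hact in
/-- the expansion of the translate of a polynomial expression in the generators -/
theorem coe_alphaHom_aeval (hπ : ∀ g, RelInv k A.gen (π g)) (g : SL(2, ℤ))
    (P : MvPolynomial X k) :
    ((alphaHom A.gen π hπ g (MvPolynomial.aeval (genE (k := k) A.gen) P) :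
      Ebig (k := k) A.gen) : LaurentSeries k) =
      MvPolynomial.aeval (fun x => A.gen (A.act x g⁻¹)) P := by
  have h1 := MvPolynomial.comp_aeval_apply (f := genE (k := k) A.gen)
    ((alphaHom A.gen π hπ g : Ebig (k := k) A.gen ≃ₐ[k] Ebig (k := k) A.gen) :
      Ebig (k := k) A.gen →ₐ[k] Ebig (k := k) A.gen) P
  have h2 : (alphaHom A.gen π hπ g (MvPolynomial.aeval (genE (k := k) A.gen) P) :
      Ebig (k := k) A.gen) =
      MvPolynomial.aeval (fun x => genE (k := k) A.gen (π g x)) P := by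
    rw [← AlgEquiv.coe_algHom, h1]
    exact congrArg (fun f => MvPolynomial.aeval f P)
      (funext fun x => alphaHom_gen A.gen π hπ g x)
  rw [h2]
  have h3 := MvPolynomial.comp_aeval_apply (f := fun x => genE (k := k) A.gen (π g x))
    ((Ebig (k := k) A.gen).val) P
  refine h3.trans ?_
  refine congrArg (fun f => MvPolynomial.aeval f P) (funext fun x => ?_)
  rw [hact, inv_inv]
  rfl

variable (hπ : ∀ g, RelInv k A.gen (π g)) [Fintype (Gam A.gen π hπ)] [DecidableEq (Gam A.gen π hπ)]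

/-- a preimage in `SL(2,ℤ)` of an element of the image group -/
def pre (γ : Gam A.gen π hπ) : SL(2, ℤ) := (MonoidHom.mem_range.mp γ.2).choose

theorem alphaHom_pre (γ : Gam A.gen π hπ) : alphaHom A.gen π hπ (pre A π hπ γ) = γ.1 :=
  (MonoidHom.mem_range.mp γ.2).choose_spec

include hact in
/-- **`HSym` for an analytic family** -/
theorem hsym_of_famAn : HSym M A.gen (Gam A.gen π hπ) := by
  intro P m
  have hperm : ∀ δ : SL(2, ℤ), ∃ pm : Equiv.Perm (Gam A.gen π hπ),
      ∀ (γ : Gam A.gen π hπ) (x : X),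
        A.gen (A.act x ((pre A π hπ γ)⁻¹ * δ)) = A.gen (A.act x (pre A π hπ (pm γ))⁻¹) := by
    intro δ
    refine ⟨Equiv.mulLeft ((alphaHom A.gen π hπ).rangeRestrict δ⁻¹), fun γ x => ?_⟩
    rw [hact, hact, mul_inv_rev, inv_inv, inv_inv]
    have h1 : alphaHom A.gen π hπ (δ⁻¹ * pre A π hπ γ) =
        alphaHom A.gen π hπ (pre A π hπ (Equiv.mulLeft
          ((alphaHom A.gen π hπ).rangeRestrict δ⁻¹) γ)) := by
      rw [alphaHom_pre, map_mul, alphaHom_pre]
      rfl
    have h2 := congrArg (fun a => ((a (genE (k := k) A.gen x) : Ebig (k := k) A.gen) :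
      LaurentSeries k)) h1
    simp only [alphaHom_gen] at h2
    exact h2
  have h := A.sym (fun γ : Gam A.gen π hπ => (pre A π hπ γ)⁻¹) hperm P m
  obtain ⟨y, hy, hyx⟩ := h
  rw [SetLike.mem_coe, Algebra.adjoin_singleton_eq_range_aeval] at hy
  obtain ⟨w, rfl⟩ := hy
  refine ⟨w, ?_⟩
  have hprod : (∏ γ : Gam A.gen π hπ, (Polynomial.X - Polynomial.C
        ((((γ : Ebig (k := k) A.gen ≃ₐ[k] Ebig (k := k) A.gen)
          (MvPolynomial.aeval (genE (k := k) A.gen) P) : Ebig (k := k) A.gen)) :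
            LaurentSeries k))) =
      ∏ γ : Gam A.gen π hπ, (Polynomial.X - Polynomial.C
        (MvPolynomial.aeval (fun x => A.gen (A.act x (pre A π hπ γ)⁻¹)) P)) := by
    refine Finset.prod_congr rfl fun γ _ => ?_
    rw [← coe_alphaHom_aeval A π hact hπ, alphaHom_pre]
  rw [hprod, ChartHypInst.Gs, ChartHypInst.evalLk_qExpand, ChartHypInst.evalLk_eq_aeval]
  exact hyx

end Fam

section Final

variable {k : Type} [Field k] {O : Type} [CommRing O] [IsDomain O] [IsDiscreteValuationRing O]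
  [Algebra O k] [IsFractionRing O k] {φ : k →+* ℂ} {M : ℕ} [NeZero M] {X : Type*}
  (A : IgusaFam.FamAn φ M X) (π : SL(2, ℤ) →* Equiv.Perm X)
  (hact : ∀ (x : X) (g : SL(2, ℤ)), A.act x g = π g⁻¹ x)
  (hπ : ∀ g, RelInv k A.gen (π g)) [Fintype (Gam A.gen π hπ)] [DecidableEq (Gam A.gen π hπ)]

/-- the image group fixes the chart generator as soon as the family does at the level of series
(`gen (π g x₀) = gen x₀`; the index `π g x₀` may differ from `x₀`) -/
theorem fix_of_gen_eq {k : Type} [Field k] {X : Type*} (gen : X → LaurentSeries k)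
    (π : SL(2, ℤ) →* Equiv.Perm X) (hπ : ∀ g, RelInv k gen (π g)) {x₀ : X}
    (hfix₀ : ∀ g, gen (π g x₀) = gen x₀) (γ : Gam gen π hπ) :
    (γ : Ebig (k := k) gen ≃ₐ[k] Ebig (k := k) gen) (genE gen x₀) = genE gen x₀ := by
  obtain ⟨g, hg⟩ := MonoidHom.mem_range.mp γ.2
  rw [← hg, alphaHom_gen]
  exact Subtype.ext (hfix₀ g)

include hact in
/-- **The chart hypotheses of the Igusa field, finite chart**, for an analytic family. -/
theorem chartHyp_of_famAn {x₀ : X} (hx₀ : A.gen x₀ = qExpand k M (jqModC k))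
    (hfix₀ : ∀ g, A.gen (π g x₀) = A.gen x₀) (hgauss : ∀ x, A.gen x ∈ gaussField O k) :
    ChartHyp (O := O) (sig (Gam A.gen π hπ) (Ebig (k := k) A.gen).val) (genE A.gen x₀)
      (ChartHypInst.Gs k M) :=
  chartHyp_of_hsym hx₀ (fix_of_gen_eq A.gen π hπ hfix₀) hgauss (hsym_of_famAn A π hact hπ)

include hact in
/-- **The chart hypotheses of the Igusa field, chart at infinity**, for an analytic family. -/
theorem chartHyp_inv_of_famAn {x₀ : X} (hx₀ : A.gen x₀ = qExpand k M (jqModC k))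
    (hfix₀ : ∀ g, A.gen (π g x₀) = A.gen x₀) (hgauss : ∀ x, A.gen x ∈ gaussField O k) :
    ChartHyp (O := O) (sig (Gam A.gen π hπ) (Ebig (k := k) A.gen).val) (genE A.gen x₀)⁻¹
      (ChartHypInst.Gs k M)⁻¹ :=
  chartHyp_inv_of_hsym hx₀ (fix_of_gen_eq A.gen π hπ hfix₀) hgauss (hsym_of_famAn A π hact hπ)

/-! ### The same statements for an explicitly given family `gen` with `A.gen = gen`
(the instance arguments `Fintype (Gam gen π hπ)` then unify without unfolding `A`). -/

/-- `HSym` for `gen = A.gen` -/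
theorem hsym_of_famAn_eq (gen : X → LaurentSeries k) (hgen : A.gen = gen)
    (hπ : ∀ g, RelInv k gen (π g)) [Fintype (Gam gen π hπ)] [DecidableEq (Gam gen π hπ)]
    (hact : ∀ (x : X) (g : SL(2, ℤ)), A.act x g = π g⁻¹ x) :
    HSym M gen (Gam gen π hπ) := by
  subst hgen
  exact hsym_of_famAn A π hact hπ

/-- **finite chart**, for `gen = A.gen` -/
theorem chartHyp_of_famAn_eq (gen : X → LaurentSeries k) (hgen : A.gen = gen)
    (hπ : ∀ g, RelInv k gen (π g)) [Fintype (Gam gen π hπ)] [DecidableEq (Gam gen π hπ)]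
    (hact : ∀ (x : X) (g : SL(2, ℤ)), A.act x g = π g⁻¹ x)
    {x₀ : X} (hx₀ : gen x₀ = qExpand k M (jqModC k))
    (hfix₀ : ∀ g, gen (π g x₀) = gen x₀) (hgauss : ∀ x, gen x ∈ gaussField O k) :
    ChartHyp (O := O) (sig (Gam gen π hπ) (Ebig (k := k) gen).val) (genE gen x₀)
      (ChartHypInst.Gs k M) := by
  subst hgen
  exact chartHyp_of_famAn A π hact hπ hx₀ hfix₀ hgauss

/-- **chart at infinity**, for `gen = A.gen` -/
theorem chartHyp_inv_of_famAn_eq (gen : X → LaurentSeries k) (hgen : A.gen = gen)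
    (hπ : ∀ g, RelInv k gen (π g)) [Fintype (Gam gen π hπ)] [DecidableEq (Gam gen π hπ)]
    (hact : ∀ (x : X) (g : SL(2, ℤ)), A.act x g = π g⁻¹ x)
    {x₀ : X} (hx₀ : gen x₀ = qExpand k M (jqModC k))
    (hfix₀ : ∀ g, gen (π g x₀) = gen x₀) (hgauss : ∀ x, gen x ∈ gaussField O k) :
    ChartHyp (O := O) (sig (Gam gen π hπ) (Ebig (k := k) gen).val) (genE gen x₀)⁻¹
      (ChartHypInst.Gs k M)⁻¹ := by
  subst hgen
  exact chartHyp_inv_of_famAn A π hact hπ hx₀ hfix₀ hgauss

end Final

end Fermat.Agent.DS.P2.IgusaChartHyp
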