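/-
GATE-N / S48 J1-port, node S48-P2-IG-CUSP (= IG-5), file 2 (helper54): the VECTOR part of the concrete
Fricke generator family of level `M`.

* `Vec M = ZMod M × ZMod M` with the right action `vact v g = v ᵥ* g` of `SL(2, ℤ)`;
* `FV M v τ = 12 · frickeFun M (lift v) τ` (helper71's Fricke functions), `FV_smul` (equivariance);
* `genV M ζ w v = (E₄E₆/Δ)(q^M) · (1 + 12 · X_v)` over ANY commutative ring with a unit `ζ`
  (helper63's formal Tate `x`-series; for `v = (0, b)` the constant `ζ^b/(1-ζ^b)²` is added, with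
  `w b` a unit standing for `1 - ζ^b`), `coeffMap_genV` (base change), `genV_mem_intSeries`;
* bridge to helper45's generators: `weber12C R M a = genV M ζ w (a, 0)` for `a ≠ 0`.
-/
import Fermat.Agent.DS.P2.FrickeLaurent
import Fermat.Agent.DS.P1.WeberAnFricke
import Fermat.Agent.DS.P0.Weber
import Fermat.Agent.S28.Defs

set_option autoImplicit false
set_option linter.unusedSectionVars false

noncomputable section

namespace Fermat.Agent.DS.P2.IgusaFam

open UpperHalfPlane ModularCurve HahnSeries MatrixGroups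
open Fermat.Agent.DS.P1 Fermat.Agent.DS.P2.Fricke

/-! ### Vectors mod `M` and the action of `SL(2, ℤ)` -/

section Vec

variable (M : ℕ)

/-- row vectors mod `M` -/
abbrev Vec : Type := ZMod M × ZMod M

variable {M}

/-- the right action `v ↦ v g` (row vector times matrix) -/
def vact (v : Vec M) (g : SL(2, ℤ)) : Vec M :=
  (v.1 * ((g 0 0 : ℤ) : ZMod M) + v.2 * ((g 1 0 : ℤ) : ZMod M),
    v.1 * ((g 0 1 : ℤ) : ZMod M) + v.2 * ((g 1 1 : ℤ) : ZMod M))

@[simp] theorem vact_one (v : Vec M) : vact v 1 = v := by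
  ext <;> simp [vact]

theorem vact_mul (v : Vec M) (g h : SL(2, ℤ)) : vact v (g * h) = vact (vact v g) h := by
  ext <;> simp [vact, Matrix.mul_apply, Fin.sum_univ_two] <;> ring

theorem vact_zero (g : SL(2, ℤ)) : vact (0 : Vec M) g = 0 := by
  ext <;> simp [vact]

theorem vact_ne_zero {v : Vec M} (hv : v ≠ 0) (g : SL(2, ℤ)) : vact v g ≠ 0 := by
  intro h
  apply hv
  have h1 : vact (vact v g) g⁻¹ = v := by rw [← vact_mul, mul_inv_cancel, vact_one]
  rw [← h1, h, vact_zero]

/-- reduction of an integer vector -/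
def vred (u : ℤ × ℤ) : Vec M := ((u.1 : ZMod M), (u.2 : ZMod M))

theorem vred_vmul (u : ℤ × ℤ) (g : SL(2, ℤ)) : (vred (vmul u g) : Vec M) = vact (vred u) g := by
  ext <;> simp [vred, vmul, vact]

/-- the representative with entries in `[0, M)` -/
def lift (v : Vec M) : ℤ × ℤ := ((v.1.val : ℤ), (v.2.val : ℤ))

variable [NeZero M]

@[simp] theorem vred_lift (v : Vec M) : vred (lift v) = v := by
  ext <;> simp [vred, lift]

/-- `frickeFun M u` only depends on `u` modulo `M` -/
theorem frickeFun_congr {u u' : ℤ × ℤ} (h : (vred u : Vec M) = vred u') :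
    frickeFun M u = frickeFun M u' := by
  have h1 : ((u'.1 : ℤ) : ZMod M) = ((u.1 : ℤ) : ZMod M) := (congrArg Prod.fst h).symm
  have h2 : ((u'.2 : ℤ) : ZMod M) = ((u.2 : ℤ) : ZMod M) := (congrArg Prod.snd h).symm
  obtain ⟨c1, hc1⟩ := (ZMod.intCast_eq_intCast_iff_dvd_sub _ _ M).mp h1
  obtain ⟨c2, hc2⟩ := (ZMod.intCast_eq_intCast_iff_dvd_sub _ _ M).mp h2
  have hu : u = u' + (M : ℤ) • ((c1, c2) : ℤ × ℤ) := by
    ext
    · simp only [Prod.fst_add, Prod.smul_fst, smul_eq_mul]; linarith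
    · simp only [Prod.snd_add, Prod.smul_snd, smul_eq_mul]; linarith
  funext τ
  rw [hu, frickeFun_add_smul (NeZero.ne M)]

variable (M)

/-- the analytic generator attached to `v`: `12 f_v` -/
def FV (v : Vec M) (τ : ℍ) : ℂ := 12 * frickeFun M (lift v) τ

/-- **Equivariance** of the vector part. -/
theorem FV_smul (v : Vec M) (g : SL(2, ℤ)) (τ : ℍ) : FV M v (g • τ) = FV M (vact v g) τ := by
  rw [FV, FV, frickeFun_smul]
  congr 1
  refine congrFun (frickeFun_congr ?_) τ
  rw [vred_vmul, vred_lift, vred_lift]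

end Vec

/-! ### The formal generators of the vector part -/

section Formal

variable (M : ℕ) [NeZero M] {R : Type*} [CommRing R]

/-- `X_v` (helper63's series): `xL` if the first entry is nonzero, `xL0` (with the constant term
`ζ^b / w²`, `w` standing for `1 - ζ^b`) otherwise -/
def xV (ζ : Rˣ) (w : ℕ → Rˣ) (v : Vec M) : LaurentSeries R :=
  if v.1 = 0 then xL0 M ζ (v.2.val : ℤ) (w v.2.val) else xL M ζ (v.1.val : ℤ) (v.2.val : ℤ)

/-- the formal generator attached to `v`: `(E₄E₆/Δ)(q^M) · (1 + 12 X_v)` -/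
def genV (ζ : Rˣ) (w : ℕ → Rˣ) (v : Vec M) : LaurentSeries R :=
  qExpand R M (Fermat.Agent.DS.P0.weberFactorC R) * (1 + 12 * xV M ζ w v)

theorem coeffMap_xV {S : Type*} [CommRing S] (f : R →+* S) (ζ : Rˣ) (w : ℕ → Rˣ) (v : Vec M) :
    coeffMap f (xV M ζ w v) =
      xV M (Units.map (f : R →* S) ζ) (fun b => Units.map (f : R →* S) (w b)) v := by
  unfold xV
  split_ifs
  · rw [coeffMap_xL0]
  · rw [coeffMap_xL]

/-- **base change** of the formal generators -/
theorem coeffMap_genV {S : Type*} [CommRing S] (f : R →+* S) (ζ : Rˣ) (w : ℕ → Rˣ) (v : Vec M) :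
    coeffMap f (genV M ζ w v) =
      genV M (Units.map (f : R →* S) ζ) (fun b => Units.map (f : R →* S) (w b)) v := by
  rw [genV, map_mul, coeffMap_qExpand, Fermat.Agent.DS.P0.coeffMap_weberFactorC, map_add, map_one,
    map_mul, map_ofNat, coeffMap_xV, genV]

/-- integrality: the generators over `k` come from `𝒪` -/
theorem genV_mem_intSeries {𝒪 k : Type*} [CommRing 𝒪] [Field k] [Algebra 𝒪 k] (ζ : 𝒪ˣ)
    (w : ℕ → 𝒪ˣ) (v : Vec M) :
    genV M (Units.map (algebraMap 𝒪 k : 𝒪 →* k) ζ)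
      (fun b => Units.map (algebraMap 𝒪 k : 𝒪 →* k) (w b)) v ∈
        Fermat.Agent.S28.intSeries 𝒪 k :=
  ⟨genV M ζ w v, coeffMap_genV M (algebraMap 𝒪 k) ζ w v⟩

end Formal

/-! ### Bridge to helper45's Weber generators -/

section Bridge

open Fermat.Agent.DS.P0

variable (M : ℕ) [NeZero M] {R : Type*} [CommRing R]

theorem xCoeff_zero_right_eq (ζ : Rˣ) (a : ZMod M) (n : ℕ) :
    xCoeff M ζ (a.val : ℤ) 0 n = ((tateCoeff M a n : ℤ) : R) := by
  rw [xCoeff, tateCoeff,
    Nat.sum_divisorsAntidiagonal' (f := fun d e => xTerm M ζ (a.val : ℤ) 0 d e), Int.cast_sum]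
  refine Finset.sum_congr rfl fun e _ => ?_
  unfold xTerm
  have ha : (((a.val : ℕ) : ℤ) : ZMod M) = a := by simp
  rw [ha, Int.cast_mul, Int.cast_natCast]
  simp only [zero_mul, zpow_zero, neg_zero, Units.val_one]
  congr 1
  split_ifs <;> simp <;> ring

/-- `1 + 12 X_(a,0)` is helper45's `tateX12` -/
theorem one_add_xL_eq (ζ : Rˣ) (a : ZMod M) :
    (1 : LaurentSeries R) + 12 * xL M ζ (a.val : ℤ) 0 =
      HahnSeries.ofPowerSeries ℤ R ((tateX12 M a).map (Int.castRingHom R)) := by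
  have h : ((tateX12 M a).map (Int.castRingHom R)) = 1 + 12 * xSeries M ζ (a.val : ℤ) 0 := by
    ext n
    rw [PowerSeries.coeff_map, tateX12, PowerSeries.coeff_mk, map_add]
    have h12 : PowerSeries.coeff n ((12 : PowerSeries R) * xSeries M ζ (a.val : ℤ) 0) =
        12 * xCoeff M ζ (a.val : ℤ) 0 n := by
      have : (12 : PowerSeries R) = PowerSeries.C (12 : R) := (map_ofNat PowerSeries.C 12).symm
      rw [this, PowerSeries.coeff_C_mul, coeff_xSeries]
    rw [h12, xCoeff_zero_right_eq, PowerSeries.coeff_one]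
    split_ifs with hn
    · subst hn; simp
    · simp
  rw [h, map_add, map_one, map_mul, xL, map_ofNat]

/-- **helper45's `12 w^{(a)}` is the generator attached to `(a, 0)`.** -/
theorem weber12C_eq_genV (ζ : Rˣ) (w : ℕ → Rˣ) {a : ZMod M} (ha : a ≠ 0) :
    weber12C R M a = genV M ζ w ((a, 0) : Vec M) := by
  rw [weber12C, genV, xV, if_neg ha, ← one_add_xL_eq M ζ a]
  simp

end Bridge

end Fermat.Agent.DS.P2.IgusaFam
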