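/-
GATE-N / S48 J1-port, node S48-P2-IG-CUSP (= IG-5), file 3 (helper54): the CONCRETE Fricke generator
family of level `M` and its analytic realisation.

Setting (as in `S28/Assemble`): `k` a field with `φ : k →+* ℂ`, `𝒪` a local ring with `Algebra 𝒪 k`,
`hζ` (the roots of unity `exp(2πi B/D)`, `D ∣ M`, come from units of `𝒪`), `hD` (`D ∣ M` is a unit of
`𝒪`); `ζ : 𝒪ˣ` (standing for `exp(2πi/M)`) and `w : ℕ → 𝒪ˣ` (standing for `1 - ζ^b`).

* index set `GIdx M = {v : Vec M // v ≠ 0} ⊕ (SL(2,ℤ)/Γ₀(M) × {d // d ∣ M})`;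
* `gen` : the formal generators (`genV` = Fricke series, `genC` = the S28 series of the conjugates of
  `j(dτ)`), `Fn` : the analytic generators, `gact` : the right action of `SL(2, ℤ)`;
* `famAn` : the `FamAn φ M (GIdx M)` — its only open input is `FrickeExpHyp` (the cusp expansion
  of helper71's Fricke functions `f_v`);
* `gen_mem_intSeries` (all generators come from `𝒪((q))`), `gact_one`, `gact_mul`,
  `gact_of_mem_Gamma` (`Γ(M)` acts trivially), `gen_jE` (`jE = qExpand M jq` is the generator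
  `(i, 1)` for every `i`, fixed by the action), `gen_inr_idx₀` (`j(Q^d)`, `Q = q^M`).
-/
import Fermat.Agent.DS.P2.IgusaFamAn
import Fermat.Agent.DS.P2.IgusaFamVec
import Fermat.Agent.S28.Assemble

set_option autoImplicit false
set_option linter.unusedSectionVars false

noncomputable section

namespace Fermat.Agent.DS.P2.IgusaFam

open UpperHalfPlane ModularCurve HahnSeries MatrixGroups CongruenceSubgroup
open Fermat.Agent.S28 Fermat.Agent.S28.Assemble Fermat.Agent.S28.CuspExp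

section Conj

variable (M : ℕ) [NeZero M] {k : Type} [Field k] (φ : k →+* ℂ)
  {𝒪 : Type} [CommRing 𝒪] [IsLocalRing 𝒪] [Algebra 𝒪 k]
  (hζ : ∀ D B : ℕ, D ∣ M → ∃ u : 𝒪ˣ,
    φ (algebraMap 𝒪 k (u : 𝒪)) = Complex.exp (2 * Real.pi * Complex.I * B / D))
  (hD : ∀ D : ℕ, D ∣ M → IsUnit ((D : ℕ) : 𝒪))

/-- index set of the conjugates of the `j(dτ)`, `d ∣ M` -/
abbrev CIdx : Type := CuspIdx M × {d : ℕ // d ∣ M}

/-- the generator index `(d, 0)` of S28 (`j(q^d)`) -/
def jIdx (d : {d : ℕ // d ∣ M}) : GenIdx M := (d, 0)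

/-- the analytic conjugates `τ ↦ j(d · (out i)⁻¹ τ)` -/
def FC (c : CIdx M) (τ : ℍ) : ℂ := genFun M (jIdx M c.2) (rep M c.1 • τ)

/-- their expansions (S28) -/
def genC (c : CIdx M) : LaurentSeries k := sK M φ hζ hD c.1 (jIdx M c.2)

/-- the right action on the index set -/
def cact (c : CIdx M) (g : SL(2, ℤ)) : CIdx M := (g⁻¹ • c.1, c.2)

theorem FC_eq_cosetFun (c : CIdx M) :
    FC M c = CosetSym.cosetFun (Gamma0 M) (genFun M (jIdx M c.2)) c.1 := rfl

theorem FC_smul (c : CIdx M) (g : SL(2, ℤ)) (τ : ℍ) : FC M c (g • τ) = FC M (cact M c g) τ := by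
  rw [FC_eq_cosetFun, FC_eq_cosetFun]
  exact CosetSym.cosetFun_smul
    (fun γ hγ z => genFun_smul_of_mem_Gamma0 M (jIdx M c.2) hγ z) g c.1 τ

theorem hasCuspExp_FC (c : CIdx M) :
    HasCuspExp (M : ℝ) (FC M c) (coeffMap φ (genC M φ hζ hD c)) := by
  have h1 : IsCE (M : ℝ) (FC M c) := (analyticFacts M).isMC_gen (rep M c.1) (jIdx M c.2)
  have h2 : cuspExp (M : ℝ) (FC M c) = coeffMap φ (genC M φ hζ hD c) :=
    exp_eq_sK M φ hζ hD (analyticFacts M) c.1 (jIdx M c.2)
  rw [← h2]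
  exact h1.hasCuspExp

@[simp] theorem cact_one (c : CIdx M) : cact M c 1 = c := by
  simp [cact]

theorem cact_mul (c : CIdx M) (g h : SL(2, ℤ)) : cact M c (g * h) = cact M (cact M c g) h := by
  simp [cact, mul_smul]

theorem genC_mem_intSeries (c : CIdx M) : genC M φ hζ hD c ∈ intSeries 𝒪 k :=
  sK_mem_intSeries M φ hζ hD c.1 (jIdx M c.2)

/-- `Γ(M)` acts trivially on the cosets of `Γ₀(M)` -/
theorem cact_of_mem_Gamma (c : CIdx M) {g : SL(2, ℤ)} (hg : g ∈ Gamma M) : cact M c g = c := by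
  obtain ⟨i, d⟩ := c
  simp only [cact, Prod.mk.injEq, and_true]
  induction i using QuotientGroup.induction_on with
  | H a =>
    rw [MulAction.Quotient.smul_mk, smul_eq_mul, QuotientGroup.eq]
    have hn : (Gamma M).Normal := Gamma_normal M
    have h1 : a⁻¹ * g * a ∈ Gamma M := by
      have := hn.conj_mem g hg a⁻¹
      simpa using this
    have h2 : (g⁻¹ * a)⁻¹ * a = a⁻¹ * g * a := by group
    rw [h2]
    rw [Gamma_mem] at h1
    rw [Gamma0_mem]
    exact h1.2.2.1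

/-- the generator `(i, 1)` is `jE = j(q^M)` for every `i` -/
theorem genC_one (i : CuspIdx M) :
    genC M φ hζ hD (i, ⟨1, one_dvd M⟩) = qExpand k M (jqModC k) := by
  rw [genC, jIdx, sK_of_dvd M φ hζ hD i (⟨1, one_dvd M⟩, 0) (by simp)]
  show qExpand k M (jS k 1) = _
  rw [jS, qExpand_one_apply]

/-- at the cusp `∞` the generators are the `j(Q^d)`, `Q = q^M` -/
theorem genC_idx₀ (d : {d : ℕ // d ∣ M}) :
    haveI : NeZero d.1 := ⟨fun h => NeZero.ne M (Nat.eq_zero_of_zero_dvd (h ▸ d.2))⟩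
    genC M φ hζ hD (idx₀ M, d) = qExpand k M (jS k d.1) := by
  rw [genC, jIdx, sK_of_dvd M φ hζ hD (idx₀ M) (d, 0)
    (dvd_trans (Int.natCast_dvd_natCast.mpr d.2) ((dvd_rep_iff M (idx₀ M)).mpr rfl))]
  rfl

end Conj

/-! ### The full family -/

section Full

variable (M : ℕ) [NeZero M] {k : Type} [Field k] (φ : k →+* ℂ)
  {𝒪 : Type} [CommRing 𝒪] [IsLocalRing 𝒪] [Algebra 𝒪 k]
  (hζ : ∀ D B : ℕ, D ∣ M → ∃ u : 𝒪ˣ,
    φ (algebraMap 𝒪 k (u : 𝒪)) = Complex.exp (2 * Real.pi * Complex.I * B / D))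
  (hD : ∀ D : ℕ, D ∣ M → IsUnit ((D : ℕ) : 𝒪))
  (ζ : 𝒪ˣ) (w : ℕ → 𝒪ˣ)

/-- nonzero vectors mod `M` -/
abbrev VIdx : Type := {v : Vec M // v ≠ 0}

/-- the index set of the generators of the level `M` field -/
abbrev GIdx : Type := VIdx M ⊕ CIdx M

/-- `ζ` over `k` -/
def zetaK : kˣ := Units.map (algebraMap 𝒪 k : 𝒪 →* k) ζ

/-- `w` over `k` -/
def wK (b : ℕ) : kˣ := Units.map (algebraMap 𝒪 k : 𝒪 →* k) (w b)

/-- the formal generators -/
def gen : GIdx M → LaurentSeries k :=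
  Sum.elim (fun v => genV M (zetaK (k := k) ζ) (wK (k := k) w) v.1) (genC M φ hζ hD)

/-- the analytic generators -/
def Fn : GIdx M → ℍ → ℂ := Sum.elim (fun v => FV M v.1) (FC M)

/-- the right action of `SL(2, ℤ)` on the index set -/
def gact (x : GIdx M) (g : SL(2, ℤ)) : GIdx M :=
  Sum.elim (fun v => Sum.inl ⟨vact v.1 g, vact_ne_zero v.2 g⟩) (fun c => Sum.inr (cact M c g)) x

@[simp] theorem gact_inl (v : VIdx M) (g : SL(2, ℤ)) :
    gact M (Sum.inl v) g = Sum.inl ⟨vact v.1 g, vact_ne_zero v.2 g⟩ := rfl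

@[simp] theorem gact_inr (c : CIdx M) (g : SL(2, ℤ)) :
    gact M (Sum.inr c) g = Sum.inr (cact M c g) := rfl

@[simp] theorem gact_one (x : GIdx M) : gact M x 1 = x := by
  rcases x with v | c
  · simp
  · simp

theorem gact_mul (x : GIdx M) (g h : SL(2, ℤ)) : gact M x (g * h) = gact M (gact M x g) h := by
  rcases x with v | c
  · simp [vact_mul]
  · simp [cact_mul]

/-- `Γ(M)` acts trivially on the index set -/
theorem gact_of_mem_Gamma (x : GIdx M) {g : SL(2, ℤ)} (hg : g ∈ Gamma M) : gact M x g = x := by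
  rcases x with v | c
  · rw [gact_inl]
    congr 1
    apply Subtype.ext
    rw [Gamma_mem] at hg
    obtain ⟨h00, h01, h10, h11⟩ := hg
    ext <;> simp [vact, h00, h01, h10, h11]
  · rw [gact_inr, cact_of_mem_Gamma M c hg]

theorem Fn_smul (x : GIdx M) (g : SL(2, ℤ)) (τ : ℍ) : Fn M x (g • τ) = Fn M (gact M x g) τ := by
  rcases x with v | c
  · exact FV_smul M v.1 g τ
  · exact FC_smul M c g τ

/-- all the formal generators come from `𝒪((q))` -/
theorem gen_mem_intSeries (x : GIdx M) : gen M φ hζ hD ζ w x ∈ intSeries 𝒪 k := by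
  rcases x with v | c
  · exact genV_mem_intSeries M ζ w v.1
  · exact genC_mem_intSeries M φ hζ hD c

/-- **The analytic hypothesis on the vector part** (helper71's W4): the cusp expansion of `12 f_v` in
`exp(2πi τ/M)` is (the image of) the formal generator. -/
def FrickeExpHyp : Prop :=
  ∀ v : VIdx M, HasCuspExp (M : ℝ) (FV M v.1)
    (coeffMap φ (genV M (zetaK (k := k) ζ) (wK (k := k) w) v.1))

variable {M φ ζ w}

/-- **The Fricke family of level `M`** as a `FamAn`. -/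
def famAn (hV : FrickeExpHyp M φ ζ w) : FamAn φ M (GIdx M) where
  gen := gen M φ hζ hD ζ w
  F := Fn M
  act := gact M
  hasExp := by
    rintro (v | c)
    · exact hV v
    · exact hasCuspExp_FC M φ hζ hD c
  equiv := Fn_smul M

@[simp] theorem famAn_gen (hV : FrickeExpHyp M φ ζ w) :
    (famAn hζ hD hV).gen = gen M φ hζ hD ζ w := rfl

@[simp] theorem famAn_act (hV : FrickeExpHyp M φ ζ w) : (famAn hζ hD hV).act = gact M := rfl

variable (M φ ζ w)

/-- the index of `jE` -/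
def xJ : GIdx M := Sum.inr (idx₀ M, ⟨1, one_dvd M⟩)

theorem gen_xJ : gen M φ hζ hD ζ w (xJ M) = qExpand k M (jqModC k) := genC_one M φ hζ hD _

/-- `jE` is fixed by the action (on the level of the series) -/
theorem gen_gact_xJ (g : SL(2, ℤ)) :
    gen M φ hζ hD ζ w (gact M (xJ M) g) = qExpand k M (jqModC k) := genC_one M φ hζ hD _

end Full

end Fermat.Agent.DS.P2.IgusaFam
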