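/-
GATE-N / S48 J1-port, node S48-P2-IG-CUSP (= IG-5), file 4 (helper54): the Fricke family of level `M`
in the shapes consumed by helper87's `IgusaAct` / `IgusaTwist` / IG-6 assembly.

* `frickeExpHyp_of_root` : the analytic hypothesis `FrickeExpHyp` of `IgusaFamDef`, from helper63's
  `FrickeAnExp` (so `famAn` is unconditional once `ζ ↦ e(1/M)`, `w b = 1 - ζ^b`);
* `exists_root` : such `ζ`, `w` exist over `𝒪` (from `hζ`, `hD`, injectivity of `𝒪 → k`);
* `piAct M : SL(2, ℤ) →* Equiv.Perm (GIdx M)`, `piAct g x = gact x g⁻¹` (LEFT action),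
  `relInv_piAct` (= `hπ`), `piAct_eq_of_map_eq` (= `hπM`), `gen_piAct_T` (twist law, at the unit `ζ⁻¹`),
  `gen_piAct_xJ` (chart point), `piAct_xC` (the point `c₀`, `gen c₀ = j(q^(M²))`);
* `genC_S` : `j(q^d) = gen (inr ([S⁻¹], M/d))`, hence `F1C_le_Ebig : F1C k M ≤ Ebig gen`
  (helper45's `X₁(M)` field lies in the level `M` field LITERALLY).
-/
import Fermat.Agent.DS.P2.IgusaFamDef
import Fermat.Agent.DS.P2.FrickeAnExp
import Fermat.Agent.DS.P2.IgusaAct
import Fermat.Agent.DS.P2.IgusaTwist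

set_option autoImplicit false
set_option linter.unusedSectionVars false

noncomputable section

namespace Fermat.Agent.DS.P2.IgusaFam

open UpperHalfPlane ModularCurve HahnSeries MatrixGroups CongruenceSubgroup
open Fermat.Agent.S28 Fermat.Agent.S28.Assemble Fermat.Agent.S28.CuspExp
open Fermat.Agent.DS.P2.Fricke Fermat.Agent.DS.P0
open scoped Real

variable (M : ℕ) [NeZero M] {k : Type} [Field k] (φ : k →+* ℂ)
  {𝒪 : Type} [CommRing 𝒪] [IsLocalRing 𝒪] [Algebra 𝒪 k]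
  (hζ : ∀ D B : ℕ, D ∣ M → ∃ u : 𝒪ˣ,
    φ (algebraMap 𝒪 k (u : 𝒪)) = Complex.exp (2 * Real.pi * Complex.I * B / D))
  (hD : ∀ D : ℕ, D ∣ M → IsUnit ((D : ℕ) : 𝒪))
  (ζ : 𝒪ˣ) (w : ℕ → 𝒪ˣ)

/-! ### The analytic hypothesis, discharged -/

section Exp

variable {M φ ζ w}

theorem map_zetaK_eq (hζ1 : φ (algebraMap 𝒪 k (ζ : 𝒪)) = Complex.exp (2 * π * Complex.I / M)) :
    Units.map (φ : k →* ℂ) (zetaK (k := k) ζ) = zetaU M := by
  apply Units.ext
  rw [coe_zetaU]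
  exact hζ1

theorem val_lt_of_ne_zero {b : ZMod M} (hb : b ≠ 0) : ¬ (M : ℤ) ∣ (b.val : ℤ) := by
  intro h
  apply hb
  have h1 : ((b.val : ℕ) : ZMod M) = 0 := by
    rw [← Int.cast_natCast]
    exact (ZMod.intCast_zmod_eq_zero_iff_dvd _ _).mpr h
  rwa [ZMod.natCast_zmod_val] at h1

theorem val_pos_of_ne_zero {b : ZMod M} (hb : b ≠ 0) : 0 < b.val := by
  rcases Nat.eq_zero_or_pos b.val with h | h
  · exact absurd ((ZMod.val_eq_zero b).mp h) hb
  · exact h

/-- **`FrickeExpHyp` holds** as soon as `ζ ↦ e(1/M)` and `w b = 1 - ζ^b`. -/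
theorem frickeExpHyp_of_root
    (hζ1 : φ (algebraMap 𝒪 k (ζ : 𝒪)) = Complex.exp (2 * π * Complex.I / M))
    (hw : ∀ b : ℕ, 0 < b → b < M → ((w b : 𝒪ˣ) : 𝒪) = 1 - (ζ : 𝒪) ^ b) :
    FrickeExpHyp M φ ζ w := by
  rintro ⟨v, hv⟩
  show HasCuspExp (M : ℝ) (fun τ => 12 * Fermat.Agent.DS.P1.frickeFun M (lift v) τ) _
  rw [coeffMap_genV, map_zetaK_eq hζ1]
  by_cases h1 : v.1 = 0
  · -- the points `ζ^b`
    have h2 : v.2 ≠ 0 := fun h => hv (Prod.ext h1 h)
    have hdvd : (M : ℤ) ∣ (lift v).1 := by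
      show (M : ℤ) ∣ ((v.1.val : ℕ) : ℤ)
      rw [h1, ZMod.val_zero]
      exact dvd_zero _
    have hndvd : ¬ (M : ℤ) ∣ (lift v).2 := val_lt_of_ne_zero h2
    have key := hasCuspExp_twelve_frickeFun_zero M (lift v) hdvd hndvd
    have hgen : genV M (zetaU M) (fun b => Units.map (φ : k →* ℂ) (wK (k := k) w b)) v =
        frickeL0 M (weberFactorC ℂ) (zetaU M) (lift v).2 (oneSubZetaU M (lift v).2 hndvd) := by
      rw [genV, xV, if_pos h1, frickeL0]
      congr 4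
      apply Units.ext
      rw [coe_oneSubZetaU]
      show φ (algebraMap 𝒪 k ((w v.2.val : 𝒪ˣ) : 𝒪)) = _
      rw [hw v.2.val (val_pos_of_ne_zero h2) (ZMod.val_lt v.2), map_sub, map_sub, map_one, map_one,
        map_pow, map_pow, hζ1, Units.val_zpow_eq_zpow_val, coe_zetaU]
      show _ = 1 - Complex.exp (2 * π * Complex.I / M) ^ ((v.2.val : ℕ) : ℤ)
      rw [zpow_natCast]
    rw [hgen]
    exact key
  · have hndvd : ¬ (M : ℤ) ∣ (lift v).1 := val_lt_of_ne_zero h1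
    have key := hasCuspExp_twelve_frickeFun M (lift v) hndvd
    have hgen : genV M (zetaU M) (fun b => Units.map (φ : k →* ℂ) (wK (k := k) w b)) v =
        frickeL M (weberFactorC ℂ) (zetaU M) (lift v).1 (lift v).2 := by
      rw [genV, xV, if_neg h1, frickeL]
      rfl
    rw [hgen]
    exact key

end Exp

/-! ### Existence of the root data -/

section Root

include hζ hD in
/-- `ζ` and the units `1 - ζ^b` exist in `𝒪` -/
theorem exists_root (hinj : Function.Injective (algebraMap 𝒪 k)) :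
    ∃ (ζ : 𝒪ˣ) (w : ℕ → 𝒪ˣ),
      φ (algebraMap 𝒪 k (ζ : 𝒪)) = Complex.exp (2 * π * Complex.I / M) ∧
      ∀ b : ℕ, 0 < b → b < M → ((w b : 𝒪ˣ) : 𝒪) = 1 - (ζ : 𝒪) ^ b := by
  classical
  obtain ⟨ζ, hζ0⟩ := hζ M 1 dvd_rfl
  have hζ1 : φ (algebraMap 𝒪 k (ζ : 𝒪)) = Complex.exp (2 * π * Complex.I / M) := by
    rw [hζ0]; congr 1; push_cast; ring
  have hM0 : M ≠ 0 := NeZero.ne M
  have hdom : IsDomain 𝒪 := hinj.isDomain (algebraMap 𝒪 k)
  have hprimC : IsPrimitiveRoot (Complex.exp (2 * π * Complex.I / M)) M :=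
    Complex.isPrimitiveRoot_exp M hM0
  have hprim : IsPrimitiveRoot (ζ : 𝒪) M := by
    have hinj' : Function.Injective (φ.comp (algebraMap 𝒪 k)) := φ.injective.comp hinj
    have : IsPrimitiveRoot ((φ.comp (algebraMap 𝒪 k)) (ζ : 𝒪)) M := by
      rw [RingHom.comp_apply, hζ1]; exact hprimC
    exact IsPrimitiveRoot.of_map_of_injective this hinj'
  have hunit : ∀ b : ℕ, 0 < b → b < M → IsUnit (1 - (ζ : 𝒪) ^ b) := by
    intro b hb0 hbM
    obtain ⟨n, rfl⟩ : ∃ n, M = n + 1 := ⟨M - 1, by omega⟩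
    have hprod := hprim.prod_one_sub_pow_eq_order
    have hdvd : (1 - (ζ : 𝒪) ^ b) ∣ ((n : 𝒪) + 1) := by
      rw [← hprod]
      obtain ⟨c, rfl⟩ : ∃ c, b = c + 1 := ⟨b - 1, by omega⟩
      exact Finset.dvd_prod_of_mem (fun j => 1 - (ζ : 𝒪) ^ (j + 1))
        (Finset.mem_range.mpr (by omega))
    have hu : IsUnit ((n : 𝒪) + 1) := by
      have := hD (n + 1) dvd_rfl
      simpa using this
    exact isUnit_of_dvd_unit hdvd hu
  refine ⟨ζ, fun b => if h : 0 < b ∧ b < M then (hunit b h.1 h.2).unit else 1, hζ1, ?_⟩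
  intro b hb0 hbM
  dsimp only
  rw [dif_pos ⟨hb0, hbM⟩, IsUnit.unit_spec]

end Root

/-! ### The left action and the hypotheses of `IgusaAct` -/

section Act

/-- the LEFT action of `SL(2, ℤ)` on the index set: `g · x = gact x g⁻¹` -/
def piAct : SL(2, ℤ) →* Equiv.Perm (GIdx M) where
  toFun g :=
    { toFun := fun x => gact M x g⁻¹
      invFun := fun x => gact M x g
      left_inv := fun x => by
        show gact M (gact M x g⁻¹) g = x
        rw [← gact_mul, inv_mul_cancel, gact_one]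
      right_inv := fun x => by
        show gact M (gact M x g) g⁻¹ = x
        rw [← gact_mul, mul_inv_cancel, gact_one] }
  map_one' := by
    ext x
    show gact M x (1 : SL(2, ℤ))⁻¹ = x
    rw [inv_one, gact_one]
  map_mul' g h := by
    ext x
    show gact M x (g * h)⁻¹ = gact M (gact M x h⁻¹) g⁻¹
    rw [mul_inv_rev, gact_mul]

@[simp] theorem piAct_apply (g : SL(2, ℤ)) (x : GIdx M) : piAct M g x = gact M x g⁻¹ := rfl

variable {M φ ζ w}

/-- **`hπ`**: the permuted family satisfies the same relations. -/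
theorem relInv_piAct (hV : FrickeExpHyp M φ ζ w) (g : SL(2, ℤ)) :
    Fermat.Agent.DS.P2.IgusaAct.RelInv k (gen M φ hζ hD ζ w) (piAct M g) := fun P =>
  (famAn hζ hD hV).hker g⁻¹ P

variable (M)

/-- **`hπM`**: the action factors through `SL(2, ℤ/M)`. -/
theorem piAct_eq_of_map_eq (g g' : SL(2, ℤ))
    (h : Matrix.SpecialLinearGroup.map (Int.castRingHom (ZMod M)) g =
      Matrix.SpecialLinearGroup.map (Int.castRingHom (ZMod M)) g') : piAct M g = piAct M g' := by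
  have hn : g⁻¹ * g' ∈ Gamma M := by
    rw [Gamma_mem', map_mul, map_inv, h, inv_mul_cancel]
  ext x
  show gact M x g⁻¹ = gact M x g'⁻¹
  have h1 : g'⁻¹ = (g⁻¹ * g')⁻¹ * g⁻¹ := by group
  rw [h1, gact_mul, gact_of_mem_Gamma M x (inv_mem hn)]

variable {M}

theorem scaleHom_inv_apply {R : Type*} [CommRing R] (c : Rˣ) (x : LaurentSeries R) :
    scaleHom R c⁻¹ (scaleHom R c x) = x := by
  ext m
  rw [scaleHom_coeff, scaleHom_coeff, ← mul_assoc, ← Units.val_mul, inv_zpow, inv_mul_cancel,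
    Units.val_one, one_mul]

/-- **Twist law** for the left action: `T` acts on the expansions by `q ↦ ζ⁻¹ q`. -/
theorem gen_piAct_T (hV : FrickeExpHyp M φ ζ w)
    (hζ1 : φ (algebraMap 𝒪 k (ζ : 𝒪)) = Complex.exp (2 * π * Complex.I / M)) (x : GIdx M) :
    gen M φ hζ hD ζ w (piAct M ModularGroup.T x) =
      scaleHom k (zetaK (k := k) ζ)⁻¹ (gen M φ hζ hD ζ w x) := by
  have h1 := (famAn hζ hD hV).gen_act_T (zetaK (k := k) ζ) hζ1 (gact M x ModularGroup.T⁻¹)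
  simp only [famAn_gen, famAn_act] at h1
  rw [← gact_mul, inv_mul_cancel, gact_one] at h1
  rw [piAct_apply, h1, scaleHom_inv_apply]

/-- the twist law in `IgusaTwist.twK` form -/
theorem gen_piAct_T' [IsDomain 𝒪] [IsDiscreteValuationRing 𝒪] [IsFractionRing 𝒪 k]
    (hV : FrickeExpHyp M φ ζ w)
    (hζ1 : φ (algebraMap 𝒪 k (ζ : 𝒪)) = Complex.exp (2 * π * Complex.I / M)) (x : GIdx M) :
    gen M φ hζ hD ζ w (piAct M ModularGroup.T x) =
      Fermat.Agent.DS.P2.IgusaTwist.twK k ζ⁻¹ (gen M φ hζ hD ζ w x) := by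
  rw [gen_piAct_T hζ hD hV hζ1]
  show _ = scaleHom k (Units.map _ ζ⁻¹) _
  rw [map_inv]
  rfl

variable (M φ ζ w)

/-- the chart point: `jM` is fixed on the level of the series -/
theorem gen_piAct_xJ (g : SL(2, ℤ)) :
    gen M φ hζ hD ζ w (piAct M g (xJ M)) = gen M φ hζ hD ζ w (xJ M) := by
  rw [piAct_apply, gen_gact_xJ, gen_xJ]

/-- the point `c₀` with `gen c₀ = j(q^(M²))` -/
def xC : GIdx M := Sum.inr (idx₀ M, ⟨M, dvd_rfl⟩)

theorem gen_xC : gen M φ hζ hD ζ w (xC M) = qExpand k M (jS k M) :=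
  genC_idx₀ M φ hζ hD ⟨M, dvd_rfl⟩

theorem piAct_xC (g : SL(2, ℤ)) :
    piAct M g (xC M) = Sum.inr ((g : SL(2, ℤ)) • idx₀ M, ⟨M, dvd_rfl⟩) := by
  rw [piAct_apply, xC, gact_inr, cact, inv_inv]

theorem smul_idx₀_eq_iff (g : SL(2, ℤ)) : g • idx₀ M = idx₀ M ↔ g ∈ Gamma0 M := by
  rw [idx₀, MulAction.Quotient.smul_mk, smul_eq_mul, mul_one, eq_comm, QuotientGroup.eq, inv_one,
    one_mul]

end Act

/-! ### `F1C k M ≤ Ebig gen` -/

section Sub

/-- the coset of `S⁻¹` -/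
def idxS : CuspIdx M := ((ModularGroup.S⁻¹ : SL(2, ℤ)) : SL(2, ℤ) ⧸ Gamma0 M)

theorem dilate_S_smul (d : ℕ) (hd : 0 < d) (τ : ℍ) :
    dilate d hd (ModularGroup.S • τ) =
      ModularGroup.S • affPt 1 0 d one_pos (by exact_mod_cast hd) τ := by
  apply UpperHalfPlane.ext
  rw [UpperHalfPlane.modular_S_smul, UpperHalfPlane.modular_S_smul]
  have hτ : (τ : ℂ) ≠ 0 := UpperHalfPlane.ne_zero τ
  have hd' : (d : ℂ) ≠ 0 := by exact_mod_cast hd.ne'
  show (d : ℂ) * (-(τ : ℂ))⁻¹ = (-((affPt 1 0 d one_pos (by exact_mod_cast hd) τ : ℍ) : ℂ))⁻¹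
  have h1 : ((affPt 1 0 d one_pos (by exact_mod_cast hd) τ : ℍ) : ℂ) = (τ : ℂ) / d := by
    rw [coe_affPt]; push_cast; ring
  rw [h1]
  field_simp

theorem genFun_jIdx (d : {d : ℕ // d ∣ M}) :
    genFun M (jIdx M d) = jDil d.1 (div_pos' M d) := rfl

/-- the analytic generator at `([S⁻¹], d)` is `τ ↦ j(τ/d)` -/
theorem FC_idxS (d : {d : ℕ // d ∣ M}) (τ : ℍ) :
    FC M (idxS M, d) τ =
      jFun (affPt 1 0 d.1 one_pos (by exact_mod_cast div_pos' M d) τ) := by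
  rw [FC_eq_cosetFun, idxS, CosetSym.cosetFun_mk
    (fun γ hγ z => genFun_smul_of_mem_Gamma0 M (jIdx M d) hγ z), inv_inv, genFun_jIdx]
  show jFun (dilate d.1 (div_pos' M d) (ModularGroup.S • τ)) = _
  rw [dilate_S_smul, jFun_smul]

/-- **`j(q^(M/d))` is the generator at `([S⁻¹], d)`.** -/
theorem genC_S (d e : ℕ) [NeZero e] (hde : e * d = M) :
    genC M φ hζ hD (idxS M, ⟨d, Dvd.intro_left e hde⟩) = qExpand k e (jqModC k) := by
  have hdM : d ∣ M := Dvd.intro_left e hde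
  have hd : 0 < d := Nat.pos_of_dvd_of_pos hdM (Nat.pos_of_ne_zero (NeZero.ne M))
  have hMpos : (0 : ℝ) < (M : ℝ) := by exact_mod_cast Nat.pos_of_ne_zero (NeZero.ne M)
  apply EvalBridge.coeffMap_injective φ φ.injective
  have h1 := hasCuspExp_FC M φ hζ hD (idxS M, ⟨d, hdM⟩)
  have h2 : HasCuspExp (M : ℝ) (FC M (idxS M, ⟨d, hdM⟩)) (cuspS ℂ 1 e (jqModC ℂ)) := by
    have h3 := hasCuspExp_jFun.subst (A := 1) (D := d) (e := e) (N := M) (B := 0) hd.ne'
      (NeZero.ne M) (by rw [mul_one]; exact hde)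
      (fun τ => affPt 1 0 d one_pos (by exact_mod_cast hd) τ)
      (fun τ => by rw [coe_affPt]; push_cast; ring) 1 (by simp)
    refine h3.congr fun τ => ?_
    exact (FC_idxS M ⟨d, hdM⟩ τ).symm
  rw [h1.unique hMpos h2, cuspS_one, coeffMap_qExpand, coeffMap_jqModC]

variable {M φ ζ w}

/-- **helper45's `X₁(M)`-field lies in the field generated by the Fricke family**, literally. -/
theorem F1C_le_Ebig :
    F1C k M ≤ (Fermat.Agent.DS.P2.IgusaAct.Ebig (gen M φ hζ hD ζ w) :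
      IntermediateField k (LaurentSeries k)) := by
  rw [F1C, IntermediateField.adjoin_le_iff]
  rintro x (⟨e, he, heM, rfl⟩ | ⟨a, ha, rfl⟩)
  · obtain ⟨d, hd⟩ := heM
    have hde : e * d = M := hd.symm
    have h1 := genC_S M φ hζ hD d e hde
    have h2 : gen M φ hζ hD ζ w (Sum.inr (idxS M, ⟨d, Dvd.intro_left e hde⟩)) =
        qExpand k e (jqModC k) := h1
    rw [← h2]
    exact Fermat.Agent.DS.P2.IgusaAct.gen_mem _ _
  · have h1 : gen M φ hζ hD ζ w (Sum.inl ⟨((a, 0) : Vec M), fun h => ha (congrArg Prod.fst h)⟩) =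
        weber12C k M a := (weber12C_eq_genV M _ _ ha).symm
    rw [← h1]
    exact Fermat.Agent.DS.P2.IgusaAct.gen_mem _ _

end Sub

end Fermat.Agent.DS.P2.IgusaFam
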