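/-
GATE-N / S48 J1-port, node S48-P2-IG6-STAB (helper9, for helper87's IG-6 assembly and helper54's
concrete Igusa family).

The S28 cusp series `sK i (d, 0)` (= the expansion of `τ ↦ j(d · rep i • τ)` in `t = q^{1/N}`) has
order `-(N/d) · gcd(cIdx i, d)²`.  In particular the top member `d = N` (the expansion of
`j(N τ)` along the coset `i`, i.e. helper54's `gen (inr (i, M))`) has order `-(cIdx i)²`, which is
`-N²` exactly at the cusp `∞`:

* `order_sK_J`        : the order formula;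
* `sK_top_eq_iff`     : `sK i (N, 0) = sK idx₀ (N, 0) ↔ i = idx₀`;
* `mem_Gamma0_of_sK_top_eq` : the same for the coset of a matrix `g`: `g ∈ Γ₀(N)`;
* `hstab_of_gen`      : the `hstab` binder of the Igusa assembly for ANY family `gen` whose members
  along the orbit of `c₀` are the series `sK (g • idx₀) (N, 0)`.
-/
import Fermat.Agent.S28.Assemble
import Fermat.Agent.S28.UnitOrders

set_option autoImplicit false
set_option linter.unusedSectionVars false

noncomputable section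

namespace Fermat.Agent.DS.P2.IgusaStab

open Fermat.Agent.S28 Fermat.Agent.S28.Assemble Fermat.Agent.S28.CuspOrder
open ModularCurve HahnSeries MatrixGroups CuspExp CongruenceSubgroup

variable (N : ℕ) [NeZero N] {k : Type} [Field k] (φ : k →+* ℂ)
  {𝒪 : Type} [CommRing 𝒪] [IsLocalRing 𝒪] [Algebra 𝒪 k]
  (hζ : ∀ D B : ℕ, D ∣ N → ∃ u : 𝒪ˣ,
    φ (algebraMap 𝒪 k (u : 𝒪)) = Complex.exp (2 * Real.pi * Complex.I * B / D))
  (hD : ∀ D : ℕ, D ∣ N → IsUnit ((D : ℕ) : 𝒪))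

/-- the order of the `j`-member of the S28 cusp family at the coset `i` and the divisor `d` -/
theorem order_sK_J (i : CuspIdx N) (d : {d : ℕ // d ∣ N}) :
    (sK N φ hζ hD i (d, 0)).order =
      -(((N / d.1 : ℕ) * (Nat.gcd (cIdx N i) d.1) ^ 2 : ℕ) : ℤ) := by
  rw [sK_eq]
  show (cuspJ k _ (expoX N (d, 0) (herm N i d))).order = _
  rw [order_cuspJ, expoX, (herm N i d).expo_eq d.2, cIdx]

/-- the top divisor `d = N` -/
abbrev topDiv : {d : ℕ // d ∣ N} := ⟨N, dvd_refl N⟩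

theorem order_sK_top (i : CuspIdx N) :
    (sK N φ hζ hD i (topDiv N, 0)).order = -(((cIdx N i) ^ 2 : ℕ) : ℤ) := by
  rw [order_sK_J]
  have h1 : N / N = 1 := Nat.div_self (Nat.pos_of_ne_zero (NeZero.ne N))
  have h2 : Nat.gcd (cIdx N i) N = cIdx N i := Nat.gcd_eq_left (cIdx_dvd N i)
  show -(((N / N * (Nat.gcd (cIdx N i) N) ^ 2 : ℕ) : ℕ) : ℤ) = _
  rw [h1, h2, one_mul]

/-- **Stabiliser from the leading exponent.** -/
theorem eq_idx₀_of_sK_top_eq {i : CuspIdx N}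
    (h : sK N φ hζ hD i (topDiv N, 0) = sK N φ hζ hD (idx₀ N) (topDiv N, 0)) : i = idx₀ N := by
  have h1 := congrArg HahnSeries.order h
  rw [order_sK_top, order_sK_top, (cIdx_eq_iff N (idx₀ N)).mpr rfl, neg_inj] at h1
  have h2 : (cIdx N i) ^ 2 = N ^ 2 := by exact_mod_cast h1
  have h3 : cIdx N i = N := Nat.pow_left_injective (two_ne_zero) h2
  exact (cIdx_eq_iff N i).mp h3

theorem sK_top_eq_iff (i : CuspIdx N) :
    sK N φ hζ hD i (topDiv N, 0) = sK N φ hζ hD (idx₀ N) (topDiv N, 0) ↔ i = idx₀ N :=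
  ⟨eq_idx₀_of_sK_top_eq N φ hζ hD, fun h => h ▸ rfl⟩

/-- the coset of `g` is `idx₀` iff `g ∈ Γ₀(N)` -/
theorem mk_eq_idx₀_iff (g : SL(2, ℤ)) :
    ((g : SL(2, ℤ)) : CuspIdx N) = idx₀ N ↔ g ∈ Gamma0 N := by
  rw [idx₀, QuotientGroup.eq]
  constructor
  · intro h
    have := inv_mem h
    simpa using this
  · intro h
    simpa using inv_mem h

theorem smul_idx₀ (g : SL(2, ℤ)) : g • idx₀ N = ((g : SL(2, ℤ)) : CuspIdx N) := by
  rw [idx₀]
  show ((g * 1 : SL(2, ℤ)) : CuspIdx N) = _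
  rw [mul_one]

theorem mem_Gamma0_of_sK_top_eq {g : SL(2, ℤ)}
    (h : sK N φ hζ hD ((g : SL(2, ℤ)) : CuspIdx N) (topDiv N, 0) =
      sK N φ hζ hD (idx₀ N) (topDiv N, 0)) : g ∈ Gamma0 N :=
  (mk_eq_idx₀_iff N g).mp (eq_idx₀_of_sK_top_eq N φ hζ hD h)

/-- **The `hstab` binder of the Igusa assembly**, for any family `gen : X → k((t))` with an action
`π` such that the members on the orbit of `c₀` are the top `j`-series of the S28 cusp family:
`gen (π g c₀) = sK (g • idx₀) (N, 0)`. -/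
theorem hstab_of_gen {X : Type*} (gen : X → LaurentSeries k) (π : SL(2, ℤ) →* Equiv.Perm X)
    (c₀ : X)
    (hgen : ∀ g : SL(2, ℤ), gen (π g c₀) = sK N φ hζ hD (g • idx₀ N) (topDiv N, 0))
    (g : SL(2, ℤ)) (h : gen (π g c₀) = gen c₀) : ∃ g' ∈ Gamma0 N, π g' = π g := by
  refine ⟨g, ?_, rfl⟩
  have h1 := hgen g
  have h2 := hgen 1
  rw [map_one, Equiv.Perm.coe_one, id, one_smul] at h2
  rw [h, h2, smul_idx₀] at h1
  exact mem_Gamma0_of_sK_top_eq N φ hζ hD h1.symm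

end Fermat.Agent.DS.P2.IgusaStab
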