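/-
GATE-N / S48 J1-port, node S48-P2-IG6-STAB, file 2 (helper9): the stabiliser statement on helper54's
CONCRETE Igusa family (`DS/P2/IgusaFamDef.lean`).

`c₀ M = inr (idx₀, M)` is the index of `j(Q^M) = qExpand M (jS M)`, `Q = q^M`.  The member of the
family at `gact c₀ g` is the S28 series `sK (g⁻¹ • idx₀) (M, 0)`, of order `-(cIdx (g⁻¹ • idx₀))²`;
it equals `gen c₀` iff `g ∈ Γ₀(M)`:

* `gen_c₀`                 : `gen c₀ = qExpand k M (jS k M)`;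
* `gen_gact_c₀_eq_iff`     : `gen (gact c₀ g) = gen c₀ ↔ g ∈ Γ₀(M)`;
* `piL`, `piL_apply`       : the LEFT action hom `π g x = gact x g⁻¹ : SL(2,ℤ) →* Perm (GIdx M)`
  (the format of `IgusaAct.alphaHom`);
* `hstab`                  : `gen (π g c₀) = gen c₀ → ∃ g' ∈ Γ₀(M), π g' = π g` (helper87's binder);
* `piL_c₀_eq_iff`          : `π g c₀ = c₀ ↔ g ∈ Γ₀(M)`.
-/
import Fermat.Agent.DS.P2.IgusaStab
import Fermat.Agent.DS.P2.IgusaFamDef

set_option autoImplicit false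
set_option linter.unusedSectionVars false

noncomputable section

namespace Fermat.Agent.DS.P2.IgusaStab

open Fermat.Agent.S28 Fermat.Agent.S28.Assemble Fermat.Agent.DS.P2.IgusaFam
open ModularCurve HahnSeries MatrixGroups CongruenceSubgroup

variable (M : ℕ) [NeZero M] {k : Type} [Field k] (φ : k →+* ℂ)
  {𝒪 : Type} [CommRing 𝒪] [IsLocalRing 𝒪] [Algebra 𝒪 k]
  (hζ : ∀ D B : ℕ, D ∣ M → ∃ u : 𝒪ˣ,
    φ (algebraMap 𝒪 k (u : 𝒪)) = Complex.exp (2 * Real.pi * Complex.I * B / D))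
  (hD : ∀ D : ℕ, D ∣ M → IsUnit ((D : ℕ) : 𝒪))
  (ζ : 𝒪ˣ) (w : ℕ → 𝒪ˣ)

/-- the index of `j(Q^M)`, `Q = q^M` -/
def c₀ : GIdx M := Sum.inr (idx₀ M, topDiv M)

theorem gen_c₀ : gen M φ hζ hD ζ w (c₀ M) = qExpand k M (jS k M) :=
  genC_idx₀ M φ hζ hD (topDiv M)

theorem gen_inr_top (i : CuspIdx M) :
    gen M φ hζ hD ζ w (Sum.inr (i, topDiv M)) = sK M φ hζ hD i (topDiv M, 0) := rfl

theorem gact_c₀ (g : SL(2, ℤ)) : gact M (c₀ M) g = Sum.inr (g⁻¹ • idx₀ M, topDiv M) := rfl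

/-- a member `(i, M)` of the family equals `gen c₀` only for `i = idx₀` -/
theorem gen_inr_top_eq_iff (i : CuspIdx M) :
    gen M φ hζ hD ζ w (Sum.inr (i, topDiv M)) = gen M φ hζ hD ζ w (c₀ M) ↔ i = idx₀ M :=
  sK_top_eq_iff M φ hζ hD i

/-- **Stabiliser of `j(Q^M)` on the level of the series** (right action) -/
theorem gen_gact_c₀_eq_iff (g : SL(2, ℤ)) :
    gen M φ hζ hD ζ w (gact M (c₀ M) g) = gen M φ hζ hD ζ w (c₀ M) ↔ g ∈ Gamma0 M := by
  rw [gact_c₀, gen_inr_top_eq_iff, smul_idx₀, mk_eq_idx₀_iff, inv_mem_iff]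

/-- stabiliser of the index `c₀` (right action) -/
theorem gact_c₀_eq_iff (g : SL(2, ℤ)) : gact M (c₀ M) g = c₀ M ↔ g ∈ Gamma0 M := by
  rw [gact_c₀, c₀, Sum.inr.injEq, Prod.mk.injEq, smul_idx₀, mk_eq_idx₀_iff, inv_mem_iff]
  exact and_iff_left rfl

/-- the LEFT action of `SL(2, ℤ)` on the index set: `π g x = x · g⁻¹` -/
def piL : SL(2, ℤ) →* Equiv.Perm (GIdx M) where
  toFun g :=
    { toFun := fun x => gact M x g⁻¹
      invFun := fun x => gact M x g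
      left_inv := fun x => by
        show gact M (gact M x g⁻¹) g = x
        rw [← gact_mul, inv_mul_cancel, gact_one]
      right_inv := fun x => by
        show gact M (gact M x g) g⁻¹ = x
        rw [← gact_mul, mul_inv_cancel, gact_one] }
  map_one' := by
    ext x
    show gact M x (1 : SL(2, ℤ))⁻¹ = x
    rw [inv_one, gact_one]
  map_mul' g h := by
    ext x
    show gact M x (g * h)⁻¹ = gact M (gact M x h⁻¹) g⁻¹
    rw [mul_inv_rev, gact_mul]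

@[simp] theorem piL_apply (g : SL(2, ℤ)) (x : GIdx M) : piL M g x = gact M x g⁻¹ := rfl

/-- `π g` depends only on `g mod M` -/
theorem piL_eq_of_mem_Gamma {g h : SL(2, ℤ)} (hgh : g⁻¹ * h ∈ Gamma M) : piL M g = piL M h := by
  ext x
  rw [piL_apply, piL_apply]
  have h1 : h⁻¹ = (g⁻¹ * h)⁻¹ * g⁻¹ := by group
  rw [h1, gact_mul, gact_of_mem_Gamma M x (inv_mem hgh)]

theorem gen_piL_c₀_eq_iff (g : SL(2, ℤ)) :
    gen M φ hζ hD ζ w (piL M g (c₀ M)) = gen M φ hζ hD ζ w (c₀ M) ↔ g ∈ Gamma0 M := by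
  rw [piL_apply, gen_gact_c₀_eq_iff, inv_mem_iff]

theorem piL_c₀_eq_iff (g : SL(2, ℤ)) : piL M g (c₀ M) = c₀ M ↔ g ∈ Gamma0 M := by
  rw [piL_apply, gact_c₀_eq_iff, inv_mem_iff]

/-- **helper87's `hstab` binder on helper54's family** -/
theorem hstab (g : SL(2, ℤ))
    (h : gen M φ hζ hD ζ w (piL M g (c₀ M)) = gen M φ hζ hD ζ w (c₀ M)) :
    ∃ g' ∈ Gamma0 M, piL M g' = piL M g :=
  ⟨g, (gen_piL_c₀_eq_iff M φ hζ hD ζ w g).mp h, rfl⟩

/-- the chart point `xJ` is fixed by `π` -/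
theorem gen_piL_xJ (g : SL(2, ℤ)) :
    gen M φ hζ hD ζ w (piL M g (xJ M)) = qExpand k M (jqModC k) :=
  gen_gact_xJ M φ hζ hD ζ w g⁻¹

end Fermat.Agent.DS.P2.IgusaStab
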