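/-
GATE-N / S48 J1-port, node S48-P2-IG-CYC, file 1 (helper54): the Fricke family of level `M` at the
concrete base `(k, 𝒪, φ) = (S28.cycK M, S28.cycO M ℓ, cycEmb M)`, `ℓ ∤ M` — closed terms.

* `hζC`, `hDC`, `hinjC` : the `S28.Assemble` hypotheses at the cyclotomic base (as in `S28.cycDatum`);
* `zetaO`, `wO`, `zetaO_spec`, `wO_spec` : `ζ = e(1/M)` and the units `1 - ζ^b` of `cycO M ℓ`;
* `hVC` : `FrickeExpHyp` at the cyclotomic base; `genCyc`, `famCyc : FamAn (cycEmb M) M (GIdx M)`;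
* the binders of the Igusa assembly, closed: `relInv_cyc` (hπ), `piAct_eq_of_map_eq` (hπM, generic),
  `twist_cyc` (htw on generators, unit `(zetaO)⁻¹`), `gen_xJ_cyc`, `gen_piAct_xJ_cyc` (chart point),
  `gen_xC_cyc` (the point `c₀`), `hstab_cyc`, `genCyc_mem_intSeries`, `F1C_le_Ebig_cyc`.
-/
import Fermat.Agent.DS.P2.IgusaFamInst
import Fermat.Agent.DS.P2.IgusaStabFam
import Fermat.Agent.S28.DatumInst

set_option autoImplicit false
set_option linter.unusedSectionVars false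

noncomputable section

namespace Fermat.Agent.DS.P2.IgusaFam.Cyc

open UpperHalfPlane ModularCurve HahnSeries MatrixGroups CongruenceSubgroup
open Fermat.Agent.S28 Fermat.Agent.S28.Assemble Fermat.Agent.S28.CuspExp
open Fermat.Agent.DS.P2.IgusaFam Fermat.Agent.DS.P0
open scoped Real

variable (M : ℕ) [NeZero M] (ℓ : ℕ) [Fact ℓ.Prime]

/-- the roots of unity come from units of `cycO M ℓ` -/
theorem hζC : ∀ D B : ℕ, D ∣ M → ∃ u : (cycO M ℓ)ˣ,
    cycEmb M (algebraMap (cycO M ℓ) (cycK M) (u : cycO M ℓ)) =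
      Complex.exp (2 * Real.pi * Complex.I * B / D) :=
  fun _ B hD => exists_unit_cycO_twist M ℓ hD B

variable {M ℓ} in
/-- the divisors of `M` are units of `cycO M ℓ` -/
theorem hDC (hℓM : ¬ ℓ ∣ M) : ∀ D : ℕ, D ∣ M → IsUnit ((D : ℕ) : cycO M ℓ) :=
  fun _ hD => isUnit_natCast_cycO M ℓ (not_dvd_of_dvd_of_not_dvd M ℓ hD hℓM)

theorem hinjC : Function.Injective (algebraMap (cycO M ℓ) (cycK M)) :=
  Subtype.val_injective

variable {M ℓ}
variable (hℓM : ¬ ℓ ∣ M)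

/-- `ζ = e(1/M)` as a unit of `cycO M ℓ` -/
def zetaO : (cycO M ℓ)ˣ :=
  (exists_root M (cycEmb M) (hζC M ℓ) (hDC hℓM) (hinjC M ℓ)).choose

/-- the units `1 - ζ^b` of `cycO M ℓ` -/
def wO : ℕ → (cycO M ℓ)ˣ :=
  (exists_root M (cycEmb M) (hζC M ℓ) (hDC hℓM) (hinjC M ℓ)).choose_spec.choose

theorem zetaO_spec :
    cycEmb M (algebraMap (cycO M ℓ) (cycK M) ((zetaO hℓM : (cycO M ℓ)ˣ) : cycO M ℓ)) =
      Complex.exp (2 * π * Complex.I / M) :=
  (exists_root M (cycEmb M) (hζC M ℓ) (hDC hℓM) (hinjC M ℓ)).choose_spec.choose_spec.1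

theorem wO_spec (b : ℕ) (hb0 : 0 < b) (hbM : b < M) :
    ((wO hℓM b : (cycO M ℓ)ˣ) : cycO M ℓ) = 1 - ((zetaO hℓM : (cycO M ℓ)ˣ) : cycO M ℓ) ^ b :=
  (exists_root M (cycEmb M) (hζC M ℓ) (hDC hℓM) (hinjC M ℓ)).choose_spec.choose_spec.2 b hb0 hbM

/-- **the analytic hypothesis at the cyclotomic base** -/
theorem hVC : FrickeExpHyp M (cycEmb M) (zetaO hℓM) (wO hℓM) :=
  frickeExpHyp_of_root (zetaO_spec hℓM) (wO_spec hℓM)

/-- the formal generators over `cycK M` -/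
def genCyc : GIdx M → LaurentSeries (cycK M) :=
  gen M (cycEmb M) (hζC M ℓ) (hDC hℓM) (zetaO hℓM) (wO hℓM)

/-- **the Fricke family of level `M` over `ℚ(ζ_M)`**, unconditional -/
def famCyc : FamAn (cycEmb M) M (GIdx M) := famAn (hζC M ℓ) (hDC hℓM) (hVC hℓM)

@[simp] theorem famCyc_gen : (famCyc hℓM).gen = genCyc hℓM := rfl

@[simp] theorem famCyc_act : (famCyc hℓM).act = gact M := rfl

/-- integrality of all generators -/
theorem genCyc_mem_intSeries (x : GIdx M) : genCyc hℓM x ∈ intSeries (cycO M ℓ) (cycK M) :=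
  gen_mem_intSeries M (cycEmb M) (hζC M ℓ) (hDC hℓM) (zetaO hℓM) (wO hℓM) x

/-- **`hπ`** -/
theorem relInv_cyc (g : SL(2, ℤ)) :
    Fermat.Agent.DS.P2.IgusaAct.RelInv (cycK M) (genCyc hℓM) (piAct M g) :=
  relInv_piAct (hζC M ℓ) (hDC hℓM) (hVC hℓM) g

/-- **twist law** on the generators (unit `ζ⁻¹`) -/
theorem twist_cyc (x : GIdx M) :
    genCyc hℓM (piAct M ModularGroup.T x) =
      Fermat.Agent.DS.P2.IgusaTwist.twK (cycK M) (zetaO hℓM)⁻¹ (genCyc hℓM x) :=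
  gen_piAct_T' (hζC M ℓ) (hDC hℓM) (hVC hℓM) (zetaO_spec hℓM) x

/-- the chart point -/
theorem gen_xJ_cyc : genCyc hℓM (xJ M) = qExpand (cycK M) M (jqModC (cycK M)) :=
  gen_xJ M (cycEmb M) (hζC M ℓ) (hDC hℓM) (zetaO hℓM) (wO hℓM)

theorem gen_piAct_xJ_cyc (g : SL(2, ℤ)) :
    genCyc hℓM (piAct M g (xJ M)) = genCyc hℓM (xJ M) :=
  gen_piAct_xJ M (cycEmb M) (hζC M ℓ) (hDC hℓM) (zetaO hℓM) (wO hℓM) g

/-- the point `c₀` -/
theorem gen_xC_cyc : genCyc hℓM (xC M) = qExpand (cycK M) M (jS (cycK M) M) :=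
  gen_xC M (cycEmb M) (hζC M ℓ) (hDC hℓM) (zetaO hℓM) (wO hℓM)

/-- helper9's `piL` is `piAct` -/
theorem piL_eq_piAct : Fermat.Agent.DS.P2.IgusaStab.piL M = piAct M := by
  ext g x
  rfl

theorem c₀_eq_xC : Fermat.Agent.DS.P2.IgusaStab.c₀ M = xC M := rfl

/-- **`hstab`** (helper9's, transported to `piAct`, `xC`) -/
theorem hstab_cyc (g : SL(2, ℤ))
    (h : genCyc hℓM (piAct M g (xC M)) = genCyc hℓM (xC M)) :
    ∃ g' ∈ Gamma0 M, piAct M g' = piAct M g := by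
  have := Fermat.Agent.DS.P2.IgusaStab.hstab M (cycEmb M) (hζC M ℓ) (hDC hℓM) (zetaO hℓM)
    (wO hℓM) g (by rw [piL_eq_piAct, c₀_eq_xC]; exact h)
  rwa [piL_eq_piAct] at this

/-- **helper45's `X₁(M)`-field over `ℚ(ζ_M)` lies in the level `M` field.** -/
theorem F1C_le_Ebig_cyc :
    F1C (cycK M) M ≤ (Fermat.Agent.DS.P2.IgusaAct.Ebig (genCyc hℓM) :
      IntermediateField (cycK M) (LaurentSeries (cycK M))) :=
  F1C_le_Ebig (hζC M ℓ) (hDC hℓM)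

end Fermat.Agent.DS.P2.IgusaFam.Cyc
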