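/-
# GATE-N / P2 / IG-CYC core (helper66, hedge): the Igusa core on the level `M` Fricke field over
`(cycK M, cycO M ℓ)` and `IgusaAt M ℓ` for every prime `ℓ ∤ M`, UNCONDITIONAL.

`coreFin_cyc` = `IgusaAsmH.igusa_coreFin` on helper54's closed family `IgusaFam.Cyc` with
`h := IgusaChartHyp.chartHyp_of_famAn_eq`, `D := S28.cycDatum`; `igusaAt_thm` = helper92's
`IgusaAtPlug.igusaAt_of_core_cyc` applied to it.
-/
import Fermat.Agent.DS.P2.IgusaAsmH
import Fermat.Agent.DS.P2.IgusaChartHyp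
import Fermat.Agent.DS.P2.IgusaFamCyc
import Fermat.Agent.DS.P2.IgusaAtPlug

set_option autoImplicit false
set_option linter.unusedSectionVars false
noncomputable section

namespace Fermat.Agent.DS.P2.IgusaCycCoreH

open UpperHalfPlane ModularCurve HahnSeries MatrixGroups CongruenceSubgroup
open Fermat.Agent.S28 Fermat.Agent.DS.P2.IgusaFam Fermat.Agent.DS.P2.IgusaFam.Cyc
  Fermat.Agent.DS.P2.IgusaAct Fermat.Agent.DS.P2.IgusaAbs Fermat.Agent.DS.P2.IgusaChartHyp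
  Fermat.Agent.DS.P2.IgusaAsmH
open scoped Real

theorem finite_dvd (M : ℕ) [NeZero M] : Finite {d : ℕ // d ∣ M} :=
  Finite.of_injective
    (fun d : {d : ℕ // d ∣ M} =>
      (⟨d.1, Nat.lt_succ_of_le (Nat.le_of_dvd (Nat.pos_of_ne_zero (NeZero.ne M)) d.2)⟩ :
        Fin (M + 1)))
    (fun a b h => Subtype.ext (by simpa using congrArg Fin.val h))

theorem finite_GIdx (M : ℕ) [NeZero M] : Finite (GIdx M) := by
  haveI := finite_dvd M
  infer_instance

variable {M : ℕ} [NeZero M] {ℓ : ℕ} [Fact ℓ.Prime] (hℓM : ¬ ℓ ∣ M)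

/-- **the Igusa core on the level `M` Fricke field over `(cycK M, cycO M ℓ)`**, unconditional -/
theorem coreFin_cyc {ϖ : cycO M ℓ} (hϖ : Irreducible ϖ)
    {a : Ebig (k := cycK M) (genCyc hℓM)}
    (ha : (evalE (cycO M ℓ) (cycK M) (genE (k := cycK M) (genCyc hℓM) (xJ M))).IsIntegralElem a)
    (hdiv : ∃ v ∈ gaussRing (cycO M ℓ) (cycK M),
      ((a : Ebig (k := cycK M) (genCyc hℓM)) : LaurentSeries (cycK M)) =
        HahnSeries.C (algebraMap (cycO M ℓ) (cycK M) ϖ) * v) :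
    (evalE (cycO M ℓ) (cycK M) (genE (k := cycK M) (genCyc hℓM) (xJ M))).IsIntegralElem
      (algebraMap (cycK M) (Ebig (k := cycK M) (genCyc hℓM))
        (algebraMap (cycO M ℓ) (cycK M) ϖ)⁻¹ * a) := by
  classical
  haveI : Finite (GIdx M) := finite_GIdx M
  haveI : Finite (Gam (genCyc hℓM) (piAct M) (relInv_cyc hℓM)) := finite_range _ _ _
  letI : Fintype (Gam (genCyc hℓM) (piAct M) (relInv_cyc hℓM)) := Fintype.ofFinite _
  have h := chartHyp_of_famAn_eq (O := cycO M ℓ) (famCyc hℓM) (piAct M) (genCyc hℓM) rfl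
    (relInv_cyc hℓM)
    (fun x g => by rw [piAct_apply, inv_inv]; rfl)
    (gen_xJ_cyc hℓM) (gen_piAct_xJ_cyc hℓM)
    (fun x => gaussRing_le_gaussField (intSeries_le_gaussRing (genCyc_mem_intSeries hℓM x)))
  exact igusa_coreFin (genCyc hℓM) (piAct M) (relInv_cyc hℓM) (cycDatum M ℓ hℓM)
    (gen_xJ_cyc hℓM) (gen_xC_cyc hℓM) (piAct_eq_of_map_eq M) (zetaO hℓM)⁻¹
    (twist_cyc hℓM) (hstab_cyc hℓM) h hϖ ha hdiv

include hℓM in
/-- **`IgusaAt M ℓ` for every prime `ℓ ∤ M`** -/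
theorem igusaAt_thm : Fermat.Agent.DS.P2.K18sPortF1.IgusaAt M ℓ :=
  Fermat.Agent.DS.P2.IgusaAtPlug.igusaAt_of_core_cyc M ℓ hℓM
    (Ebig (k := cycK M) (genCyc hℓM)) (F1C_le_Ebig_cyc hℓM)
    (genE (k := cycK M) (genCyc hℓM) (xJ M)) (gen_xJ_cyc hℓM)
    (fun hϖ _ ha hdiv => coreFin_cyc hℓM hϖ ha hdiv)

end Fermat.Agent.DS.P2.IgusaCycCoreH
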