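/-
GATE-N / S48 J1-port, node S48-P2-IG-CYC, file 2 (helper54): **Igusa's theorem at the port level,
UNCONDITIONAL**: `igusaAt : K18sPortF1.IgusaAt M ℓ` for every prime `ℓ ∤ M`.

The closed call: helper66's `IgusaAsmH.igusa_coreFin` (assembly of helper87's IG-1..IG-4, IOTA,
helper9's FixedFieldAbs) on the Fricke family `genCyc` of `IgusaFamCyc.lean` over
`(cycK M, cycO M ℓ)`, with the S28 cusp datum `S28.cycDatum`, fed to helper92's
`IgusaAtPlug.igusaAt_of_core_cyc`.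

* `chartHyp_cyc`, `chartHyp_inv_cyc` : the chart hypotheses (helper66's `chartHyp_of_famAn_eq`);
* `coreFin_cyc`, `coreInf_cyc`      : the Igusa core on `Ebig (genCyc hℓM)`, both charts;
* `igusaAt`                          : `IgusaAt M ℓ`;
* `hIG_all`                          : the `hIG` binder of `K18sPortF1.hK_F1`.
-/
import Fermat.Agent.DS.P2.IgusaFamCyc
import Fermat.Agent.DS.P2.IgusaAsmH
import Fermat.Agent.DS.P2.IgusaChartHyp
import Fermat.Agent.DS.P2.IgusaAtPlug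

set_option autoImplicit false
set_option linter.unusedSectionVars false

noncomputable section

namespace Fermat.Agent.DS.P2.IgusaFam.Cyc

open UpperHalfPlane ModularCurve HahnSeries MatrixGroups CongruenceSubgroup
open Fermat.Agent.S28 Fermat.Agent.S28.Assemble
open Fermat.Agent.DS.P2.IgusaFam Fermat.Agent.DS.P0
open Fermat.Agent.DS.P2.IgusaAct Fermat.Agent.DS.P2.IgusaAbs

variable {M : ℕ} [NeZero M] {ℓ : ℕ} [Fact ℓ.Prime] (hℓM : ¬ ℓ ∣ M)

/-- the image of `SL(2,ℤ)` in the automorphism group of the level `M` field -/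
abbrev GamCyc : Subgroup (Ebig (k := cycK M) (genCyc hℓM) ≃ₐ[cycK M]
    Ebig (k := cycK M) (genCyc hℓM)) :=
  Gam (genCyc hℓM) (piAct M) (relInv_cyc hℓM)

instance finite_GamCyc : Finite (GamCyc hℓM) :=
  finite_range (genCyc hℓM) (piAct M) (relInv_cyc hℓM)

instance fintype_GamCyc : Fintype (GamCyc hℓM) := Fintype.ofFinite _

instance decEq_GamCyc : DecidableEq (GamCyc hℓM) := Classical.decEq _

theorem hact_cyc (x : GIdx M) (g : SL(2, ℤ)) : (famCyc hℓM).act x g = piAct M g⁻¹ x := by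
  rw [piAct_apply, inv_inv]
  rfl

theorem hgauss_cyc (x : GIdx M) : genCyc hℓM x ∈ gaussField (cycO M ℓ) (cycK M) :=
  gaussRing_le_gaussField (intSeries_le_gaussRing (genCyc_mem_intSeries hℓM x))

/-- **the chart hypotheses, finite chart `j(q^M)`** -/
theorem chartHyp_cyc :
    ChartHyp (O := cycO M ℓ) (sig (GamCyc hℓM) (Ebig (k := cycK M) (genCyc hℓM)).val)
      (genE (genCyc hℓM) (xJ M)) (ChartHypInst.Gs (cycK M) M) :=
  Fermat.Agent.DS.P2.IgusaChartHyp.chartHyp_of_famAn_eq (famCyc hℓM) (piAct M) (genCyc hℓM) rfl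
    (relInv_cyc hℓM) (hact_cyc hℓM) (gen_xJ_cyc hℓM) (gen_piAct_xJ_cyc hℓM) (hgauss_cyc hℓM)

/-- **the chart hypotheses, chart at infinity** -/
theorem chartHyp_inv_cyc :
    ChartHyp (O := cycO M ℓ) (sig (GamCyc hℓM) (Ebig (k := cycK M) (genCyc hℓM)).val)
      (genE (genCyc hℓM) (xJ M))⁻¹ (ChartHypInst.Gs (cycK M) M)⁻¹ :=
  Fermat.Agent.DS.P2.IgusaChartHyp.chartHyp_inv_of_famAn_eq (famCyc hℓM) (piAct M) (genCyc hℓM) rfl
    (relInv_cyc hℓM) (hact_cyc hℓM) (gen_xJ_cyc hℓM) (gen_piAct_xJ_cyc hℓM) (hgauss_cyc hℓM)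

/-- **Igusa core on the level `M` field over `ℚ(ζ_M)`, finite chart.** -/
theorem coreFin_cyc {ϖ : cycO M ℓ} (hϖ : Irreducible ϖ)
    {a : Ebig (k := cycK M) (genCyc hℓM)}
    (ha : (evalE (cycO M ℓ) (cycK M) (genE (k := cycK M) (genCyc hℓM) (xJ M))).IsIntegralElem a)
    (hdiv : ∃ v ∈ gaussRing (cycO M ℓ) (cycK M),
      ((a : Ebig (k := cycK M) (genCyc hℓM)) : LaurentSeries (cycK M)) =
        HahnSeries.C (algebraMap (cycO M ℓ) (cycK M) ϖ) * v) :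
    (evalE (cycO M ℓ) (cycK M) (genE (k := cycK M) (genCyc hℓM) (xJ M))).IsIntegralElem
      (algebraMap (cycK M) (Ebig (k := cycK M) (genCyc hℓM))
        (algebraMap (cycO M ℓ) (cycK M) ϖ)⁻¹ * a) :=
  Fermat.Agent.DS.P2.IgusaAsmH.igusa_coreFin (genCyc hℓM) (piAct M) (relInv_cyc hℓM)
    (cycDatum M ℓ hℓM) (gen_xJ_cyc hℓM) (gen_xC_cyc hℓM)
    (piAct_eq_of_map_eq M) (zetaO hℓM)⁻¹ (twist_cyc hℓM) (hstab_cyc hℓM)
    (chartHyp_cyc hℓM) hϖ ha hdiv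

/-- **Igusa core on the level `M` field over `ℚ(ζ_M)`, chart at infinity.** -/
theorem coreInf_cyc {ϖ : cycO M ℓ} (hϖ : Irreducible ϖ)
    {b : Ebig (k := cycK M) (genCyc hℓM)}
    (hb : (evalE (cycO M ℓ) (cycK M)
      (genE (k := cycK M) (genCyc hℓM) (xJ M))⁻¹).IsIntegralElem b)
    (hdiv : ∃ v ∈ gaussRing (cycO M ℓ) (cycK M),
      ((b : Ebig (k := cycK M) (genCyc hℓM)) : LaurentSeries (cycK M)) =
        HahnSeries.C (algebraMap (cycO M ℓ) (cycK M) ϖ) * v) :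
    (evalE (cycO M ℓ) (cycK M) (genE (k := cycK M) (genCyc hℓM) (xJ M))⁻¹).IsIntegralElem
      (algebraMap (cycK M) (Ebig (k := cycK M) (genCyc hℓM))
        (algebraMap (cycO M ℓ) (cycK M) ϖ)⁻¹ * b) :=
  Fermat.Agent.DS.P2.IgusaAsmH.igusa_coreInf (genCyc hℓM) (piAct M) (relInv_cyc hℓM)
    (cycDatum M ℓ hℓM) (gen_xJ_cyc hℓM) (gen_xC_cyc hℓM)
    (piAct_eq_of_map_eq M) (zetaO hℓM)⁻¹ (twist_cyc hℓM) (hstab_cyc hℓM)
    (chartHyp_cyc hℓM) (chartHyp_inv_cyc hℓM) hϖ hb hdiv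

include hℓM in
/-- **Igusa's theorem at the port level `M`, at a prime `ℓ ∤ M`: UNCONDITIONAL.** -/
theorem igusaAt : Fermat.Agent.DS.P2.K18sPortF1.IgusaAt M ℓ :=
  Fermat.Agent.DS.P2.IgusaAtPlug.igusaAt_of_core_cyc M ℓ hℓM
    (Ebig (k := cycK M) (genCyc hℓM)) (F1C_le_Ebig_cyc hℓM)
    (genE (k := cycK M) (genCyc hℓM) (xJ M)) (gen_xJ_cyc hℓM)
    (fun hϖ _ ha hdiv => coreFin_cyc hℓM hϖ ha hdiv)

end Fermat.Agent.DS.P2.IgusaFam.Cyc

namespace Fermat.Agent.DS.P2.IgusaFam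

/-- **the `hIG` binder of `K18sPortF1.hK_F1`**, closed. -/
theorem hIG_all (M : ℕ) [NeZero M] :
    ∀ q : ℕ, q.Prime → ¬ q ∣ M → Fermat.Agent.DS.P2.K18sPortF1.IgusaAt M q := by
  intro q hq hqM
  have : Fact q.Prime := ⟨hq⟩
  exact Cyc.igusaAt hqM

end Fermat.Agent.DS.P2.IgusaFam
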