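/-
S48 / Γ₁(M)-port, node P2 assembly (helper22): `K18sF` for `ℚ̄(X₁(M))` in ONE call from
* P1: `IsGen`, `JRam` of `j = j(q)` at every place (helper96 OrbitGen / helper30 DegreeGen),
* the Igusa node at the chart `jE = j(q^M)` (helper87 IgusaAbs + instance): degree preservation,
via helper9 `K18s1Aux.k18s1_aux` and the chart bridge `ChartBridge.hdeg_j1_of_hdeg_jM`.
-/
import Fermat.Agent.DS.P2.ChartBridge
import Fermat.Agent.DS.P2.K18s1Aux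

set_option autoImplicit false

noncomputable section

namespace Fermat.Agent.DS.P2.K18s1OfIgusa

open IsLocalRing IntermediateField AlgebraicCurve
open Fermat.Agent.GJ.J1 Fermat.Agent.GJ.J1.Val Fermat.Agent.DS.P0
open Fermat.Agent.DS.P2.GaussF1 Fermat.Agent.DS.P2.KGen Fermat.Agent.GJ.Aux
open Fermat.Agent.S24 Fermat.Agent.GJ.J1.DiffAdapter

local notation "Kb" => AlgebraicClosure ℚ

variable (M : ℕ) [NeZero M] (A : ValuationSubring Kb)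

local notation "𝕜" => ResidueField A

/-- **(K18s) for `ℚ̄(X₁(M))`** at `A | ℓ`, `ℓ ∤ M` (`3 ∣ M` if `ℓ = 2`, `2 ∣ M` if `ℓ = 3`), `ℓ ∤ m`,
from P1 (`IsGen`, `JRam` of `j(q)`) and the Igusa degree statement at `jE = j(q^M)`. -/
theorem k18s1_of_igusa {ℓ : ℕ} [Fact ℓ.Prime] (hA : A.LiesOverPrime ℓ) (hℓM : ¬ ℓ ∣ M)
    (h2 : ℓ = 2 → 3 ∣ M) (h3 : ℓ = 3 → 2 ∣ M)
    (x₀ : F1C Kb M) [IsGen Kb x₀]
    (hJ : ∀ v : Place Kb (F1C Kb M), Branch.JRam v (genJ1 Kb A M (one_dvd M)))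
    (hIG : Module.finrank Kb⟮genJ1 Kb A M (dvd_refl M)⟯ (F1C Kb M) ≤
      Module.finrank
        𝕜⟮(redData1C Kb A M).red ⟨genJ1 Kb A M (dvd_refl M), genJ1_mem_Rw1C Kb A M _⟩⟯
        (Fres1C Kb A M))
    {m : ℕ} (hm : ¬ ℓ ∣ m) : K18sF A (IsLocalRing.residue A) (F1C Kb M) m :=
  Fermat.Agent.DS.P2.K18s1Aux.k18s1_aux M A hA h2 h3 x₀ hJ
    (Fermat.Agent.DS.P2.ChartBridge.hdeg_j1_of_hdeg_jM M A hℓM hA hIG) hm

end Fermat.Agent.DS.P2.K18s1OfIgusa
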