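/-
GATE-N / S48 J1-port, node S48-P2-IG-CYC, file 3 (helper54): the `hIG` binder of helper69's
`DS/Port/PlugTest2.portExport1_of_open_leaves2` (shape `PlugP2.IgusaDeg M A`), closed.
-/
import Fermat.Agent.DS.P2.IgusaFamCycCore
import Fermat.Agent.DS.Port.PlugP2

set_option autoImplicit false

noncomputable section

namespace Fermat.Agent.DS.P2.IgusaFam

/-- **Igusa's degree statement at every valuation subring over a prime `ℓ ∤ M`.** -/
theorem igusaDeg (M : ℕ) [NeZero M] {ℓ : ℕ} (hℓ : ℓ.Prime) (hℓM : ¬ ℓ ∣ M)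
    (A : ValuationSubring (AlgebraicClosure ℚ)) (hA : A.LiesOverPrime ℓ) :
    Fermat.Agent.DS.Port.PlugP2.IgusaDeg M A :=
  hIG_all M ℓ hℓ hℓM A hA

/-- **the `hIG` binder of `portExport1_of_open_leaves2`**, closed. -/
theorem hIG_port (M : ℕ) [NeZero M] (p : ℕ) :
    ∀ ℓ : ℕ, ℓ.Prime → ¬ ℓ ∣ M * p → ∀ A : ValuationSubring (AlgebraicClosure ℚ),
      A.LiesOverPrime ℓ → Fermat.Agent.DS.Port.PlugP2.IgusaDeg M A :=
  fun _ hℓ hℓMp A hA => igusaDeg M hℓ (fun h => hℓMp (Dvd.dvd.mul_right h p)) A hA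

end Fermat.Agent.DS.P2.IgusaFam
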