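/-
# GATE-N / P2 / IG-4 (helper66): the `X₀`-input `hX0` of the abstract Igusa step

`IgusaAbs.rho_eq_zero_iff_of_twist` needs: on the integral elements of a subfield `E0 ⊆ E` all the
reductions `h.rho g` have the same zero set.  Here:

* `rho_eq_zero_iff_of_sub` : if `E0 = ι(E')` for a `k`-embedding `ι : E' → E` with `ι G' = G`, and
  `E'` carries its own chart family `σ'` (same `Gs`) whose reductions all have the same kernel,
  then `hX0` holds — every `σ i ∘ ι` is one of the `σ' i'` by `IgusaAbs.exists_eq_sigma`;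
* `rho_eq_zero_iff_of_cuspDatum` : the case `E' = bigField k N` with ANY S28 cusp datum
  (`ChartHypInst.chartHyp`, `ChartUnits.hunits`, `ChartHyp.rho_ker_eq` are unconditional there).
-/
import Fermat.Agent.DS.P2.IgusaAbs
import Fermat.Agent.S28.ChartUnits

set_option autoImplicit false
set_option linter.unusedSectionVars false

noncomputable section

namespace Fermat.Agent.DS.P2.IgusaX0Gauss

open Polynomial Fermat.Agent.S28 Fermat.Agent.DS.P2.IgusaAbs ModularCurve

section Sub

variable {O : Type*} {k : Type*} [CommRing O] [IsDomain O] [IsDiscreteValuationRing O]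
  [Field k] [Algebra O k] [IsFractionRing O k]
variable {E : Type*} [Field E] [Algebra k E] {I : Type*} [Fintype I] [DecidableEq I]
variable {E' : Type*} [Field E'] [Algebra k E'] {I' : Type*} [Fintype I'] [DecidableEq I']
variable {σ : I → (E →ₐ[k] LaurentSeries k)} {G : E} {Gs : LaurentSeries k}
variable {σ' : I' → (E' →ₐ[k] LaurentSeries k)} {G' : E'}

/-- composing `evalE` with a `k`-algebra homomorphism -/
theorem algHom_comp_evalE' (ι : E' →ₐ[k] E) (G' : E') :
    (ι : E' →+* E).comp (evalE O k G') = evalE O k (ι G') := by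
  apply Polynomial.ringHom_ext
  · intro a
    simp [evalE]
  · simp [evalE]

/-- integrality over `O[G]` descends along a `k`-embedding -/
theorem isIntegralElem_of_algHom (ι : E' →ₐ[k] E) (hιG : ι G' = G) {y : E'}
    (hy : (evalE O k G).IsIntegralElem (ι y)) : (evalE O k G').IsIntegralElem y := by
  rw [← hιG, ← algHom_comp_evalE'] at hy
  exact hy.of_map (ι : E' →+* E).injective

/-- integrality over `O[G]` is preserved by a `k`-embedding -/
theorem isIntegralElem_algHom (ι : E' →ₐ[k] E) (hιG : ι G' = G) {y : E'}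
    (hy : (evalE O k G').IsIntegralElem y) : (evalE O k G).IsIntegralElem (ι y) := by
  have h1 := RingHom.IsIntegralElem.map (f := evalE O k G') hy (ι : E' →+* E)
  rwa [algHom_comp_evalE', hιG] at h1

/-- the reduction of `ι y` at the expansion `σ i` is a reduction of `y` at some `σ' i'` -/
theorem exists_rho_eq (h : ChartHyp (O := O) σ G Gs) (h' : ChartHyp (O := O) σ' G' Gs)
    [Infinite k] [Nonempty I'] (ι : E' →ₐ[k] E) (hιG : ι G' = G) (i : I) :
    ∃ i' : I', ∀ (y : E') (hy : (evalE O k G').IsIntegralElem y),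
      h.rho i ⟨ι y, isIntegralElem_algHom ι hιG hy⟩ = h'.rho i' ⟨y, hy⟩ := by
  have hτ : ((σ i).comp ι) G' = Gs := by
    rw [AlgHom.comp_apply, hιG, h.map_G]
  obtain ⟨i', hi'⟩ := exists_eq_sigma h' ((σ i).comp ι) hτ
  refine ⟨i', fun y hy => ?_⟩
  rw [ChartHyp.rho_apply, ChartHyp.rho_apply]
  congr 1
  apply Subtype.ext
  show σ i (ι y) = σ' i' y
  rw [← hi']
  rfl

/-- **`hX0` from a sub-chart.**  All reductions of the big chart have the same zero set on the
integral elements lying in the image of `ι`, provided the reductions of the small chart all have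
the same kernel. -/
theorem rho_eq_zero_iff_of_sub (h : ChartHyp (O := O) σ G Gs) (h' : ChartHyp (O := O) σ' G' Gs)
    [Infinite k] [Nonempty I'] (ι : E' →ₐ[k] E) (hιG : ι G' = G)
    (hker : ∀ i' j' : I', RingHom.ker (h'.rho i') = RingHom.ker (h'.rho j'))
    (i j : I) (x : intSubring (evalE O k G)) (hx : (x : E) ∈ ι.range) :
    h.rho i x = 0 ↔ h.rho j x = 0 := by
  obtain ⟨y, hy⟩ := hx
  have hy : ι y = (x : E) := hy
  have hyint : (evalE O k G').IsIntegralElem y :=
    isIntegralElem_of_algHom ι hιG (by rw [hy]; exact x.2)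
  have hxy : x = ⟨ι y, isIntegralElem_algHom ι hιG hyint⟩ := Subtype.ext hy.symm
  obtain ⟨i', hi'⟩ := exists_rho_eq h h' ι hιG i
  obtain ⟨j', hj'⟩ := exists_rho_eq h h' ι hιG j
  rw [hxy, hi' y hyint, hj' y hyint, ← RingHom.mem_ker, ← RingHom.mem_ker, hker i' j']

end Sub

section Datum

variable {k : Type} [Field k] {O : Type} [CommRing O] [IsDomain O] [IsDiscreteValuationRing O]
  [Algebra O k] [IsFractionRing O k] {N : ℕ} [NeZero N]
variable {E : Type*} [Field E] [Algebra k E] {I : Type*} [Fintype I] [DecidableEq I]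
variable {σ : I → (E →ₐ[k] LaurentSeries k)} {G : E}

/-- all reductions of an S28 cusp datum have the same kernel (S28 `X₀`-theorem, kernel form) -/
theorem cuspDatum_ker_eq (D : CuspDatum k N O) (i j : D.I) :
    RingHom.ker ((ChartHypInst.chartHyp D).rho i) = RingHom.ker ((ChartHypInst.chartHyp D).rho j) :=
  (ChartHypInst.chartHyp D).rho_ker_eq N (NeZero.ne N) D.cI D.cI_dvd D.i₀ D.cI_eq_iff
    (ChartUnits.hunits D) i j

/-- **`hX0` from an S28 cusp datum**: `E0 := ι(bigField k N)` for a `k`-embedding `ι` of the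
`X₀(N)`-field into `E` sending `j` to `G` (`Gs = j(q^N)`). -/
theorem rho_eq_zero_iff_of_cuspDatum (D : CuspDatum k N O)
    (h : ChartHyp (O := O) σ G (ChartHypInst.Gs k N))
    (ι : bigField k N →ₐ[k] E) (hιG : ι (ChartHypInst.Gj k N) = G)
    (i j : I) (x : intSubring (evalE O k G)) (hx : (x : E) ∈ ι.range) :
    h.rho i x = 0 ↔ h.rho j x = 0 := by
  haveI : Infinite k := infinite_of_dvr (O := O)
  haveI : Nonempty D.I := ⟨D.i₀⟩
  exact rho_eq_zero_iff_of_sub h (ChartHypInst.chartHyp D) ι hιG (cuspDatum_ker_eq D) i j x hx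

end Datum

end Fermat.Agent.DS.P2.IgusaX0Gauss
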