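import Fermat.Agent.GJ.J1.K18Modular

/-!
# GATE-N / S48 J1-PORT, node P2b in GENERIC form (helper30)

The Kummer statement `K18s` of GATE-J (`GJ/S18/K18Strong.lean`) and its proof from Layer B
(`GJ/J1/KummerRedDataFinal.kummer_redData_final`) do NOT use that the function field is the one of
`X₀(N)`: they hold for the base change `F = laurentBaseChange ℚ̄ F₀` of ANY intermediate field
`F₀ ⊆ ℚ((q))` with the Gauss fraction property.  This file states and proves that:

* `K18sOf A π F₀ m` : the statement `K18s` with `modularFunctionFieldFull N` replaced by `F₀`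
  (`k18s_iff_k18sOf : K18s A π N m ↔ K18sOf A π (modularFunctionFieldFull N) m` is `Iff.rfl`);
* `k18sOf_of_kummer_rw` : `RedData`-form Kummer ⟹ `K18sOf` (twin of `Val.k18s_of_kummer_rw`);
* **`k18sOf_of_chart`** : for `A | ℓ` a valuation subring of `ℚ̄`, `F = laurentBaseChange ℚ̄ F₀`
  with `hGF : HasGaussFrac A F` and a generator `x₀` (`IsGen ℚ̄ x₀`), a Gauss chart `t` with
  degree preservation, branch locus `{0, β}` (`β` a unit mod `ℓ`) and `ℓ ∤ ord_q (red t)`:
  `K18sOf A (residue A) F₀ m` for every `m` prime to `ℓ`;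
* `k18sOf_of_int_chart` : the same with the chart given by an integral series `t = emb A a₀`
  (`a₀ ∈ A((q))`, e.g. `a₀ = j`) with transcendental reduction.

So node P2 of the port (report 209) owes exactly: `hGF`, `IsGen`, degree preservation at the chart,
the branch statement and the order of the reduced chart — for `F₀ = F1 M`, `t = j`, `β = 1728`,
`ℓ ∤ 6 M`.
-/

set_option autoImplicit false
set_option linter.unusedSectionVars false

noncomputable section

namespace Fermat.Agent.DS.P2.K18sGen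

open HahnSeries IntermediateField AlgebraicCurve ModularCurve Polynomial
open Fermat.Agent.S24 Fermat.Agent.GJ.J1 Fermat.Agent.GJ.J1.Val
open Fermat.Agent.GJ.J1.DiffAdapter

section Def

variable {L : Type*} [Field L] [Algebra ℚ L] (A : ValuationSubring L)
variable {k : Type*} [Field k] (π : A →+* k) (F₀ : IntermediateField ℚ (LaurentSeries ℚ))

/-- **The Kummer statement `K18s` for an arbitrary field of `q`-expansions `F₀ ⊆ ℚ((q))`**: `a b` are
series over `A` whose images over `L` lie in `laurentBaseChange L F₀`, with the same nonzero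
coefficientwise reduction, and all orders of `a / b` are divisible by `m`; then `a / b` is an
`m`-th power. -/
def K18sOf (m : ℕ) : Prop :=
  ∀ (a b : LaurentSeries A)
    (ha : coeffMap A.subtype a ∈ laurentBaseChange L F₀)
    (hb : coeffMap A.subtype b ∈ laurentBaseChange L F₀),
    coeffMap π a = coeffMap π b → coeffMap π a ≠ 0 →
    (∀ P : Place L (laurentBaseChange L F₀),
      (m : ℤ) ∣ P.ord (⟨coeffMap A.subtype a, ha⟩ : laurentBaseChange L F₀) -
        P.ord (⟨coeffMap A.subtype b, hb⟩ : laurentBaseChange L F₀)) →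
    ∃ v : laurentBaseChange L F₀, v ≠ 0 ∧
      (⟨coeffMap A.subtype a, ha⟩ : laurentBaseChange L F₀) = ⟨coeffMap A.subtype b, hb⟩ * v ^ m

/-- the GATE-J statement is the instance `F₀ = ℚ(X₀(N))` -/
theorem k18s_iff_k18sOf (N m : ℕ) :
    Fermat.Agent.GJ.S18.Front.K18s A π N m ↔ K18sOf A π (modularFunctionFieldFull N) m :=
  Iff.rfl

end Def

section Kbar

local notation "Kb" => AlgebraicClosure ℚ

variable (A : ValuationSubring Kb) (F₀ : IntermediateField ℚ (LaurentSeries ℚ))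

local notation "𝕜" => IsLocalRing.ResidueField A
local notation "FL" => laurentBaseChange Kb F₀

/-- **`RedData`-form Kummer ⟹ `K18sOf`** (twin of `Val.k18s_of_kummer_rw`). -/
theorem k18sOf_of_kummer_rw (hGF : HasGaussFrac A FL) {m : ℕ}
    (hK : ∀ {a b : ↥FL} (ha : a ∈ (redData A FL hGF).Rw) (hb : b ∈ (redData A FL hGF).Rw),
      (redData A FL hGF).red ⟨a, ha⟩ = (redData A FL hGF).red ⟨b, hb⟩ →
      (redData A FL hGF).red ⟨a, ha⟩ ≠ 0 →
      (∀ P : Place Kb ↥FL, (m : ℤ) ∣ P.ord a - P.ord b) →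
      ∃ v : ↥FL, v ≠ 0 ∧ a = b * v ^ m) :
    K18sOf A (IsLocalRing.residue A) F₀ m := by
  intro a b ha hb hred hne hdiv
  have haR : (⟨emb A a, ha⟩ : ↥FL) ∈ (redData A FL hGF).Rw := int_mem_Rw (hGF := hGF) ha
  have hbR : (⟨emb A b, hb⟩ : ↥FL) ∈ (redData A FL hGF).Rw := int_mem_Rw (hGF := hGF) hb
  have hra : (((redData A FL hGF).red ⟨⟨emb A a, ha⟩, haR⟩ : Fres A FL hGF) :
      LaurentSeries 𝕜) = rd A a := redL_int (hGF := hGF) ha
  have hrb : (((redData A FL hGF).red ⟨⟨emb A b, hb⟩, hbR⟩ : Fres A FL hGF) :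
      LaurentSeries 𝕜) = rd A b := redL_int (hGF := hGF) hb
  refine hK haR hbR (Subtype.ext ?_) ?_ hdiv
  · rw [hra, hrb]
    exact hred
  · intro h0
    apply hne
    have := congrArg (fun z : Fres A FL hGF => (z : LaurentSeries 𝕜)) h0
    rw [hra] at this
    exact this

/-- **P2b, generic**: `K18sOf` from Layer B of GATE-J at the Gauss reduction datum of
`F = laurentBaseChange ℚ̄ F₀`, for a chart `t`. -/
theorem k18sOf_of_chart {ℓ : ℕ} [Fact ℓ.Prime] (hA : A.LiesOverPrime ℓ)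
    (hGF : HasGaussFrac A FL) (x₀ : ↥FL) [IsGen Kb x₀]
    {t : ↥FL} (hgc : (redData A FL hGF).IsGaussChart t)
    (hdeg : Module.finrank Kb⟮t⟯ ↥FL ≤
      Module.finrank 𝕜⟮(redData A FL hGF).red ⟨t, hgc.1⟩⟯ (Fres A FL hGF))
    (β : A) (hβ : (redData A FL hGF).res β ≠ 0)
    (hbr : PlaceBranch Kb t (X * (X - Polynomial.C (β : Kb))))
    (hord : ¬ (ℓ : ℤ) ∣ ((Fres A FL hGF).val ((redData A FL hGF).red ⟨t, hgc.1⟩)).order)
    {m : ℕ} (hm : ¬ ℓ ∣ m) : K18sOf A (IsLocalRing.residue A) F₀ m := by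
  have : CharP 𝕜 ℓ := charP_residue A (Fact.out : ℓ.Prime) hA
  refine k18sOf_of_kummer_rw A F₀ hGF fun {a b} ha hb hab hne hdiv => ?_
  exact Fermat.Agent.GJ.J1.KummerRedData.kummer_redData_final ℓ x₀ (redData A FL hGF)
    (Val.unramified A FL hGF) (Fermat.Agent.GJ.J1.K18Modular.hrank1_bar A hA)
    hgc.1 hgc.2 hdeg β hβ hbr (Fres A FL hGF).val hord hm ha hb hab hne hdiv

/-- **P2b, generic, integral chart**: the chart is an integral series `a₀ ∈ A((q))` lying in `F`
with transcendental reduction (e.g. `a₀ = j`). -/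
theorem k18sOf_of_int_chart {ℓ : ℕ} [Fact ℓ.Prime] (hA : A.LiesOverPrime ℓ)
    (hGF : HasGaussFrac A FL) (x₀ : ↥FL) [IsGen Kb x₀]
    {a₀ : LaurentSeries A} (ha₀ : emb A a₀ ∈ FL) (htr : Transcendental 𝕜 (rd A a₀))
    (hdeg : Module.finrank Kb⟮(⟨emb A a₀, ha₀⟩ : ↥FL)⟯ ↥FL ≤
      Module.finrank 𝕜⟮(redData A FL hGF).red
        ⟨⟨emb A a₀, ha₀⟩, int_mem_Rw (hGF := hGF) ha₀⟩⟯ (Fres A FL hGF))
    (β : A) (hβ : IsLocalRing.residue A β ≠ 0)
    (hbr : PlaceBranch Kb (⟨emb A a₀, ha₀⟩ : ↥FL) (X * (X - Polynomial.C (β : Kb))))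
    (hord : ¬ (ℓ : ℤ) ∣ (rd A a₀).order)
    {m : ℕ} (hm : ¬ ℓ ∣ m) : K18sOf A (IsLocalRing.residue A) F₀ m := by
  have hgc := isGaussChart_of_int A FL hGF ha₀ htr
  refine k18sOf_of_chart A F₀ hA hGF x₀ hgc hdeg β hβ hbr ?_ hm
  have h1 : (((redData A FL hGF).red ⟨⟨emb A a₀, ha₀⟩, hgc.1⟩ : Fres A FL hGF) :
      LaurentSeries 𝕜) = rd A a₀ := redL_int (hGF := hGF) ha₀
  have h2 : (Fres A FL hGF).val ((redData A FL hGF).red ⟨⟨emb A a₀, ha₀⟩, hgc.1⟩) = rd A a₀ := h1
  rw [h2]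
  exact hord

end Kbar

end Fermat.Agent.DS.P2.K18sGen
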