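import Fermat.Agent.S28.ChartReduction
import Fermat.Agent.DS.P2.IgusaAbs
import Fermat.Agent.S28.CuspCore2

/-!
# GATE-N / P2 : from the Igusa core over `(k, O)` to the kernel statement (KER) over `ℤ_(ℓ)`

GENERIC adapter (helper40, second seat of helper92), twin of
`S28.ChartReduction.exists_eq_ell_mul_of_chartRed_eq_zero` with the function field, the chart and
the big field as PARAMETERS.

* `isIntegral_adjoin_map_iff` : for a `k`-algebra embedding `σ₀ : E → k((q))`, integrality of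
  `σ₀ a` over `O[σ₀ G] ⊆ k((q))` is integrality of `a` over `O[G]` (`evalE`-form of S28);
* `coreSeries_of_coreE` : the conclusion of `IgusaAbs.coreFin_of_twist` (abstract field `E`,
  `evalE`-form) gives the SERIES form of the core on `Set.range σ₀`;
* `coeffMap_mem_adjoin`, `isIntegral_coeffMap` : ascent of integrality along
  `ι = coeffMap (algebraMap ℚ k)` from `Z[T₀]` to `O[ι T₀]` (any subring `Z ⊆ ℚ`, any chart `T₀`);
* `ker_of_core` : for `F₀ ≤ ℚ((q))` any intermediate field, `T₀` any transcendental chart,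
  `(k, O, f : ℤ_(ℓ) →+* O)` with the three non-core fields of `S28.ChartInput`
  (`compat`, `ell_mem`, `hZ`), `Ebig ⊆ k((q))` containing `ι F₀` on which the series-form core holds:
  an element `x ∈ F₀` integral over `ℤ_(ℓ)[T₀]` with `x = ℓ v`, `v` in the Gauss ring of `ℤ_(ℓ)`,
  has `ℓ⁻¹ x ∈ F₀` integral over `ℤ_(ℓ)[T₀]`;
* `ker_of_core_red` : the same with the hypothesis `gaussRed x = 0`;
* `ker_of_coreE` : the two steps composed (`Ebig := Set.range σ₀`).
-/

set_option autoImplicit false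
set_option linter.unusedSectionVars false

noncomputable section

namespace Fermat.Agent.DS.P2.KerOfCore

open HahnSeries GaloisRep Polynomial ModularCurve
open Fermat.Agent.S28 Fermat.Agent.S28.ChartReduction

/-! ### 1. The abstract core in series form -/

section CoreE

variable {O : Type*} {k : Type*} [CommRing O] [IsDomain O] [IsDiscreteValuationRing O]
  [Field k] [Algebra O k] [IsFractionRing O k]
variable {E : Type*} [Field E] [Algebra k E]

theorem algHom_comp_evalE (σ₀ : E →ₐ[k] LaurentSeries k) (G : E) :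
    (σ₀ : E →+* LaurentSeries k).comp (evalE O k G) = evalL O (σ₀ G) := by
  apply Polynomial.ringHom_ext
  · intro a
    simp [evalE, evalL, DescentLemma.algebraMap_laurentSeries_apply]
  · simp [evalE, evalL]

/-- integrality over `O[σ₀ G]` inside `k((q))` is integrality over `O[G]` inside `E`. -/
theorem isIntegral_adjoin_map_iff (σ₀ : E →ₐ[k] LaurentSeries k) (G a : E) :
    IsIntegral (Algebra.adjoin O {σ₀ G}) (σ₀ a) ↔ (evalE O k G).IsIntegralElem a := by
  rw [isIntegral_adjoin_iff, ← algHom_comp_evalE]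
  exact RingHom.IsIntegralElem.map_iff (f := evalE O k G) (g := (σ₀ : E →+* LaurentSeries k))
    σ₀.toRingHom.injective

/-- **the core of `IgusaAbs` in series form**, on the image of the standard expansion. -/
theorem coreSeries_of_coreE (σ₀ : E →ₐ[k] LaurentSeries k) (G : E) (ϖ : O)
    (hcore : ∀ a : E, (evalE O k G).IsIntegralElem a →
      (∃ v ∈ gaussRing O k, σ₀ a = HahnSeries.C (algebraMap O k ϖ) * v) →
      (evalE O k G).IsIntegralElem (algebraMap k E (algebraMap O k ϖ)⁻¹ * a)) :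
    ∀ y ∈ Set.range σ₀, IsIntegral (Algebra.adjoin O {σ₀ G}) y →
      (∃ v ∈ gaussRing O k, y = HahnSeries.C (algebraMap O k ϖ) * v) →
      IsIntegral (Algebra.adjoin O {σ₀ G}) ((HahnSeries.C (algebraMap O k ϖ))⁻¹ * y) := by
  rintro _ ⟨a, rfl⟩ hint hdiv
  have h1 := hcore a ((isIntegral_adjoin_map_iff σ₀ G a).1 hint) hdiv
  have h2 := (isIntegral_adjoin_map_iff σ₀ G _).2 h1
  rw [map_mul, AlgHom.commutes, DescentLemma.algebraMap_laurentSeries_apply,
    Algebra.algebraMap_self, RingHom.id_apply, map_inv₀] at h2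
  exact h2

end CoreE

/-! ### 2. Ascent of integrality along the coefficient extension -/

section Ascent

variable {k : Type*} [Field k] [Algebra ℚ k] {𝒪 : Type*} [CommRing 𝒪] [Algebra 𝒪 k]
  (Z : Subring ℚ) (e : Z →+* 𝒪) (he : ∀ r : Z, algebraMap 𝒪 k (e r) = algebraMap ℚ k (r : ℚ))

include he in
/-- `ι` maps `Z[T₀]` into `𝒪[ι T₀]`. -/
theorem coeffMap_mem_adjoin {T₀ y : LaurentSeries ℚ} (hy : y ∈ Algebra.adjoin Z {T₀}) :
    coeffMap (algebraMap ℚ k) y ∈ Algebra.adjoin 𝒪 {coeffMap (algebraMap ℚ k) T₀} := by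
  induction hy using Algebra.adjoin_induction with
  | mem y hy =>
    rw [Set.mem_singleton_iff] at hy
    rw [hy]
    exact Algebra.subset_adjoin rfl
  | algebraMap r =>
    have h1 : coeffMap (algebraMap ℚ k) (algebraMap Z (LaurentSeries ℚ) r) =
        algebraMap 𝒪 (LaurentSeries k) (e r) := by
      rw [DescentLemma.algebraMap_laurentSeries_apply, DescentLemma.algebraMap_laurentSeries_apply,
        HahnSeries.C_apply, coeffMap_single, HahnSeries.C_apply, he]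
      rfl
    rw [h1]
    exact Subalgebra.algebraMap_mem _ _
  | add y z _ _ hy hz => rw [map_add]; exact add_mem hy hz
  | mul y z _ _ hy hz => rw [map_mul]; exact mul_mem hy hz

include he in
/-- **ascent**: integrality over `Z[T₀]` gives integrality of the image over `𝒪[ι T₀]`. -/
theorem isIntegral_coeffMap {T₀ x : LaurentSeries ℚ}
    (hx : IsIntegral (Algebra.adjoin Z {T₀}) x) :
    IsIntegral (Algebra.adjoin 𝒪 {coeffMap (algebraMap ℚ k) T₀})
      (coeffMap (algebraMap ℚ k) x) := by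
  let ψ : LaurentSeries ℚ →+* LaurentSeries k := coeffMap (algebraMap ℚ k)
  let φ : Algebra.adjoin Z {T₀} →+* Algebra.adjoin 𝒪 {coeffMap (algebraMap ℚ k) T₀} :=
    (ψ.comp (algebraMap (Algebra.adjoin Z {T₀}) (LaurentSeries ℚ))).codRestrict
      (Algebra.adjoin 𝒪 {coeffMap (algebraMap ℚ k) T₀})
      (fun y => coeffMap_mem_adjoin Z e he y.2)
  have hcomp : (algebraMap (Algebra.adjoin 𝒪 {coeffMap (algebraMap ℚ k) T₀})
      (LaurentSeries k)).comp φ =
      ψ.comp (algebraMap (Algebra.adjoin Z {T₀}) (LaurentSeries ℚ)) := RingHom.ext fun y => rfl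
  exact hx.map_of_comp_eq φ ψ hcomp

end Ascent

/-! ### 3. The kernel statement -/

section Ker

variable {ℓ : ℕ} [Fact ℓ.Prime]
variable {k : Type} [Field k] [Algebra ℚ k]
variable {O : Type} [CommRing O] [IsDomain O] [IsDiscreteValuationRing O] [Algebra O k]
  [IsFractionRing O k]

/-- **(KER) from the core**, elementwise in `ℚ((q))`, divisibility form. -/
theorem ker_of_core (F₀ : IntermediateField ℚ (LaurentSeries ℚ)) (T₀ : LaurentSeries ℚ)
    (hT₀ : Transcendental ℚ T₀)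
    (f : ↥(ratLocalizedAt ℓ) →+* O)
    (hf : ∀ r : ↥(ratLocalizedAt ℓ), algebraMap O k (f r) = algebraMap ℚ k (r : ℚ))
    (hZ : ∀ x : ℚ, algebraMap ℚ k x ∈ (algebraMap O k).range → x ∈ ratLocalizedAt ℓ)
    (Ebig : Set (LaurentSeries k))
    (hbig : ∀ x ∈ F₀, (DescentLemma.iota x : LaurentSeries k) ∈ Ebig)
    (hcore : ∀ y ∈ Ebig,
      IsIntegral (Algebra.adjoin O {(DescentLemma.iota T₀ : LaurentSeries k)}) y →
      (∃ v ∈ gaussRing O k,
        y = HahnSeries.C (algebraMap O k (f (ℓ : ↥(ratLocalizedAt ℓ)))) * v) →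
      IsIntegral (Algebra.adjoin O {(DescentLemma.iota T₀ : LaurentSeries k)})
        ((HahnSeries.C (algebraMap O k (f (ℓ : ↥(ratLocalizedAt ℓ)))))⁻¹ * y))
    {x : LaurentSeries ℚ} (hxF : x ∈ F₀)
    (hxint : IsIntegral (Algebra.adjoin ↥(ratLocalizedAt ℓ) {T₀}) x)
    (hxdiv : ∃ v ∈ gaussRing ↥(ratLocalizedAt ℓ) ℚ, x = HahnSeries.C ((ℓ : ℕ) : ℚ) * v) :
    (HahnSeries.C ((ℓ : ℕ) : ℚ))⁻¹ * x ∈ F₀ ∧
      IsIntegral (Algebra.adjoin ↥(ratLocalizedAt ℓ) {T₀})
        ((HahnSeries.C ((ℓ : ℕ) : ℚ))⁻¹ * x) := by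
  have hf' : ∀ r : ↥(ratLocalizedAt ℓ),
      algebraMap O k (f r) = algebraMap ℚ k (algebraMap ↥(ratLocalizedAt ℓ) ℚ r) := hf
  have hℓk : algebraMap O k (f (ℓ : ↥(ratLocalizedAt ℓ))) = ((ℓ : ℕ) : k) :=
    algebraMap_map_ell f hf
  -- `ℓ⁻¹ x ∈ F₀`
  have hmemF : (HahnSeries.C ((ℓ : ℕ) : ℚ))⁻¹ * x ∈ F₀ := by
    have hC : HahnSeries.C ((ℓ : ℕ) : ℚ) = algebraMap ℚ (LaurentSeries ℚ) ((ℓ : ℕ) : ℚ) := by
      rw [DescentLemma.algebraMap_laurentSeries_apply, Algebra.algebraMap_self, RingHom.id_apply]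
    rw [hC]
    exact F₀.mul_mem (F₀.inv_mem (F₀.algebraMap_mem _)) hxF
  refine ⟨hmemF, ?_⟩
  -- ascent
  have hup : IsIntegral (Algebra.adjoin O {(DescentLemma.iota T₀ : LaurentSeries k)})
      (DescentLemma.iota x : LaurentSeries k) :=
    isIntegral_coeffMap (ratLocalizedAt ℓ) f hf hxint
  -- divisibility upstairs
  obtain ⟨v, hv, hxv⟩ := hxdiv
  have hdiv : ∃ w ∈ gaussRing O k, (DescentLemma.iota x : LaurentSeries k) =
      HahnSeries.C (algebraMap O k (f (ℓ : ↥(ratLocalizedAt ℓ)))) * w := by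
    refine ⟨coeffMap (algebraMap ℚ k) v, coeffMap_mem_gaussRing f (algebraMap ℚ k) hf' hv, ?_⟩
    rw [hxv, map_mul, hℓk]
    congr 1
    rw [HahnSeries.C_apply, coeffMap_single, map_natCast, HahnSeries.C_apply]
  have hint := hcore _ (hbig x hxF) hup hdiv
  -- descent
  have hiota : (DescentLemma.iota ((HahnSeries.C ((ℓ : ℕ) : ℚ))⁻¹ * x) : LaurentSeries k) =
      (HahnSeries.C (algebraMap O k (f (ℓ : ↥(ratLocalizedAt ℓ)))))⁻¹ * DescentLemma.iota x := by
    rw [map_mul, map_inv₀, hℓk]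
    congr 2
    rw [HahnSeries.C_apply, coeffMap_single, map_natCast, HahnSeries.C_apply]
  refine DescentLemma.descent_isIntegral O (ratLocalizedAt ℓ) hZ hT₀ _ ?_
  rw [hiota]
  exact hint

/-- **(KER) from the core**, reduction form: `x` in the Gauss ring of `ℤ_(ℓ)` with zero
reduction. -/
theorem ker_of_core_red (F₀ : IntermediateField ℚ (LaurentSeries ℚ)) (T₀ : LaurentSeries ℚ)
    (hT₀ : Transcendental ℚ T₀)
    (f : ↥(ratLocalizedAt ℓ) →+* O)
    (hf : ∀ r : ↥(ratLocalizedAt ℓ), algebraMap O k (f r) = algebraMap ℚ k (r : ℚ))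
    (hZ : ∀ x : ℚ, algebraMap ℚ k x ∈ (algebraMap O k).range → x ∈ ratLocalizedAt ℓ)
    (Ebig : Set (LaurentSeries k))
    (hbig : ∀ x ∈ F₀, (DescentLemma.iota x : LaurentSeries k) ∈ Ebig)
    (hcore : ∀ y ∈ Ebig,
      IsIntegral (Algebra.adjoin O {(DescentLemma.iota T₀ : LaurentSeries k)}) y →
      (∃ v ∈ gaussRing O k,
        y = HahnSeries.C (algebraMap O k (f (ℓ : ↥(ratLocalizedAt ℓ)))) * v) →
      IsIntegral (Algebra.adjoin O {(DescentLemma.iota T₀ : LaurentSeries k)})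
        ((HahnSeries.C (algebraMap O k (f (ℓ : ↥(ratLocalizedAt ℓ)))))⁻¹ * y))
    {x : LaurentSeries ℚ} (hxF : x ∈ F₀)
    (hxint : IsIntegral (Algebra.adjoin ↥(ratLocalizedAt ℓ) {T₀}) x)
    (hx : x ∈ gaussRing ↥(ratLocalizedAt ℓ) ℚ)
    (hred : gaussRed ↥(ratLocalizedAt ℓ) ℚ ⟨x, hx⟩ = 0) :
    (HahnSeries.C ((ℓ : ℕ) : ℚ))⁻¹ * x ∈ F₀ ∧
      IsIntegral (Algebra.adjoin ↥(ratLocalizedAt ℓ) {T₀})
        ((HahnSeries.C ((ℓ : ℕ) : ℚ))⁻¹ * x) := by
  refine ker_of_core F₀ T₀ hT₀ f hf hZ Ebig hbig hcore hxF hxint ?_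
  obtain ⟨v, hv, hxv⟩ := (gaussRed_eq_zero_iff (irreducible_ell ℓ) hx).mp hred
  refine ⟨v, hv, ?_⟩
  rw [hxv]
  congr 2

/-- **(KER) from the abstract Igusa core**: `E` an abstract field over `k` with standard expansion
`σ₀`, chart `G` with `σ₀ G = ι T₀`, containing the image of `F₀`. -/
theorem ker_of_coreE {E : Type*} [Field E] [Algebra k E]
    (F₀ : IntermediateField ℚ (LaurentSeries ℚ)) (T₀ : LaurentSeries ℚ)
    (hT₀ : Transcendental ℚ T₀)
    (f : ↥(ratLocalizedAt ℓ) →+* O)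
    (hf : ∀ r : ↥(ratLocalizedAt ℓ), algebraMap O k (f r) = algebraMap ℚ k (r : ℚ))
    (hZ : ∀ x : ℚ, algebraMap ℚ k x ∈ (algebraMap O k).range → x ∈ ratLocalizedAt ℓ)
    (σ₀ : E →ₐ[k] LaurentSeries k) (G : E)
    (hG : σ₀ G = (DescentLemma.iota T₀ : LaurentSeries k))
    (hbig : ∀ x ∈ F₀, (DescentLemma.iota x : LaurentSeries k) ∈ Set.range σ₀)
    (hcore : ∀ a : E, (evalE O k G).IsIntegralElem a →
      (∃ v ∈ gaussRing O k,
        σ₀ a = HahnSeries.C (algebraMap O k (f (ℓ : ↥(ratLocalizedAt ℓ)))) * v) →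
      (evalE O k G).IsIntegralElem
        (algebraMap k E (algebraMap O k (f (ℓ : ↥(ratLocalizedAt ℓ))))⁻¹ * a))
    {x : LaurentSeries ℚ} (hxF : x ∈ F₀)
    (hxint : IsIntegral (Algebra.adjoin ↥(ratLocalizedAt ℓ) {T₀}) x)
    (hxdiv : ∃ v ∈ gaussRing ↥(ratLocalizedAt ℓ) ℚ, x = HahnSeries.C ((ℓ : ℕ) : ℚ) * v) :
    (HahnSeries.C ((ℓ : ℕ) : ℚ))⁻¹ * x ∈ F₀ ∧
      IsIntegral (Algebra.adjoin ↥(ratLocalizedAt ℓ) {T₀})
        ((HahnSeries.C ((ℓ : ℕ) : ℚ))⁻¹ * x) := by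
  have hs := coreSeries_of_coreE σ₀ G (f (ℓ : ↥(ratLocalizedAt ℓ))) hcore
  rw [hG] at hs
  exact ker_of_core F₀ T₀ hT₀ f hf hZ (Set.range σ₀) hbig hs hxF hxint hxdiv

end Ker

end Fermat.Agent.DS.P2.KerOfCore
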